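import Mathlib

/-!
# S24 — degree and norm from a family of embeddings (pure field theory)

Let `F/k` be a finite extension in characteristic zero, `L` a field over `k`, and
`σ : X → (F →ₐ[k] L)` an injective family of `k`-embeddings indexed by a finite type `X`.

* `card_le_finrank`: `|X| ≤ [F : k]`.
* `finrank_le_of_forall_aeval`: if every element of `F` is a root of a monic polynomial of degree
  `n` over `k`, then `[F : k] ≤ n`.
* `algebraMap_norm_eq_prod`: if `[F : k] = |X|`, then the norm of `f` is the product of the
  `σ q f` (inside `L`; `L` need not be algebraically closed).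
-/

set_option autoImplicit false

open Module IntermediateField Polynomial

namespace Fermat.Agent.S24.DegNorm

variable {k F L : Type*} [Field k] [Field F] [Field L] [Algebra k F] [Algebra k L]

theorem finrank_le_of_forall_aeval [CharZero k] [FiniteDimensional k F] (n : ℕ)
    (h : ∀ f : F, ∃ p : Polynomial k, p.Monic ∧ p.natDegree = n ∧ Polynomial.aeval f p = 0) :
    finrank k F ≤ n := by
  obtain ⟨θ, hθ⟩ := Field.exists_primitive_element k F
  obtain ⟨p, hpm, hpd, hp0⟩ := h θ
  have hint : IsIntegral k θ := Algebra.IsIntegral.isIntegral θ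
  have h1 : finrank k k⟮θ⟯ = (minpoly k θ).natDegree := IntermediateField.adjoin.finrank hint
  have h2 : finrank k F = finrank k k⟮θ⟯ := by
    rw [hθ]
    exact IntermediateField.finrank_top'.symm
  have h3 : (minpoly k θ).natDegree ≤ p.natDegree :=
    Polynomial.natDegree_le_of_dvd (minpoly.dvd k θ hp0) hpm.ne_zero
  omega

theorem card_le_finrank [FiniteDimensional k F] {X : Type*} [Fintype X]
    (σ : X → (F →ₐ[k] L)) (hinj : Function.Injective σ) :
    Fintype.card X ≤ finrank k F := by
  have h1 : Nat.card X ≤ Nat.card (F →ₐ[k] L) := Nat.card_le_card_of_injective σ hinj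
  have h2 := card_algHom_le_finrank k F L
  rw [Nat.card_eq_fintype_card] at h1
  omega

theorem algebraMap_norm_eq_prod [CharZero k] [FiniteDimensional k F] {X : Type*} [Fintype X]
    (σ : X → (F →ₐ[k] L)) (hinj : Function.Injective σ)
    (hcard : finrank k F = Fintype.card X) (f : F) :
    algebraMap k L (Algebra.norm k f) = ∏ q, σ q f := by
  classical
  let E := AlgebraicClosure L
  let τ : X → (F →ₐ[k] E) := fun q => (IsScalarTower.toAlgHom k L E).comp (σ q)
  have hτinj : Function.Injective τ := by
    intro q q' h
    apply hinj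
    ext y
    have h' := congrArg (fun φ : F →ₐ[k] E => φ y) h
    exact (algebraMap L E).injective h'
  have hcardE : Fintype.card (F →ₐ[k] E) = Fintype.card X := by
    rw [AlgHom.card, hcard]
  have hτbij : Function.Bijective τ :=
    (Fintype.bijective_iff_injective_and_card τ).mpr ⟨hτinj, hcardE.symm⟩
  have h1 := Algebra.norm_eq_prod_embeddings k E f
  have h2 : ∏ φ : F →ₐ[k] E, φ f = ∏ q, τ q f :=
    (Fintype.prod_bijective τ hτbij _ _ (fun _ => rfl)).symm
  apply (algebraMap L E).injective
  rw [map_prod, ← IsScalarTower.algebraMap_apply k L E, h1, h2]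
  rfl

/-- Combined statement. -/
theorem finrank_eq_card_and_norm [CharZero k] [FiniteDimensional k F] {X : Type*} [Fintype X]
    (σ : X → (F →ₐ[k] L)) (hinj : Function.Injective σ)
    (h : ∀ f : F, ∃ p : Polynomial k, p.Monic ∧ p.natDegree = Fintype.card X ∧
      Polynomial.aeval f p = 0) :
    finrank k F = Fintype.card X ∧
      ∀ f : F, algebraMap k L (Algebra.norm k f) = ∏ q, σ q f := by
  have hfin : finrank k F = Fintype.card X :=
    le_antisymm (finrank_le_of_forall_aeval _ h) (card_le_finrank σ hinj)
  exact ⟨hfin, algebraMap_norm_eq_prod σ hinj hfin⟩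

end Fermat.Agent.S24.DegNorm
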