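/-
S24, abstract counting lemma ("orbits ↔ places").  Pure algebra: no modular forms, no Dedekind
theory.  The outputs of the other work packages enter as hypotheses.
-/
import Mathlib
import Fermat.Prelude.Def_AlgebraicCurve_DivisorClassGroup

set_option autoImplicit false

noncomputable section

namespace Fermat.Agent.S24.Counting

open AlgebraicCurve Polynomial

variable {K F : Type*} [Field K] [Field F] [Algebra K F]

/-- A raw `ℤ`-valued valuation on `F` which is trivial on `K`.  The value at `0` is irrelevant,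
and the valuation is not assumed to be normalised. -/
structure IsRawVal (K : Type*) {F : Type*} [Field K] [Field F] [Algebra K F] (w : F → ℤ) :
    Prop where
  map_mul : ∀ f g : F, f ≠ 0 → g ≠ 0 → w (f * g) = w f + w g
  map_add : ∀ f g : F, f ≠ 0 → g ≠ 0 → f + g ≠ 0 → min (w f) (w g) ≤ w (f + g)
  map_algebraMap : ∀ a : K, a ≠ 0 → w (algebraMap K F a) = 0

namespace IsRawVal

variable {w : F → ℤ} (hw : IsRawVal K w)
include hw

theorem map_one : w 1 = 0 := by
  have h := hw.map_mul 1 1 one_ne_zero one_ne_zero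
  rw [mul_one] at h
  linarith

theorem map_neg_one : w (-1) = 0 := by
  have h := hw.map_mul (-1) (-1) (neg_ne_zero.mpr one_ne_zero) (neg_ne_zero.mpr one_ne_zero)
  rw [neg_mul_neg, mul_one, hw.map_one] at h
  linarith

theorem map_neg {f : F} (hf : f ≠ 0) : w (-f) = w f := by
  have h := hw.map_mul (-1) f (neg_ne_zero.mpr one_ne_zero) hf
  rw [neg_one_mul, hw.map_neg_one, zero_add] at h
  exact h

theorem map_inv {f : F} (hf : f ≠ 0) : w f⁻¹ = -w f := by
  have h := hw.map_mul f f⁻¹ hf (inv_ne_zero hf)
  rw [mul_inv_cancel₀ hf, hw.map_one] at h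
  linarith

theorem map_div {f g : F} (hf : f ≠ 0) (hg : g ≠ 0) : w (f / g) = w f - w g := by
  rw [div_eq_mul_inv, hw.map_mul f g⁻¹ hf (inv_ne_zero hg), hw.map_inv hg]
  ring

theorem map_pow {f : F} (hf : f ≠ 0) (n : ℕ) : w (f ^ n) = n * w f := by
  induction n with
  | zero => simp [hw.map_one]
  | succ n ih =>
    rw [pow_succ, hw.map_mul _ _ (pow_ne_zero n hf) hf, ih]
    push_cast
    ring

theorem map_zpow {f : F} (hf : f ≠ 0) (n : ℤ) : w (f ^ n) = n * w f := by
  obtain ⟨k, rfl | rfl⟩ := n.eq_nat_or_neg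
  · rw [zpow_natCast, hw.map_pow hf]
  · rw [zpow_neg, zpow_natCast, hw.map_inv (pow_ne_zero k hf), hw.map_pow hf]
    ring

theorem map_add_of_lt {f g : F} (hf : f ≠ 0) (hg : g ≠ 0) (h : w f < w g) :
    w (f + g) = w f := by
  have hfg : f + g ≠ 0 := by
    intro h0
    have : f = -g := eq_neg_of_add_eq_zero_left h0
    rw [this, hw.map_neg hg] at h
    exact lt_irrefl _ h
  have h1 := hw.map_add f g hf hg hfg
  rw [min_eq_left h.le] at h1
  have h2 := hw.map_add (f + g) (-g) hfg (neg_ne_zero.mpr hg) (by simpa using hf)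
  rw [add_neg_cancel_right, hw.map_neg hg] at h2
  rcases min_le_iff.mp h2 with h3 | h3
  · exact le_antisymm h3 h1
  · exact absurd h3 (not_le.mpr h)

/-- The valuation subring of a raw valuation. -/
def valSubring : ValuationSubring F where
  carrier := {f | f = 0 ∨ 0 ≤ w f}
  mul_mem' := by
    rintro a b (rfl | ha) (rfl | hb)
    · left; simp
    · left; simp
    · left; simp
    · by_cases ha0 : a = 0
      · left; simp [ha0]
      by_cases hb0 : b = 0
      · left; simp [hb0]
      right
      rw [hw.map_mul a b ha0 hb0]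
      exact add_nonneg ha hb
  one_mem' := Or.inr hw.map_one.ge
  add_mem' := by
    rintro a b (rfl | ha) (rfl | hb)
    · left; simp
    · right; simpa using hb
    · right; simpa using ha
    · by_cases ha0 : a = 0
      · right; simpa [ha0] using hb
      by_cases hb0 : b = 0
      · right; simpa [hb0] using ha
      by_cases hab : a + b = 0
      · exact Or.inl hab
      right
      exact le_trans (le_min ha hb) (hw.map_add a b ha0 hb0 hab)
  zero_mem' := Or.inl rfl
  neg_mem' := by
    rintro a (rfl | ha)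
    · left; simp
    · by_cases ha0 : a = 0
      · left; simp [ha0]
      right
      rw [hw.map_neg ha0]
      exact ha
  mem_or_inv_mem' := by
    intro a
    by_cases ha0 : a = 0
    · exact Or.inl (Or.inl ha0)
    rcases le_total 0 (w a) with h | h
    · exact Or.inl (Or.inr h)
    · right
      right
      rw [hw.map_inv ha0]
      linarith

theorem mem_valSubring {f : F} : f ∈ hw.valSubring ↔ f = 0 ∨ 0 ≤ w f := Iff.rfl

theorem mem_valSubring_of_ne {f : F} (hf : f ≠ 0) : f ∈ hw.valSubring ↔ 0 ≤ w f := by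
  rw [hw.mem_valSubring]
  exact ⟨fun h => h.resolve_left hf, Or.inr⟩

theorem isPrincipalIdealRing_valSubring : IsPrincipalIdealRing hw.valSubring := by
  classical
  refine ⟨fun I => ?_⟩
  by_cases hI : I = ⊥
  · rw [hI]
    exact bot_isPrincipal
  obtain ⟨a0, ha0I, ha0⟩ : ∃ a ∈ I, a ≠ 0 := by
    by_contra hcon
    push Not at hcon
    exact hI ((Submodule.eq_bot_iff I).mpr hcon)
  have hex : ∃ n : ℕ, ∃ a ∈ I, a ≠ 0 ∧ w (a : F) = n := by
    have h0 : 0 ≤ w (a0 : F) :=
      (hw.mem_valSubring_of_ne (by simpa using ha0)).mp a0.2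
    exact ⟨(w (a0 : F)).toNat, a0, ha0I, ha0, (Int.toNat_of_nonneg h0).symm⟩
  obtain ⟨a, haI, ha, han⟩ := Nat.find_spec hex
  have hmin := fun m (hm : m < Nat.find hex) => Nat.find_min hex hm
  have haF : (a : F) ≠ 0 := by simpa using ha
  refine ⟨⟨a, le_antisymm ?_ ?_⟩⟩
  · intro b hb
    by_cases hb0 : b = 0
    · rw [hb0]
      exact Submodule.zero_mem _
    have hbF : (b : F) ≠ 0 := by simpa using hb0
    have hb_nn : 0 ≤ w (b : F) := (hw.mem_valSubring_of_ne hbF).mp b.2
    have hle : w (a : F) ≤ w (b : F) := by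
      by_contra hlt
      push Not at hlt
      refine hmin (w (b : F)).toNat ?_ ⟨b, hb, hb0, (Int.toNat_of_nonneg hb_nn).symm⟩
      have : ((w (b : F)).toNat : ℤ) < (Nat.find hex : ℤ) := by
        rw [Int.toNat_of_nonneg hb_nn, ← han]
        exact hlt
      exact_mod_cast this
    have hq : (b : F) / (a : F) ∈ hw.valSubring := by
      rw [hw.mem_valSubring_of_ne (div_ne_zero hbF haF), hw.map_div hbF haF]
      linarith
    refine Ideal.mem_span_singleton'.mpr ⟨⟨(b : F) / (a : F), hq⟩, ?_⟩
    ext
    simp only [MulMemClass.coe_mul]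
    field_simp
  · rw [Submodule.span_le]
    intro b hb
    rw [Set.mem_singleton_iff] at hb
    rw [hb]
    exact haI

/-- The place attached to a nontrivial raw valuation. -/
def place (hnt : ∃ f : F, f ≠ 0 ∧ w f ≠ 0) : Place K F where
  toValuationSubring := hw.valSubring
  algebraMap_mem' := fun a => by
    by_cases ha : a = 0
    · left; simp [ha]
    · right
      rw [hw.map_algebraMap a ha]
  ne_top' := by
    obtain ⟨f, hf, hwf⟩ := hnt
    intro htop
    rcases lt_or_gt_of_ne hwf with h | h
    · have hmem : f ∈ hw.valSubring := htop ▸ ValuationSubring.mem_top f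
      rw [hw.mem_valSubring_of_ne hf] at hmem
      exact absurd hmem (not_le.mpr h)
    · have hmem : f⁻¹ ∈ hw.valSubring := htop ▸ ValuationSubring.mem_top f⁻¹
      rw [hw.mem_valSubring_of_ne (inv_ne_zero hf), hw.map_inv hf] at hmem
      linarith
  isPrincipalIdealRing' := hw.isPrincipalIdealRing_valSubring

@[simp]
theorem place_toValuationSubring (hnt : ∃ f : F, f ≠ 0 ∧ w f ≠ 0) :
    (hw.place hnt).toValuationSubring = hw.valSubring := rfl

/-- A raw valuation is a positive multiple of the order function of its place. -/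
theorem exists_mul_ord (hnt : ∃ f : F, f ≠ 0 ∧ w f ≠ 0) :
    ∃ m : ℤ, 0 < m ∧ (∃ π : F, π ≠ 0 ∧ (hw.place hnt).ord π = 1 ∧ w π = m) ∧
      ∀ f : F, f ≠ 0 → w f = m * (hw.place hnt).ord f := by
  obtain ⟨π, hπ⟩ := IsDiscreteValuationRing.exists_irreducible (hw.place hnt).toValuationSubring
  have hπ0 : (π : F) ≠ 0 := by
    simpa [ne_eq, ZeroMemClass.coe_eq_zero] using hπ.ne_zero
  have hunit : ∀ u : (hw.place hnt).toValuationSubringˣ,
      w ((u : (hw.place hnt).toValuationSubring) : F) = 0 := by
    intro u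
    have hu0 : ((u : (hw.place hnt).toValuationSubring) : F) ≠ 0 := by
      simp [ne_eq, ZeroMemClass.coe_eq_zero]
    have h1 : 0 ≤ w ((u : (hw.place hnt).toValuationSubring) : F) :=
      (hw.mem_valSubring_of_ne hu0).mp (u : (hw.place hnt).toValuationSubring).2
    have hinv : (((u⁻¹ : (hw.place hnt).toValuationSubringˣ) :
        (hw.place hnt).toValuationSubring) : F)
          = (((u : (hw.place hnt).toValuationSubring) : F))⁻¹ := by
      have := congrArg (Subtype.val) (u.inv_mul)
      simp only [MulMemClass.coe_mul, OneMemClass.coe_one] at this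
      exact eq_inv_of_mul_eq_one_left this
    have h2 : 0 ≤ w (((u : (hw.place hnt).toValuationSubring) : F))⁻¹ := by
      rw [← hinv]
      refine (hw.mem_valSubring_of_ne ?_).mp
        ((u⁻¹ : (hw.place hnt).toValuationSubringˣ) : (hw.place hnt).toValuationSubring).2
      rw [hinv]
      exact inv_ne_zero hu0
    rw [hw.map_inv hu0] at h2
    linarith
  have hπnn : 0 ≤ w (π : F) := (hw.mem_valSubring_of_ne hπ0).mp π.2
  have hπpos : 0 < w (π : F) := by
    rcases hπnn.lt_or_eq with h | h
    · exact h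
    · exfalso
      have hmem : (π : F)⁻¹ ∈ hw.valSubring := by
        rw [hw.mem_valSubring_of_ne (inv_ne_zero hπ0), hw.map_inv hπ0]
        linarith
      apply hπ.not_isUnit
      refine IsUnit.of_mul_eq_one (⟨(π : F)⁻¹, hmem⟩ : (hw.place hnt).toValuationSubring) ?_
      ext
      simp only [MulMemClass.coe_mul, OneMemClass.coe_one]
      exact mul_inv_cancel₀ hπ0
  refine ⟨w (π : F), hπpos, ⟨(π : F), hπ0, (hw.place hnt).ord_coe_irreducible hπ, rfl⟩, ?_⟩
  intro f hf
  obtain ⟨u, hu⟩ := (hw.place hnt).exists_unit_mul_zpow hf hπ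
  have hu0 : ((u : (hw.place hnt).toValuationSubring) : F) ≠ 0 := by
    simp [ne_eq, ZeroMemClass.coe_eq_zero]
  conv_lhs => rw [hu]
  rw [hw.map_mul _ _ hu0 (zpow_ne_zero _ hπ0), hunit u, hw.map_zpow hπ0, zero_add]
  ring

end IsRawVal

/-! ### The order function of a place is a raw valuation -/

theorem ord_nonneg_iff (v : Place K F) {f : F} (hf : f ≠ 0) :
    0 ≤ v.ord f ↔ f ∈ v.toValuationSubring := by
  constructor
  · intro h
    obtain ⟨π, hπ⟩ := IsDiscreteValuationRing.exists_irreducible v.toValuationSubring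
    obtain ⟨u, hu⟩ := v.exists_unit_mul_zpow hf hπ
    rw [hu]
    refine mul_mem (u : v.toValuationSubring).2 ?_
    obtain ⟨k, hk⟩ := Int.eq_ofNat_of_zero_le h
    rw [hk, zpow_natCast]
    exact pow_mem π.2 k
  · intro h
    have h1 : v.adicValuation f ≤ 1 := by
      have := v.adicValuation_coe ⟨f, h⟩
      rw [this]
      exact IsDedekindDomain.HeightOneSpectrum.intValuation_le_one _ _
    have h2 : WithZero.log (v.adicValuation f) ≤ WithZero.log (1 : WithZero (Multiplicative ℤ)) :=
      (WithZero.log_le_log (v.adicValuation_ne_zero hf) one_ne_zero).mpr h1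
    rw [WithZero.log_one] at h2
    unfold Place.ord
    linarith

theorem isRawVal_ord (v : Place K F) : IsRawVal K v.ord where
  map_mul := fun f g hf hg => v.ord_mul hf hg
  map_add := fun f g hf hg hfg => by
    have h := Valuation.map_add v.adicValuation f g
    unfold Place.ord
    rcases le_max_iff.mp h with h1 | h1
    · have := (WithZero.log_le_log (v.adicValuation_ne_zero hfg) (v.adicValuation_ne_zero hf)).mpr h1
      exact le_trans (min_le_left _ _) (by linarith)
    · have := (WithZero.log_le_log (v.adicValuation_ne_zero hfg) (v.adicValuation_ne_zero hg)).mpr h1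
      exact le_trans (min_le_right _ _) (by linarith)
  map_algebraMap := fun a ha => by
    have hu : IsUnit (algebraMap K v.toValuationSubring a) := (Ne.isUnit ha).map _
    have := v.ord_coe_unit hu.unit
    rwa [IsUnit.unit_spec, v.coe_algebraMap] at this

theorem ord_pos_iff (v : Place K F) {f : F} (hf : f ≠ 0) :
    0 < v.ord f ↔ f⁻¹ ∉ v.toValuationSubring := by
  rw [← ord_nonneg_iff v (inv_ne_zero hf), v.ord_inv]
  constructor <;> intro h <;> linarith

/-- A place is a maximal proper subring: inclusion of places is equality. -/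
theorem place_eq_of_le {u v : Place K F} (h : u.toValuationSubring ≤ v.toValuationSubring) :
    u = v := by
  by_contra hne
  have hnot : ¬ v.toValuationSubring ≤ u.toValuationSubring := fun h' =>
    hne (Place.ext (le_antisymm h h'))
  obtain ⟨x, hxv, hxu⟩ := SetLike.not_le_iff_exists.mp hnot
  have hx0 : x ≠ 0 := fun h0 => hxu (h0 ▸ zero_mem _)
  have hxneg : u.ord x < 0 := by
    by_contra hcon
    exact hxu ((ord_nonneg_iff u hx0).mp (not_lt.mp hcon))
  apply v.ne_top'
  refine SetLike.ext fun z => ⟨fun _ => ValuationSubring.mem_top z, fun _ => ?_⟩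
  by_cases hz0 : z = 0
  · rw [hz0]; exact zero_mem _
  set k : ℕ := (-u.ord z).toNat with hk
  have hk' : -u.ord z ≤ (k : ℤ) := Int.self_le_toNat _
  have hmem : z / x ^ k ∈ u.toValuationSubring := by
    rw [← ord_nonneg_iff u (div_ne_zero hz0 (pow_ne_zero k hx0)),
      (isRawVal_ord u).map_div hz0 (pow_ne_zero k hx0), (isRawVal_ord u).map_pow hx0]
    nlinarith
  have : z = z / x ^ k * x ^ k := by
    field_simp
  rw [this]
  exact mul_mem (h hmem) (pow_mem hxv k)

/-- Two distinct places are separated by an element. -/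
theorem exists_ord_neg_pos_of_ne {u v : Place K F} (h : v ≠ u) :
    ∃ g : F, g ≠ 0 ∧ v.ord g < 0 ∧ 0 < u.ord g := by
  have h1 : ¬ u.toValuationSubring ≤ v.toValuationSubring := fun h' => h (place_eq_of_le h').symm
  have h2 : ¬ v.toValuationSubring ≤ u.toValuationSubring := fun h' => h (place_eq_of_le h')
  obtain ⟨a, hau, hav⟩ := SetLike.not_le_iff_exists.mp h1
  obtain ⟨b, hbv, hbu⟩ := SetLike.not_le_iff_exists.mp h2
  have ha0 : a ≠ 0 := fun h0 => hav (h0 ▸ zero_mem _)
  have hb0 : b ≠ 0 := fun h0 => hbu (h0 ▸ zero_mem _)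
  have h_av : v.ord a < 0 := by
    by_contra hcon
    exact hav ((ord_nonneg_iff v ha0).mp (not_lt.mp hcon))
  have h_bu : u.ord b < 0 := by
    by_contra hcon
    exact hbu ((ord_nonneg_iff u hb0).mp (not_lt.mp hcon))
  have h_au : 0 ≤ u.ord a := (ord_nonneg_iff u ha0).mpr hau
  have h_bv : 0 ≤ v.ord b := (ord_nonneg_iff v hb0).mpr hbv
  refine ⟨a / b, div_ne_zero ha0 hb0, ?_, ?_⟩
  · rw [(isRawVal_ord v).map_div ha0 hb0]
    linarith
  · rw [(isRawVal_ord u).map_div ha0 hb0]
    linarith

/-- Weak approximation for finitely many places, strict form: a function with a pole at `v`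
and zeros at all places of a finite set `S` not containing `v`. -/
theorem exists_ord_neg_pos (v : Place K F) (S : Finset (Place K F)) (hv : v ∉ S) :
    ∃ f : F, f ≠ 0 ∧ v.ord f < 0 ∧ ∀ u ∈ S, 0 < u.ord f := by
  classical
  induction S using Finset.induction_on with
  | empty =>
    obtain ⟨π, hπ⟩ := IsDiscreteValuationRing.exists_irreducible v.toValuationSubring
    have hπ0 : (π : F) ≠ 0 := by
      simpa [ne_eq, ZeroMemClass.coe_eq_zero] using hπ.ne_zero
    refine ⟨(π : F)⁻¹, inv_ne_zero hπ0, ?_, by simp⟩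
    rw [v.ord_inv, v.ord_coe_irreducible hπ]
    norm_num
  | insert u0 S hu0 ih =>
    have hvS : v ∉ S := fun h => hv (Finset.mem_insert_of_mem h)
    have hvu0 : v ≠ u0 := fun h => hv (h ▸ Finset.mem_insert_self _ _)
    obtain ⟨f, hf0, hfv, hfS⟩ := ih hvS
    obtain ⟨g, hg0, hgv, hgu0⟩ := exists_ord_neg_pos_of_ne hvu0
    -- a large exponent
    obtain ⟨r, hr1, hr⟩ : ∃ r : ℕ, 1 ≤ r ∧ ∀ u ∈ S, 0 < (r : ℤ) * u.ord f + u.ord g := by
      refine ⟨(S.sup fun u => (-u.ord g).toNat) + 1, Nat.le_add_left _ _, fun u hu => ?_⟩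
      have h1 : (-u.ord g).toNat ≤ S.sup fun u => (-u.ord g).toNat :=
        Finset.le_sup (f := fun u => (-u.ord g).toNat) hu
      have h2 : -u.ord g ≤ ((-u.ord g).toNat : ℤ) := Int.self_le_toNat _
      have h3 : 1 ≤ u.ord f := hfS u hu
      have h4 : ((-u.ord g).toNat : ℤ) ≤ ((S.sup fun u => (-u.ord g).toNat : ℕ) : ℤ) := by
        exact_mod_cast h1
      push_cast
      nlinarith
    have hr1' : (1 : ℤ) ≤ (r : ℤ) := by exact_mod_cast hr1
    have hfr0 : f ^ r ≠ 0 := pow_ne_zero r hf0
    rcases lt_trichotomy (u0.ord f) 0 with hneg | hzero | hpos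
    · -- pole at `u0`: use `f ^ r * g / (1 + f ^ r)`
      have key : ∀ u : Place K F, u.ord f < 0 → u.ord (f ^ r + 1) = u.ord (f ^ r) := by
        intro u hu
        refine (isRawVal_ord u).map_add_of_lt hfr0 one_ne_zero ?_
        rw [(isRawVal_ord u).map_pow hf0, u.ord_one]
        nlinarith
      have hden : f ^ r + 1 ≠ 0 := by
        intro h0
        have h1 := key v hfv
        rw [h0, v.ord_zero, (isRawVal_ord v).map_pow hf0] at h1
        nlinarith
      refine ⟨f ^ r * g / (f ^ r + 1), div_ne_zero (mul_ne_zero hfr0 hg0) hden, ?_, ?_⟩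
      · rw [(isRawVal_ord v).map_div (mul_ne_zero hfr0 hg0) hden,
          (isRawVal_ord v).map_mul _ _ hfr0 hg0, key v hfv]
        linarith
      · intro u hu
        rcases Finset.mem_insert.mp hu with rfl | huS
        · rw [(isRawVal_ord u).map_div (mul_ne_zero hfr0 hg0) hden,
            (isRawVal_ord u).map_mul _ _ hfr0 hg0, key u hneg]
          linarith
        · have h1 : u.ord (f ^ r + 1) = 0 := by
            rw [add_comm, (isRawVal_ord u).map_add_of_lt one_ne_zero hfr0 ?_, u.ord_one]
            rw [(isRawVal_ord u).map_pow hf0, u.ord_one]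
            have := hfS u huS
            nlinarith
          rw [(isRawVal_ord u).map_div (mul_ne_zero hfr0 hg0) hden,
            (isRawVal_ord u).map_mul _ _ hfr0 hg0, h1, (isRawVal_ord u).map_pow hf0]
          have := hr u huS
          linarith
    · -- unit at `u0`: use `f ^ r * g`
      refine ⟨f ^ r * g, mul_ne_zero hfr0 hg0, ?_, ?_⟩
      · rw [(isRawVal_ord v).map_mul _ _ hfr0 hg0, (isRawVal_ord v).map_pow hf0]
        nlinarith
      · intro u hu
        rw [(isRawVal_ord u).map_mul _ _ hfr0 hg0, (isRawVal_ord u).map_pow hf0]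
        rcases Finset.mem_insert.mp hu with rfl | huS
        · rw [hzero]
          simpa using hgu0
        · exact hr u huS
    · -- already a zero at `u0`
      refine ⟨f, hf0, hfv, fun u hu => ?_⟩
      rcases Finset.mem_insert.mp hu with rfl | huS
      · exact hpos
      · exact hfS u huS

/-! ### Raw valuations on `K(y)` -/

namespace IsRawVal

variable {w : F → ℤ} (hw : IsRawVal K w)
include hw

theorem aeval_mem_valSubring {y : F} (hy0 : y ≠ 0) (hy : 0 ≤ w y) (r : K[X]) :
    aeval y r ∈ hw.valSubring := by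
  induction r using Polynomial.induction_on' with
  | add p q hp hq =>
    rw [_root_.map_add]
    exact add_mem hp hq
  | monomial n a =>
    rw [aeval_monomial]
    refine mul_mem ?_ (pow_mem ((hw.mem_valSubring_of_ne hy0).mpr hy) n)
    by_cases ha : a = 0
    · left; simp [ha]
    · right; rw [hw.map_algebraMap a ha]

theorem map_aeval {y : F} (hy0 : y ≠ 0) (hy : 0 < w y) (p : K[X]) (hp : aeval y p ≠ 0) :
    w (aeval y p) = (p.rootMultiplicity 0 : ℤ) * w y := by
  have hp0 : p ≠ 0 := by
    rintro rfl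
    simp at hp
  obtain ⟨q, hq, hnd⟩ := Polynomial.exists_eq_pow_rootMultiplicity_mul_and_not_dvd p hp0 0
  rw [C_0, sub_zero] at hq hnd
  have hq0 : q.coeff 0 ≠ 0 := fun h => hnd (Polynomial.X_dvd_iff.mpr h)
  have hpy : aeval y p = y ^ (p.rootMultiplicity 0) * aeval y q := by
    conv_lhs => rw [hq]
    simp
  have hqy : aeval y q ≠ 0 := by
    intro h
    apply hp
    rw [hpy, h, mul_zero]
  have hwq : w (aeval y q) = 0 := by
    have hdecomp : aeval y q = algebraMap K F (q.coeff 0) + aeval y q.divX * y := by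
      conv_lhs => rw [← Polynomial.divX_mul_X_add q]
      simp [add_comm]
    have hc : algebraMap K F (q.coeff 0) ≠ 0 := (_root_.map_ne_zero _).mpr hq0
    rw [hdecomp]
    by_cases hd : aeval y q.divX = 0
    · rw [hd, zero_mul, add_zero, hw.map_algebraMap _ hq0]
    · have hlt : w (algebraMap K F (q.coeff 0)) < w (aeval y q.divX * y) := by
        rw [hw.map_algebraMap _ hq0, hw.map_mul _ _ hd hy0]
        have := ((hw.mem_valSubring).mp (hw.aeval_mem_valSubring hy0 hy.le q.divX)).resolve_left hd
        linarith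
      rw [hw.map_add_of_lt hc (mul_ne_zero hd hy0) hlt, hw.map_algebraMap _ hq0]
  rw [hpy, hw.map_mul _ _ (pow_ne_zero _ hy0) hqy, hw.map_pow hy0, hwq, add_zero]

/-- On `K(y)` any two raw valuations which are positive at `y` have the same sign. -/
theorem nonneg_of_mem_adjoin {w' : F → ℤ} (hw' : IsRawVal K w') {y : F} (hy0 : y ≠ 0)
    (hy : 0 < w y) (hy' : 0 < w' y) {a : F} (ha : a ∈ IntermediateField.adjoin K {y})
    (ha0 : a ≠ 0) (h : 0 ≤ w a) : 0 ≤ w' a := by
  obtain ⟨r, s, rfl⟩ := (IntermediateField.mem_adjoin_simple_iff K a).mp ha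
  have hr : aeval y r ≠ 0 := fun h0 => ha0 (by rw [h0, zero_div])
  have hs : aeval y s ≠ 0 := fun h0 => ha0 (by rw [h0, div_zero])
  rw [hw.map_div hr hs, hw.map_aeval hy0 hy r hr, hw.map_aeval hy0 hy s hs] at h
  rw [hw'.map_div hr hs, hw'.map_aeval hy0 hy' r hr, hw'.map_aeval hy0 hy' s hs]
  have h1 : (s.rootMultiplicity 0 : ℤ) ≤ r.rootMultiplicity 0 := by nlinarith
  nlinarith

end IsRawVal

/-- A root of a monic polynomial with coefficients in the valuation ring of a place lies in
the valuation ring. -/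
theorem mem_place_of_monic (v : Place K F) {f : F} (P : F[X]) (hP : P.Monic)
    (hPf : P.eval f = 0) (hcoeff : ∀ k, P.coeff k ∈ v.toValuationSubring) :
    f ∈ v.toValuationSubring := by
  have hl : P ∈ Polynomial.lifts (algebraMap v.toValuationSubring F) := by
    rw [Polynomial.lifts_iff_coeff_lifts]
    intro k
    exact ⟨⟨P.coeff k, hcoeff k⟩, rfl⟩
  obtain ⟨q, hq, -, hqm⟩ := Polynomial.lifts_and_natDegree_eq_and_monic hl hP
  have hint : IsIntegral v.toValuationSubring f := by
    refine ⟨q, hqm, ?_⟩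
    rw [← Polynomial.eval_map, hq, hPf]
  obtain ⟨z, hz⟩ := IsIntegrallyClosed.algebraMap_eq_of_integral hint
  rw [← hz]
  exact z.2

/-! ### The counting lemma -/

/-- **Abstract counting lemma** (orbits ↔ places).

`y : F` is the local coordinate downstairs (`y = x - c`, or `y = x⁻¹` for the poles of `x`),
`X` a finite set (cosets) with raw valuations `w i` of `F` (`i : X`), all with the same value
`E > 0` at `y`; `orb : X → O` the quotient map onto a finite set of orbits.  Assume

* `hA2` (fundamental identity): the places `v` with `0 < v.ord y` form a finite set and the sum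
  of `v.ord y` over it is `n`;
* `hcard`: `card X ≤ n`;
* `hO1`: `w i` only depends on the orbit of `i`;
* `hO2` (stabiliser divisibility): `E ∣ w i f * (size of the orbit of i)` for all `f ≠ 0`;
* `hS` (integrality): every `f ≠ 0` with `0 ≤ w i f` for all `i` is a root of a monic polynomial
  over `F` each of whose nonzero coefficients lies in `K(y)` and has `0 ≤ w i ·` for some `i`.

Then the number of places with `0 < v.ord y` is the number of orbits, and `n = card X`. -/
theorem card_zeros_eq_card_orbits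
    {X O : Type*} [Fintype X] [Fintype O]
    (y : F) (n : ℕ)
    (hA2 : ∃ hfin : {v : Place K F | 0 < v.ord y}.Finite,
      ∑ v ∈ hfin.toFinset, v.ord y = (n : ℤ))
    (hcard : Fintype.card X ≤ n)
    (w : X → F → ℤ) (hw : ∀ i, IsRawVal K (w i))
    (E : ℤ) (hE : 0 < E) (hwy : ∀ i, w i y = E)
    (orb : X → O) (horb : Function.Surjective orb)
    (hO1 : ∀ i j, orb i = orb j → w i = w j)
    (hO2 : ∀ i (f : F), f ≠ 0 → E ∣ w i f * (Nat.card {j // orb j = orb i} : ℤ))
    (hS : ∀ f : F, f ≠ 0 → (∀ i, 0 ≤ w i f) →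
      ∃ P : F[X], P.Monic ∧ P.eval f = 0 ∧
        ∀ k, P.coeff k ≠ 0 →
          P.coeff k ∈ IntermediateField.adjoin K {y} ∧ ∃ i, 0 ≤ w i (P.coeff k)) :
    Nat.card {v : Place K F | 0 < v.ord y} = Fintype.card O ∧ n = Fintype.card X := by
  classical
  obtain ⟨hfin, hsum⟩ := hA2
  have hNat : Nat.card {v : Place K F | 0 < v.ord y} = hfin.toFinset.card := by
    rw [Nat.card_coe_set_eq, Set.ncard_eq_toFinset_card _ hfin]
  rw [hNat]
  by_cases hy0 : y = 0
  · -- degenerate case: everything is empty
    subst hy0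
    have hZ : hfin.toFinset = ∅ := by
      ext v
      simp
    rw [hZ, Finset.sum_empty] at hsum
    have hn : n = 0 := by exact_mod_cast hsum.symm
    have hX : Fintype.card X = 0 := by omega
    have hXe : IsEmpty X := Fintype.card_eq_zero_iff.mp hX
    have hOe : IsEmpty O := ⟨fun c => by
      obtain ⟨i, _⟩ := horb c
      exact hXe.elim i⟩
    refine ⟨?_, by omega⟩
    rw [hZ, Finset.card_empty, Fintype.card_eq_zero]
  -- main case
  have hnt : ∀ i, ∃ f : F, f ≠ 0 ∧ w i f ≠ 0 := fun i =>
    ⟨y, hy0, by rw [hwy i]; exact hE.ne'⟩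
  set vp : X → Place K F := fun i => (hw i).place (hnt i) with hvp
  choose m hm_pos hm_pi hm using fun i => (hw i).exists_mul_ord (hnt i)
  have he : ∀ i, E = m i * (vp i).ord y := fun i => by
    rw [← hwy i]
    exact hm i y hy0
  have he_pos : ∀ i, 0 < (vp i).ord y := fun i => by
    have h1 := he i
    have h2 := hm_pos i
    by_contra hcon
    push Not at hcon
    nlinarith
  have hmemZ : ∀ i, vp i ∈ hfin.toFinset := fun i => by
    rw [Set.Finite.mem_toFinset]
    exact he_pos i
  -- orbit sizes
  set szO : O → ℕ := fun C => (Finset.univ.filter fun j => orb j = C).card with hszO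
  have hszO_card : ∀ i, Nat.card {j // orb j = orb i} = szO (orb i) := fun i => by
    rw [Nat.card_eq_fintype_card, Fintype.card_subtype]
  have hszO_pos : ∀ C, 0 < szO C := fun C => by
    obtain ⟨i, hi⟩ := horb C
    exact Finset.card_pos.mpr ⟨i, by simp [hi]⟩
  have hsum_sz : ∑ C : O, szO C = Fintype.card X := by
    have := Finset.card_eq_sum_card_fiberwise (s := (Finset.univ : Finset X))
      (t := (Finset.univ : Finset O)) (f := orb) (fun x _ => Finset.mem_univ _)
    rw [Finset.card_univ] at this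
    exact this.symm
  -- `e ≤` orbit size
  have hle : ∀ i, (vp i).ord y ≤ szO (orb i) := by
    intro i
    obtain ⟨π, hπ0, hπ1, hπm⟩ := hm_pi i
    have hdvd := hO2 i π hπ0
    rw [hπm, hszO_card i] at hdvd
    have h1 : m i * (vp i).ord y ∣ m i * (szO (orb i) : ℤ) := by
      rw [← he i]
      exact hdvd
    have h2 : (vp i).ord y ∣ (szO (orb i) : ℤ) :=
      (mul_dvd_mul_iff_left (hm_pos i).ne').mp h1
    exact Int.le_of_dvd (by exact_mod_cast hszO_pos (orb i)) h2
  -- the place only depends on the orbit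
  have hvp_orb : ∀ i j, orb i = orb j → vp i = vp j := by
    intro i j hij
    apply Place.ext
    show (hw i).valSubring = (hw j).valSubring
    have h1 := hO1 i j hij
    ext f
    rw [IsRawVal.mem_valSubring, IsRawVal.mem_valSubring, h1]
  -- surjectivity
  have hsurj : ∀ v ∈ hfin.toFinset, ∃ i, vp i = v := by
    intro v hv
    by_contra hcon
    push Not at hcon
    have hvS : v ∉ Finset.univ.image vp := by
      simp only [Finset.mem_image, Finset.mem_univ, true_and, not_exists]
      exact hcon
    obtain ⟨f, hf0, hfv, hfS⟩ := exists_ord_neg_pos v _ hvS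
    have hwf : ∀ i, 0 ≤ w i f := fun i => by
      rw [hm i f hf0]
      have h1 := hfS (vp i) (Finset.mem_image_of_mem vp (Finset.mem_univ i))
      have h2 := hm_pos i
      nlinarith
    obtain ⟨P, hPm, hPf, hPc⟩ := hS f hf0 hwf
    have hvy : 0 < v.ord y := (Set.Finite.mem_toFinset hfin).mp hv
    have hmem : f ∈ v.toValuationSubring := by
      refine mem_place_of_monic v P hPm hPf fun k => ?_
      by_cases hk : P.coeff k = 0
      · rw [hk]
        exact zero_mem _
      obtain ⟨hkK, i, hki⟩ := hPc k hk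
      rw [← ord_nonneg_iff v hk]
      exact (hw i).nonneg_of_mem_adjoin (isRawVal_ord v) hy0 (by rw [hwy i]; exact hE) hvy
        hkK hk hki
    have h3 := (ord_nonneg_iff v hf0).mpr hmem
    linarith
  -- a section of `orb` and the induced map on orbits
  set sec : O → X := Function.surjInv horb with hsec
  have hsec_orb : ∀ C, orb (sec C) = C := Function.surjInv_eq horb
  set vpO : O → Place K F := fun C => vp (sec C) with hvpO
  have hvpO_orb : ∀ i, vp i = vpO (orb i) := fun i =>
    hvp_orb i (sec (orb i)) (hsec_orb (orb i)).symm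
  have hvpO_mem : ∀ C, vpO C ∈ hfin.toFinset := fun C => hmemZ (sec C)
  have hleO : ∀ C, (vpO C).ord y ≤ szO C := fun C => by
    have := hle (sec C)
    rwa [hsec_orb C] at this
  have hsurjO : ∀ v ∈ hfin.toFinset, ∃ C, vpO C = v := fun v hv => by
    obtain ⟨i, hi⟩ := hsurj v hv
    exact ⟨orb i, by rw [← hvpO_orb i, hi]⟩
  -- the chain of inequalities
  have hfib : ∑ v ∈ hfin.toFinset, ∑ C ∈ Finset.univ.filter (fun C => vpO C = v), (szO C : ℤ)
      = ∑ C : O, (szO C : ℤ) :=
    Finset.sum_fiberwise_of_maps_to (fun C _ => hvpO_mem C) _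
  have hterm : ∀ v ∈ hfin.toFinset,
      v.ord y ≤ ∑ C ∈ Finset.univ.filter (fun C => vpO C = v), (szO C : ℤ) := by
    intro v hv
    obtain ⟨C, hC⟩ := hsurjO v hv
    have h1 : (szO C : ℤ) ≤ ∑ C ∈ Finset.univ.filter (fun C => vpO C = v), (szO C : ℤ) :=
      Finset.single_le_sum (f := fun C => (szO C : ℤ)) (fun C _ => by positivity)
        (by simp [hC])
    have h2 := hleO C
    rw [hC] at h2
    linarith
  have hsumZ : ∑ C : O, (szO C : ℤ) = (Fintype.card X : ℤ) := by
    exact_mod_cast hsum_sz
  have hchain : (n : ℤ) ≤ (Fintype.card X : ℤ) := by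
    rw [← hsum, ← hsumZ, ← hfib]
    exact Finset.sum_le_sum hterm
  have hnX : n = Fintype.card X := by
    have : (Fintype.card X : ℤ) ≤ (n : ℤ) := by exact_mod_cast hcard
    exact_mod_cast le_antisymm hchain this
  have hEq : ∑ v ∈ hfin.toFinset, v.ord y
      = ∑ v ∈ hfin.toFinset, ∑ C ∈ Finset.univ.filter (fun C => vpO C = v), (szO C : ℤ) := by
    rw [hsum, hfib, hsumZ, hnX]
  have hterm_eq := (Finset.sum_eq_sum_iff_of_le hterm).mp hEq
  -- injectivity on orbits
  have hinj : Function.Injective vpO := by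
    intro C1 C2 h12
    by_contra hne
    have hv := hvpO_mem C1
    have h1 := hterm_eq (vpO C1) hv
    have hsub : ({C1, C2} : Finset O) ⊆ Finset.univ.filter (fun C => vpO C = vpO C1) := by
      intro C hC
      rcases Finset.mem_insert.mp hC with rfl | hC
      · simp
      · rw [Finset.mem_singleton] at hC
        simp [hC, h12]
    have h2 : ∑ C ∈ ({C1, C2} : Finset O), (szO C : ℤ)
        ≤ ∑ C ∈ Finset.univ.filter (fun C => vpO C = vpO C1), (szO C : ℤ) :=
      Finset.sum_le_sum_of_subset_of_nonneg hsub (fun C _ _ => by positivity)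
    rw [Finset.sum_pair hne] at h2
    have h3 := hleO C1
    have h4 : (0 : ℤ) < szO C2 := by exact_mod_cast hszO_pos C2
    linarith
  refine ⟨?_, hnX⟩
  have himg : hfin.toFinset = Finset.univ.image vpO := by
    ext v
    constructor
    · intro hv
      obtain ⟨C, hC⟩ := hsurjO v hv
      exact Finset.mem_image.mpr ⟨C, Finset.mem_univ _, hC⟩
    · intro hv
      obtain ⟨C, -, hC⟩ := Finset.mem_image.mp hv
      rw [← hC]
      exact hvpO_mem C
  rw [himg, Finset.card_image_of_injective _ hinj, Finset.card_univ]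

/-- The unramified special case of `card_zeros_eq_card_orbits`: if all the raw valuations take the
value `1` at `y` (no orbit structure needed), the number of places with `0 < v.ord y` is
`card X = n`. -/
theorem card_zeros_eq_card
    {X : Type*} [Fintype X]
    (y : F) (n : ℕ)
    (hA2 : ∃ hfin : {v : Place K F | 0 < v.ord y}.Finite,
      ∑ v ∈ hfin.toFinset, v.ord y = (n : ℤ))
    (hcard : Fintype.card X ≤ n)
    (w : X → F → ℤ) (hw : ∀ i, IsRawVal K (w i))
    (hwy : ∀ i, w i y = 1)
    (hS : ∀ f : F, f ≠ 0 → (∀ i, 0 ≤ w i f) →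
      ∃ P : F[X], P.Monic ∧ P.eval f = 0 ∧
        ∀ k, P.coeff k ≠ 0 →
          P.coeff k ∈ IntermediateField.adjoin K {y} ∧ ∃ i, 0 ≤ w i (P.coeff k)) :
    Nat.card {v : Place K F | 0 < v.ord y} = Fintype.card X ∧ n = Fintype.card X :=
  card_zeros_eq_card_orbits y n hA2 hcard w hw 1 one_pos hwy id Function.surjective_id
    (fun i j h => congrArg w (show i = j from h)) (fun _ _ _ => one_dvd _) hS

/-! ### The same two steps in `Place` language (architect's shapes) -/

/-- **Fibre lemma, integrality form.**  Let `w i` be finitely many places with `0 < (w i).ord y`.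
If every `f ≠ 0` which is regular at all `w i` is a root of a monic polynomial over `F` whose
nonzero coefficients lie in `K(y)` and are regular at some `w i`, then every place `v` with
`0 < v.ord y` is one of the `w i`. -/
theorem exists_eq_of_forall_integral {ι : Type*} [Finite ι] (y : F) (w : ι → Place K F)
    (hw : ∀ i, 0 < (w i).ord y)
    (hS : ∀ f : F, f ≠ 0 → (∀ i, 0 ≤ (w i).ord f) →
      ∃ P : F[X], P.Monic ∧ P.eval f = 0 ∧
        ∀ k, P.coeff k ≠ 0 →
          P.coeff k ∈ IntermediateField.adjoin K {y} ∧ ∃ i, 0 ≤ (w i).ord (P.coeff k))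
    (v : Place K F) (hv : 0 < v.ord y) : ∃ i, v = w i := by
  classical
  have := Fintype.ofFinite ι
  have hy0 : y ≠ 0 := by
    rintro rfl
    simp at hv
  by_contra hcon
  push Not at hcon
  have hvS : v ∉ Finset.univ.image w := by
    simp only [Finset.mem_image, Finset.mem_univ, true_and, not_exists]
    exact fun i h => hcon i h.symm
  obtain ⟨f, hf0, hfv, hfS⟩ := exists_ord_neg_pos v _ hvS
  have hwf : ∀ i, 0 ≤ (w i).ord f := fun i =>
    (hfS (w i) (Finset.mem_image_of_mem w (Finset.mem_univ i))).le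
  obtain ⟨P, hPm, hPf, hPc⟩ := hS f hf0 hwf
  have hmem : f ∈ v.toValuationSubring := by
    refine mem_place_of_monic v P hPm hPf fun k => ?_
    by_cases hk : P.coeff k = 0
    · rw [hk]
      exact zero_mem _
    obtain ⟨hkK, i, hki⟩ := hPc k hk
    rw [← ord_nonneg_iff v hk]
    exact (isRawVal_ord (w i)).nonneg_of_mem_adjoin (isRawVal_ord v) hy0 (hw i) hv hkK hk hki
  have h3 := (ord_nonneg_iff v hf0).mpr hmem
  linarith

/-- **Counting chain.**  Places `w o` over `y = 0` indexed by a finite type, with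
`(w o).ord y ≤ bound o`, `∑ bound ≤ n = ∑_{v over 0} v.ord y` and `w` surjective onto the places
over `y = 0`: then `w` is injective, the bounds are attained, and the number of places over
`y = 0` is `card O`. -/
theorem card_zeros_of_places {O : Type*} [Fintype O] (y : F) (n : ℕ)
    (hA2 : ∃ hfin : {v : Place K F | 0 < v.ord y}.Finite,
      ∑ v ∈ hfin.toFinset, v.ord y = (n : ℤ))
    (w : O → Place K F) (bound : O → ℕ)
    (hpos : ∀ o, 0 < (w o).ord y) (hle : ∀ o, (w o).ord y ≤ bound o)
    (hsum : ∑ o, bound o ≤ n)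
    (hsurj : ∀ v : Place K F, 0 < v.ord y → ∃ o, v = w o) :
    Function.Injective w ∧ (∀ o, (w o).ord y = bound o) ∧
      Nat.card {v : Place K F | 0 < v.ord y} = Fintype.card O ∧ ∑ o, bound o = n := by
  classical
  obtain ⟨hfin, hsumZ⟩ := hA2
  have hNat : Nat.card {v : Place K F | 0 < v.ord y} = hfin.toFinset.card := by
    rw [Nat.card_coe_set_eq, Set.ncard_eq_toFinset_card _ hfin]
  have hmem : ∀ o, w o ∈ hfin.toFinset := fun o => by
    rw [Set.Finite.mem_toFinset]
    exact hpos o
  have hfib : ∑ v ∈ hfin.toFinset, ∑ o ∈ Finset.univ.filter (fun o => w o = v), (bound o : ℤ)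
      = ∑ o : O, (bound o : ℤ) :=
    Finset.sum_fiberwise_of_maps_to (fun o _ => hmem o) _
  have hterm : ∀ v ∈ hfin.toFinset,
      v.ord y ≤ ∑ o ∈ Finset.univ.filter (fun o => w o = v), (bound o : ℤ) := by
    intro v hv
    obtain ⟨o, ho⟩ := hsurj v ((Set.Finite.mem_toFinset hfin).mp hv)
    have h1 : (bound o : ℤ) ≤ ∑ o ∈ Finset.univ.filter (fun o => w o = v), (bound o : ℤ) :=
      Finset.single_le_sum (f := fun o => (bound o : ℤ)) (fun o _ => by positivity)
        (by simp [ho])
    have h2 := hle o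
    rw [← ho] at h2
    linarith
  have hsum' : ∑ o : O, (bound o : ℤ) ≤ (n : ℤ) := by exact_mod_cast hsum
  have hchain : (n : ℤ) ≤ ∑ o : O, (bound o : ℤ) := by
    rw [← hsumZ, ← hfib]
    exact Finset.sum_le_sum hterm
  have hbn : ∑ o : O, (bound o : ℤ) = (n : ℤ) := le_antisymm hsum' hchain
  have hEq : ∑ v ∈ hfin.toFinset, v.ord y
      = ∑ v ∈ hfin.toFinset, ∑ o ∈ Finset.univ.filter (fun o => w o = v), (bound o : ℤ) := by
    rw [hsumZ, hfib, hbn]
  have hterm_eq := (Finset.sum_eq_sum_iff_of_le hterm).mp hEq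
  have hinj : Function.Injective w := by
    intro o1 o2 h12
    by_contra hne
    have h1 := hterm_eq (w o1) (hmem o1)
    have hsub : ({o1, o2} : Finset O) ⊆ Finset.univ.filter (fun o => w o = w o1) := by
      intro o ho
      rcases Finset.mem_insert.mp ho with rfl | ho
      · simp
      · rw [Finset.mem_singleton] at ho
        simp [ho, h12]
    have h2 : ∑ o ∈ ({o1, o2} : Finset O), (bound o : ℤ)
        ≤ ∑ o ∈ Finset.univ.filter (fun o => w o = w o1), (bound o : ℤ) :=
      Finset.sum_le_sum_of_subset_of_nonneg hsub (fun o _ _ => by positivity)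
    rw [Finset.sum_pair hne] at h2
    have h3 := hle o1
    have h4 := hle o2
    have h5 := hpos o2
    linarith
  have hattain : ∀ o, (w o).ord y = bound o := by
    intro o
    have h1 := hterm_eq (w o) (hmem o)
    have hfil : Finset.univ.filter (fun o' => w o' = w o) = {o} := by
      ext o'
      simp only [Finset.mem_filter, Finset.mem_univ, true_and, Finset.mem_singleton]
      exact ⟨fun h => hinj h, fun h => by rw [h]⟩
    rw [hfil, Finset.sum_singleton] at h1
    exact h1
  refine ⟨hinj, hattain, ?_, by exact_mod_cast hbn⟩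
  have himg : hfin.toFinset = Finset.univ.image w := by
    ext v
    constructor
    · intro hv
      obtain ⟨o, ho⟩ := hsurj v ((Set.Finite.mem_toFinset hfin).mp hv)
      exact Finset.mem_image.mpr ⟨o, Finset.mem_univ _, ho.symm⟩
    · intro hv
      obtain ⟨o, -, ho⟩ := Finset.mem_image.mp hv
      rw [← ho]
      exact hmem o
  rw [hNat, himg, Finset.card_image_of_injective _ hinj, Finset.card_univ]

/-- `exists_place_of_val` in the architect's shape: a nontrivial raw valuation is a positive
multiple of the order function of a place. -/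
theorem exists_place_of_val (val : F → ℤ)
    (hmul : ∀ f g : F, f ≠ 0 → g ≠ 0 → val (f * g) = val f + val g)
    (hadd : ∀ f g : F, f ≠ 0 → g ≠ 0 → f + g ≠ 0 → min (val f) (val g) ≤ val (f + g))
    (hK : ∀ c : K, c ≠ 0 → val (algebraMap K F c) = 0)
    (hne : ∃ f : F, f ≠ 0 ∧ val f ≠ 0) :
    ∃ (v : Place K F) (e : ℕ), 0 < e ∧ ∀ f : F, f ≠ 0 → val f = e * v.ord f := by
  have hw : IsRawVal K val := ⟨hmul, hadd, hK⟩
  obtain ⟨m, hm, -, h⟩ := hw.exists_mul_ord hne
  refine ⟨hw.place hne, m.toNat, by omega, fun f hf => ?_⟩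
  rw [Int.toNat_of_nonneg hm.le]
  exact h f hf

end Fermat.Agent.S24.Counting
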