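import Mathlib

/-!
# S24, package B-HNF: Hermite normal form and the stabiliser of `τ ↦ J (N τ)`

Design-neutral statements (raw integer matrices, raw functions on `ℍ`).

* `exists_hermite` : an integer `2 × 2` matrix `M` of positive determinant is
  `h * !![a, b; 0, e]` with `h ∈ SL(2, ℤ)`, `0 < a`, `0 ≤ b < e`, `a * e = det M`,
  and `a = gcd (M 0 0) (M 1 0)`.
* `exists_hnf` : the same for `!![d, 0; 0, 1] * g`, together with the action on `ℍ`:
  `d * (g • τ) = h • ((a τ + b) / e)`.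
* `invariant_of_mem_Gamma0` : `τ ↦ J (d τ)` is `Γ₀(N)`-invariant for `d ∣ N`.
* `mem_Gamma0_of_invariant` : conversely the stabiliser of `τ ↦ J (N τ)` in `SL(2, ℤ)`
  is contained in `Γ₀(N)` (for `J` separating `SL(2, ℤ)`-orbits).
* `coset_eq_iff_conj_eq` : the conjugates `τ ↦ J (N (g⁻¹ τ))` are pairwise distinct for distinct
  left cosets of `Γ₀(N)`.
-/

namespace Fermat.Agent.S24.HNF

open UpperHalfPlane Matrix
open scoped MatrixGroups

/-- **Hermite normal form** for integer `2 × 2` matrices of positive determinant. -/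
theorem exists_hermite (M : Matrix (Fin 2) (Fin 2) ℤ) (hM : 0 < M.det) :
    ∃ (h : SL(2, ℤ)) (a b e : ℤ), 0 < a ∧ 0 < e ∧ 0 ≤ b ∧ b < e ∧ a * e = M.det ∧
      a = Int.gcd (M 0 0) (M 1 0) ∧
      M = (h : Matrix (Fin 2) (Fin 2) ℤ) * !![a, b; 0, e] := by
  rw [Matrix.det_fin_two] at hM ⊢
  set p := M 0 0 with hp
  set q := M 0 1 with hq
  set r := M 1 0 with hr
  set s := M 1 1 with hs
  set g : ℤ := (Int.gcd p r : ℤ) with hg
  have hg0 : 0 < g := by
    rw [hg]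
    have : Int.gcd p r ≠ 0 := by
      intro h0
      rw [Int.gcd_eq_zero_iff] at h0
      rw [h0.1, h0.2] at hM
      simp at hM
    exact_mod_cast Nat.pos_of_ne_zero this
  obtain ⟨p', hp'⟩ : g ∣ p := Int.gcd_dvd_left p r
  obtain ⟨r', hr'⟩ : g ∣ r := Int.gcd_dvd_right p r
  set x := Int.gcdA p r with hx
  set y := Int.gcdB p r with hy
  have hbez : g = p * x + r * y := Int.gcd_eq_gcd_ab p r
  have hbez' : p' * x + r' * y = 1 := by
    have : g * (p' * x + r' * y) = g * 1 := by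
      linear_combination (-1 : ℤ) * hbez - x * hp' - y * hr'
    exact mul_left_cancel₀ hg0.ne' this
  set e : ℤ := p' * s - r' * q with he
  have hge : g * e = p * s - q * r := by rw [he, hp', hr']; ring
  have he0 : 0 < e := by
    have : 0 < g * e := by rw [hge]; exact hM
    exact (mul_pos_iff_of_pos_left hg0).mp this
  set b₀ : ℤ := x * q + y * s with hb₀
  set k : ℤ := b₀ / e with hk
  have hmod : b₀ % e = b₀ - e * k := by
    have := Int.emod_add_mul_ediv b₀ e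
    rw [hk]; linarith
  refine ⟨⟨!![p', p' * k - y; r', r' * k + x], ?_⟩, g, b₀ % e, e, hg0, he0,
    Int.emod_nonneg _ he0.ne', Int.emod_lt_of_pos _ he0, hge, rfl, ?_⟩
  · rw [Matrix.det_fin_two_of]
    linear_combination hbez'
  · ext i j
    fin_cases i <;> fin_cases j
    · simp [Matrix.mul_apply, Fin.sum_univ_two]
      rw [← hp, hp']; ring
    · simp [Matrix.mul_apply, Fin.sum_univ_two]
      rw [← hq, hmod, he, hb₀]
      linear_combination (-q) * hbez'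
    · simp [Matrix.mul_apply, Fin.sum_univ_two]
      rw [← hr, hr']; ring
    · simp [Matrix.mul_apply, Fin.sum_univ_two]
      rw [← hs, hmod, he, hb₀]
      linear_combination (-s) * hbez'

/-- Hermite normal form with natural-number entries. -/
theorem exists_hermite_nat (M : Matrix (Fin 2) (Fin 2) ℤ) (d : ℕ) (hd : 0 < d)
    (hM : M.det = d) :
    ∃ (h : SL(2, ℤ)) (a b e : ℕ), a * e = d ∧ b < e ∧ a = Int.gcd (M 0 0) (M 1 0) ∧
      M = (h : Matrix (Fin 2) (Fin 2) ℤ) * !![(a : ℤ), (b : ℤ); 0, (e : ℤ)] := by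
  obtain ⟨h, a, b, e, ha, he, hb, hbe, hae, hgcd, hMh⟩ :=
    exists_hermite M (by rw [hM]; exact_mod_cast hd)
  refine ⟨h, a.toNat, b.toNat, e.toNat, ?_, ?_, ?_, ?_⟩
  · have : ((a.toNat * e.toNat : ℕ) : ℤ) = (d : ℤ) := by
      rw [Nat.cast_mul, Int.toNat_of_nonneg ha.le, Int.toNat_of_nonneg he.le, hae, hM]
    exact_mod_cast this
  · have : (b.toNat : ℤ) < (e.toNat : ℤ) := by
      rw [Int.toNat_of_nonneg hb, Int.toNat_of_nonneg he.le]; exact hbe
    exact_mod_cast this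
  · rw [hgcd]; simp
  · rw [Int.toNat_of_nonneg ha.le, Int.toNat_of_nonneg he.le, Int.toNat_of_nonneg hb]
    exact hMh

/-- The Möbius action of a product `h * !![a, b; 0, e]`: if `σ = (a τ + b) / e` then
`h • σ = (M 0 0 * τ + M 0 1) / (M 1 0 * τ + M 1 1)` for `M = h * !![a, b; 0, e]`. -/
theorem coe_smul_of_eq_mul (M : Matrix (Fin 2) (Fin 2) ℤ) (h : SL(2, ℤ)) (a b e : ℤ)
    (he : e ≠ 0) (hM : M = (h : Matrix (Fin 2) (Fin 2) ℤ) * !![a, b; 0, e]) (τ σ : ℍ)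
    (hσ : (σ : ℂ) = ((a : ℂ) * τ + b) / e) :
    ((h • σ : ℍ) : ℂ) =
      ((M 0 0 : ℂ) * τ + (M 0 1 : ℂ)) / ((M 1 0 : ℂ) * τ + (M 1 1 : ℂ)) := by
  have he' : (e : ℂ) ≠ 0 := by exact_mod_cast he
  rw [coe_specialLinearGroup_apply, hσ, hM]
  simp only [Matrix.mul_apply, Fin.sum_univ_two, Matrix.of_apply, Matrix.cons_val_zero,
    Matrix.cons_val_one, Matrix.cons_val', Matrix.cons_val_fin_one, mul_zero, add_zero,
    Int.cast_add, Int.cast_mul, algebraMap_int_eq, Int.coe_castRingHom, Complex.ofReal_intCast]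
  have key : ∀ u v : ℂ, u * (((a : ℂ) * τ + b) / e) + v = (u * ((a : ℂ) * τ + b) + v * e) / e := by
    intro u v; field_simp
  rw [key, key, div_div_div_cancel_right₀ he']
  congr 1 <;> ring

/-- **B-HNF (1)+(2).** For `g ∈ SL(2, ℤ)` and `d > 0`:
`!![d, 0; 0, 1] * g = h * !![a, b; 0, e]` with `h ∈ SL(2, ℤ)`, `a * e = d`, `b < e`,
`a = gcd (d * g 0 0) (g 1 0)`, and on `ℍ`: `d * (g • τ) = h • σ` whenever `σ = (a τ + b) / e`. -/
theorem exists_hnf (g : SL(2, ℤ)) (d : ℕ) (hd : 0 < d) :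
    ∃ (h : SL(2, ℤ)) (a b e : ℕ), a * e = d ∧ b < e ∧
      a = Int.gcd ((d : ℤ) * g 0 0) (g 1 0) ∧
      !![(d : ℤ), 0; 0, 1] * (g : Matrix (Fin 2) (Fin 2) ℤ) =
        (h : Matrix (Fin 2) (Fin 2) ℤ) * !![(a : ℤ), (b : ℤ); 0, (e : ℤ)] ∧
      ∀ τ σ : ℍ, (σ : ℂ) = ((a : ℂ) * τ + b) / e →
        ((h • σ : ℍ) : ℂ) = (d : ℂ) * ((g • τ : ℍ) : ℂ) := by
  have hdet : (!![(d : ℤ), 0; 0, 1] * (g : Matrix (Fin 2) (Fin 2) ℤ)).det = d := by
    rw [Matrix.det_mul, g.det_coe, Matrix.det_fin_two_of]; ring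
  obtain ⟨h, a, b, e, hae, hbe, hgcd, hM⟩ := exists_hermite_nat _ d hd hdet
  have he : e ≠ 0 := by
    rintro rfl
    simp at hae
    omega
  refine ⟨h, a, b, e, hae, hbe, ?_, hM, ?_⟩
  · rw [hgcd]
    simp [Matrix.mul_apply, Fin.sum_univ_two]
  · intro τ σ hσ
    have := coe_smul_of_eq_mul _ h a b e (by exact_mod_cast he) hM τ σ (by simpa using hσ)
    rw [this, coe_specialLinearGroup_apply]
    simp only [Matrix.mul_apply, Fin.sum_univ_two, Matrix.of_apply, Matrix.cons_val_zero,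
      Matrix.cons_val_one, Matrix.cons_val', Matrix.cons_val_fin_one, mul_zero, add_zero,
      zero_mul, zero_add, one_mul,
      Int.cast_add, Int.cast_mul, algebraMap_int_eq, Int.coe_castRingHom, Complex.ofReal_intCast,
      Int.cast_natCast]
    rw [← mul_div_assoc]
    congr 1
    ring

/-- Function form of `exists_hnf`: for an `SL(2, ℤ)`-invariant `J`, the function
`τ ↦ J (d (g τ))` equals `τ ↦ J ((a τ + b) / e)` with `a e = d`, `b < e`. -/
theorem exists_hnf_fun (J : ℍ → ℂ) (hJ : ∀ (γ : SL(2, ℤ)) (τ : ℍ), J (γ • τ) = J τ)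
    (g : SL(2, ℤ)) (d : ℕ) (hd : 0 < d) :
    ∃ (a b e : ℕ), a * e = d ∧ b < e ∧ a = Int.gcd ((d : ℤ) * g 0 0) (g 1 0) ∧
      ∀ τ τ' σ : ℍ, (τ' : ℂ) = (d : ℂ) * ((g • τ : ℍ) : ℂ) →
        (σ : ℂ) = ((a : ℂ) * τ + b) / e → J τ' = J σ := by
  obtain ⟨h, a, b, e, hae, hbe, hgcd, -, hact⟩ := exists_hnf g d hd
  refine ⟨a, b, e, hae, hbe, hgcd, fun τ τ' σ hτ' hσ => ?_⟩
  have : h • σ = τ' := UpperHalfPlane.ext (by rw [hact τ σ hσ, hτ'])
  rw [← this, hJ]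

/-- **`Γ₀(N)`-invariance** of `τ ↦ J (d τ)` for `d ∣ N`, for an `SL(2, ℤ)`-invariant `J`. -/
theorem invariant_of_mem_Gamma0 (J : ℍ → ℂ) (hJ : ∀ (γ : SL(2, ℤ)) (τ : ℍ), J (γ • τ) = J τ)
    (N d : ℕ) (hdN : d ∣ N) (γ : SL(2, ℤ)) (hγ : γ ∈ CongruenceSubgroup.Gamma0 N)
    (τ τ₁ τ₂ : ℍ) (h₁ : (τ₁ : ℂ) = (d : ℂ) * ((γ • τ : ℍ) : ℂ)) (h₂ : (τ₂ : ℂ) = (d : ℂ) * τ) :
    J τ₁ = J τ₂ := by
  rw [CongruenceSubgroup.Gamma0_mem, ZMod.intCast_zmod_eq_zero_iff_dvd] at hγ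
  obtain ⟨c', hc'⟩ : (d : ℤ) ∣ γ 1 0 := (Int.natCast_dvd_natCast.mpr hdN).trans hγ
  have hdet : γ 0 0 * γ 1 1 - γ 0 1 * γ 1 0 = 1 := by
    have := γ.det_coe
    rwa [Matrix.det_fin_two] at this
  set γ' : SL(2, ℤ) := ⟨!![γ 0 0, γ 0 1 * d; c', γ 1 1], by
    rw [Matrix.det_fin_two_of]; rw [hc'] at hdet; linear_combination hdet⟩ with hγ'
  have : γ' • τ₂ = τ₁ := by
    apply UpperHalfPlane.ext
    rw [h₁, coe_specialLinearGroup_apply, coe_specialLinearGroup_apply, h₂]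
    simp only [hγ', Matrix.SpecialLinearGroup.coe_mk, Matrix.of_apply, Matrix.cons_val_zero,
      Matrix.cons_val_one, Matrix.cons_val', Matrix.cons_val_fin_one,
      Int.cast_mul, algebraMap_int_eq, Int.coe_castRingHom, Complex.ofReal_intCast,
      Int.cast_natCast, hc']
    rw [← mul_div_assoc]
    congr 1 <;> (push_cast; ring)
  rw [← this, hJ]

/-- A complex quadratic with infinitely many roots has zero coefficients. -/
theorem quad_eq_zero_of_infinite (A B C : ℂ) (S : Set ℂ) (hS : S.Infinite)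
    (h : ∀ z ∈ S, A * z ^ 2 + B * z + C = 0) : A = 0 ∧ B = 0 ∧ C = 0 := by
  set P : Polynomial ℂ := Polynomial.C A * Polynomial.X ^ 2
    + Polynomial.C B * Polynomial.X + Polynomial.C C with hP
  have hPz : P = 0 := by
    apply Polynomial.eq_zero_of_infinite_isRoot
    refine hS.mono fun z hz => ?_
    have := h z hz
    simpa [hP, Polynomial.IsRoot] using this
  refine ⟨?_, ?_, ?_⟩
  · have := congrArg (fun f : Polynomial ℂ => f.coeff 2) hPz
    simpa [hP, Polynomial.coeff_X, Polynomial.coeff_C] using this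
  · have := congrArg (fun f : Polynomial ℂ => f.coeff 1) hPz
    simpa [hP, Polynomial.coeff_X, Polynomial.coeff_C] using this
  · have := congrArg (fun f : Polynomial ℂ => f.coeff 0) hPz
    simpa [hP, Polynomial.coeff_X, Polynomial.coeff_C] using this

/-- **Stabiliser of `τ ↦ J (N τ)`.** If `J` separates `SL(2, ℤ)`-orbits and
`J (N (γ τ)) = J (N τ)` for all `τ`, then `γ ∈ Γ₀(N)`. Here `sc` is any implementation of
`τ ↦ N τ` on `ℍ`. -/
theorem mem_Gamma0_of_invariant (J : ℍ → ℂ)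
    (hJ : ∀ τ τ' : ℍ, J τ = J τ' → ∃ γ : SL(2, ℤ), γ • τ' = τ)
    (N : ℕ) (hN : 0 < N) (sc : ℍ → ℍ) (hsc : ∀ τ : ℍ, (sc τ : ℂ) = (N : ℂ) * τ)
    (γ : SL(2, ℤ)) (h : ∀ τ : ℍ, J (sc (γ • τ)) = J (sc τ)) :
    γ ∈ CongruenceSubgroup.Gamma0 N := by
  classical
  -- for each `τ` choose `δ τ` with `δ τ • sc τ = sc (γ • τ)`
  choose δ hδ using fun τ : ℍ => hJ _ _ (h τ)
  -- a real line in `ℍ`
  let pt : ℝ → ℍ := fun t => ⟨(t : ℂ) + Complex.I, by simp⟩
  have hcM : Countable (Matrix (Fin 2) (Fin 2) ℤ) :=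
    inferInstanceAs (Countable (Fin 2 → Fin 2 → ℤ))
  have hcS : Countable SL(2, ℤ) :=
    inferInstanceAs (Countable {A : Matrix (Fin 2) (Fin 2) ℤ // A.det = 1})
  have hcard : Cardinal.mk SL(2, ℤ) < Cardinal.mk ℝ := by
    rw [Cardinal.mk_real]
    exact lt_of_le_of_lt Cardinal.mk_le_aleph0 Cardinal.aleph0_lt_continuum
  obtain ⟨δ₀, hδ₀⟩ := Cardinal.exists_infinite_fiber (fun t : ℝ => δ (pt t)) hcard
  have hinf : ((fun t : ℝ => δ (pt t)) ⁻¹' {δ₀}).Infinite := Set.infinite_coe_iff.mp hδ₀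
  -- entries
  set a := δ₀ 0 0 with ha
  set b := δ₀ 0 1 with hb
  set c := δ₀ 1 0 with hc
  set d := δ₀ 1 1 with hd
  set p := γ 0 0 with hp
  set q := γ 0 1 with hq
  set r := γ 1 0 with hr
  set s := γ 1 1 with hs
  have hdetδ : a * d - b * c = 1 := by
    have := δ₀.det_coe
    rwa [Matrix.det_fin_two] at this
  -- the quadratic identity at every point of the fibre
  have key : ∀ t ∈ (fun t : ℝ => δ (pt t)) ⁻¹' {δ₀},
      ((a * N * r - N ^ 2 * p * c : ℤ) : ℂ) * (pt t : ℂ) ^ 2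
        + ((a * N * s + b * r - N * p * d - N ^ 2 * q * c : ℤ) : ℂ) * (pt t : ℂ)
        + ((b * s - N * q * d : ℤ) : ℂ) = 0 := by
    intro t ht
    have h1 : δ₀ • sc (pt t) = sc (γ • pt t) := by
      have := hδ (pt t)
      rwa [show δ (pt t) = δ₀ from ht] at this
    have h2 : ((δ₀ • sc (pt t) : ℍ) : ℂ) = ((sc (γ • pt t) : ℍ) : ℂ) := by rw [h1]
    rw [coe_specialLinearGroup_apply, hsc, hsc, coe_specialLinearGroup_apply] at h2
    simp only [algebraMap_int_eq, Int.coe_castRingHom, Complex.ofReal_intCast] at h2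
    have hden1 : ((δ₀ 1 0 : ℤ) : ℂ) * ((N : ℂ) * (pt t : ℂ)) + ((δ₀ 1 1 : ℤ) : ℂ) ≠ 0 := by
      have := UpperHalfPlane.denom_ne_zero (δ₀ : GL (Fin 2) ℝ) (sc (pt t))
      simpa [UpperHalfPlane.denom, hsc] using this
    have hden2 : ((γ 1 0 : ℤ) : ℂ) * (pt t : ℂ) + ((γ 1 1 : ℤ) : ℂ) ≠ 0 := by
      have := UpperHalfPlane.denom_ne_zero (γ : GL (Fin 2) ℝ) (pt t)
      simpa [UpperHalfPlane.denom] using this
    rw [← mul_div_assoc, div_eq_div_iff hden1 hden2] at h2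
    push_cast
    linear_combination h2
  -- the polynomial vanishes identically
  set A : ℤ := a * N * r - N ^ 2 * p * c with hA
  set B : ℤ := a * N * s + b * r - N * p * d - N ^ 2 * q * c with hB
  set C : ℤ := b * s - N * q * d with hC
  have hinj : Set.InjOn (fun t : ℝ => (pt t : ℂ)) ((fun t : ℝ => δ (pt t)) ⁻¹' {δ₀}) := by
    intro t₁ _ t₂ _ h12
    have : (t₁ : ℂ) + Complex.I = (t₂ : ℂ) + Complex.I := h12
    exact_mod_cast add_right_cancel this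
  obtain ⟨hA0', hB0', -⟩ := quad_eq_zero_of_infinite (A : ℂ) (B : ℂ) (C : ℂ) _ (hinf.image hinj)
    (by rintro _ ⟨t, ht, rfl⟩; exact key t ht)
  have hA0 : A = 0 := by exact_mod_cast hA0'
  have hB0 : B = 0 := by exact_mod_cast hB0'
  -- arithmetic
  have hN0 : (N : ℤ) ≠ 0 := by exact_mod_cast hN.ne'
  have h1 : (N : ℤ) ∣ a * r := by
    refine ⟨p * c, ?_⟩
    have : (N : ℤ) * (a * r) = N * (N * (p * c)) := by rw [hA] at hA0; linear_combination hA0
    exact mul_left_cancel₀ hN0 this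
  have h2 : (N : ℤ) ∣ b * r := ⟨p * d + N * q * c - a * s, by rw [hB] at hB0; linear_combination hB0⟩
  have h3 : (N : ℤ) ∣ r := by
    have : r = d * (a * r) - c * (b * r) := by linear_combination (-r) * hdetδ
    rw [this]
    exact dvd_sub (Dvd.dvd.mul_left h1 _) (Dvd.dvd.mul_left h2 _)
  rw [CongruenceSubgroup.Gamma0_mem, ZMod.intCast_zmod_eq_zero_iff_dvd]
  exact h3

/-- **Distinct conjugates.** For `J` invariant under and separating `SL(2, ℤ)`-orbits, the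
functions `τ ↦ J (N (g⁻¹ τ))` and `τ ↦ J (N (h⁻¹ τ))` coincide iff `g` and `h` define the same
left coset of `Γ₀(N)`. -/
theorem coset_eq_iff_conj_eq (J : ℍ → ℂ) (hJinv : ∀ (γ : SL(2, ℤ)) (τ : ℍ), J (γ • τ) = J τ)
    (hJ : ∀ τ τ' : ℍ, J τ = J τ' → ∃ γ : SL(2, ℤ), γ • τ' = τ)
    (N : ℕ) (hN : 0 < N) (sc : ℍ → ℍ) (hsc : ∀ τ : ℍ, (sc τ : ℂ) = (N : ℂ) * τ)
    (g h : SL(2, ℤ)) :
    (g : SL(2, ℤ) ⧸ CongruenceSubgroup.Gamma0 N) = h ↔
      ∀ τ : ℍ, J (sc (g⁻¹ • τ)) = J (sc (h⁻¹ • τ)) := by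
  rw [QuotientGroup.eq]
  constructor
  · intro hmem τ
    have := invariant_of_mem_Gamma0 J hJinv N N dvd_rfl (g⁻¹ * h) hmem (h⁻¹ • τ)
      (sc (g⁻¹ • τ)) (sc (h⁻¹ • τ)) (by rw [hsc, mul_smul, smul_inv_smul]) (hsc _)
    exact this
  · intro H
    refine mem_Gamma0_of_invariant J hJ N hN sc hsc (g⁻¹ * h) (fun τ => ?_)
    have := H (h • τ)
    rwa [inv_smul_smul, ← mul_smul] at this

end Fermat.Agent.S24.HNF
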