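import Fermat.Agent.S20.SerreFacts
import Fermat.Agent.S20.Division
import Fermat.Agent.S20.JInj
import Fermat.Agent.S20.L1Basic

/-!
# S24 / B-PT — the analytic `j`-function at the points of the upper half-plane

For `Jf z = E₄ z ^ 3 / Δ z` on `ℍ`:

* `Jf` is holomorphic, `SL(2, ℤ)`-invariant, and `Jf z = Jf z'` iff `z`, `z'` are in the same orbit;
* `Jf` is surjective onto `ℂ`;
* `Jf I = 1728`, `Jf ρ = 0`, with the corresponding fibres being the orbits of `I` and `ρ`;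
* the order of vanishing of `Jf - Jf τ` at `τ` is `1`, `2` (`Jf τ = 1728`) or `3` (`Jf τ = 0`).

Orders are Mathlib's `analyticOrderAt` of the composite with `UpperHalfPlane.ofComplex`.
-/

set_option autoImplicit false

open UpperHalfPlane ModularForm Filter Topology Matrix.SpecialLinearGroup CongruenceSubgroup
open scoped MatrixGroups Manifold ModularForm Real

namespace Fermat.Agent.S24.JOrd

open Fermat.Agent.S20

noncomputable section

/-- The analytic `j`-function `E₄³ / Δ` on the upper half-plane. -/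
abbrev Jf : ℍ → ℂ := fun z => E₄ z ^ 3 / discriminant z

theorem Jf_apply (z : ℍ) : Jf z = E₄ z ^ 3 / discriminant z := rfl

/-- `Jf` is holomorphic on `ℍ`. -/
theorem mdifferentiable_Jf : MDifferentiable 𝓘(ℂ) 𝓘(ℂ) Jf :=
  (E₄.holo'.pow 3).div CuspForm.discriminant.holo' discriminant_ne_zero

theorem E₄_smul (γ : SL(2, ℤ)) (z : ℍ) : E₄ (γ • z) = denom γ z ^ 4 * E₄ z := by
  have : SlashInvariantFormClass (ModularForm 𝒮ℒ 4) Γ(1) 4 := Gamma_one_coe_eq_SL ▸ inferInstance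
  have h4 := SlashInvariantForm.slash_action_eqn_SL'' (E₄ : ModularForm 𝒮ℒ 4) (mem_Gamma_one γ) z
  rw [h4]
  norm_cast

theorem E₆_smul (γ : SL(2, ℤ)) (z : ℍ) : E₆ (γ • z) = denom γ z ^ 6 * E₆ z := by
  have : SlashInvariantFormClass (ModularForm 𝒮ℒ 6) Γ(1) 6 := Gamma_one_coe_eq_SL ▸ inferInstance
  have h6 := SlashInvariantForm.slash_action_eqn_SL'' (E₆ : ModularForm 𝒮ℒ 6) (mem_Gamma_one γ) z
  rw [h6]
  norm_cast

theorem discriminant_smul (γ : SL(2, ℤ)) (z : ℍ) :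
    discriminant (γ • z) = denom γ z ^ 12 * discriminant z := by
  have : SlashInvariantFormClass (CuspForm 𝒮ℒ 12) Γ(1) 12 := Gamma_one_coe_eq_SL ▸ inferInstance
  have h12 : discriminant (γ • z) = denom γ z ^ (12 : ℤ) * discriminant z :=
    SlashInvariantForm.slash_action_eqn_SL'' CuspForm.discriminant (mem_Gamma_one γ) z
  rw [h12]
  norm_cast

/-- `Jf` is `SL(2, ℤ)`-invariant. -/
theorem Jf_smul (γ : SL(2, ℤ)) (z : ℍ) : Jf (γ • z) = Jf z := by
  have hd : denom γ z ≠ 0 := denom_ne_zero _ z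
  have hD := discriminant_ne_zero z
  simp only [Jf]
  rw [E₄_smul, discriminant_smul]
  field_simp

/-- `Jf z = Jf z'` iff `z` and `z'` are in the same `SL(2, ℤ)`-orbit. -/
theorem Jf_eq_iff (z z' : ℍ) : Jf z = Jf z' ↔ ∃ γ : SL(2, ℤ), γ • z' = z := by
  constructor
  · intro h
    refine exists_smul_eq_of_j_eq z z' ?_
    have hD := discriminant_ne_zero z
    have hD' := discriminant_ne_zero z'
    simp only [Jf] at h
    field_simp at h
    linear_combination h
  · rintro ⟨γ, rfl⟩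
    exact Jf_smul γ z'

/-- `j - 1728 = E₆² / Δ`. -/
theorem Jf_sub_1728 (z : ℍ) : Jf z - 1728 = E₆ z ^ 2 / discriminant z := by
  have hD := discriminant_ne_zero z
  have e := discriminant_eq_E₄_cube_sub_E₆_sq z
  simp only [Jf]
  field_simp
  rw [e]
  ring

theorem Jf_eq_zero_iff_E₄ (z : ℍ) : Jf z = 0 ↔ E₄ z = 0 := by
  have hD := discriminant_ne_zero z
  simp only [Jf, div_eq_zero_iff, hD, or_false]
  exact pow_eq_zero_iff (by norm_num)

theorem Jf_eq_1728_iff_E₆ (z : ℍ) : Jf z = 1728 ↔ E₆ z = 0 := by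
  have hD := discriminant_ne_zero z
  rw [← sub_eq_zero, Jf_sub_1728]
  simp only [div_eq_zero_iff, hD, or_false]
  exact pow_eq_zero_iff (by norm_num)

/-- The fibre of `Jf` over `0` is the orbit of `ρ`. -/
theorem Jf_eq_zero_iff (z : ℍ) : Jf z = 0 ↔ ∃ γ : SL(2, ℤ), z = γ • rhoPt :=
  (Jf_eq_zero_iff_E₄ z).trans (E4f_eq_zero_iff z)

/-- The fibre of `Jf` over `1728` is the orbit of `i`. -/
theorem Jf_eq_1728_iff (z : ℍ) : Jf z = 1728 ↔ ∃ γ : SL(2, ℤ), z = γ • UpperHalfPlane.I :=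
  (Jf_eq_1728_iff_E₆ z).trans (E6f_eq_zero_iff z)

theorem Jf_rho : Jf rhoPt = 0 := (Jf_eq_zero_iff rhoPt).2 ⟨1, (one_smul _ _).symm⟩

theorem Jf_I : Jf UpperHalfPlane.I = 1728 :=
  (Jf_eq_1728_iff UpperHalfPlane.I).2 ⟨1, (one_smul _ _).symm⟩

/-! ### Limits at `i∞` and surjectivity -/

theorem tendsto_discriminant : Tendsto (discriminant : ℍ → ℂ) atImInfty (𝓝 0) := by
  have h := isCF_Δf.2.2 1
  rw [SlashAction.slash_one] at h
  exact h

/-- `1 / j → 0` at `i∞`. -/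
theorem tendsto_inv_Jf : Tendsto (fun z => (Jf z)⁻¹) atImInfty (𝓝 0) := by
  have h4 : Tendsto (fun z : ℍ => E₄ z ^ 3) atImInfty (𝓝 (1 ^ 3)) := SerreFacts.tendsto_E₄.pow 3
  have h := tendsto_discriminant.div h4 (by norm_num)
  rw [zero_div] at h
  refine h.congr fun z => ?_
  simp only [Jf, inv_div]
  rfl

/-- The `j`-function is surjective onto `ℂ`. -/
theorem Jf_surjective : Function.Surjective Jf := by
  intro c
  by_contra hne0
  have hne : ∀ z : ℍ, Jf z ≠ c := fun z hz => hne0 ⟨z, hz⟩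
  have hden : ∀ z : ℍ, E₄ z ^ 3 - c * discriminant z ≠ 0 := by
    intro z h
    apply hne z
    have hD := discriminant_ne_zero z
    simp only [Jf]
    field_simp
    linear_combination h
  set f : ℍ → ℂ := fun z => discriminant z / (E₄ z ^ 3 - c * discriminant z) with hf
  have hmd : MDifferentiable 𝓘(ℂ) 𝓘(ℂ) f :=
    CuspForm.discriminant.holo'.div
      ((E₄.holo'.pow 3).sub (CuspForm.discriminant.holo'.const_smul c)) hden
  have hinv : ∀ (γ : SL(2, ℤ)) (z : ℍ), f (γ • z) = f z := by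
    intro γ z
    have hd : denom γ z ≠ 0 := denom_ne_zero _ z
    have h1 := hden z
    simp only [hf]
    rw [E₄_smul, discriminant_smul]
    have h2 : (denom γ z ^ 4 * E₄ z) ^ 3 - c * (denom γ z ^ 12 * discriminant z)
        = denom γ z ^ 12 * (E₄ z ^ 3 - c * discriminant z) := by ring
    rw [h2, mul_div_mul_left _ _ (pow_ne_zero 12 hd)]
  have hslash : ∀ γ : SL(2, ℤ), f ∣[(0 : ℤ)] γ = f := by
    intro γ
    funext z
    rw [ModularForm.SL_slash_apply]
    simp only [zpow_neg, zpow_zero, inv_one, mul_one]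
    exact hinv γ z
  have hlim : Tendsto f atImInfty (𝓝 0) := by
    have h4 : Tendsto (fun z : ℍ => E₄ z ^ 3) atImInfty (𝓝 (1 ^ 3)) :=
      SerreFacts.tendsto_E₄.pow 3
    have h5 : Tendsto (fun z : ℍ => E₄ z ^ 3 - c * discriminant z) atImInfty
        (𝓝 (1 ^ 3 - c * 0)) := h4.sub (tendsto_discriminant.const_mul c)
    have h := tendsto_discriminant.div h5 (by norm_num)
    rw [zero_div] at h
    exact h
  have hMF : IsMF ⊤ 0 f := by
    refine ⟨hmd, fun γ _ => hslash γ, fun γ => ?_⟩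
    rw [hslash γ]
    exact (show IsZeroAtImInfty f from hlim).isBoundedAtImInfty
  obtain ⟨c', hc'⟩ := hMF.eq_const_of_weight_zero
  have hc0 : c' = 0 := by
    rw [hc'] at hlim
    exact tendsto_nhds_unique tendsto_const_nhds hlim
  have hval := congrFun hc' UpperHalfPlane.I
  rw [hc0] at hval
  simp only [hf, div_eq_zero_iff] at hval
  rcases hval with h | h
  · exact discriminant_ne_zero _ h
  · exact hden _ h

/-! ### Orders of vanishing -/

/-- A holomorphic function on `ℍ`, composed with `ofComplex`, is analytic at points of `ℍ`. -/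
theorem analyticAt_comp_ofComplex {f : ℍ → ℂ} (hf : MDifferentiable 𝓘(ℂ) 𝓘(ℂ) f) (τ : ℍ) :
    AnalyticAt ℂ (f ∘ ofComplex) (τ : ℂ) :=
  (UpperHalfPlane.mdifferentiable_iff.mp hf).analyticAt
    (isOpen_upperHalfPlaneSet.mem_nhds τ.im_pos)

theorem comp_ofComplex_coe (f : ℍ → ℂ) (τ : ℍ) : (f ∘ ofComplex) (τ : ℂ) = f τ := by
  simp

/-- The order of a holomorphic function at a point where it does not vanish is `0`. -/
theorem order_eq_zero_of_ne {f : ℍ → ℂ} (hf : MDifferentiable 𝓘(ℂ) 𝓘(ℂ) f) (τ : ℍ)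
    (h : f τ ≠ 0) : analyticOrderAt (f ∘ ofComplex) (τ : ℂ) = 0 := by
  rw [(analyticAt_comp_ofComplex hf τ).analyticOrderAt_eq_zero, comp_ofComplex_coe]
  exact h

/-- The order of a holomorphic function at a simple zero is `1`. -/
theorem order_eq_one_of_deriv_ne {f : ℍ → ℂ} (hf : MDifferentiable 𝓘(ℂ) 𝓘(ℂ) f) (τ : ℍ)
    (h : f τ = 0) (hd : deriv (f ∘ ofComplex) (τ : ℂ) ≠ 0) :
    analyticOrderAt (f ∘ ofComplex) (τ : ℂ) = 1 :=
  (analyticAt_comp_ofComplex hf τ).analyticOrderAt_eq_one_of_zero_deriv_ne_zero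
    (by rw [comp_ofComplex_coe]; exact h) hd

/-- Order of `u ^ n * v` where `u` has a simple zero and `v` does not vanish. -/
theorem order_pow_mul {u v : ℍ → ℂ} (hu : MDifferentiable 𝓘(ℂ) 𝓘(ℂ) u)
    (hv : MDifferentiable 𝓘(ℂ) 𝓘(ℂ) v) (τ : ℍ) (n : ℕ)
    (h : u τ = 0) (hd : deriv (u ∘ ofComplex) (τ : ℂ) ≠ 0) (hv0 : v τ ≠ 0) :
    analyticOrderAt ((fun z => u z ^ n * v z) ∘ ofComplex) (τ : ℂ) = n := by
  have hua := analyticAt_comp_ofComplex hu τ
  have hva := analyticAt_comp_ofComplex hv τ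
  have e : ((fun z => u z ^ n * v z) ∘ ofComplex) = (u ∘ ofComplex) ^ n * (v ∘ ofComplex) := by
    funext w
    simp
  rw [e, analyticOrderAt_mul (hua.pow n) hva, analyticOrderAt_pow hua,
    order_eq_one_of_deriv_ne hu τ h hd, order_eq_zero_of_ne hv τ hv0]
  simp

theorem mdifferentiable_inv_discriminant :
    MDifferentiable 𝓘(ℂ) 𝓘(ℂ) (fun z : ℍ => (discriminant z)⁻¹) := by
  have h : MDifferentiable 𝓘(ℂ) 𝓘(ℂ) (fun z : ℍ => (1 : ℂ) / discriminant z) :=
    (mdifferentiable_const (c := (1 : ℂ))).div CuspForm.discriminant.holo' discriminant_ne_zero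
  simpa only [one_div] using h

/-- If `Jf τ ≠ c`, then `Jf - c` has order `0` at `τ`. -/
theorem order_Jf_sub_of_ne (τ : ℍ) (c : ℂ) (h : Jf τ ≠ c) :
    analyticOrderAt ((fun z => Jf z - c) ∘ ofComplex) (τ : ℂ) = 0 :=
  order_eq_zero_of_ne (mdifferentiable_Jf.sub mdifferentiable_const) τ (sub_ne_zero.mpr h)

/-- At a point of the orbit of `ρ` (`Jf τ = 0`), `Jf` vanishes to order `3`. -/
theorem order_Jf_of_eq_zero (τ : ℍ) (h : Jf τ = 0) :
    analyticOrderAt (Jf ∘ ofComplex) (τ : ℂ) = 3 := by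
  have h4 : E₄ τ = 0 := (Jf_eq_zero_iff_E₄ τ).1 h
  have e : Jf = fun z => (E₄ : ℍ → ℂ) z ^ 3 * (discriminant z)⁻¹ := by
    funext z
    simp only [Jf, div_eq_mul_inv]
  rw [e]
  exact_mod_cast order_pow_mul E₄.holo' mdifferentiable_inv_discriminant τ 3 h4
    (deriv_E4f_ne_zero τ h4) (inv_ne_zero (discriminant_ne_zero τ))

/-- At a point of the orbit of `i` (`Jf τ = 1728`), `Jf - 1728` vanishes to order `2`. -/
theorem order_Jf_sub_of_eq_1728 (τ : ℍ) (h : Jf τ = 1728) :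
    analyticOrderAt ((fun z => Jf z - 1728) ∘ ofComplex) (τ : ℂ) = 2 := by
  have h6 : E₆ τ = 0 := (Jf_eq_1728_iff_E₆ τ).1 h
  have e : (fun z => Jf z - 1728) = fun z => (E₆ : ℍ → ℂ) z ^ 2 * (discriminant z)⁻¹ := by
    funext z
    rw [Jf_sub_1728, div_eq_mul_inv]
  rw [e]
  exact_mod_cast order_pow_mul E₆.holo' mdifferentiable_inv_discriminant τ 2 h6
    (deriv_E6f_ne_zero τ h6) (inv_ne_zero (discriminant_ne_zero τ))

/-- At a generic point (`Jf τ ∉ {0, 1728}`), `Jf - Jf τ` has a simple zero at `τ`. -/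
theorem order_Jf_sub_generic (τ : ℍ) (h0 : Jf τ ≠ 0) (h1 : Jf τ ≠ 1728) :
    analyticOrderAt ((fun z => Jf z - Jf τ) ∘ ofComplex) (τ : ℂ) = 1 := by
  have h4 : E4f τ ≠ 0 := fun h => h0 ((Jf_eq_zero_iff_E₄ τ).2 h)
  have h6 : E6f τ ≠ 0 := fun h => h1 ((Jf_eq_1728_iff_E₆ τ).2 h)
  have hu : MDifferentiable 𝓘(ℂ) 𝓘(ℂ) (Δf τ • E4f ^ 3 - E4f τ ^ 3 • Δf) :=
    ((isMF_E4f.1.pow 3).const_smul (Δf τ)).sub (isCF_Δf.1.const_smul (E4f τ ^ 3))
  have hv : MDifferentiable 𝓘(ℂ) 𝓘(ℂ) (fun z : ℍ => (discriminant τ)⁻¹ * (discriminant z)⁻¹) :=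
    mdifferentiable_inv_discriminant.const_smul ((discriminant τ)⁻¹)
  have hz : (Δf τ • E4f ^ 3 - E4f τ ^ 3 • Δf) τ = 0 := by
    simp only [Pi.sub_apply, Pi.smul_apply, Pi.pow_apply, smul_eq_mul]
    ring
  have e : (fun z => Jf z - Jf τ)
      = fun z => (Δf τ • E4f ^ 3 - E4f τ ^ 3 • Δf) z ^ 1
          * ((discriminant τ)⁻¹ * (discriminant z)⁻¹) := by
    funext z
    have hD := discriminant_ne_zero z
    have hDτ := discriminant_ne_zero τ
    simp only [Jf, Pi.sub_apply, Pi.smul_apply, Pi.pow_apply, smul_eq_mul, E4f, Δf, pow_one]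
    field_simp
  rw [e]
  exact_mod_cast order_pow_mul hu hv τ 1 hz (deriv_generic_ne_zero τ h4 h6 τ hz)
    (mul_ne_zero (inv_ne_zero (discriminant_ne_zero τ)) (inv_ne_zero (discriminant_ne_zero τ)))

/-- The ramification index of `j` at `τ`: `3` on the orbit of `ρ`, `2` on the orbit of `i`,
`1` elsewhere. -/
def ellOrder (τ : ℍ) : ℕ := if Jf τ = 0 then 3 else if Jf τ = 1728 then 2 else 1

theorem ellOrder_pos (τ : ℍ) : 0 < ellOrder τ := by
  unfold ellOrder
  split_ifs <;> norm_num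

theorem ellOrder_smul (γ : SL(2, ℤ)) (τ : ℍ) : ellOrder (γ • τ) = ellOrder τ := by
  unfold ellOrder
  rw [Jf_smul]

/-- Uniform statement: the order of `Jf - Jf τ` at `τ` is `ellOrder τ ∈ {1, 2, 3}`. -/
theorem order_Jf_sub_self (τ : ℍ) :
    analyticOrderAt ((fun z => Jf z - Jf τ) ∘ ofComplex) (τ : ℂ) = ellOrder τ := by
  unfold ellOrder
  by_cases h0 : Jf τ = 0
  · rw [if_pos h0]
    have e : (fun z => Jf z - Jf τ) = Jf := by
      funext z
      rw [h0, sub_zero]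
    rw [e]
    exact order_Jf_of_eq_zero τ h0
  · rw [if_neg h0]
    by_cases h1 : Jf τ = 1728
    · rw [if_pos h1]
      have e : (fun z => Jf z - Jf τ) = fun z => Jf z - 1728 := by
        funext z
        rw [h1]
      rw [e]
      exact order_Jf_sub_of_eq_1728 τ h1
    · rw [if_neg h1]
      exact_mod_cast order_Jf_sub_generic τ h0 h1

/-- Uniform statement with an arbitrary constant: the order of `Jf - c` at `τ`. -/
theorem order_Jf_sub (τ : ℍ) (c : ℂ) :
    analyticOrderAt ((fun z => Jf z - c) ∘ ofComplex) (τ : ℂ)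
      = if Jf τ = c then (ellOrder τ : ℕ∞) else 0 := by
  by_cases h : Jf τ = c
  · rw [if_pos h, ← h]
    exact order_Jf_sub_self τ
  · rw [if_neg h]
    exact order_Jf_sub_of_ne τ c h

end

end Fermat.Agent.S24.JOrd
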