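import Fermat.Agent.S24.ModDefs
import Fermat.Agent.S24.JOrd

/-!
# S24 / B-top [PT] — the point valuations of `j - c`

The facts of `JOrd.lean` restated on the names of `ModDefs.lean` (`Jfun`, `ordAt`, `ev`, `fm`,
`valPt`).  The value of `valPt N τ (jBar N - c)` is computed from the representative
`X₁ - C c` of `jBar N - c`; the independence of `valPt` of the representative (package
B-BRIDGE) enters as the explicit hypothesis `hwd`.
-/

set_option autoImplicit false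

open UpperHalfPlane ModularForm
open scoped MatrixGroups Manifold

namespace Fermat.Agent.S24.JPt

open Fermat.Agent.S24 Fermat.Agent.S24.JOrd Fermat.Agent.S20

noncomputable section

theorem Jfun_eq_Jf : Jfun = Jf := rfl

/-- `Jfun` is holomorphic on `ℍ`. -/
theorem mdiff_Jfun : MDiff Jfun := mdifferentiable_Jf

/-- `Jfun` is surjective. -/
theorem exists_Jfun_eq (c : ℂ) : ∃ τ : ℍ, Jfun τ = c := Jf_surjective c

/-- `Jfun` is `SL(2, ℤ)`-invariant. -/
theorem Jfun_smul (g : SL(2, ℤ)) (τ : ℍ) : Jfun (g • τ) = Jfun τ := Jf_smul g τ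

theorem Jfun_I : Jfun UpperHalfPlane.I = 1728 := Jf_I

theorem Jfun_rhoPt : Jfun rhoPt = 0 := Jf_rho

/-- `Jfun` separates `SL(2, ℤ)`-orbits. -/
theorem Jfun_eq_iff (z z' : ℍ) : Jfun z = Jfun z' ↔ ∃ γ : SL(2, ℤ), γ • z' = z := Jf_eq_iff z z'

theorem Jfun_eq_zero_iff (z : ℍ) : Jfun z = 0 ↔ ∃ γ : SL(2, ℤ), z = γ • rhoPt := Jf_eq_zero_iff z

theorem Jfun_eq_1728_iff (z : ℍ) : Jfun z = 1728 ↔ ∃ γ : SL(2, ℤ), z = γ • UpperHalfPlane.I :=
  Jf_eq_1728_iff z

/-- The order of `Jfun - c` at `τ`, in the `ordAt` of `ModDefs`. -/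
theorem ordAt_Jfun_sub (τ : ℍ) (c : ℂ) :
    ordAt (fun z => Jfun z - c) τ = if Jfun τ = c then (ellOrder τ : ℤ) else 0 := by
  have e : (fun z => Jfun z - c) = (fun z => Jf z - c) := rfl
  have e' : Jfun τ = Jf τ := rfl
  rw [ordAt, e, e', order_Jf_sub]
  split_ifs <;> simp

theorem ordAt_Jfun_sub_of_eq (τ : ℍ) (c : ℂ) (h : Jfun τ = c) :
    ordAt (fun z => Jfun z - c) τ = ellOrder τ := by
  rw [ordAt_Jfun_sub, if_pos h]

theorem ellOrder_of_generic (τ : ℍ) (h0 : Jfun τ ≠ 0) (h1 : Jfun τ ≠ 1728) : ellOrder τ = 1 := by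
  have h0' : Jf τ ≠ 0 := h0
  have h1' : Jf τ ≠ 1728 := h1
  rw [ellOrder, if_neg h0', if_neg h1']

theorem ellOrder_of_eq_1728 (τ : ℍ) (h : Jfun τ = 1728) : ellOrder τ = 2 := by
  have h' : Jf τ = 1728 := h
  have h0 : Jf τ ≠ 0 := by rw [h']; norm_num
  rw [ellOrder, if_neg h0, if_pos h']

theorem ellOrder_of_eq_zero (τ : ℍ) (h : Jfun τ = 0) : ellOrder τ = 3 := by
  have h' : Jf τ = 0 := h
  rw [ellOrder, if_pos h']

/-- The order of a nowhere-vanishing constant is `0`. -/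
theorem ordAt_one (τ : ℍ) : ordAt (1 : ℍ → ℂ) τ = 0 := by
  have h : analyticOrderAt ((1 : ℍ → ℂ) ∘ ofComplex) (τ : ℂ) = 0 := by
    have ha : AnalyticAt ℂ ((1 : ℍ → ℂ) ∘ ofComplex) (τ : ℂ) := by
      have : ((1 : ℍ → ℂ) ∘ ofComplex) = fun _ => (1 : ℂ) := rfl
      rw [this]
      exact analyticAt_const
    rw [ha.analyticOrderAt_eq_zero]
    simp
  rw [ordAt, h]
  rfl

/-- The generator index `1 ∣ N`. -/
abbrev d1 (N : ℕ) : Dv N := ⟨1, one_dvd N⟩

theorem ev_X_d1 (N : ℕ) : ev N (MvPolynomial.X (d1 N)) = Jfun := by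
  funext z
  simp [ev, Jabd]

theorem ev_X_d1_sub_C (N : ℕ) (c : KQ) :
    ev N (MvPolynomial.X (d1 N) - MvPolynomial.C c) = fun z => Jfun z - iotaK c := by
  rw [map_sub, ev_X_d1]
  funext z
  simp [ev]

variable (N : ℕ) [NeZero N]

theorem fm_X_d1_sub_C (c : KQ) :
    fm N (MvPolynomial.X (d1 N) - MvPolynomial.C c) = jBar N - algebraMap KQ (FN N) c := by
  simp [fm, jBar]

/-- `X₁ - C c` over `1` represents `jBar N - c`. -/
theorem isRep_jBar_sub (c : KQ) :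
    IsRep N (jBar N - algebraMap KQ (FN N) c) (MvPolynomial.X (d1 N) - MvPolynomial.C c) 1 := by
  refine ⟨?_, ?_⟩
  · rw [map_one]
    exact one_ne_zero
  · rw [map_one, div_one, fm_X_d1_sub_C]

/-- **Point valuation of `j - c`** (given independence of the representative at `τ`). -/
theorem valPt_jBar_sub (τ : ℍ) (c : KQ)
    (hwd : ∀ (f : FN N) (P Q : MvPolynomial (Dv N) KQ), IsRep N f P Q →
      valPt N τ f = ordAt (ev N P) τ - ordAt (ev N Q) τ) :
    valPt N τ (jBar N - algebraMap KQ (FN N) c)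
      = if Jfun τ = iotaK c then (ellOrder τ : ℤ) else 0 := by
  rw [hwd _ _ _ (isRep_jBar_sub N c), ev_X_d1_sub_C, map_one, ordAt_one, sub_zero, ordAt_Jfun_sub]

theorem valPt_jBar_sub_of_ne (τ : ℍ) (c : KQ)
    (hwd : ∀ (f : FN N) (P Q : MvPolynomial (Dv N) KQ), IsRep N f P Q →
      valPt N τ f = ordAt (ev N P) τ - ordAt (ev N Q) τ)
    (h : Jfun τ ≠ iotaK c) : valPt N τ (jBar N - algebraMap KQ (FN N) c) = 0 := by
  rw [valPt_jBar_sub N τ c hwd, if_neg h]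

theorem valPt_jBar_sub_pos_iff (τ : ℍ) (c : KQ)
    (hwd : ∀ (f : FN N) (P Q : MvPolynomial (Dv N) KQ), IsRep N f P Q →
      valPt N τ f = ordAt (ev N P) τ - ordAt (ev N Q) τ) :
    0 < valPt N τ (jBar N - algebraMap KQ (FN N) c) ↔ Jfun τ = iotaK c := by
  rw [valPt_jBar_sub N τ c hwd]
  split_ifs with h
  · simp only [h, iff_true]
    exact_mod_cast ellOrder_pos τ
  · simp [h]

/-- Generic point: `valPt τ (j - c) = 1`. -/
theorem valPt_jBar_sub_generic (τ : ℍ) (c : KQ)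
    (hwd : ∀ (f : FN N) (P Q : MvPolynomial (Dv N) KQ), IsRep N f P Q →
      valPt N τ f = ordAt (ev N P) τ - ordAt (ev N Q) τ)
    (h : Jfun τ = iotaK c) (h0 : c ≠ 0) (h1 : c ≠ 1728) :
    valPt N τ (jBar N - algebraMap KQ (FN N) c) = 1 := by
  have hc0 : iotaK c ≠ 0 := fun h' => h0 (by
    rw [← map_zero iotaK] at h'
    exact iotaK.injective h')
  have hc1 : iotaK c ≠ 1728 := fun h' => h1 (by
    rw [← map_ofNat iotaK 1728] at h'
    exact iotaK.injective h')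
  rw [valPt_jBar_sub N τ c hwd, if_pos h, ellOrder_of_generic τ (h ▸ hc0) (h ▸ hc1)]
  rfl

/-- Orbit of `i`: `valPt τ (j - 1728) = 2`. -/
theorem valPt_jBar_sub_1728 (τ : ℍ)
    (hwd : ∀ (f : FN N) (P Q : MvPolynomial (Dv N) KQ), IsRep N f P Q →
      valPt N τ f = ordAt (ev N P) τ - ordAt (ev N Q) τ)
    (h : Jfun τ = 1728) :
    valPt N τ (jBar N - algebraMap KQ (FN N) 1728) = 2 := by
  have e : iotaK 1728 = (1728 : ℂ) := map_ofNat iotaK 1728
  rw [valPt_jBar_sub N τ 1728 hwd, e, if_pos h, ellOrder_of_eq_1728 τ h]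
  rfl

/-- Orbit of `ρ`: `valPt τ (j - 0) = 3`. -/
theorem valPt_jBar_sub_zero (τ : ℍ)
    (hwd : ∀ (f : FN N) (P Q : MvPolynomial (Dv N) KQ), IsRep N f P Q →
      valPt N τ f = ordAt (ev N P) τ - ordAt (ev N Q) τ)
    (h : Jfun τ = 0) :
    valPt N τ (jBar N - algebraMap KQ (FN N) 0) = 3 := by
  have e : iotaK 0 = (0 : ℂ) := map_zero _
  rw [valPt_jBar_sub N τ 0 hwd, e, if_pos h, ellOrder_of_eq_zero τ h]
  rfl

end

end Fermat.Agent.S24.JPt
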