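import Mathlib
import Fermat.Prelude.Def_ModularCurve_ArithmeticGalois
import Fermat.Prelude.Def_AlgebraicCurve_CanonicalDivisor
import Fermat.Prelude.Def_GaloisRep_ComplexConjugation

/-!
# S24, modular part: shared definitions (no proofs)

`K = ℚ̄`, `F = ℚ̄(j(q^d) : d ∣ N) ⊆ ℚ̄((q))`.  Every element of `F` is a quotient
`fm P / fm Q` of polynomial expressions in the generators `j(q^d)`; the same polynomials evaluated
at the analytic functions `z ↦ J(d z)` give holomorphic functions `ev P`, `ev Q` on `ℍ`.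
All valuations of `F` used in the proof are defined here in terms of such representatives
(the packages prove that they do not depend on the representative).
-/

set_option autoImplicit false

open UpperHalfPlane ModularForm
open scoped MatrixGroups Manifold

noncomputable section

namespace Fermat.Agent.S24

/-- `K = ℚ̄`. -/
abbrev KQ : Type := AlgebraicClosure ℚ

/-- `F = ℚ̄(j(q^d) : d ∣ N)`, the function field of `X₀(N)` over `ℚ̄`. -/
abbrev FN (N : ℕ) [NeZero N] : Type := ↥(ModularCurve.modularFunctionFieldBar N)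

/-- The fixed embedding `ℚ̄ → ℂ`. -/
def iotaK : KQ →+* ℂ := (complexEmbedding : AlgebraicClosure ℚ →ₐ[ℚ] ℂ).toRingHom

/-- The analytic `j`-function `E₄³ / Δ` on the upper half plane. -/
def Jfun (z : ℍ) : ℂ := E₄ z ^ 3 / ModularForm.discriminant z

/-- The function `z ↦ J((a z + b) / d)` (for `a, d > 0`; junk otherwise). -/
def Jabd (a b d : ℕ) (z : ℍ) : ℂ := Jfun (ofComplex (((a : ℂ) * z + b) / d))

/-- Index type of the generators: the divisors of `N`. -/
abbrev Dv (N : ℕ) : Type := {d : ℕ // d ∣ N}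

theorem Dv.neZero {N : ℕ} [NeZero N] (d : Dv N) : NeZero d.1 :=
  ⟨fun h => NeZero.ne N (by have h2 := d.2; rw [h] at h2; exact zero_dvd_iff.mp h2)⟩

/-- The formal generator `j(q^d) ∈ F`. -/
def jFormal (N : ℕ) [NeZero N] (d : Dv N) : FN N :=
  haveI : NeZero d.1 := d.neZero
  ⟨ModularCurve.coeffEmb KQ (ModularCurve.qExpand ℚ d.1 ModularCurve.jq),
    ModularCurve.coeffEmb_mem_laurentBaseChange KQ (ModularCurve.jqd_mem_full N d.2)⟩

/-- `j ∈ F`. -/
def jBar (N : ℕ) [NeZero N] : FN N := jFormal N ⟨1, one_dvd N⟩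

/-- Formal evaluation of a polynomial in the generators. -/
def fm (N : ℕ) [NeZero N] : MvPolynomial (Dv N) KQ →ₐ[KQ] FN N := MvPolynomial.aeval (jFormal N)

/-- Analytic evaluation of a polynomial in the generators: `X_d ↦ (z ↦ J(d z))`. -/
def ev (N : ℕ) : MvPolynomial (Dv N) KQ →+* (ℍ → ℂ) :=
  MvPolynomial.eval₂Hom ((Pi.constRingHom ℍ ℂ).comp iotaK) (fun d => Jabd d.1 0 1)

/-- `f = fm P / fm Q`. -/
def IsRep (N : ℕ) [NeZero N] (f : FN N) (P Q : MvPolynomial (Dv N) KQ) : Prop :=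
  fm N Q ≠ 0 ∧ f = fm N P / fm N Q

/-- Order of vanishing of a function on `ℍ` at a point (`0` if the function vanishes near it). -/
def ordAt (G : ℍ → ℂ) (τ : ℍ) : ℤ := ((analyticOrderAt (G ∘ ofComplex) (τ : ℂ)).toNat : ℤ)

/-- The translate `G ∘ g⁻¹` of a function on `ℍ`. -/
def trans (g : SL(2, ℤ)) (G : ℍ → ℂ) : ℍ → ℂ := fun z => G (g⁻¹ • z)

/-- `G` is holomorphic on `ℍ`, `h`-periodic and meromorphic at `i∞`. -/
def MerInf (h : ℕ) (G : ℍ → ℂ) : Prop :=
  MDiff G ∧ Function.Periodic (G ∘ ofComplex) (((h : ℝ)) : ℂ) ∧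
    ∃ M : ℕ, IsBoundedAtImInfty (fun z : ℍ => Function.Periodic.qParam (h : ℝ) z ^ M * G z)

/-- Order at `i∞` with respect to `q_h = exp(2πiz/h)`: the integer `m` such that
`q_h^(-m) G` tends to a nonzero limit (`0` if there is none). -/
def ordInf (h : ℕ) (G : ℍ → ℂ) : ℤ :=
  open scoped Classical in
  if hm : ∃ m : ℤ, ∃ c : ℂ, c ≠ 0 ∧
      Filter.Tendsto (fun z : ℍ => Function.Periodic.qParam (h : ℝ) z ^ (-m) * G z) atImInfty
        (nhds c)
  then hm.choose else 0

/-- The `q_h`-Laurent expansion at `i∞` (junk unless `MerInf h G`). -/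
def laurentQ (h : ℕ) (G : ℍ → ℂ) : LaurentSeries ℂ :=
  open scoped Classical in
  if hM : ∃ M : ℕ, IsBoundedAtImInfty (fun z : ℍ => Function.Periodic.qParam (h : ℝ) z ^ M * G z)
  then HahnSeries.single (-(hM.choose : ℤ)) (1 : ℂ) *
    HahnSeries.ofPowerSeries ℤ ℂ
      (qExpansion (h : ℝ) (fun z : ℍ => Function.Periodic.qParam (h : ℝ) z ^ hM.choose * G z))
  else 0

/-- The valuation of `F` at the point `τ ∈ ℍ` (order of the meromorphic function at `τ`). -/
def valPt (N : ℕ) [NeZero N] (τ : ℍ) (f : FN N) : ℤ :=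
  open scoped Classical in
  if h : ∃ P Q, IsRep N f P Q then ordAt (ev N h.choose) τ - ordAt (ev N h.choose_spec.choose) τ
  else 0

/-- The valuation of `F` at the cusp `g⁻¹ ∞`: order at `i∞` of `f ∘ g⁻¹` in `q_N`. -/
def valCusp (N : ℕ) [NeZero N] (g : SL(2, ℤ)) (f : FN N) : ℤ :=
  open scoped Classical in
  if h : ∃ P Q, IsRep N f P Q then
    ordInf N (trans g (ev N h.choose)) - ordInf N (trans g (ev N h.choose_spec.choose))
  else 0

/-- The coset space `SL₂(ℤ) / Γ₀(N)`. -/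
abbrev XN (N : ℕ) : Type := SL(2, ℤ) ⧸ CongruenceSubgroup.Gamma0 N

end Fermat.Agent.S24
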