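import Mathlib
import Fermat.Prelude.Def_ModularCurve_ArithmeticGalois

/-!
# S24 (B1) — a calculus of global `q`-expansions on the upper half plane

`HasQExp h f L` says that the function `f : ℍ → ℂ` is, on all of `ℍ`, the sum of the Laurent
series `L` in the parameter `q_h = exp (2 π i τ / h)`.  Such pairs `(f, L)` are closed under
the ring operations, `L` is determined by `f`, and `f = 0 ↔ L = 0`.  This gives the transfer of
polynomial relations between formal series (`j (q ^ d)`) and analytic functions (`τ ↦ j (d τ)`).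
-/

set_option autoImplicit false

open Filter Topology UpperHalfPlane

namespace Fermat.Agent.S24.QExp

noncomputable section

/-- `f` is globally on `ℍ` the sum of the Laurent series `L` in `q_h = exp (2 π i τ / h)`. -/
def HasQExp (h : ℕ) (f : ℍ → ℂ) (L : LaurentSeries ℂ) : Prop :=
  ∀ τ : ℍ, HasSum (fun n : ℤ => L.coeff n * Function.Periodic.qParam (h : ℝ) (τ : ℂ) ^ n) (f τ)

theorem qParam_ne_zero' (h : ℕ) (τ : ℍ) : Function.Periodic.qParam (h : ℝ) (τ : ℂ) ≠ 0 :=
  Complex.exp_ne_zero _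

theorem norm_qParam_lt_one' (h : ℕ) [NeZero h] (τ : ℍ) :
    ‖Function.Periodic.qParam (h : ℝ) (τ : ℂ)‖ < 1 :=
  Function.Periodic.norm_qParam_lt_one
    (by exact_mod_cast Nat.pos_of_ne_zero (NeZero.ne h) : (0 : ℝ) < h) τ.im_pos

/-! ### Auxiliary facts on sums -/

/-- The fibre sums of the Cauchy product of two Laurent series are finite sums. -/
theorem hasSum_coeff_mul (L M : LaurentSeries ℂ) (n : ℤ) :
    HasSum (fun a : ℤ => L.coeff a * M.coeff (n - a)) ((L * M).coeff n) := by
  rw [HahnSeries.coeff_mul]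
  have himg : ∑ ij ∈ Finset.antidiagonal L.isPWO_support M.isPWO_support n,
        L.coeff ij.1 * M.coeff ij.2
      = ∑ a ∈ (Finset.antidiagonal L.isPWO_support M.isPWO_support n).image Prod.fst,
          L.coeff a * M.coeff (n - a) := by
    rw [Finset.sum_image]
    · refine Finset.sum_congr rfl (fun ij hij => ?_)
      have := (Finset.mem_antidiagonal.mp hij).2.2
      rw [← this, add_sub_cancel_left]
    · intro x hx y hy hxy
      have hx' := (Finset.mem_antidiagonal.mp hx).2.2
      have hy' := (Finset.mem_antidiagonal.mp hy).2.2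
      have hxy' : x.1 = y.1 := hxy
      refine Prod.ext hxy' ?_
      omega
  rw [himg]
  refine hasSum_sum_of_ne_finset_zero (fun a ha => ?_)
  by_contra hne
  apply ha
  have h1' : L.coeff a ≠ 0 := fun h0 => hne (by rw [h0, zero_mul])
  have h2' : M.coeff (n - a) ≠ 0 := fun h0 => hne (by rw [h0, mul_zero])
  refine Finset.mem_image.mpr ⟨(a, n - a), Finset.mem_antidiagonal.mpr ⟨h1', h2', ?_⟩, rfl⟩
  simp

/-- The reindexing `(a, b) ↦ (a + b, a)` of `ℤ × ℤ`. -/
def sumEquiv : ℤ × ℤ ≃ ℤ × ℤ where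
  toFun := fun p => (p.1 + p.2, p.1)
  invFun := fun p => (p.2, p.1 - p.2)
  left_inv := fun p => by simp
  right_inv := fun p => by simp

/-- Shifting a bounded-below `ℤ`-indexed Laurent sum to an `ℕ`-indexed power-series sum. -/
theorem hasSum_shift (L : LaurentSeries ℂ) (k : ℤ) (hk : ∀ n < k, L.coeff n = 0) {q : ℂ}
    (hq : q ≠ 0) (s : ℂ) :
    HasSum (fun n : ℤ => L.coeff n * q ^ n) s ↔
      HasSum (fun m : ℕ => L.coeff (k + m) * q ^ m) (q ^ (-k) * s) := by
  have hqk : q ^ (-k) ≠ 0 := zpow_ne_zero _ hq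
  rw [← hasSum_mul_left_iff hqk]
  have hinj : Function.Injective (fun m : ℕ => k + (m : ℤ)) := fun a b hab => by
    simpa using hab
  rw [← hinj.hasSum_iff]
  · have : ((fun n : ℤ => q ^ (-k) * (L.coeff n * q ^ n)) ∘ fun m : ℕ => k + (m : ℤ))
        = fun m : ℕ => L.coeff (k + m) * q ^ m := by
      funext m
      simp only [Function.comp_apply]
      rw [zpow_add₀ hq, zpow_neg, zpow_natCast]
      field_simp
    rw [this]
  · intro n hn
    have hlt : n < k := by
      by_contra hge
      exact hn ⟨(n - k).toNat, by simp; omega⟩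
    rw [hk n hlt, zero_mul, mul_zero]

/-- The point `(s + 1) i` of the upper half plane. -/
def ptI (s : ℕ) : ℍ := ⟨((s : ℂ) + 1) * Complex.I, by simp; positivity⟩

theorem qParam_ptI (h : ℕ) (s : ℕ) :
    Function.Periodic.qParam (h : ℝ) ((ptI s : ℍ) : ℂ)
      = Function.Periodic.qParam (h : ℝ) ((ptI 0 : ℍ) : ℂ) ^ (s + 1) := by
  rw [Function.Periodic.qParam, Function.Periodic.qParam, ← Complex.exp_nat_mul]
  congr 1
  simp only [ptI, UpperHalfPlane.coe_mk]
  push_cast
  ring

theorem coeff_single_mul_ofPowerSeries (k : ℤ) (p : PowerSeries ℂ) (m : ℕ) :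
    (HahnSeries.single k (1 : ℂ) * HahnSeries.ofPowerSeries ℤ ℂ p).coeff (k + m)
      = PowerSeries.coeff m p := by
  rw [HahnSeries.coeff_single_mul, one_mul, add_sub_cancel_left,
    HahnSeries.ofPowerSeries_apply_coeff]

theorem coeff_single_mul_ofPowerSeries_of_lt (k : ℤ) (p : PowerSeries ℂ) {n : ℤ} (hn : n < k) :
    (HahnSeries.single k (1 : ℂ) * HahnSeries.ofPowerSeries ℤ ℂ p).coeff n = 0 := by
  rw [HahnSeries.coeff_single_mul, one_mul]
  exact ModularCurve.ofPowerSeries_coeff_of_neg _ (by omega)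

/-- Every point of the punctured open unit disc is a value of `q_h` on `ℍ`. -/
theorem exists_qParam_eq (h : ℕ) [NeZero h] {q : ℂ} (hq0 : q ≠ 0) (hq1 : ‖q‖ < 1) :
    ∃ τ : ℍ, Function.Periodic.qParam (h : ℝ) (τ : ℂ) = q := by
  have hh : (0 : ℝ) < h := by exact_mod_cast Nat.pos_of_ne_zero (NeZero.ne h)
  have him : 0 < (Function.Periodic.invQParam (h : ℝ) q).im := by
    rw [Function.Periodic.im_invQParam]
    have hlog : Real.log ‖q‖ < 0 := Real.log_neg (norm_pos_iff.mpr hq0) hq1
    have : -(h : ℝ) / (2 * Real.pi) < 0 := by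
      apply div_neg_of_neg_of_pos <;> [linarith; positivity]
    exact mul_pos_of_neg_of_neg this hlog
  exact ⟨⟨_, him⟩, Function.Periodic.qParam_right_inv hh.ne' hq0⟩

/-- Analytic core of `HasQExp.inv`: a power series converging to a nowhere vanishing function on
the open unit disc has a reciprocal given by a power series converging on the whole disc. -/
theorem exists_inv_coeffs (b : ℕ → ℂ)
    (hsum : ∀ q : ℂ, ‖q‖ < 1 → Summable (fun m : ℕ => b m * q ^ m))
    (hne : ∀ q : ℂ, ‖q‖ < 1 → ∑' m : ℕ, b m * q ^ m ≠ 0) :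
    ∃ c : ℕ → ℂ, ∀ q : ℂ, ‖q‖ < 1 →
      HasSum (fun m : ℕ => c m * q ^ m) (∑' m : ℕ, b m * q ^ m)⁻¹ := by
  set G : ℂ → ℂ := fun q => ∑' m : ℕ, b m * q ^ m with hG
  have hball : HasFPowerSeriesOnBall G (FormalMultilinearSeries.ofScalars ℂ b) 0 1 := by
    refine ⟨?_, one_pos, ?_⟩
    · refine ENNReal.le_of_forall_nnreal_lt (fun r hr => ?_)
      refine FormalMultilinearSeries.le_radius_of_summable_norm _ ?_
      have hr1 : ‖((r : ℝ) : ℂ)‖ < 1 := by
        rw [Complex.norm_real, Real.norm_eq_abs, abs_of_nonneg r.coe_nonneg]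
        exact_mod_cast hr
      have := (hsum ((r : ℝ) : ℂ) hr1).norm
      refine this.congr (fun n => ?_)
      rw [FormalMultilinearSeries.ofScalars_norm, norm_mul, norm_pow, Complex.norm_real,
        Real.norm_eq_abs, abs_of_nonneg r.coe_nonneg]
    · intro y hy
      have hy1 : ‖y‖ < 1 := by
        rw [Metric.mem_eball, edist_zero_right, ← ofReal_norm,
          ENNReal.ofReal_lt_one] at hy
        exact hy
      rw [zero_add]
      have := (hsum y hy1).hasSum
      have heq : (fun n => (FormalMultilinearSeries.ofScalars ℂ b n) fun _ => y)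
          = fun m => b m * y ^ m := by
        funext n
        rw [FormalMultilinearSeries.ofScalars_apply_eq, smul_eq_mul]
      rw [heq]
      exact this
  have hdiff : DifferentiableOn ℂ G (Metric.ball 0 1) := by
    have := hball.differentiableOn
    rwa [← ENNReal.ofReal_one, Metric.eball_ofReal] at this
  have hdiffinv : DifferentiableOn ℂ (fun q => (G q)⁻¹) (Metric.ball 0 1) :=
    hdiff.inv (fun q hq => hne q (by simpa using hq))
  refine ⟨fun n => (n.factorial : ℂ)⁻¹ * iteratedDeriv n (fun q => (G q)⁻¹) 0, fun q hq => ?_⟩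
  have := Complex.hasSum_taylorSeries_on_ball hdiffinv (z := q) (by simpa using hq)
  have heq : (fun n : ℕ => (n.factorial : ℂ)⁻¹ • (q - 0) ^ n •
        iteratedDeriv n (fun q => (G q)⁻¹) 0)
      = fun n : ℕ => (n.factorial : ℂ)⁻¹ * iteratedDeriv n (fun q => (G q)⁻¹) 0 * q ^ n := by
    funext n
    simp only [sub_zero, smul_eq_mul]
    ring
  rw [heq] at this
  exact this

namespace HasQExp

variable {h : ℕ} {f g : ℍ → ℂ} {L M : LaurentSeries ℂ}

theorem congr_fun' (hf : HasQExp h f L) (hfg : ∀ τ, f τ = g τ) : HasQExp h g L := by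
  intro τ
  rw [← hfg τ]
  exact hf τ

theorem zero (h : ℕ) : HasQExp h 0 0 := by
  intro τ
  simp only [HahnSeries.coeff_zero, zero_mul, Pi.zero_apply]
  exact hasSum_zero

theorem const (h : ℕ) (c : ℂ) : HasQExp h (fun _ => c) (HahnSeries.C c) := by
  intro τ
  have := hasSum_single (f := fun n : ℤ =>
    (HahnSeries.C c : LaurentSeries ℂ).coeff n * Function.Periodic.qParam (h : ℝ) (τ : ℂ) ^ n)
    (0 : ℤ) (fun n hn => by
      show (HahnSeries.C c : LaurentSeries ℂ).coeff n * _ = 0
      rw [HahnSeries.C_apply, HahnSeries.coeff_single_of_ne hn, zero_mul])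
  simpa [HahnSeries.C_apply] using this

theorem one (h : ℕ) : HasQExp h 1 1 := by
  have := const h 1
  rwa [map_one] at this

theorem add (hf : HasQExp h f L) (hg : HasQExp h g M) : HasQExp h (f + g) (L + M) := by
  intro τ
  have := (hf τ).add (hg τ)
  simpa [add_mul] using this

theorem neg (hf : HasQExp h f L) : HasQExp h (-f) (-L) := by
  intro τ
  have := (hf τ).neg
  simpa [neg_mul] using this

theorem sub (hf : HasQExp h f L) (hg : HasQExp h g M) : HasQExp h (f - g) (L - M) := by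
  rw [sub_eq_add_neg, sub_eq_add_neg]
  exact hf.add hg.neg

theorem mul (hf : HasQExp h f L) (hg : HasQExp h g M) : HasQExp h (f * g) (L * M) := by
  intro τ
  have hq : Function.Periodic.qParam (h : ℝ) (τ : ℂ) ≠ 0 := qParam_ne_zero' h τ
  have h1 := hf τ
  have h2 := hg τ
  generalize Function.Periodic.qParam (h : ℝ) (τ : ℂ) = q at hq h1 h2 ⊢
  have hn1 : Summable (fun a : ℤ => ‖L.coeff a * q ^ a‖) := h1.summable.norm
  have hn2 : Summable (fun a : ℤ => ‖M.coeff a * q ^ a‖) := h2.summable.norm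
  have hs : Summable (fun p : ℤ × ℤ => (L.coeff p.1 * q ^ p.1) * (M.coeff p.2 * q ^ p.2)) :=
    summable_mul_of_summable_norm (f := fun a : ℤ => L.coeff a * q ^ a)
      (g := fun a : ℤ => M.coeff a * q ^ a) hn1 hn2
  have h3 : HasSum (fun p : ℤ × ℤ => (L.coeff p.1 * q ^ p.1) * (M.coeff p.2 * q ^ p.2))
      (f τ * g τ) :=
    HasSum.mul (f := fun a : ℤ => L.coeff a * q ^ a) (g := fun a : ℤ => M.coeff a * q ^ a) h1 h2 hs
  have h4 : HasSum (fun p : ℤ × ℤ => (L.coeff p.2 * M.coeff (p.1 - p.2)) * q ^ p.1)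
      (f τ * g τ) := by
    rw [← sumEquiv.hasSum_iff]
    have : ((fun p : ℤ × ℤ => (L.coeff p.2 * M.coeff (p.1 - p.2)) * q ^ p.1) ∘ sumEquiv)
        = (fun p : ℤ × ℤ => (L.coeff p.1 * q ^ p.1) * (M.coeff p.2 * q ^ p.2)) := by
      funext p
      simp only [Function.comp_apply, sumEquiv, Equiv.coe_fn_mk, add_sub_cancel_left,
        zpow_add₀ hq]
      ring
    rw [this]
    exact h3
  refine HasSum.prod_fiberwise h4 (fun n => ?_)
  exact (hasSum_coeff_mul L M n).mul_right (q ^ n)

theorem pow (hf : HasQExp h f L) (n : ℕ) : HasQExp h (f ^ n) (L ^ n) := by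
  induction n with
  | zero => simpa using one h
  | succ n ih => rw [pow_succ, pow_succ]; exact ih.mul hf

theorem const_mul (c : ℂ) (hf : HasQExp h f L) :
    HasQExp h (fun τ => c * f τ) (HahnSeries.C c * L) :=
  (const h c).mul hf

theorem sum {ι : Type*} (s : Finset ι) (F : ι → ℍ → ℂ) (LL : ι → LaurentSeries ℂ)
    (hF : ∀ i ∈ s, HasQExp h (F i) (LL i)) : HasQExp h (∑ i ∈ s, F i) (∑ i ∈ s, LL i) := by
  classical
  induction s using Finset.induction_on with
  | empty => simpa using zero h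
  | insert a s ha ih =>
    rw [Finset.sum_insert ha, Finset.sum_insert ha]
    exact (hF a (Finset.mem_insert_self a s)).add
      (ih (fun i hi => hF i (Finset.mem_insert_of_mem hi)))

theorem prod {ι : Type*} (s : Finset ι) (F : ι → ℍ → ℂ) (LL : ι → LaurentSeries ℂ)
    (hF : ∀ i ∈ s, HasQExp h (F i) (LL i)) : HasQExp h (∏ i ∈ s, F i) (∏ i ∈ s, LL i) := by
  classical
  induction s using Finset.induction_on with
  | empty => simpa using one h
  | insert a s ha ih =>
    rw [Finset.prod_insert ha, Finset.prod_insert ha]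
    exact (hF a (Finset.mem_insert_self a s)).mul
      (ih (fun i hi => hF i (Finset.mem_insert_of_mem hi)))

/-- **Uniqueness, zero case.** -/
theorem eq_zero_of_zero [NeZero h] (hL : HasQExp h 0 L) : L = 0 := by
  by_contra hne
  set k := L.order with hk
  have hak : L.coeff k ≠ 0 := fun h0 => hne (HahnSeries.coeff_order_eq_zero.mp h0)
  have hlt : ∀ n < k, L.coeff n = 0 := fun n hn => HahnSeries.coeff_eq_zero_of_lt_order hn
  set ρ := Function.Periodic.qParam (h : ℝ) ((ptI 0 : ℍ) : ℂ) with hρ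
  have hρ0 : ρ ≠ 0 := qParam_ne_zero' h _
  have hρ1 : ‖ρ‖ < 1 := norm_qParam_lt_one' h _
  have hsum : ∀ s : ℕ, HasSum (fun m : ℕ => L.coeff (k + m) * (ρ ^ (s + 1)) ^ m) 0 := by
    intro s
    have h1 := hL (ptI s)
    rw [qParam_ptI, ← hρ, hasSum_shift L k hlt (pow_ne_zero _ hρ0)] at h1
    simpa using h1
  have hbound : Summable (fun m : ℕ => ‖L.coeff (k + m)‖ * ‖ρ‖ ^ m) := by
    have := (hsum 0).summable.norm
    simpa [norm_mul, norm_pow] using this
  have hlim := tendsto_tsum_of_dominated_convergence (𝓕 := atTop)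
    (f := fun (s : ℕ) (m : ℕ) => L.coeff (k + m) * (ρ ^ (s + 1)) ^ m)
    (g := fun m : ℕ => if m = 0 then L.coeff k else 0)
    (bound := fun m : ℕ => ‖L.coeff (k + m)‖ * ‖ρ‖ ^ m) hbound ?_ ?_
  · have h0 : (fun s : ℕ => ∑' m : ℕ, L.coeff (k + m) * (ρ ^ (s + 1)) ^ m) = fun _ => 0 := by
      funext s
      exact (hsum s).tsum_eq
    rw [h0, tsum_ite_eq] at hlim
    exact hak (tendsto_nhds_unique hlim tendsto_const_nhds)
  · intro m
    rcases Nat.eq_zero_or_pos m with rfl | hm
    · simp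
    · simp only [if_neg hm.ne']
      have h1 : Tendsto (fun s : ℕ => (ρ ^ m) ^ (s + 1)) atTop (𝓝 0) := by
        have hnorm : ‖ρ ^ m‖ < 1 := by
          rw [norm_pow]
          exact pow_lt_one₀ (norm_nonneg _) hρ1 hm.ne'
        exact (tendsto_pow_atTop_nhds_zero_of_norm_lt_one hnorm).comp (tendsto_add_atTop_nat 1)
      have h2 := h1.const_mul (L.coeff (k + m))
      rw [mul_zero] at h2
      refine h2.congr (fun s => ?_)
      rw [← pow_mul, ← pow_mul, mul_comm m]
  · refine Eventually.of_forall (fun s m => ?_)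
    rw [norm_mul, norm_pow, norm_pow]
    refine mul_le_mul_of_nonneg_left ?_ (norm_nonneg _)
    refine pow_le_pow_left₀ (by positivity) ?_ m
    exact pow_le_of_le_one (norm_nonneg _) hρ1.le (Nat.succ_ne_zero s)

/-- **Uniqueness** of the `q`-expansion. -/
theorem unique [NeZero h] (hf : HasQExp h f L) (hg : HasQExp h f M) : L = M := by
  have := hf.sub hg
  rw [sub_self] at this
  exact sub_eq_zero.mp (eq_zero_of_zero this)

/-- A function with a `q`-expansion vanishes identically iff its expansion is zero. -/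
theorem eq_zero_iff [NeZero h] (hf : HasQExp h f L) : (∀ τ, f τ = 0) ↔ L = 0 := by
  constructor
  · intro h0
    exact eq_zero_of_zero (hf.congr_fun' h0)
  · rintro rfl τ
    exact (hf τ).unique (zero h τ)

/-- A function given by a power series in `q_h` times `q_h ^ k`. -/
theorem of_powerSeries (h : ℕ) (f : ℍ → ℂ) (k : ℤ) (p : PowerSeries ℂ)
    (hc : ∀ τ : ℍ, HasSum (fun m : ℕ => PowerSeries.coeff m p *
        Function.Periodic.qParam (h : ℝ) (τ : ℂ) ^ m)
      (Function.Periodic.qParam (h : ℝ) (τ : ℂ) ^ (-k) * f τ)) :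
    HasQExp h f (HahnSeries.single k (1 : ℂ) * HahnSeries.ofPowerSeries ℤ ℂ p) := by
  intro τ
  rw [hasSum_shift _ k (fun n hn => coeff_single_mul_ofPowerSeries_of_lt k p hn)
    (qParam_ne_zero' h τ)]
  simp only [coeff_single_mul_ofPowerSeries]
  exact hc τ

/-- Inverse of a nowhere vanishing function with a global `q`-expansion. -/
theorem inv [NeZero h] (hf : HasQExp h f L) (hne : ∀ τ, f τ ≠ 0) :
    HasQExp h (fun τ => (f τ)⁻¹) L⁻¹ := by
  have hL : L ≠ 0 := by
    rintro rfl
    obtain ⟨τ⟩ : Nonempty ℍ := inferInstance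
    exact hne τ ((hf τ).unique (zero h τ))
  set k := L.order with hk
  have hak : L.coeff k ≠ 0 := fun h0 => hL (HahnSeries.coeff_order_eq_zero.mp h0)
  have hlt : ∀ n < k, L.coeff n = 0 := fun n hn => HahnSeries.coeff_eq_zero_of_lt_order hn
  set b : ℕ → ℂ := fun m => L.coeff (k + m) with hb
  have key : ∀ τ : ℍ, HasSum (fun m : ℕ => b m * Function.Periodic.qParam (h : ℝ) (τ : ℂ) ^ m)
      (Function.Periodic.qParam (h : ℝ) (τ : ℂ) ^ (-k) * f τ) := fun τ =>
    (hasSum_shift L k hlt (qParam_ne_zero' h τ) _).mp (hf τ)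
  have key0 : HasSum (fun m : ℕ => b m * (0 : ℂ) ^ m) (b 0) := by
    have := hasSum_single (f := fun m : ℕ => b m * (0 : ℂ) ^ m) 0 (fun m hm => by
      simp [hm])
    simpa using this
  have hsum : ∀ q : ℂ, ‖q‖ < 1 → Summable (fun m : ℕ => b m * q ^ m) := by
    intro q hq
    rcases eq_or_ne q 0 with rfl | hq0
    · exact key0.summable
    · obtain ⟨τ, rfl⟩ := exists_qParam_eq h hq0 hq
      exact (key τ).summable
  have hne' : ∀ q : ℂ, ‖q‖ < 1 → ∑' m : ℕ, b m * q ^ m ≠ 0 := by
    intro q hq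
    rcases eq_or_ne q 0 with rfl | hq0
    · rw [key0.tsum_eq]
      simpa [hb] using hak
    · obtain ⟨τ, rfl⟩ := exists_qParam_eq h hq0 hq
      rw [(key τ).tsum_eq]
      exact mul_ne_zero (zpow_ne_zero _ (qParam_ne_zero' h τ)) (hne τ)
  obtain ⟨c, hc⟩ := exists_inv_coeffs b hsum hne'
  have hM : HasQExp h (fun τ => (f τ)⁻¹)
      (HahnSeries.single (-k) (1 : ℂ) * HahnSeries.ofPowerSeries ℤ ℂ (PowerSeries.mk c)) := by
    refine of_powerSeries h _ (-k) _ (fun τ => ?_)
    have h1 := hc _ (norm_qParam_lt_one' h τ)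
    rw [(key τ).tsum_eq, mul_inv, ← zpow_neg] at h1
    simpa using h1
  have hprod : HasQExp h 1 (L * (HahnSeries.single (-k) (1 : ℂ) *
      HahnSeries.ofPowerSeries ℤ ℂ (PowerSeries.mk c))) := by
    have := mul hf hM
    refine fun τ => ?_
    have h2 := this τ
    simp only [Pi.mul_apply, mul_inv_cancel₀ (hne τ)] at h2
    exact h2
  have h1 := unique hprod (one h)
  rw [← eq_inv_of_mul_eq_one_right h1]
  exact hM

theorem div [NeZero h] (hf : HasQExp h f L) (hg : HasQExp h g M) (hne : ∀ τ, g τ ≠ 0) :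
    HasQExp h (fun τ => f τ / g τ) (L / M) := by
  have := hf.mul (hg.inv hne)
  rw [div_eq_mul_inv]
  exact this.congr_fun' (fun τ => by simp [div_eq_mul_inv])

end HasQExp

end

end Fermat.Agent.S24.QExp
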