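import Mathlib
import Fermat.Prelude.Def_ModularCurve_ArithmeticGalois
import Fermat.Prelude.Thm_ModularCurve_coeffMap_qExpand
import Fermat.Agent.S28.Rot
import Fermat.Agent.S28.EtaBridge
import Fermat.Agent.S24.ModDefs
import Fermat.Agent.S24.QExp

/-!
# S24 (B1, concrete part) — `q`-expansions of `J`, of `z ↦ J ((a z + b) / d)`, the polynomial
rule, and the transfer of relations `ev N P = 0 ↔ fm N P = 0` (B-BRIDGE core)
-/

set_option autoImplicit false
open Filter Topology UpperHalfPlane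
namespace Fermat.Agent.S24.QExp
noncomputable section
open ModularCurve Fermat.Agent.S28.Chain

/-- Reindexing a Laurent sum along `n ↦ d * n`. -/
theorem hasSum_qExpand (L : LaurentSeries ℂ) (d : ℕ) [NeZero d] (q : ℂ) (s : ℂ) :
    HasSum (fun n : ℤ => (qExpand ℂ d L).coeff n * q ^ n) s ↔
      HasSum (fun n : ℤ => L.coeff n * (q ^ d) ^ n) s := by
  have hd : (d : ℤ) ≠ 0 := by exact_mod_cast NeZero.ne d
  have hinj : Function.Injective (fun n : ℤ => (d : ℤ) * n) := mul_right_injective₀ hd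
  rw [← hinj.hasSum_iff]
  · have : ((fun n : ℤ => (qExpand ℂ d L).coeff n * q ^ n) ∘ fun n : ℤ => (d : ℤ) * n)
        = fun n : ℤ => L.coeff n * (q ^ d) ^ n := by
      funext n
      simp only [Function.comp_apply, qExpand_coeff_mul]
      rw [zpow_mul, zpow_natCast]
    rw [this]
  · intro n hn
    rw [qExpand_coeff_of_not_dvd, zero_mul]
    rintro ⟨m, rfl⟩
    exact hn ⟨m, rfl⟩

/-- Twisting a Laurent sum by a unit. -/
theorem hasSum_rot (L : LaurentSeries ℂ) (c : ℂˣ) (q : ℂ) (s : ℂ) :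
    HasSum (fun n : ℤ => (rot c L).coeff n * q ^ n) s ↔
      HasSum (fun n : ℤ => L.coeff n * ((c : ℂ) * q) ^ n) s := by
  have : (fun n : ℤ => (rot c L).coeff n * q ^ n) = fun n : ℤ => L.coeff n * ((c : ℂ) * q) ^ n := by
    funext n
    rw [rot_coeff, mul_zpow, Units.val_zpow_eq_zpow_val]
    ring
  rw [this]

/-- The unit `exp (2 π i b / m)` of `ℂ`. -/
def zetaU (m : ℕ) (b : ℤ) : ℂˣ :=
  Units.mk0 (Complex.exp (2 * Real.pi * Complex.I * b / m)) (Complex.exp_ne_zero _)

theorem qParam_affine (h a d : ℕ) (b : ℤ) (z : ℂ) :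
    Function.Periodic.qParam (h : ℝ) (((a : ℂ) * z + b) / d)
      = (zetaU (h * d) b : ℂ) * Function.Periodic.qParam ((h * d : ℕ) : ℝ) z ^ a := by
  rw [zetaU, Units.val_mk0, Function.Periodic.qParam, Function.Periodic.qParam,
    ← Complex.exp_nat_mul, ← Complex.exp_add]
  congr 1
  push_cast
  by_cases hh : (h : ℂ) = 0
  · simp [hh]
  by_cases hd : (d : ℂ) = 0
  · simp [hd]
  field_simp
  ring

namespace HasQExp

variable {h : ℕ} {f g : ℍ → ℂ} {L M : LaurentSeries ℂ}

/-- Substitution `z ↦ (a z + b) / d` (with `a, d > 0`): the expansion in `q_{h d}` is obtained by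
twisting with `exp (2 π i b / (h d))` and substituting `q ↦ q ^ a`. -/
theorem comp_affine (hf : HasQExp h f L) (a d : ℕ) [NeZero a] [NeZero d] (b : ℤ) :
    HasQExp (h * d) (fun z : ℍ => f (ofComplex (((a : ℂ) * z + b) / d)))
      (qExpand ℂ a (rot (zetaU (h * d) b) L)) := by
  intro z
  have him : 0 < ((((a : ℂ) * z + b) / d)).im := by
    have ha : (0 : ℝ) < a := by exact_mod_cast Nat.pos_of_ne_zero (NeZero.ne a)
    have hd : (0 : ℝ) < d := by exact_mod_cast Nat.pos_of_ne_zero (NeZero.ne d)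
    have : ((((a : ℂ) * z + b) / d)).im = a * z.im / d := by
      simp [Complex.div_natCast_im]
    rw [this]
    have := z.im_pos
    positivity
  rw [hasSum_qExpand, hasSum_rot, ← qParam_affine]
  show HasSum _ (f (ofComplex (((a : ℂ) * z + b) / d)))
  rw [ofComplex_apply_of_im_pos him]
  exact hf ⟨_, him⟩

end HasQExp


theorem coeffMap_ofPowerSeries' {R S : Type*} [CommRing R] [CommRing S] (φ : R →+* S)
    (p : PowerSeries R) :
    coeffMap φ (HahnSeries.ofPowerSeries ℤ R p) = HahnSeries.ofPowerSeries ℤ S (p.map φ) := by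
  ext n
  rw [coeffMap_coeff]
  rcases lt_or_ge n 0 with hn | hn
  · rw [ofPowerSeries_coeff_of_neg _ hn, ofPowerSeries_coeff_of_neg _ hn, map_zero]
  · obtain ⟨m, rfl⟩ := Int.eq_ofNat_of_zero_le hn
    rw [HahnSeries.ofPowerSeries_apply_coeff, HahnSeries.ofPowerSeries_apply_coeff,
      PowerSeries.coeff_map]

/-- A function given on `ℍ` by a power series in `q_h`. -/
theorem hasQExp_of_hasSum_nat (h : ℕ) (f : ℍ → ℂ) (p : PowerSeries ℂ)
    (hp : ∀ τ : ℍ, HasSum (fun m : ℕ => PowerSeries.coeff m p *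
      Function.Periodic.qParam (h : ℝ) (τ : ℂ) ^ m) (f τ)) :
    HasQExp h f (HahnSeries.ofPowerSeries ℤ ℂ p) := by
  have := HasQExp.of_powerSeries h f 0 p (fun τ => by simpa using hp τ)
  rwa [show (HahnSeries.single (0 : ℤ) (1 : ℂ)) = 1 from rfl, one_mul] at this

theorem hasQExp_E4 :
    HasQExp 1 (fun z : ℍ => ModularForm.E₄ z)
      (HahnSeries.ofPowerSeries ℤ ℂ (eisenstein4.map (Int.castRingHom ℂ))) := by
  refine hasQExp_of_hasSum_nat 1 _ _ (fun τ => ?_)
  rw [← Fermat.Agent.S28.AnBridge.qExpansion_E4_eq]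
  have := ModularForm.hasSum_qExpansion (f := ModularForm.E₄) one_pos
    one_mem_strictPeriods_SL τ
  simpa using this

theorem hasQExp_discriminant :
    HasQExp 1 (fun z : ℍ => ModularForm.discriminant z)
      (HahnSeries.ofPowerSeries ℤ ℂ
        ((PowerSeries.X * dedekindEtaUnit).map (Int.castRingHom ℂ))) := by
  refine hasQExp_of_hasSum_nat 1 _ _ (fun τ => ?_)
  have := Fermat.Agent.S28.AnBridge.hasSum_discriminant τ
  simp only [smul_eq_mul] at this
  convert this using 2 with m
  rw [PowerSeries.coeff_map]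
  simp

theorem jqC_mul_discriminant :
    coeffMap (algebraMap ℚ ℂ) jq *
        HahnSeries.ofPowerSeries ℤ ℂ ((PowerSeries.X * dedekindEtaUnit).map (Int.castRingHom ℂ))
      = HahnSeries.ofPowerSeries ℤ ℂ (eisenstein4.map (Int.castRingHom ℂ)) ^ 3 := by
  have h1 : coeffMap (algebraMap ℚ ℂ) jq = HahnSeries.single (-1 : ℤ) (1 : ℂ) *
      HahnSeries.ofPowerSeries ℤ ℂ (jNum.map (Int.castRingHom ℂ)) := by
    rw [jq, map_mul, coeffMap_single, map_one, coeffMap_ofPowerSeries', jNumQ]
    congr 2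
  have h2 : HahnSeries.ofPowerSeries ℤ ℂ
      ((PowerSeries.X * dedekindEtaUnit).map (Int.castRingHom ℂ))
      = HahnSeries.single (1 : ℤ) (1 : ℂ) *
        HahnSeries.ofPowerSeries ℤ ℂ (dedekindEtaUnit.map (Int.castRingHom ℂ)) := by
    rw [map_mul, PowerSeries.map_X, map_mul, HahnSeries.ofPowerSeries_X]
  rw [h1, h2]
  have h3 : HahnSeries.single (-1 : ℤ) (1 : ℂ) * HahnSeries.single (1 : ℤ) (1 : ℂ) = 1 := by
    rw [HahnSeries.single_mul_single]
    simp
  have h4 : HahnSeries.ofPowerSeries ℤ ℂ (jNum.map (Int.castRingHom ℂ)) *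
      HahnSeries.ofPowerSeries ℤ ℂ (dedekindEtaUnit.map (Int.castRingHom ℂ))
      = HahnSeries.ofPowerSeries ℤ ℂ (eisenstein4.map (Int.castRingHom ℂ)) ^ 3 := by
    rw [← map_mul, ← map_mul, ← map_pow, ← map_pow, jNum, mul_assoc,
      mul_comm dedekindEtaUnitInv, dedekindEtaUnit_mul_inv, mul_one]
  calc _ = (HahnSeries.single (-1 : ℤ) (1 : ℂ) * HahnSeries.single (1 : ℤ) (1 : ℂ)) *
        (HahnSeries.ofPowerSeries ℤ ℂ (jNum.map (Int.castRingHom ℂ)) *
          HahnSeries.ofPowerSeries ℤ ℂ (dedekindEtaUnit.map (Int.castRingHom ℂ))) := by ring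
    _ = _ := by rw [h3, h4, one_mul]

open Fermat.Agent.S24 in
/-- The analytic `j`-function has the formal `j` as `q`-expansion. -/
theorem hasQExp_Jfun : HasQExp 1 Jfun (coeffMap (algebraMap ℚ ℂ) jq) := by
  have h := (hasQExp_E4.pow 3).div hasQExp_discriminant ModularForm.discriminant_ne_zero
  have hD : HahnSeries.ofPowerSeries ℤ ℂ
      ((PowerSeries.X * dedekindEtaUnit).map (Int.castRingHom ℂ)) ≠ 0 := by
    intro h0
    have := (hasQExp_discriminant.eq_zero_iff).mpr h0 UpperHalfPlane.I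
    exact ModularForm.discriminant_ne_zero _ this
  rw [← jqC_mul_discriminant, mul_div_cancel_right₀ _ hD] at h
  exact h.congr_fun' (fun τ => by simp [Jfun])


theorem coeffMap_injective' {K : Type*} [Field K] (ι : K →+* ℂ) :
    Function.Injective (coeffMap ι) := by
  intro x y hxy
  ext n
  have := congrArg (fun z : LaurentSeries ℂ => z.coeff n) hxy
  simp only [coeffMap_coeff] at this
  exact ι.injective this

/-- **Polynomial rule**: evaluating a polynomial at functions with `q`-expansions. -/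
theorem HasQExp.mvPolynomial {h : ℕ} {σ K : Type*} [Field K] (ι : K →+* ℂ) (f : σ → ℍ → ℂ)
    (L : σ → LaurentSeries K) (hf : ∀ s, HasQExp h (f s) (coeffMap ι (L s)))
    (P : MvPolynomial σ K) :
    HasQExp h (MvPolynomial.eval₂ ((Pi.constRingHom ℍ ℂ).comp ι) f P)
      (coeffMap ι (MvPolynomial.aeval L P)) := by
  induction P using MvPolynomial.induction_on with
  | C a =>
    rw [MvPolynomial.eval₂_C, MvPolynomial.aeval_C, algebraMap_laurentSeries_eq_single,
      coeffMap_single]
    exact HasQExp.const h (ι a)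
  | add p q hp hq =>
    rw [MvPolynomial.eval₂_add, map_add, map_add]
    exact hp.add hq
  | mul_X p s hp =>
    rw [MvPolynomial.eval₂_mul, MvPolynomial.eval₂_X, map_mul, MvPolynomial.aeval_X, map_mul]
    exact hp.mul (hf s)

/-- **Transfer of relations**: a polynomial relation holds between formal series iff it holds
between the functions they expand. -/
theorem relation_transfer {h : ℕ} [NeZero h] {σ K : Type*} [Field K] (ι : K →+* ℂ)
    (f : σ → ℍ → ℂ) (L : σ → LaurentSeries K) (hf : ∀ s, HasQExp h (f s) (coeffMap ι (L s)))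
    (P : MvPolynomial σ K) :
    MvPolynomial.aeval L P = 0 ↔
      MvPolynomial.eval₂ ((Pi.constRingHom ℍ ℂ).comp ι) f P = 0 := by
  have key := (HasQExp.mvPolynomial ι f L hf P).eq_zero_iff
  constructor
  · intro h0
    funext τ
    exact key.mpr (by rw [h0, map_zero]) τ
  · intro h0
    have := key.mp (fun τ => by rw [h0]; rfl)
    exact coeffMap_injective' ι (by rw [this, map_zero])

open Fermat.Agent.S24

/-- Expansion of `z ↦ J ((a z + b) / d)` in `q_d`. -/
theorem hasQExp_Jabd (a b d : ℕ) [NeZero a] [NeZero d] :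
    HasQExp d (Jabd a b d)
      (qExpand ℂ a (rot (zetaU d (b : ℤ)) (coeffMap (algebraMap ℚ ℂ) jq))) := by
  have := hasQExp_Jfun.comp_affine a d (b : ℤ)
  rw [one_mul] at this
  exact this.congr_fun' (fun z => by simp [Jabd])

/-- Expansion of `z ↦ J (a z)` in `q`. -/
theorem hasQExp_Jabd_scale (a : ℕ) [NeZero a] :
    HasQExp 1 (Jabd a 0 1) (qExpand ℂ a (coeffMap (algebraMap ℚ ℂ) jq)) := by
  have := hasQExp_Jabd a 0 1
  have hz : zetaU 1 ((0 : ℕ) : ℤ) = 1 := by
    ext
    simp [zetaU]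
  rwa [hz, rot_one_apply] at this

theorem coe_fm (N : ℕ) [NeZero N] (P : MvPolynomial (Dv N) KQ) :
    ((fm N P : FN N) : LaurentSeries KQ)
      = MvPolynomial.aeval (fun d : Dv N => (jFormal N d : LaurentSeries KQ)) P := by
  have := MvPolynomial.comp_aeval (R := KQ) (fun d : Dv N => jFormal N d)
    (IntermediateField.val (ModularCurve.modularFunctionFieldBar N))
  exact congrArg (fun φ => φ P) this

theorem coeffMap_iotaK_jFormal (N : ℕ) [NeZero N] (d : Dv N) :
    haveI : NeZero d.1 := d.neZero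
    coeffMap iotaK (jFormal N d : LaurentSeries KQ)
      = qExpand ℂ d.1 (coeffMap (algebraMap ℚ ℂ) jq) := by
  have : NeZero d.1 := d.neZero
  show coeffMap iotaK (coeffEmb KQ (qExpand ℚ d.1 jq)) = _
  rw [coeffEmb, coeffMap_coeffMap, coeffMap_qExpand]
  congr 1
  exact coeffMap_congr (RingHom.ext_rat _ _) _

/-- The analytic evaluation `ev N P` has the formal evaluation `fm N P` as `q`-expansion. -/
theorem hasQExp_ev (N : ℕ) [NeZero N] (P : MvPolynomial (Dv N) KQ) :
    HasQExp 1 (ev N P) (coeffMap iotaK ((fm N P : FN N) : LaurentSeries KQ)) := by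
  rw [coe_fm]
  refine HasQExp.mvPolynomial iotaK (fun d : Dv N => Jabd d.1 0 1) _ (fun d => ?_) P
  have : NeZero d.1 := d.neZero
  rw [coeffMap_iotaK_jFormal]
  exact hasQExp_Jabd_scale d.1

/-- **B-BRIDGE (q-expansion principle)**: a polynomial in the generators vanishes as a function on
`ℍ` iff it vanishes in the function field. -/
theorem ev_eq_zero_iff (N : ℕ) [NeZero N] (P : MvPolynomial (Dv N) KQ) :
    ev N P = 0 ↔ fm N P = 0 := by
  have key := (hasQExp_ev N P).eq_zero_iff
  constructor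
  · intro h0
    have := key.mp (fun τ => by rw [h0]; rfl)
    have h2 : ((fm N P : FN N) : LaurentSeries KQ) = 0 :=
      coeffMap_injective' iotaK (by rw [this, map_zero])
    exact Subtype.ext h2
  · intro h0
    funext τ
    exact key.mpr (by rw [h0]; simp) τ

end
end Fermat.Agent.S24.QExp
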