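import Mathlib
import Fermat.Agent.S24.QExpJ
import Fermat.Agent.S24.HNF
import Fermat.Agent.S24.JPt
import Fermat.Agent.S24.Counting

/-!
# S24 (B1, cusp part) — expansions at the cusps and the cusp embeddings

* `HasQExp.tendsto_atImInfty`, `HasQExp.ordInf_eq`: a function with a global `q_h`-expansion `L`
  has `ordInf h = L.order`;
* `cuspSeries N g d`: the `q_N`-expansion of `z ↦ J (d (g⁻¹ z))`, a Laurent series over `ℚ̄`;
* `hasQExp_trans_ev`: the `q_N`-expansion of `(ev N P) ∘ g⁻¹`;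
* `cuspHom N g : F →+* ℚ̄((q_N))`, and `valCusp N g f = (cuspHom N g f).order`.
-/

set_option autoImplicit false

open Filter Topology UpperHalfPlane
open scoped MatrixGroups

namespace Fermat.Agent.S24.QExp

noncomputable section

open ModularCurve Fermat.Agent.S28.Chain Fermat.Agent.S24

/-! ### Behaviour at `i∞` -/

theorem hpos' (h : ℕ) [NeZero h] : (0 : ℝ) < h := by
  exact_mod_cast Nat.pos_of_ne_zero (NeZero.ne h)

theorem tendsto_qParam_pow (h : ℕ) [NeZero h] {n : ℕ} (hn : n ≠ 0) :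
    Tendsto (fun z : ℍ => Function.Periodic.qParam (h : ℝ) (z : ℂ) ^ n) atImInfty (𝓝 0) := by
  have := (UpperHalfPlane.qParam_tendsto_atImInfty (hpos' h)).pow n
  rwa [zero_pow hn] at this

theorem tendsto_qParam_zpow (h : ℕ) [NeZero h] {n : ℤ} (hn : 0 < n) :
    Tendsto (fun z : ℍ => Function.Periodic.qParam (h : ℝ) (z : ℂ) ^ n) atImInfty (𝓝 0) := by
  obtain ⟨k, rfl⟩ := Int.eq_ofNat_of_zero_le hn.le
  simp only [zpow_natCast]
  exact tendsto_qParam_pow h (by omega)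

/-- A function with a nonzero global `q_h`-expansion `L` behaves like `c q_h ^ order` at `i∞`. -/
theorem HasQExp.tendsto_atImInfty {h : ℕ} [NeZero h] {G : ℍ → ℂ} {L : LaurentSeries ℂ}
    (hf : HasQExp h G L) :
    Tendsto (fun z : ℍ => Function.Periodic.qParam (h : ℝ) (z : ℂ) ^ (-L.order) * G z)
      atImInfty (𝓝 (L.coeff L.order)) := by
  set k := L.order with hk
  have hlt : ∀ n < k, L.coeff n = 0 := fun n hn => HahnSeries.coeff_eq_zero_of_lt_order hn
  have key : ∀ z : ℍ, HasSum (fun m : ℕ => L.coeff (k + m) *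
      Function.Periodic.qParam (h : ℝ) (z : ℂ) ^ m)
      (Function.Periodic.qParam (h : ℝ) (z : ℂ) ^ (-k) * G z) := fun z =>
    (hasSum_shift L k hlt (qParam_ne_zero' h z) _).mp (hf z)
  set ρ := ‖Function.Periodic.qParam (h : ℝ) ((ptI 0 : ℍ) : ℂ)‖ with hρ
  have hρpos : 0 < ρ := norm_pos_iff.mpr (qParam_ne_zero' h _)
  have hbound : Summable (fun m : ℕ => ‖L.coeff (k + m)‖ * ρ ^ m) := by
    have := (key (ptI 0)).summable.norm
    simpa [norm_mul, norm_pow] using this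
  have hlim := tendsto_tsum_of_dominated_convergence (𝓕 := atImInfty)
    (f := fun (z : ℍ) (m : ℕ) => L.coeff (k + m) * Function.Periodic.qParam (h : ℝ) (z : ℂ) ^ m)
    (g := fun m : ℕ => if m = 0 then L.coeff k else 0)
    (bound := fun m : ℕ => ‖L.coeff (k + m)‖ * ρ ^ m) hbound ?_ ?_
  · rw [tsum_ite_eq] at hlim
    refine hlim.congr (fun z => ?_)
    exact (key z).tsum_eq
  · intro m
    rcases Nat.eq_zero_or_pos m with rfl | hm
    · simp
    · simp only [if_neg hm.ne']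
      have := (tendsto_qParam_pow h hm.ne').const_mul (L.coeff (k + m))
      rwa [mul_zero] at this
  · have h1 : Tendsto (fun z : ℍ => ‖Function.Periodic.qParam (h : ℝ) (z : ℂ)‖) atImInfty
        (𝓝 0) := by
      simpa using (UpperHalfPlane.qParam_tendsto_atImInfty (hpos' h)).norm
    filter_upwards [h1.eventually (gt_mem_nhds hρpos)] with z hz m
    rw [norm_mul, norm_pow]
    exact mul_le_mul_of_nonneg_left (pow_le_pow_left₀ (norm_nonneg _) hz.le m) (norm_nonneg _)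

/-- The order at `i∞` in the sense of `ModDefs.ordInf` is determined by one asymptotic. -/
theorem ordInf_eq_of_tendsto (h : ℕ) [NeZero h] (G : ℍ → ℂ) (m : ℤ) (c : ℂ) (hc : c ≠ 0)
    (hm : Tendsto (fun z : ℍ => Function.Periodic.qParam (h : ℝ) (z : ℂ) ^ (-m) * G z)
      atImInfty (𝓝 c)) : ordInf h G = m := by
  have hex : ∃ m : ℤ, ∃ c : ℂ, c ≠ 0 ∧
      Tendsto (fun z : ℍ => Function.Periodic.qParam (h : ℝ) (z : ℂ) ^ (-m) * G z) atImInfty
        (𝓝 c) := ⟨m, c, hc, hm⟩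
  rw [ordInf, dif_pos hex]
  obtain ⟨c', hc', hm'⟩ := hex.choose_spec
  generalize hex.choose = m' at hm'
  have aux : ∀ (m₁ m₂ : ℤ) (c₁ c₂ : ℂ), c₁ ≠ 0 →
      Tendsto (fun z : ℍ => Function.Periodic.qParam (h : ℝ) (z : ℂ) ^ (-m₁) * G z)
        atImInfty (𝓝 c₁) →
      Tendsto (fun z : ℍ => Function.Periodic.qParam (h : ℝ) (z : ℂ) ^ (-m₂) * G z)
        atImInfty (𝓝 c₂) → ¬ m₁ < m₂ := by
    intro m₁ m₂ c₁ c₂ hc₁ h₁ h₂ hlt
    have h3 := (tendsto_qParam_zpow h (sub_pos.mpr hlt)).mul h₂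
    rw [zero_mul] at h3
    have h4 : (fun z : ℍ => Function.Periodic.qParam (h : ℝ) (z : ℂ) ^ (m₂ - m₁) *
        (Function.Periodic.qParam (h : ℝ) (z : ℂ) ^ (-m₂) * G z))
        = fun z : ℍ => Function.Periodic.qParam (h : ℝ) (z : ℂ) ^ (-m₁) * G z := by
      funext z
      rw [← mul_assoc, ← zpow_add₀ (qParam_ne_zero' h z)]
      congr 2
      ring
    rw [h4] at h3
    exact hc₁ (tendsto_nhds_unique h₁ h3)
  rcases lt_trichotomy m' m with hlt | heq | hgt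
  · exact absurd hlt (aux m' m c' c hc' hm' hm)
  · exact heq
  · exact absurd hgt (aux m m' c c' hc hm hm')

/-- `ordInf` of a function with a nonzero global `q_h`-expansion is the order of the expansion. -/
theorem HasQExp.ordInf_eq {h : ℕ} [NeZero h] {G : ℍ → ℂ} {L : LaurentSeries ℂ}
    (hf : HasQExp h G L) (hL : L ≠ 0) : ordInf h G = L.order :=
  ordInf_eq_of_tendsto h G L.order (L.coeff L.order)
    (fun h0 => hL (HahnSeries.coeff_order_eq_zero.mp h0)) hf.tendsto_atImInfty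

/-- Change of level: an expansion in `q_h` is an expansion in `q_{h m}`. -/
theorem HasQExp.level {h : ℕ} {f : ℍ → ℂ} {L : LaurentSeries ℂ} (hf : HasQExp h f L) (m : ℕ)
    [NeZero m] : HasQExp (h * m) f (qExpand ℂ m L) := by
  intro τ
  rw [hasSum_qExpand]
  have : Function.Periodic.qParam ((h * m : ℕ) : ℝ) (τ : ℂ) ^ m
      = Function.Periodic.qParam (h : ℝ) (τ : ℂ) := by
    rw [Function.Periodic.qParam, Function.Periodic.qParam, ← Complex.exp_nat_mul]
    congr 1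
    have hm : (m : ℂ) ≠ 0 := by exact_mod_cast NeZero.ne m
    push_cast
    by_cases hh : (h : ℂ) = 0
    · simp [hh]
    field_simp
  rw [this]
  exact hf τ

/-! ### The expansions of `z ↦ J (d (g⁻¹ z))` -/

/-- Roots of unity of `ℂ` lie in the image of `ℚ̄`. -/
theorem exists_unit_map_iotaK_eq_zetaU (e : ℕ) [NeZero e] (b : ℤ) :
    ∃ w : KQˣ, w ^ e = 1 ∧ Units.map (iotaK : KQ →* ℂ) w = zetaU e b := by
  obtain ⟨ζ, hζ⟩ := HasEnoughRootsOfUnity.exists_primitiveRoot KQ e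
  have hζ' : IsPrimitiveRoot (iotaK ζ) e := hζ.map_of_injective iotaK.injective
  have hpow : ((zetaU e b : ℂˣ) : ℂ) ^ e = 1 := by
    rw [zetaU, Units.val_mk0, ← Complex.exp_nat_mul]
    have he : (e : ℂ) ≠ 0 := by exact_mod_cast NeZero.ne e
    rw [show (e : ℂ) * (2 * Real.pi * Complex.I * b / e) = (b : ℂ) * (2 * Real.pi * Complex.I) by
      field_simp]
    exact Complex.exp_int_mul_two_pi_mul_I b
  obtain ⟨i, -, hi⟩ := hζ'.eq_pow_of_pow_eq_one hpow
  refine ⟨(Units.mk0 ζ (hζ.ne_zero (NeZero.ne e))) ^ i, ?_, ?_⟩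
  · ext
    simp only [Units.val_pow_eq_pow_val, Units.val_mk0, Units.val_one]
    rw [← pow_mul, mul_comm, pow_mul, hζ.pow_eq_one, one_pow]
  · ext
    simp only [map_pow, Units.coe_map, Units.val_pow_eq_pow_val, Units.val_mk0,
      MonoidHom.coe_coe]
    exact hi

/-- Function-level Hermite normal form: `z ↦ J (d (g⁻¹ z))` is `z ↦ J ((a z + b) / e)`. -/
theorem exists_trans_Jabd_eq (g : SL(2, ℤ)) (d : ℕ) (hd : 0 < d) :
    ∃ a b e : ℕ, a * e = d ∧ b < e ∧ trans g (Jabd d 0 1) = Jabd a b e := by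
  obtain ⟨a, b, e, hae, hbe, -, hJ⟩ := HNF.exists_hnf_fun Jfun JPt.Jfun_smul g⁻¹ d hd
  refine ⟨a, b, e, hae, hbe, ?_⟩
  have ha : 0 < a := Nat.pos_of_ne_zero (by rintro rfl; simp at hae; omega)
  have he : 0 < e := Nat.pos_of_ne_zero (by rintro rfl; simp at hae; omega)
  funext z
  have h1 : 0 < ((((d : ℕ) : ℂ) * ((g⁻¹ • z : ℍ) : ℂ) + ((0 : ℕ) : ℂ)) / ((1 : ℕ) : ℂ)).im := by
    have := (g⁻¹ • z).im_pos
    have hd' : (0 : ℝ) < d := by exact_mod_cast hd
    simp only [Nat.cast_zero, add_zero, Nat.cast_one, div_one, Complex.mul_im, Complex.natCast_re,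
      Complex.natCast_im, zero_mul]
    positivity
  have h2 : 0 < ((((a : ℕ) : ℂ) * (z : ℂ) + ((b : ℕ) : ℂ)) / ((e : ℕ) : ℂ)).im := by
    have := z.im_pos
    have ha' : (0 : ℝ) < a := by exact_mod_cast ha
    have he' : (0 : ℝ) < e := by exact_mod_cast he
    have : ((((a : ℕ) : ℂ) * (z : ℂ) + ((b : ℕ) : ℂ)) / ((e : ℕ) : ℂ)).im = a * z.im / e := by
      simp [Complex.div_natCast_im]
    rw [this]
    positivity
  show Jfun (ofComplex ((((d : ℕ) : ℂ) * ((g⁻¹ • z : ℍ) : ℂ) + ((0 : ℕ) : ℂ)) / ((1 : ℕ) : ℂ)))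
    = Jfun (ofComplex ((((a : ℕ) : ℂ) * (z : ℂ) + ((b : ℕ) : ℂ)) / ((e : ℕ) : ℂ)))
  rw [ofComplex_apply_of_im_pos h1, ofComplex_apply_of_im_pos h2]
  exact hJ z ⟨_, h1⟩ ⟨_, h2⟩ (by simp) rfl

theorem coeffMap_iotaK_coeffEmb (x : LaurentSeries ℚ) :
    coeffMap iotaK (coeffEmb KQ x) = coeffMap (algebraMap ℚ ℂ) x := by
  rw [coeffEmb, coeffMap_coeffMap]
  exact coeffMap_congr (RingHom.ext_rat _ _) _

/-- **Cusp expansion of a generator.** For `g ∈ SL(2, ℤ)` and `d ∣ N`, the function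
`z ↦ J (d (g⁻¹ z))` has a `q_N`-expansion with coefficients in `ℚ̄`, of the explicit shape
`J (w q_N ^ (a N / e))` with `a e = d` and `w` an `e`-th root of unity. -/
theorem exists_cuspSeries (N : ℕ) [NeZero N] (g : SL(2, ℤ)) (d : Dv N) :
    ∃ S : LaurentSeries KQ, HasQExp N (trans g (Jabd d.1 0 1)) (coeffMap iotaK S) ∧
      ∃ (a e : ℕ) (w : KQˣ) (_ : NeZero a) (_ : NeZero (N / e)), a * e = d.1 ∧ e ∣ N ∧
        w ^ e = 1 ∧ S = qExpand KQ (N / e) (qExpand KQ a (rot w (coeffEmb KQ jq))) := by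
  have hd : 0 < d.1 := Nat.pos_of_ne_zero d.neZero.ne
  obtain ⟨a, b, e, hae, hbe, htr⟩ := exists_trans_Jabd_eq g d.1 hd
  have ha : NeZero a := ⟨by rintro rfl; simp at hae; omega⟩
  have he : NeZero e := ⟨by rintro rfl; simp at hae; omega⟩
  have heN : e ∣ N := (Dvd.intro_left a hae).trans d.2
  have hNe : NeZero (N / e) :=
    ⟨(Nat.div_pos (Nat.le_of_dvd (Nat.pos_of_ne_zero (NeZero.ne N)) heN)
      (Nat.pos_of_ne_zero he.ne)).ne'⟩
  obtain ⟨w, hw1, hw⟩ := exists_unit_map_iotaK_eq_zetaU e (b : ℤ)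
  refine ⟨qExpand KQ (N / e) (qExpand KQ a (rot w (coeffEmb KQ jq))), ?_,
    a, e, w, ha, hNe, hae, heN, hw1, rfl⟩
  rw [htr, coeffMap_qExpand, coeffMap_qExpand, coeffMap_rot, hw, coeffMap_iotaK_coeffEmb]
  have h1 := (hasQExp_Jabd a b e).level (N / e)
  rwa [Nat.mul_div_cancel' heN] at h1

/-- The `q_N`-expansion (over `ℚ̄`) of `z ↦ J (d (g⁻¹ z))`. -/
def cuspSeries (N : ℕ) [NeZero N] (g : SL(2, ℤ)) (d : Dv N) : LaurentSeries KQ :=
  (exists_cuspSeries N g d).choose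

theorem hasQExp_cuspSeries (N : ℕ) [NeZero N] (g : SL(2, ℤ)) (d : Dv N) :
    HasQExp N (trans g (Jabd d.1 0 1)) (coeffMap iotaK (cuspSeries N g d)) :=
  (exists_cuspSeries N g d).choose_spec.1

theorem cuspSeries_shape (N : ℕ) [NeZero N] (g : SL(2, ℤ)) (d : Dv N) :
    ∃ (a e : ℕ) (w : KQˣ) (_ : NeZero a) (_ : NeZero (N / e)), a * e = d.1 ∧ e ∣ N ∧
      w ^ e = 1 ∧ cuspSeries N g d = qExpand KQ (N / e) (qExpand KQ a (rot w (coeffEmb KQ jq))) :=
  (exists_cuspSeries N g d).choose_spec.2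

/-- Composition with `g⁻¹` as a ring endomorphism of the functions on `ℍ`. -/
def transHom (g : SL(2, ℤ)) : (ℍ → ℂ) →+* (ℍ → ℂ) where
  toFun G := trans g G
  map_one' := rfl
  map_mul' _ _ := rfl
  map_zero' := rfl
  map_add' _ _ := rfl

theorem trans_ev (N : ℕ) (g : SL(2, ℤ)) (P : MvPolynomial (Dv N) KQ) :
    trans g (ev N P) = MvPolynomial.eval₂ ((Pi.constRingHom ℍ ℂ).comp iotaK)
      (fun d : Dv N => trans g (Jabd d.1 0 1)) P := by
  have h := MvPolynomial.hom_eval₂ P ((Pi.constRingHom ℍ ℂ).comp iotaK) (transHom g)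
    (fun d : Dv N => Jabd d.1 0 1)
  have hc : (transHom g).comp ((Pi.constRingHom ℍ ℂ).comp iotaK)
      = (Pi.constRingHom ℍ ℂ).comp iotaK := by
    ext a z
    rfl
  rw [hc] at h
  exact h

/-- **Cusp expansion of `(ev N P) ∘ g⁻¹`** in `q_N`, with coefficients in `ℚ̄`. -/
theorem hasQExp_trans_ev (N : ℕ) [NeZero N] (g : SL(2, ℤ)) (P : MvPolynomial (Dv N) KQ) :
    HasQExp N (trans g (ev N P)) (coeffMap iotaK (MvPolynomial.aeval (cuspSeries N g) P)) := by
  rw [trans_ev]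
  exact HasQExp.mvPolynomial iotaK _ _ (hasQExp_cuspSeries N g) P

end

end Fermat.Agent.S24.QExp
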