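import Mathlib
import Fermat.Agent.S24.QExpCusp

/-!
# S24 — the cusp embeddings `cuspHom N g : F →+* ℚ̄((q_N))`

* `exists_isRep`: every element of `F` is `fm P / fm Q`;
* `cuspHom N g`: the field embedding `f ↦ q_N`-expansion of `f ∘ g⁻¹` (formal series over `ℚ̄`),
  with `cuspHom N g (fm N P) = cuspPoly N g P`;
* `valCusp_eq_order`: `valCusp N g f = (cuspHom N g f).order`;
* `isRawVal_valCusp`: `valCusp N g` is a raw valuation trivial on `ℚ̄`.
-/

set_option autoImplicit false
open Filter Topology UpperHalfPlane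
open scoped MatrixGroups
namespace Fermat.Agent.S24.QExp
noncomputable section
open ModularCurve Fermat.Agent.S28.Chain Fermat.Agent.S24

/-! ### Every element of `F` is a quotient of polynomials in the generators -/

/-- Evaluation of polynomials at the formal generators, inside `ℚ̄((q))`. -/
def aevalL (N : ℕ) [NeZero N] : MvPolynomial (Dv N) KQ →ₐ[KQ] LaurentSeries KQ :=
  MvPolynomial.aeval (fun d : Dv N => (jFormal N d : LaurentSeries KQ))

theorem coe_fm' (N : ℕ) [NeZero N] (P : MvPolynomial (Dv N) KQ) :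
    ((fm N P : FN N) : LaurentSeries KQ) = aevalL N P := coe_fm N P

/-- The subfield of `ℚ̄((q))` of quotients of polynomials in the generators. -/
def repField (N : ℕ) [NeZero N] : Subfield (LaurentSeries KQ) where
  carrier := {x | ∃ P Q : MvPolynomial (Dv N) KQ, aevalL N Q ≠ 0 ∧ x = aevalL N P / aevalL N Q}
  mul_mem' := by
    rintro _ _ ⟨P, Q, hQ, rfl⟩ ⟨P', Q', hQ', rfl⟩
    exact ⟨P * P', Q * Q', by rw [map_mul]; exact mul_ne_zero hQ hQ', by
      rw [map_mul, map_mul, div_mul_div_comm]⟩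
  one_mem' := ⟨1, 1, by rw [map_one]; exact one_ne_zero, by rw [map_one, div_one]⟩
  add_mem' := by
    rintro _ _ ⟨P, Q, hQ, rfl⟩ ⟨P', Q', hQ', rfl⟩
    exact ⟨P * Q' + Q * P', Q * Q', by rw [map_mul]; exact mul_ne_zero hQ hQ', by
      rw [map_add, map_mul, map_mul, map_mul, div_add_div _ _ hQ hQ']⟩
  zero_mem' := ⟨0, 1, by rw [map_one]; exact one_ne_zero, by rw [map_zero, zero_div]⟩
  neg_mem' := by
    rintro _ ⟨P, Q, hQ, rfl⟩
    exact ⟨-P, Q, hQ, by rw [map_neg, neg_div]⟩
  inv_mem' := by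
    rintro _ ⟨P, Q, hQ, rfl⟩
    by_cases hP : aevalL N P = 0
    · exact ⟨0, 1, by rw [map_one]; exact one_ne_zero, by simp [hP]⟩
    · exact ⟨Q, P, hP, by rw [inv_div]⟩

theorem le_repField (N : ℕ) [NeZero N] :
    (ModularCurve.modularFunctionFieldBar N).toSubfield ≤ repField N := by
  show Subfield.closure _ ≤ repField N
  rw [Subfield.closure_le]
  rintro x (⟨a, rfl⟩ | ⟨y, hy, rfl⟩)
  · exact ⟨MvPolynomial.C a, 1, by rw [map_one]; exact one_ne_zero, by
      rw [map_one, div_one, aevalL, MvPolynomial.aeval_C]⟩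
  · have hle : (ModularCurve.modularFunctionFieldFull N).toSubfield
        ≤ (repField N).comap (coeffEmb KQ) := by
      show Subfield.closure _ ≤ _
      rw [Subfield.closure_le]
      rintro z (⟨r, rfl⟩ | ⟨d, hd0, hdN, rfl⟩)
      · show coeffEmb KQ (algebraMap ℚ (LaurentSeries ℚ) r) ∈ repField N
        refine ⟨MvPolynomial.C (algebraMap ℚ KQ r), 1, by rw [map_one]; exact one_ne_zero, ?_⟩
        rw [map_one, div_one, aevalL, MvPolynomial.aeval_C, algebraMap_laurentSeries_eq_single,
          algebraMap_laurentSeries_eq_single, coeffEmb, coeffMap_single]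
      · show coeffEmb KQ (qExpand ℚ d jq) ∈ repField N
        refine ⟨MvPolynomial.X ⟨d, hdN⟩, 1, by rw [map_one]; exact one_ne_zero, ?_⟩
        rw [map_one, div_one, aevalL, MvPolynomial.aeval_X]
        rfl
    exact hle hy

/-- **Representatives**: every element of `F` is `fm P / fm Q`. -/
theorem exists_isRep (N : ℕ) [NeZero N] (f : FN N) : ∃ P Q, IsRep N f P Q := by
  obtain ⟨P, Q, hQ, hf⟩ := le_repField N f.2
  refine ⟨P, Q, ?_, ?_⟩
  · intro h0
    apply hQ
    rw [← coe_fm', h0]
    rfl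
  · apply Subtype.ext
    rw [hf, ← coe_fm', ← coe_fm']
    rfl

/-! ### The cusp embeddings -/

/-- Evaluation of polynomials at the cusp expansions of the generators. -/
def cuspPoly (N : ℕ) [NeZero N] (g : SL(2, ℤ)) :
    MvPolynomial (Dv N) KQ →ₐ[KQ] LaurentSeries KQ :=
  MvPolynomial.aeval (cuspSeries N g)

theorem hasQExp_trans_ev' (N : ℕ) [NeZero N] (g : SL(2, ℤ)) (P : MvPolynomial (Dv N) KQ) :
    HasQExp N (trans g (ev N P)) (coeffMap iotaK (cuspPoly N g P)) :=
  hasQExp_trans_ev N g P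

theorem trans_eq_zero_iff (g : SL(2, ℤ)) (G : ℍ → ℂ) : trans g G = 0 ↔ G = 0 := by
  constructor
  · intro h0
    funext z
    have := congrFun h0 (g • z)
    simpa [trans] using this
  · rintro rfl
    rfl

/-- The cusp evaluation has the same kernel as the formal evaluation. -/
theorem cuspPoly_eq_zero_iff (N : ℕ) [NeZero N] (g : SL(2, ℤ)) (P : MvPolynomial (Dv N) KQ) :
    cuspPoly N g P = 0 ↔ fm N P = 0 := by
  rw [← ev_eq_zero_iff, ← trans_eq_zero_iff g]
  have key := (hasQExp_trans_ev' N g P).eq_zero_iff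
  constructor
  · intro h0
    funext z
    exact key.mpr (by rw [h0, map_zero]) z
  · intro h0
    have := key.mp (fun z => by rw [h0]; rfl)
    exact coeffMap_injective' iotaK (by rw [this, map_zero])

theorem ker_fm_le (N : ℕ) [NeZero N] (g : SL(2, ℤ)) :
    RingHom.ker ((fm N).rangeRestrict : MvPolynomial (Dv N) KQ →+* (fm N).range)
      ≤ RingHom.ker (cuspPoly N g : MvPolynomial (Dv N) KQ →+* LaurentSeries KQ) := by
  intro P hP
  rw [RingHom.mem_ker] at hP ⊢
  have : fm N P = 0 := by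
    have := congrArg Subtype.val hP
    simpa using this
  exact (cuspPoly_eq_zero_iff N g P).mpr this

/-- The cusp embedding on the subalgebra generated by the generators. -/
def cuspHomA (N : ℕ) [NeZero N] (g : SL(2, ℤ)) : (fm N).range →+* LaurentSeries KQ :=
  RingHom.liftOfSurjective ((fm N).rangeRestrict : MvPolynomial (Dv N) KQ →+* (fm N).range)
    (fm N).rangeRestrict_surjective ⟨(cuspPoly N g : MvPolynomial (Dv N) KQ →+* _), ker_fm_le N g⟩

theorem cuspHomA_apply (N : ℕ) [NeZero N] (g : SL(2, ℤ)) (P : MvPolynomial (Dv N) KQ) :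
    cuspHomA N g ((fm N).rangeRestrict P) = cuspPoly N g P :=
  RingHom.liftOfSurjective_comp_apply _ _ _ P

theorem cuspHomA_injective (N : ℕ) [NeZero N] (g : SL(2, ℤ)) :
    Function.Injective (cuspHomA N g) := by
  rw [injective_iff_map_eq_zero]
  intro a ha
  obtain ⟨P, rfl⟩ := (fm N).rangeRestrict_surjective a
  rw [cuspHomA_apply, cuspPoly_eq_zero_iff] at ha
  exact Subtype.ext ha

instance isFractionRing_range_fm (N : ℕ) [NeZero N] : IsFractionRing (fm N).range (FN N) := by
  refine IsFractionRing.of_field _ _ (fun f => ?_)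
  obtain ⟨P, Q, -, hf⟩ := exists_isRep N f
  exact ⟨(fm N).rangeRestrict P, (fm N).rangeRestrict Q, hf⟩

/-- **The cusp embedding** `F → ℚ̄((q_N))` attached to `g ∈ SL(2, ℤ)`: the `q_N`-expansion of
`f ∘ g⁻¹` at `i∞`. -/
def cuspHom (N : ℕ) [NeZero N] (g : SL(2, ℤ)) : FN N →+* LaurentSeries KQ :=
  IsFractionRing.lift (cuspHomA_injective N g)

theorem cuspHom_fm (N : ℕ) [NeZero N] (g : SL(2, ℤ)) (P : MvPolynomial (Dv N) KQ) :
    cuspHom N g (fm N P) = cuspPoly N g P := by
  have := IsFractionRing.lift_algebraMap (K := FN N) (cuspHomA_injective N g)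
    ((fm N).rangeRestrict P)
  rw [cuspHomA_apply] at this
  exact this

theorem cuspHom_injective (N : ℕ) [NeZero N] (g : SL(2, ℤ)) :
    Function.Injective (cuspHom N g) := (cuspHom N g).injective

theorem cuspHom_algebraMap (N : ℕ) [NeZero N] (g : SL(2, ℤ)) (a : KQ) :
    cuspHom N g (algebraMap KQ (FN N) a) = algebraMap KQ (LaurentSeries KQ) a := by
  have h1 : algebraMap KQ (FN N) a = fm N (MvPolynomial.C a) := by
    rw [fm, MvPolynomial.aeval_C]
  rw [h1, cuspHom_fm, cuspPoly, MvPolynomial.aeval_C]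

/-! ### `valCusp` is the order of the cusp embedding -/

theorem order_coeffMap {K : Type*} [Field K] (ι : K →+* ℂ) (x : LaurentSeries K) :
    (coeffMap ι x).order = x.order := by
  by_cases hx : x = 0
  · subst hx
    simp
  have hx' : coeffMap ι x ≠ 0 := fun h => hx (coeffMap_injective' ι (by rw [h, map_zero]))
  apply le_antisymm
  · apply HahnSeries.order_le_of_coeff_ne_zero
    rw [coeffMap_coeff]
    intro h
    exact (HahnSeries.coeff_order_eq_zero.not.mpr hx) (ι.injective (by rw [h, map_zero]))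
  · apply HahnSeries.order_le_of_coeff_ne_zero
    intro h
    have := HahnSeries.coeff_order_eq_zero.not.mpr hx'
    rw [coeffMap_coeff, h, map_zero] at this
    exact this rfl

theorem order_div' {K : Type*} [Field K] (x y : LaurentSeries K) (hx : x ≠ 0) (hy : y ≠ 0) :
    (x / y).order = x.order - y.order := by
  have h := HahnSeries.order_mul (div_ne_zero hx hy) hy
  rw [div_mul_cancel₀ x hy] at h
  omega

theorem cuspPoly_ne_zero (N : ℕ) [NeZero N] (g : SL(2, ℤ)) {P : MvPolynomial (Dv N) KQ}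
    (hP : fm N P ≠ 0) : cuspPoly N g P ≠ 0 :=
  fun h => hP ((cuspPoly_eq_zero_iff N g P).mp h)

/-- `ordInf` of a translate of `ev N P` is the order of its cusp expansion. -/
theorem ordInf_trans_ev (N : ℕ) [NeZero N] (g : SL(2, ℤ)) (P : MvPolynomial (Dv N) KQ)
    (hP : fm N P ≠ 0) : ordInf N (trans g (ev N P)) = (cuspPoly N g P).order := by
  have hne := cuspPoly_ne_zero N g hP
  rw [(hasQExp_trans_ev' N g P).ordInf_eq
    (fun h => hne (coeffMap_injective' iotaK (by rw [h, map_zero]))), order_coeffMap]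

theorem cuspHom_of_isRep (N : ℕ) [NeZero N] (g : SL(2, ℤ)) {f : FN N}
    {P Q : MvPolynomial (Dv N) KQ} (h : IsRep N f P Q) :
    cuspHom N g f = cuspPoly N g P / cuspPoly N g Q := by
  rw [h.2, map_div₀, cuspHom_fm, cuspHom_fm]

/-- **`valCusp` is the order of the cusp embedding.** -/
theorem valCusp_eq_order (N : ℕ) [NeZero N] (g : SL(2, ℤ)) (f : FN N) (hf : f ≠ 0) :
    valCusp N g f = (cuspHom N g f).order := by
  have hex := exists_isRep N f
  rw [valCusp, dif_pos hex]
  have hrep := hex.choose_spec.choose_spec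
  have hQ : fm N hex.choose_spec.choose ≠ 0 := hrep.1
  have hP : fm N hex.choose ≠ 0 := by
    intro h0
    apply hf
    rw [hrep.2, h0, zero_div]
  rw [ordInf_trans_ev N g _ hP, ordInf_trans_ev N g _ hQ, cuspHom_of_isRep N g hrep,
    order_div' _ _ (cuspPoly_ne_zero N g hP) (cuspPoly_ne_zero N g hQ)]

/-- `valCusp` on any representative. -/
theorem valCusp_eq_of_isRep (N : ℕ) [NeZero N] (g : SL(2, ℤ)) {f : FN N} (hf : f ≠ 0)
    {P Q : MvPolynomial (Dv N) KQ} (h : IsRep N f P Q) :
    valCusp N g f = ordInf N (trans g (ev N P)) - ordInf N (trans g (ev N Q)) := by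
  have hQ : fm N Q ≠ 0 := h.1
  have hP : fm N P ≠ 0 := by
    intro h0
    apply hf
    rw [h.2, h0, zero_div]
  rw [valCusp_eq_order N g f hf, ordInf_trans_ev N g _ hP, ordInf_trans_ev N g _ hQ,
    cuspHom_of_isRep N g h, order_div' _ _ (cuspPoly_ne_zero N g hP) (cuspPoly_ne_zero N g hQ)]

/-- **[VAL], cusp half**: `valCusp N g` is a raw valuation of `F` trivial on `ℚ̄`. -/
theorem isRawVal_valCusp (N : ℕ) [NeZero N] (g : SL(2, ℤ)) :
    Counting.IsRawVal KQ (valCusp N g) where
  map_mul f₁ f₂ h₁ h₂ := by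
    rw [valCusp_eq_order N g _ (mul_ne_zero h₁ h₂), valCusp_eq_order N g _ h₁,
      valCusp_eq_order N g _ h₂, map_mul]
    exact HahnSeries.order_mul ((map_ne_zero _).mpr h₁) ((map_ne_zero _).mpr h₂)
  map_add f₁ f₂ h₁ h₂ h₁₂ := by
    rw [valCusp_eq_order N g _ h₁₂, valCusp_eq_order N g _ h₁, valCusp_eq_order N g _ h₂, map_add]
    exact HahnSeries.min_order_le_order_add (by rw [← map_add]; exact (map_ne_zero _).mpr h₁₂)
  map_algebraMap a ha := by
    rw [valCusp_eq_order N g _ ((map_ne_zero _).mpr ha), cuspHom_algebraMap,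
      algebraMap_laurentSeries_eq_single]
    exact HahnSeries.order_single ha

end
end Fermat.Agent.S24.QExp
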