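import Fermat.Agent.S24.ModDefs
import Fermat.Agent.S24.JOrd
import Fermat.Agent.S24.HNF

/-!
# S24, package B-HNF on the names of `ModDefs`

* `Jfun_smul`, `Jfun_eq_iff` : `Jfun` is `SL(2, ℤ)`-invariant and separates orbits.
* `affPt a b e z` : the point `(a z + b) / e` of `ℍ`; `Jabd_eq : Jabd a b e z = Jfun (affPt …)`.
* `trans_Jabd` : `trans g (Jabd d 0 1) = Jabd a b e` with `a e = d`, `b < e`,
  `a = gcd (d g⁻¹₀₀, g⁻¹₁₀)`.
* `Jabd_smul_of_mem_Gamma0`, `ev_smul_of_mem_Gamma0`, `trans_ev_of_mem_Gamma0`,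
  `trans_ev_eq_of_coset_eq` : `Γ₀(N)`-invariance.
* `trans_JN_eq_iff` : `trans g (Jabd N 0 1) = trans h (Jabd N 0 1) ↔ (g : XN N) = h`.
* `ev_apply`, `trans_ev_apply`, `exists_trans_ev` : `trans g (ev N P)` is `P` evaluated at the
  functions `Jabd (a d) (b d) (e d)`.
-/

open UpperHalfPlane ModularForm
open scoped MatrixGroups Manifold

noncomputable section

namespace Fermat.Agent.S24.HNFMod

open Fermat.Agent.S24

/-- `Jfun` is `SL(2, ℤ)`-invariant. -/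
theorem Jfun_smul (γ : SL(2, ℤ)) (z : ℍ) : Jfun (γ • z) = Jfun z := JOrd.Jf_smul γ z

/-- `Jfun` separates `SL(2, ℤ)`-orbits. -/
theorem Jfun_eq_iff (z z' : ℍ) : Jfun z = Jfun z' ↔ ∃ γ : SL(2, ℤ), γ • z' = z :=
  JOrd.Jf_eq_iff z z'

theorem im_aff_pos (a b e : ℕ) (ha : 0 < a) (he : 0 < e) (z : ℍ) :
    0 < ((((a : ℂ) * z + b) / e)).im := by
  have ha' : (0 : ℝ) < a := by exact_mod_cast ha
  have he' : (0 : ℝ) < e := by exact_mod_cast he
  have : ((((a : ℂ) * z + b) / e)).im = a * z.im / e := by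
    simp [Complex.div_natCast_im]
  rw [this]
  have := z.im_pos
  positivity

/-- The point `(a z + b) / e` of the upper half plane (`a, e > 0`). -/
def affPt (a b e : ℕ) (ha : 0 < a) (he : 0 < e) (z : ℍ) : ℍ :=
  ⟨((a : ℂ) * z + b) / e, im_aff_pos a b e ha he z⟩

@[simp] theorem coe_affPt (a b e : ℕ) (ha : 0 < a) (he : 0 < e) (z : ℍ) :
    (affPt a b e ha he z : ℂ) = ((a : ℂ) * z + b) / e := rfl

theorem coe_affPt_scale (d : ℕ) (hd : 0 < d) (z : ℍ) :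
    (affPt d 0 1 hd one_pos z : ℂ) = (d : ℂ) * z := by
  simp

theorem Jabd_eq (a b e : ℕ) (ha : 0 < a) (he : 0 < e) (z : ℍ) :
    Jabd a b e z = Jfun (affPt a b e ha he z) := by
  unfold Jabd
  rw [ofComplex_apply_of_im_pos (im_aff_pos a b e ha he z)]
  rfl

/-- **B-HNF on `ModDefs`.** `trans g (Jabd d 0 1) = Jabd a b e`, i.e.
`J (d (g⁻¹ z)) = J ((a z + b) / e)`, with `a e = d`, `b < e`. -/
theorem trans_Jabd (g : SL(2, ℤ)) (d : ℕ) (hd : 0 < d) :
    ∃ a b e : ℕ, a * e = d ∧ b < e ∧ 0 < a ∧ 0 < e ∧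
      a = Int.gcd ((d : ℤ) * (g⁻¹ : SL(2, ℤ)) 0 0) ((g⁻¹ : SL(2, ℤ)) 1 0) ∧
      trans g (Jabd d 0 1) = Jabd a b e := by
  obtain ⟨a, b, e, hae, hbe, hgcd, H⟩ := HNF.exists_hnf_fun Jfun Jfun_smul g⁻¹ d hd
  have ha : 0 < a := by
    rcases Nat.eq_zero_or_pos a with h | h
    · rw [h, zero_mul] at hae; omega
    · exact h
  have he : 0 < e := by
    rcases Nat.eq_zero_or_pos e with h | h
    · rw [h, mul_zero] at hae; omega
    · exact h
  refine ⟨a, b, e, hae, hbe, ha, he, hgcd, ?_⟩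
  funext z
  show Jabd d 0 1 (g⁻¹ • z) = Jabd a b e z
  rw [Jabd_eq d 0 1 hd one_pos, Jabd_eq a b e ha he]
  exact H z _ _ (coe_affPt_scale d hd _) (coe_affPt a b e ha he z)

/-- `z ↦ J (d z)` is `Γ₀(N)`-invariant for `d ∣ N`. -/
theorem Jabd_smul_of_mem_Gamma0 (N : ℕ) [NeZero N] (d : Dv N) (γ : SL(2, ℤ))
    (hγ : γ ∈ CongruenceSubgroup.Gamma0 N) (z : ℍ) :
    Jabd d.1 0 1 (γ • z) = Jabd d.1 0 1 z := by
  have hd : 0 < d.1 := Nat.pos_of_ne_zero (d.neZero).ne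
  rw [Jabd_eq d.1 0 1 hd one_pos, Jabd_eq d.1 0 1 hd one_pos]
  exact HNF.invariant_of_mem_Gamma0 Jfun Jfun_smul N d.1 d.2 γ hγ z _ _
    (coe_affPt_scale d.1 hd _) (coe_affPt_scale d.1 hd _)

/-- Pointwise form of `ev`. -/
theorem ev_apply (N : ℕ) (P : MvPolynomial (Dv N) KQ) (z : ℍ) :
    ev N P z = MvPolynomial.eval₂ iotaK (fun d : Dv N => Jabd d.1 0 1 z) P := by
  unfold ev
  induction P using MvPolynomial.induction_on with
  | C c => simp
  | add p q hp hq =>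
    rw [map_add, MvPolynomial.eval₂_add, Pi.add_apply, hp, hq]
  | mul_X p i hp =>
    rw [map_mul, MvPolynomial.eval₂_mul, Pi.mul_apply, hp]
    simp

/-- Pointwise form of `trans g (ev N P)`. -/
theorem trans_ev_apply (N : ℕ) (g : SL(2, ℤ)) (P : MvPolynomial (Dv N) KQ) (z : ℍ) :
    trans g (ev N P) z
      = MvPolynomial.eval₂ iotaK (fun d : Dv N => trans g (Jabd d.1 0 1) z) P :=
  ev_apply N P (g⁻¹ • z)

/-- `ev N P` is `Γ₀(N)`-invariant. -/
theorem ev_smul_of_mem_Gamma0 (N : ℕ) [NeZero N] (P : MvPolynomial (Dv N) KQ) (γ : SL(2, ℤ))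
    (hγ : γ ∈ CongruenceSubgroup.Gamma0 N) (z : ℍ) : ev N P (γ • z) = ev N P z := by
  have h : (fun d : Dv N => Jabd d.1 0 1 (γ • z)) = fun d : Dv N => Jabd d.1 0 1 z :=
    funext fun d => Jabd_smul_of_mem_Gamma0 N d γ hγ z
  rw [ev_apply, ev_apply, h]

/-- `trans (g * γ) (ev N P) = trans g (ev N P)` for `γ ∈ Γ₀(N)`. -/
theorem trans_ev_of_mem_Gamma0 (N : ℕ) [NeZero N] (P : MvPolynomial (Dv N) KQ)
    (g γ : SL(2, ℤ)) (hγ : γ ∈ CongruenceSubgroup.Gamma0 N) :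
    trans (g * γ) (ev N P) = trans g (ev N P) := by
  funext z
  show ev N P ((g * γ)⁻¹ • z) = ev N P (g⁻¹ • z)
  rw [mul_inv_rev, mul_smul]
  exact ev_smul_of_mem_Gamma0 N P γ⁻¹ (inv_mem hγ) _

/-- `trans g (ev N P)` depends only on the left coset `g Γ₀(N)`. -/
theorem trans_ev_eq_of_coset_eq (N : ℕ) [NeZero N] (P : MvPolynomial (Dv N) KQ)
    (g h : SL(2, ℤ)) (hgh : (g : XN N) = h) : trans g (ev N P) = trans h (ev N P) := by
  rw [QuotientGroup.eq] at hgh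
  have := trans_ev_of_mem_Gamma0 N P g (g⁻¹ * h) hgh
  rw [mul_inv_cancel_left] at this
  exact this.symm

/-- **Distinct conjugates.** `trans g (Jabd N 0 1) = trans h (Jabd N 0 1)` iff `g` and `h`
define the same left coset of `Γ₀(N)`. -/
theorem trans_JN_eq_iff (N : ℕ) [NeZero N] (g h : SL(2, ℤ)) :
    trans g (Jabd N 0 1) = trans h (Jabd N 0 1) ↔ (g : XN N) = h := by
  have hN : 0 < N := Nat.pos_of_ne_zero (NeZero.ne N)
  rw [HNF.coset_eq_iff_conj_eq Jfun Jfun_smul (fun τ τ' h => (Jfun_eq_iff τ τ').mp h) N hN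
    (affPt N 0 1 hN one_pos) (coe_affPt_scale N hN) g h]
  constructor
  · intro H τ
    have := congrFun H τ
    simp only [trans] at this
    rwa [Jabd_eq N 0 1 hN one_pos, Jabd_eq N 0 1 hN one_pos] at this
  · intro H
    funext τ
    show Jabd N 0 1 (g⁻¹ • τ) = Jabd N 0 1 (h⁻¹ • τ)
    rw [Jabd_eq N 0 1 hN one_pos, Jabd_eq N 0 1 hN one_pos]
    exact H τ

/-- The generator `X_N` evaluated: `ev N (X ⟨N, _⟩) = Jabd N 0 1`. -/
theorem ev_X (N : ℕ) (d : Dv N) : ev N (MvPolynomial.X d) = Jabd d.1 0 1 := by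
  funext z
  rw [ev_apply, MvPolynomial.eval₂_X]

/-- Distinct conjugates of the generator `X_N`: if the translates of every `ev N P` by `g` and
`h` agree, then `g` and `h` define the same coset. -/
theorem coset_eq_of_trans_ev_eq (N : ℕ) [NeZero N] (g h : SL(2, ℤ))
    (H : ∀ P : MvPolynomial (Dv N) KQ, trans g (ev N P) = trans h (ev N P)) :
    (g : XN N) = h := by
  have := H (MvPolynomial.X ⟨N, dvd_rfl⟩)
  rw [ev_X] at this
  exact (trans_JN_eq_iff N g h).mp this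

/-- **`trans g (ev N P)` as a polynomial in the functions `J ((a z + b) / e)`.** -/
theorem exists_trans_ev (N : ℕ) [NeZero N] (g : SL(2, ℤ)) :
    ∃ a b e : Dv N → ℕ, (∀ d, a d * e d = d.1 ∧ b d < e d ∧ 0 < a d ∧ 0 < e d ∧
        a d = Int.gcd ((d.1 : ℤ) * (g⁻¹ : SL(2, ℤ)) 0 0) ((g⁻¹ : SL(2, ℤ)) 1 0)) ∧
      (∀ d : Dv N, trans g (Jabd d.1 0 1) = Jabd (a d) (b d) (e d)) ∧
      ∀ (P : MvPolynomial (Dv N) KQ) (z : ℍ), trans g (ev N P) z
        = MvPolynomial.eval₂ iotaK (fun d : Dv N => Jabd (a d) (b d) (e d) z) P := by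
  have hd : ∀ d : Dv N, 0 < d.1 := fun d => Nat.pos_of_ne_zero (d.neZero).ne
  choose a b e hae hbe ha he hgcd htr using fun d : Dv N => trans_Jabd g d.1 (hd d)
  refine ⟨a, b, e, fun d => ⟨hae d, hbe d, ha d, he d, hgcd d⟩, htr, fun P z => ?_⟩
  have h : (fun d : Dv N => trans g (Jabd d.1 0 1) z) = fun d : Dv N => Jabd (a d) (b d) (e d) z :=
    funext fun d => by rw [htr d]
  rw [trans_ev_apply, h]

/-- `trans h (Jabd d 0 1) = Jabd d 0 1` for `h ∈ Γ₀(N)`, `d ∣ N`. -/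
theorem trans_Jabd_of_mem_Gamma0 (N : ℕ) [NeZero N] (h : SL(2, ℤ))
    (hh : h ∈ CongruenceSubgroup.Gamma0 N) (d : Dv N) :
    trans h (Jabd d.1 0 1) = Jabd d.1 0 1 := by
  funext z
  exact Jabd_smul_of_mem_Gamma0 N d h⁻¹ (inv_mem hh) z

/-- The translates of `z ↦ J (N z)` by coset representatives are pairwise distinct. -/
theorem injective_trans_out (N : ℕ) [NeZero N] :
    Function.Injective (fun q : XN N => trans q.out (Jabd N 0 1)) := by
  intro q q' hqq'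
  have := (trans_JN_eq_iff N q.out q'.out).mp hqq'
  rwa [QuotientGroup.out_eq', QuotientGroup.out_eq'] at this

/-- The translates `trans q.out (ev N (X_N))` are pairwise distinct. -/
theorem injective_trans_out_ev (N : ℕ) [NeZero N] :
    Function.Injective
      (fun q : XN N => trans q.out (ev N (MvPolynomial.X (⟨N, dvd_rfl⟩ : Dv N)))) := by
  intro q q' hqq'
  apply injective_trans_out N
  simpa only [ev_X] using hqq'

end Fermat.Agent.S24.HNFMod
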