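import Fermat.Agent.S20.L1Basic
import Fermat.Prelude.Def_ModularCurve_LaurentCoeff
import Fermat.Prelude.Def_ModularCurve_X0

/-!
# S24 — B-INV: level-one invariants are polynomials in `J`

* `exists_poly_of_invariant`: a holomorphic `SL(2, ℤ)`-invariant function `f` on `ℍ` such that
  `Δ ^ m * f` is bounded at `i∞` is a polynomial of degree `≤ m` in `J = E₄ ^ 3 / Δ`.
* `poly_eq_zero_of_forall_eval_J`: `J` is "transcendental": a polynomial vanishing at all values
  of `J` is zero.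
* `exists_poly_descent`: formal `K`-rationality — if `P(jq)` (a Laurent series over `ℂ`) has
  coefficients in the image of `ι : K →+* ℂ`, then `P` has coefficients in the image of `ι`.
-/

set_option autoImplicit false

open UpperHalfPlane ModularForm Matrix.SpecialLinearGroup Filter
open scoped MatrixGroups Manifold ModularForm Topology

namespace Fermat.Agent.S24.LevelOneInv

open Fermat.Agent.S20

noncomputable section

/-- `Δ ^ m` is a level-one modular form of weight `12 m`. -/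
theorem isMF_Δf_pow (m : ℕ) : IsMF ⊤ (12 * (m : ℤ)) (Δf ^ m) := by
  induction m with
  | zero =>
    have h1 : IsMF ⊤ 0 (E4f ^ 0 * E6f ^ 0) :=
      monoSpan_le_MFsub 0 (Submodule.subset_span ⟨0, 0, by norm_num, rfl⟩)
    simpa using h1
  | succ n ih =>
    have h := ih.mul isCF_Δf.isMF
    have e : (12 * ((n + 1 : ℕ) : ℤ)) = 12 * (n : ℤ) + 12 := by push_cast; ring
    rw [e, pow_succ]
    exact h

/-- Weight-zero slash of an invariant function. -/
theorem slash_zero_of_invariant (f : ℍ → ℂ) (hinv : ∀ (γ : SL(2, ℤ)) (z : ℍ), f (γ • z) = f z)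
    (γ : SL(2, ℤ)) : f ∣[(0 : ℤ)] γ = f := by
  funext z
  rw [ModularForm.SL_slash_apply, hinv]
  simp

/-- An invariant holomorphic function with a pole of order `≤ m` at `i∞`, multiplied by `Δ ^ m`,
is a level-one modular form of weight `12 m`. -/
theorem isMF_Δf_pow_mul (f : ℍ → ℂ) (hf : MDifferentiable 𝓘(ℂ) 𝓘(ℂ) f)
    (hinv : ∀ (γ : SL(2, ℤ)) (z : ℍ), f (γ • z) = f z) (m : ℕ)
    (hb : IsBoundedAtImInfty (Δf ^ m * f)) : IsMF ⊤ (12 * (m : ℤ)) (Δf ^ m * f) := by
  have hΔ := isMF_Δf_pow m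
  have hsl : ∀ γ : SL(2, ℤ), (Δf ^ m * f) ∣[(12 * (m : ℤ))] γ = Δf ^ m * f := by
    intro γ
    have e : (12 * (m : ℤ)) = 12 * (m : ℤ) + 0 := by ring
    rw [e, mul_slash_SL2, hΔ.2.1 γ (Subgroup.mem_top γ), slash_zero_of_invariant f hinv γ]
  refine ⟨hΔ.1.mul hf, fun γ _ => hsl γ, fun γ => ?_⟩
  rw [hsl γ]
  exact hb

/-- Every element of `monoSpan E4f E6f (12 m)` is `Δ ^ m * P(J)` with `deg P ≤ m`. -/
theorem exists_poly_of_mem_monoSpan (m : ℕ) (g : ℍ → ℂ)
    (hg : g ∈ monoSpan E4f E6f (12 * (m : ℤ))) :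
    ∃ P : Polynomial ℂ, P.natDegree ≤ m ∧
      ∀ z, g z = Δf z ^ m * P.eval (E4f z ^ 3 / Δf z) := by
  unfold monoSpan at hg
  refine Submodule.span_induction (p := fun g _ => ∃ P : Polynomial ℂ, P.natDegree ≤ m ∧
      ∀ z, g z = Δf z ^ m * P.eval (E4f z ^ 3 / Δf z)) ?_ ?_ ?_ ?_ hg
  · rintro g ⟨a, b, hab, rfl⟩
    have hab' : 4 * a + 6 * b = 12 * m := by exact_mod_cast hab
    obtain ⟨b', rfl⟩ : ∃ b', b = 2 * b' := ⟨b / 2, by omega⟩
    obtain ⟨a', rfl⟩ : ∃ a', a = 3 * a' := ⟨a / 3, by omega⟩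
    have hm : m = a' + b' := by omega
    refine ⟨Polynomial.X ^ a' * (Polynomial.X - Polynomial.C 1728) ^ b', ?_, fun z => ?_⟩
    · refine (Polynomial.natDegree_mul_le).trans ?_
      refine (add_le_add (Polynomial.natDegree_pow_le) (Polynomial.natDegree_pow_le)).trans ?_
      rw [Polynomial.natDegree_X, Polynomial.natDegree_X_sub_C]
      omega
    · have hΔ := Δf_ne_zero z
      have h1728 := Δf_eq z
      simp only [Pi.mul_apply, Pi.pow_apply, Polynomial.eval_mul, Polynomial.eval_pow,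
        Polynomial.eval_X, Polynomial.eval_sub, Polynomial.eval_C]
      have e6 : E6f z ^ 2 = E4f z ^ 3 - 1728 * Δf z := by rw [h1728]; ring
      have e1 : E4f z ^ 3 / Δf z - 1728 = E6f z ^ 2 / Δf z := by
        rw [e6]; field_simp
      rw [e1, hm, pow_add, div_pow, div_pow]
      field_simp
      ring
  · exact ⟨0, by simp, fun z => by simp⟩
  · rintro x y _ _ ⟨P, hP, hPz⟩ ⟨Q, hQ, hQz⟩
    exact ⟨P + Q, (Polynomial.natDegree_add_le _ _).trans (max_le hP hQ), fun z => by
      simp [hPz z, hQz z, mul_add]⟩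
  · rintro c x _ ⟨P, hP, hPz⟩
    exact ⟨Polynomial.C c * P, (Polynomial.natDegree_C_mul_le _ _).trans hP, fun z => by
      simp [hPz z]; ring⟩

/-- **B-INV.** A holomorphic `SL(2, ℤ)`-invariant function on `ℍ` with `Δ ^ m * f` bounded at
`i∞` is a polynomial of degree `≤ m` in `J = E₄ ^ 3 / Δ`. -/
theorem exists_poly_of_invariant (f : ℍ → ℂ) (hf : MDifferentiable 𝓘(ℂ) 𝓘(ℂ) f)
    (hinv : ∀ (γ : SL(2, ℤ)) (z : ℍ), f (γ • z) = f z) (m : ℕ)
    (hb : IsBoundedAtImInfty (Δf ^ m * f)) :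
    ∃ P : Polynomial ℂ, P.natDegree ≤ m ∧ ∀ z, f z = P.eval (E4f z ^ 3 / Δf z) := by
  have hMF := isMF_Δf_pow_mul f hf hinv m hb
  obtain ⟨P, hP, hPz⟩ := exists_poly_of_mem_monoSpan m _
    (levelOne_mem_monoSpan _ _ hMF)
  refine ⟨P, hP, fun z => ?_⟩
  have h := hPz z
  simp only [Pi.mul_apply, Pi.pow_apply] at h
  exact mul_left_cancel₀ (pow_ne_zero m (Δf_ne_zero z)) h

/-- A holomorphic `SL(2, ℤ)`-invariant function bounded at `i∞` is constant. -/
theorem exists_const_of_invariant_bounded (f : ℍ → ℂ) (hf : MDifferentiable 𝓘(ℂ) 𝓘(ℂ) f)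
    (hinv : ∀ (γ : SL(2, ℤ)) (z : ℍ), f (γ • z) = f z) (hb : IsBoundedAtImInfty f) :
    ∃ c : ℂ, ∀ z, f z = c := by
  obtain ⟨P, hP, hPz⟩ := exists_poly_of_invariant f hf hinv 0 (by simpa using hb)
  refine ⟨P.coeff 0, fun z => ?_⟩
  rw [hPz z, Polynomial.eq_C_of_natDegree_le_zero hP, Polynomial.eval_C]
  simp

/-! ### `J` is unbounded, hence "transcendental" -/

/-- `|J| → ∞` at `i∞`. -/
theorem tendsto_norm_J_atTop :
    Tendsto (fun z : ℍ => ‖E4f z ^ 3 / Δf z‖) atImInfty atTop := by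
  have h4 : Tendsto (fun z : ℍ => ‖E4f z‖ ^ 3) atImInfty (𝓝 1) := by
    have := (tendsto_E4f.norm).pow 3
    simpa using this
  have hΔ0 : Tendsto (fun z : ℍ => ‖Δf z‖) atImInfty (𝓝[>] 0) := by
    refine tendsto_nhdsWithin_iff.mpr ⟨?_, Filter.Eventually.of_forall fun z => ?_⟩
    · have h : Tendsto Δf atImInfty (𝓝 0) := ModularForm.discriminant_isZeroAtImInfty
      simpa using h.norm
    · exact norm_pos_iff.mpr (Δf_ne_zero z)
  have hinv : Tendsto (fun z : ℍ => ‖Δf z‖⁻¹) atImInfty atTop :=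
    tendsto_inv_nhdsGT_zero.comp hΔ0
  have := Filter.Tendsto.pos_mul_atTop one_pos h4 hinv
  refine this.congr fun z => ?_
  rw [norm_div, norm_pow, div_eq_mul_inv]

/-- A polynomial vanishing at all values of `J` is zero. -/
theorem poly_eq_zero_of_forall_eval_J (P : Polynomial ℂ)
    (h : ∀ z : ℍ, P.eval (E4f z ^ 3 / Δf z) = 0) : P = 0 := by
  by_contra hP
  obtain ⟨C, hC⟩ : ∃ C : ℝ, ∀ r ∈ P.roots.toFinset, ‖r‖ ≤ C :=
    ⟨∑ r ∈ P.roots.toFinset, ‖r‖, fun r hr =>
      Finset.single_le_sum (f := fun r : ℂ => ‖r‖) (fun _ _ => norm_nonneg _) hr⟩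
  have hev := tendsto_norm_J_atTop.eventually (eventually_gt_atTop C)
  obtain ⟨z, hz⟩ := hev.exists
  have hroot : E4f z ^ 3 / Δf z ∈ P.roots.toFinset := by
    rw [Multiset.mem_toFinset, Polynomial.mem_roots hP]
    exact h z
  exact absurd (hC _ hroot) (not_le.mpr hz)

/-- Uniqueness of the polynomial in `exists_poly_of_invariant`. -/
theorem poly_eq_of_forall_eval_J_eq (P Q : Polynomial ℂ)
    (h : ∀ z : ℍ, P.eval (E4f z ^ 3 / Δf z) = Q.eval (E4f z ^ 3 / Δf z)) : P = Q :=
  sub_eq_zero.mp (poly_eq_zero_of_forall_eval_J (P - Q) fun z => by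
    rw [Polynomial.eval_sub, h z, sub_self])

/-! ### Formal `K`-rationality -/

open ModularCurve

/-- The `j`-series over `ℂ`. -/
def jqC : LaurentSeries ℂ := coeffMap (algebraMap ℚ ℂ) jq

theorem coeff_jqC_pow_self (n : ℕ) : (jqC ^ n).coeff (-(n : ℤ)) = 1 := by
  rw [jqC, ← map_pow, coeffMap_coeff, coeff_jq_pow_self, map_one]

theorem coeff_jqC_pow_of_lt {n : ℕ} {m : ℤ} (hm : m < -(n : ℤ)) : (jqC ^ n).coeff m = 0 := by
  rw [jqC, ← map_pow, coeffMap_coeff, coeff_jq_pow_of_lt hm, map_zero]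

theorem coeffMap_coeffEmb_jq {K : Type*} [Field K] [Algebra ℚ K] (ι : K →+* ℂ) :
    coeffMap ι (coeffEmb K jq) = jqC := by
  rw [coeffEmb, coeffMap_coeffMap, jqC]
  exact coeffMap_congr (Subsingleton.elim _ _) jq

theorem coeffMap_injective {K : Type*} [Field K] (ι : K →+* ℂ) :
    Function.Injective (coeffMap ι) := by
  intro x y hxy
  ext k
  have := congrArg (fun s => HahnSeries.coeff s k) hxy
  simp only [coeffMap_coeff] at this
  exact ι.injective this

theorem coeff_algebraMap_mul_laurent {L : Type*} [Field L] (c : L) (x : LaurentSeries L)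
    (m : ℤ) : (algebraMap L (LaurentSeries L) c * x).coeff m = c * x.coeff m := by
  rw [algebraMap_laurentSeries_eq_single, HahnSeries.coeff_single_mul, sub_zero]

/-- The coefficient of `q ^ (-n)` in `P(jq)` is `P.coeff n` if `deg P ≤ n`. -/
theorem coeff_aeval_jqC (P : Polynomial ℂ) (n : ℕ) (hn : P.natDegree ≤ n) :
    (Polynomial.aeval jqC P).coeff (-(n : ℤ)) = P.coeff n := by
  rw [Polynomial.aeval_eq_sum_range' (Nat.lt_succ_of_le hn), HahnSeries.coeff_sum,
    Finset.sum_eq_single n]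
  · rw [Algebra.smul_def, coeff_algebraMap_mul_laurent, coeff_jqC_pow_self, mul_one]
  · intro k hk hkn
    have hk' : k < n := lt_of_le_of_ne (Nat.lt_succ_iff.mp (Finset.mem_range.mp hk)) hkn
    rw [Algebra.smul_def, coeff_algebraMap_mul_laurent, coeff_jqC_pow_of_lt (by omega), mul_zero]
  · intro h
    exact absurd (Finset.mem_range.mpr (Nat.lt_succ_self n)) h

theorem exists_poly_descent_aux {K : Type*} [Field K] [Algebra ℚ K] (ι : K →+* ℂ) (n : ℕ) :
    ∀ (P : Polynomial ℂ) (S : LaurentSeries K), P.natDegree < n →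
      Polynomial.aeval jqC P = coeffMap ι S →
      ∃ Q : Polynomial K, Q.map ι = P ∧ Polynomial.aeval (coeffEmb K jq) Q = S := by
  induction n with
  | zero => intro P S hdeg; exact absurd hdeg (Nat.not_lt_zero _)
  | succ n ih =>
    intro P S hdeg h
    set d := P.natDegree with hd
    have hlead : P.leadingCoeff = ι (S.coeff (-(d : ℤ))) := by
      have := coeff_aeval_jqC P d le_rfl
      rw [h, coeffMap_coeff] at this
      exact this.symm
    set a' := S.coeff (-(d : ℤ)) with ha'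
    have hsplit := Polynomial.eraseLead_add_C_mul_X_pow P
    have hS' : Polynomial.aeval jqC P.eraseLead =
        coeffMap ι (S - HahnSeries.single 0 a' * coeffEmb K jq ^ d) := by
      have e1 : Polynomial.aeval jqC P =
          Polynomial.aeval jqC P.eraseLead + HahnSeries.single 0 P.leadingCoeff * jqC ^ d := by
        conv_lhs => rw [← hsplit]
        rw [map_add, map_mul, map_pow, Polynomial.aeval_C, Polynomial.aeval_X,
          algebraMap_laurentSeries_eq_single]
      rw [map_sub, map_mul, map_pow, coeffMap_coeffEmb_jq, coeffMap_single, ← hlead, ← h, e1]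
      ring
    have key : ∃ Q' : Polynomial K, Q'.map ι = P.eraseLead ∧
        Polynomial.aeval (coeffEmb K jq) Q' =
          S - HahnSeries.single 0 a' * coeffEmb K jq ^ d := by
      rcases Polynomial.eraseLead_natDegree_lt_or_eraseLead_eq_zero P with hlt | h0
      · exact ih P.eraseLead _ (lt_of_lt_of_le hlt (Nat.lt_succ_iff.mp hdeg)) hS'
      · refine ⟨0, by rw [h0, Polynomial.map_zero], ?_⟩
        rw [h0, map_zero] at hS'
        rw [map_zero]
        exact (coeffMap_injective ι (hS'.symm.trans (map_zero _).symm)).symm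
    obtain ⟨Q', hQ'map, hQ'S⟩ := key
    refine ⟨Q' + Polynomial.C a' * Polynomial.X ^ d, ?_, ?_⟩
    · rw [Polynomial.map_add, Polynomial.map_mul, Polynomial.map_pow, Polynomial.map_C,
        Polynomial.map_X, hQ'map, ← hlead, hsplit]
    · rw [map_add, map_mul, map_pow, Polynomial.aeval_C, Polynomial.aeval_X, hQ'S,
        algebraMap_laurentSeries_eq_single]
      ring

/-- **Formal `K`-rationality.** If `P(jq)` (over `ℂ`) has coefficients in the image of
`ι : K →+* ℂ`, then `P = Q.map ι` with `Q(jq) = S` over `K`. -/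
theorem exists_poly_descent {K : Type*} [Field K] [Algebra ℚ K] (ι : K →+* ℂ)
    (P : Polynomial ℂ) (S : LaurentSeries K)
    (h : Polynomial.aeval jqC P = coeffMap ι S) :
    ∃ Q : Polynomial K, Q.map ι = P ∧ Polynomial.aeval (coeffEmb K jq) Q = S :=
  exists_poly_descent_aux ι (P.natDegree + 1) P S (Nat.lt_succ_self _) h

end

end Fermat.Agent.S24.LevelOneInv
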