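import Mathlib
import Fermat.Prelude.Def_ModularCurve_X0

/-!
# S24, package B-QL (abstract part): `q_h`-Laurent expansions at `i∞`

For a positive integer `h`, `MerInf h` is the `ℂ`-algebra of functions `f : ℍ → ℂ` that are
holomorphic on `ℍ`, `h`-periodic, and meromorphic at `i∞` (some power of `q_h = exp(2πiz/h)`
times `f` is bounded at `i∞`).  `Lq h : MerInf h →ₐ[ℂ] LaurentSeries ℂ` is the (injective)
`q_h`-expansion.
-/

set_option autoImplicit false

noncomputable section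

namespace Fermat.Agent.S24.QLaurent

open Function Filter Complex
open UpperHalfPlane hiding I
open scoped Manifold Topology MatrixGroups

local notation "𝕢" => Function.Periodic.qParam

/-! ### Periodicity on `ℍ` -/

/-- `h`-periodicity of `f ∘ ofComplex` in terms of `f` itself. -/
theorem periodic_comp_ofComplex_iff (f : ℍ → ℂ) (h : ℝ) :
    Periodic (f ∘ ofComplex) h ↔ ∀ z : ℍ, f (h +ᵥ z) = f z := by
  constructor
  · intro hf z
    have h1 := hf (z : ℂ)
    have him : 0 < ((z : ℂ) + h).im := by simpa using z.im_pos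
    simp only [comp_apply, ofComplex_apply, ofComplex_apply_of_im_pos him] at h1
    rw [← h1]
    congr 1
    ext
    simp [add_comm]
  · intro hf w
    by_cases hw : 0 < w.im
    · have him : 0 < (w + h).im := by simpa using hw
      simp only [comp_apply, ofComplex_apply_of_im_pos him, ofComplex_apply_of_im_pos hw]
      rw [← hf ⟨w, hw⟩]
      congr 1
      ext
      simp [add_comm]
    · have hw' : w.im ≤ 0 := not_lt.mp hw
      have him : (w + h).im ≤ 0 := by simpa using hw'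
      simp [ofComplex_apply_of_im_nonpos him, ofComplex_apply_of_im_nonpos hw']

/-- The function `z ↦ q_h(z)^m` on the upper half-plane. -/
def qPow (h : ℕ) (m : ℕ) : ℍ → ℂ := fun z => 𝕢 (h : ℝ) (z : ℂ) ^ m

theorem qPow_apply (h m : ℕ) (z : ℍ) : qPow h m z = 𝕢 (h : ℝ) (z : ℂ) ^ m := rfl

theorem qPow_ne_zero (h m : ℕ) (z : ℍ) : qPow h m z ≠ 0 :=
  pow_ne_zero _ (Function.Periodic.qParam_ne_zero _)

theorem qPow_zero (h : ℕ) : qPow h 0 = 1 := by
  funext z; simp [qPow]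

theorem qPow_add (h m n : ℕ) : qPow h (m + n) = qPow h m * qPow h n := by
  funext z; simp [qPow, pow_add]

theorem qParam_vadd (h : ℕ) [NeZero h] (z : ℍ) :
    𝕢 (h : ℝ) ((((h : ℝ) +ᵥ z : ℍ)) : ℂ) = 𝕢 (h : ℝ) (z : ℂ) := by
  have hh : ((h : ℝ) : ℂ) ≠ 0 := by exact_mod_cast NeZero.ne h
  simp only [Function.Periodic.qParam, UpperHalfPlane.coe_vadd]
  rw [show 2 * (Real.pi : ℂ) * I * (((h : ℝ) : ℂ) + (z : ℂ)) / ((h : ℝ) : ℂ)
      = 2 * (Real.pi : ℂ) * I * (z : ℂ) / ((h : ℝ) : ℂ) + 2 * Real.pi * I by field_simp; ring]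
  rw [Complex.exp_add, Complex.exp_two_pi_mul_I, mul_one]

theorem norm_qParam_le_one (h : ℕ) [NeZero h] (z : ℍ) : ‖𝕢 (h : ℝ) (z : ℂ)‖ ≤ 1 :=
  (Function.Periodic.norm_qParam_lt_one (by exact_mod_cast Nat.pos_of_ne_zero (NeZero.ne h))
    z.im_pos).le

/-! ### Holomorphic, periodic, bounded functions -/

/-- `f` is holomorphic on `ℍ`, `h`-periodic and bounded at `i∞`. -/
structure IsHolBdd (h : ℕ) (f : ℍ → ℂ) : Prop where
  mdiff : MDifferentiable 𝓘(ℂ) 𝓘(ℂ) f
  per : Periodic (f ∘ ofComplex) (h : ℝ)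
  bdd : IsBoundedAtImInfty f

theorem mdiff_qPow (h m : ℕ) : MDifferentiable 𝓘(ℂ) 𝓘(ℂ) (qPow h m) := by
  rw [UpperHalfPlane.mdifferentiable_iff]
  have : DifferentiableOn ℂ (fun w : ℂ => 𝕢 (h : ℝ) w ^ m) {z | 0 < z.im} :=
    ((Function.Periodic.differentiable_qParam (h := (h : ℝ))).pow m).differentiableOn
  refine this.congr ?_
  intro w hw
  simp [qPow, ofComplex_apply_of_im_pos hw]

theorem isHolBdd_qPow (h : ℕ) [NeZero h] (m : ℕ) : IsHolBdd h (qPow h m) where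
  mdiff := mdiff_qPow h m
  per := by
    rw [periodic_comp_ofComplex_iff]
    intro z
    rw [qPow_apply, qPow_apply, qParam_vadd]
  bdd := by
    rw [UpperHalfPlane.isBoundedAtImInfty_iff]
    refine ⟨1, 0, fun z _ => ?_⟩
    rw [qPow, norm_pow]
    exact pow_le_one₀ (norm_nonneg _) (norm_qParam_le_one h z)

theorem IsHolBdd.mul {h : ℕ} {f g : ℍ → ℂ} (hf : IsHolBdd h f) (hg : IsHolBdd h g) :
    IsHolBdd h (f * g) where
  mdiff := hf.mdiff.mul hg.mdiff
  per := by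
    have h1 := (periodic_comp_ofComplex_iff f h).mp hf.per
    have h2 := (periodic_comp_ofComplex_iff g h).mp hg.per
    rw [periodic_comp_ofComplex_iff]
    intro z
    simp [h1 z, h2 z]
  bdd := hf.bdd.mul hg.bdd

theorem IsHolBdd.add {h : ℕ} {f g : ℍ → ℂ} (hf : IsHolBdd h f) (hg : IsHolBdd h g) :
    IsHolBdd h (f + g) where
  mdiff := hf.mdiff.add hg.mdiff
  per := by
    have h1 := (periodic_comp_ofComplex_iff f h).mp hf.per
    have h2 := (periodic_comp_ofComplex_iff g h).mp hg.per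
    rw [periodic_comp_ofComplex_iff]
    intro z
    simp [h1 z, h2 z]
  bdd := hf.bdd.add hg.bdd

theorem isHolBdd_const (h : ℕ) (c : ℂ) : IsHolBdd h (fun _ => c) where
  mdiff := mdifferentiable_const
  per := by
    rw [periodic_comp_ofComplex_iff]
    intro z
    rfl
  bdd := Filter.const_boundedAtFilter _ c

theorem IsHolBdd.analyticAt {h : ℕ} [NeZero h] {f : ℍ → ℂ} (hf : IsHolBdd h f) :
    AnalyticAt ℂ (cuspFunction (h : ℝ) f) 0 :=
  analyticAt_cuspFunction_zero (by exact_mod_cast Nat.pos_of_ne_zero (NeZero.ne h))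
    hf.per hf.mdiff hf.bdd

theorem hpos (h : ℕ) [NeZero h] : (0 : ℝ) < (h : ℝ) := by
  exact_mod_cast Nat.pos_of_ne_zero (NeZero.ne h)

/-- Uniqueness of `q`-expansion coefficients, for a plain function on `ℍ`. -/
theorem qExpansion_coeff_unique_fun {h : ℝ} {f : ℍ → ℂ} {c : ℕ → ℂ} (hh : 0 < h)
    (hfanalytic : AnalyticAt ℂ (cuspFunction h f) 0)
    (hf : ∀ τ : ℍ, HasSum (fun m ↦ c m • 𝕢 h τ ^ m) (f τ)) (m : ℕ) :
    c m = (qExpansion h f).coeff m := by
  have h1 := (hasFPowerSeriesOnBall_cuspFunction hh hfanalytic hf).hasFPowerSeriesAt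
  have h2 : HasFPowerSeriesAt (cuspFunction h f)
      (.ofScalars ℂ fun m ↦ (qExpansion h f).coeff m) 0 := by
    simpa [qExpansion_coeff, div_eq_mul_inv, mul_comm] using hfanalytic.hasFPowerSeriesAt
  simpa using congr_arg (FormalMultilinearSeries.coeff · m) (h1.eq_formalMultilinearSeries h2)

/-- The `q_h`-expansion of `q_h^m` is `X^m`. -/
theorem qExpansion_qPow (h : ℕ) [NeZero h] (m : ℕ) :
    qExpansion (h : ℝ) (qPow h m) = (PowerSeries.X : PowerSeries ℂ) ^ m := by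
  ext k
  have key := qExpansion_coeff_unique_fun (f := qPow h m) (hpos h) (isHolBdd_qPow h m).analyticAt
    (c := fun k => if k = m then 1 else 0) (fun τ => by
      have := hasSum_single (f := fun k : ℕ => (if k = m then (1 : ℂ) else 0) • 𝕢 (h : ℝ) (τ : ℂ) ^ k)
        m (fun k hk => by simp [hk])
      simpa [qPow] using this) k
  rw [PowerSeries.coeff_X_pow]
  exact key.symm

/-! ### The algebra `MerInf h` -/

/-- Holomorphic `h`-periodic functions on `ℍ` that are meromorphic at `i∞`. -/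
def MerInf (h : ℕ) [NeZero h] : Subalgebra ℂ (ℍ → ℂ) where
  carrier := {f | MDifferentiable 𝓘(ℂ) 𝓘(ℂ) f ∧ Periodic (f ∘ ofComplex) (h : ℝ) ∧
    ∃ m : ℕ, IsBoundedAtImInfty (qPow h m * f)}
  mul_mem' := by
    rintro f g ⟨hf1, hf2, m, hm⟩ ⟨hg1, hg2, n, hn⟩
    refine ⟨hf1.mul hg1, ?_, m + n, ?_⟩
    · have h1 := (periodic_comp_ofComplex_iff f h).mp hf2
      have h2 := (periodic_comp_ofComplex_iff g h).mp hg2
      rw [periodic_comp_ofComplex_iff]
      intro z
      simp [h1 z, h2 z]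
    · have : qPow h (m + n) * (f * g) = (qPow h m * f) * (qPow h n * g) := by
        rw [qPow_add]; ring
      rw [this]
      exact hm.mul hn
  add_mem' := by
    rintro f g ⟨hf1, hf2, m, hm⟩ ⟨hg1, hg2, n, hn⟩
    refine ⟨hf1.add hg1, ?_, m + n, ?_⟩
    · have h1 := (periodic_comp_ofComplex_iff f h).mp hf2
      have h2 := (periodic_comp_ofComplex_iff g h).mp hg2
      rw [periodic_comp_ofComplex_iff]
      intro z
      simp [h1 z, h2 z]
    · have : qPow h (m + n) * (f + g) = qPow h n * (qPow h m * f) + qPow h m * (qPow h n * g) := by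
        rw [qPow_add]; ring
      rw [this]
      exact ((isHolBdd_qPow h n).bdd.mul hm).add ((isHolBdd_qPow h m).bdd.mul hn)
  algebraMap_mem' := by
    intro c
    refine ⟨mdifferentiable_const, ?_, 0, ?_⟩
    · rw [periodic_comp_ofComplex_iff]
      intro z
      rfl
    · rw [qPow_zero, one_mul]
      exact Filter.const_boundedAtFilter _ c

theorem mem_MerInf_iff {h : ℕ} [NeZero h] {f : ℍ → ℂ} :
    f ∈ MerInf h ↔ MDifferentiable 𝓘(ℂ) 𝓘(ℂ) f ∧ Periodic (f ∘ ofComplex) (h : ℝ) ∧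
      ∃ m : ℕ, IsBoundedAtImInfty (qPow h m * f) := Iff.rfl

theorem isHolBdd_qPow_mul {h : ℕ} [NeZero h] {f : ℍ → ℂ} (hf : f ∈ MerInf h) {m : ℕ}
    (hm : IsBoundedAtImInfty (qPow h m * f)) : IsHolBdd h (qPow h m * f) where
  mdiff := (mdiff_qPow h m).mul hf.1
  per := by
    have h1 := (periodic_comp_ofComplex_iff f h).mp hf.2.1
    have h2 := (periodic_comp_ofComplex_iff _ h).mp (isHolBdd_qPow h m).per
    rw [periodic_comp_ofComplex_iff]
    intro z
    simp [h1 z, h2 z]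
  bdd := hm

theorem IsHolBdd.mem_MerInf {h : ℕ} [NeZero h] {f : ℍ → ℂ} (hf : IsHolBdd h f) : f ∈ MerInf h :=
  ⟨hf.mdiff, hf.per, 0, by rw [qPow_zero, one_mul]; exact hf.bdd⟩

theorem bdd_qPow_add {h : ℕ} [NeZero h] {f : ℍ → ℂ} {m : ℕ}
    (hm : IsBoundedAtImInfty (qPow h m * f)) (k : ℕ) :
    IsBoundedAtImInfty (qPow h (m + k) * f) := by
  have : qPow h (m + k) * f = qPow h k * (qPow h m * f) := by rw [qPow_add]; ring
  rw [this]
  exact (isHolBdd_qPow h k).bdd.mul hm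

/-! ### The Laurent expansion -/

/-- The candidate Laurent expansion computed with the pole bound `m`. -/
def LqAux (h : ℕ) (m : ℕ) (f : ℍ → ℂ) : LaurentSeries ℂ :=
  HahnSeries.single (-(m : ℤ)) (1 : ℂ) *
    HahnSeries.ofPowerSeries ℤ ℂ (qExpansion (h : ℝ) (qPow h m * f))

theorem LqAux_add {h : ℕ} [NeZero h] {f : ℍ → ℂ} (hf : f ∈ MerInf h) {m : ℕ}
    (hm : IsBoundedAtImInfty (qPow h m * f)) (k : ℕ) :
    LqAux h (m + k) f = LqAux h m f := by
  unfold LqAux
  have h1 : qPow h (m + k) * f = qPow h k * (qPow h m * f) := by rw [qPow_add]; ring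
  rw [h1, qExpansion_mul (isHolBdd_qPow h k).analyticAt (isHolBdd_qPow_mul hf hm).analyticAt,
    qExpansion_qPow, map_mul, HahnSeries.ofPowerSeries_X_pow, ← mul_assoc,
    HahnSeries.single_mul_single]
  have h2 : -((m + k : ℕ) : ℤ) + (k : ℤ) = -(m : ℤ) := by push_cast; ring
  rw [h2, mul_one]

/-- The `q_h`-Laurent expansion as a function. -/
def LqFun (h : ℕ) [NeZero h] (f : MerInf h) : LaurentSeries ℂ :=
  LqAux h (Classical.choose f.2.2.2) f.1

theorem LqFun_eq {h : ℕ} [NeZero h] (f : MerInf h) {m : ℕ}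
    (hm : IsBoundedAtImInfty (qPow h m * (f : ℍ → ℂ))) : LqFun h f = LqAux h m f.1 := by
  rw [LqFun, ← LqAux_add f.2 (Classical.choose_spec f.2.2.2) m, ← LqAux_add f.2 hm
    (Classical.choose f.2.2.2), add_comm]

theorem qExpansion_const (h : ℝ) (c : ℂ) :
    qExpansion h (fun _ : ℍ => c) = PowerSeries.C c := by
  have h1 : AnalyticAt ℂ (cuspFunction h (1 : ℍ → ℂ)) 0 := by
    have : cuspFunction h (1 : ℍ → ℂ) = 1 := by
      ext q
      rcases eq_or_ne q 0 with rfl | hq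
      · simpa [cuspFunction, Function.Periodic.cuspFunction] using!
          tendsto_const_nhds.limUnder_eq
      · simp [cuspFunction, Function.Periodic.cuspFunction_eq_of_nonzero h _ hq]
    rw [this]
    exact analyticAt_const
  have h2 : (fun _ : ℍ => c) = c • (1 : ℍ → ℂ) := by
    funext z; simp
  rw [h2, qExpansion_smul h1, qExpansion_one]
  ext n
  simp [PowerSeries.coeff_C, PowerSeries.coeff_one]

/-- The `q_h`-Laurent expansion, as an algebra homomorphism. -/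
def Lq (h : ℕ) [NeZero h] : MerInf h →ₐ[ℂ] LaurentSeries ℂ where
  toFun := LqFun h
  map_one' := by
    have hb : IsBoundedAtImInfty (qPow h 0 * ((1 : MerInf h) : ℍ → ℂ)) := by
      rw [qPow_zero, one_mul]
      exact Filter.const_boundedAtFilter _ (1 : ℂ)
    rw [LqFun_eq _ hb, LqAux, qPow_zero, one_mul]
    show _ * HahnSeries.ofPowerSeries ℤ ℂ (qExpansion (h : ℝ) (1 : ℍ → ℂ)) = 1
    rw [qExpansion_one]
    simp
  map_mul' := by
    intro f g
    obtain ⟨m, hm⟩ := f.2.2.2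
    obtain ⟨n, hn⟩ := g.2.2.2
    have e : qPow h (m + n) * ((f * g : MerInf h) : ℍ → ℂ)
        = (qPow h m * (f : ℍ → ℂ)) * (qPow h n * (g : ℍ → ℂ)) := by
      rw [qPow_add]; push_cast; ring
    have hb : IsBoundedAtImInfty (qPow h (m + n) * ((f * g : MerInf h) : ℍ → ℂ)) := by
      rw [e]; exact hm.mul hn
    rw [LqFun_eq _ hb, LqFun_eq f hm, LqFun_eq g hn, LqAux, LqAux, LqAux, e,
      qExpansion_mul (isHolBdd_qPow_mul f.2 hm).analyticAt (isHolBdd_qPow_mul g.2 hn).analyticAt,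
      map_mul]
    have : (HahnSeries.single (-((m + n : ℕ) : ℤ)) (1 : ℂ) : LaurentSeries ℂ)
        = HahnSeries.single (-(m : ℤ)) 1 * HahnSeries.single (-(n : ℤ)) 1 := by
      have h2 : -((m + n : ℕ) : ℤ) = -(m : ℤ) + -(n : ℤ) := by push_cast; ring
      rw [HahnSeries.single_mul_single, h2, mul_one]
    rw [this]
    ring
  map_zero' := by
    have hb : IsBoundedAtImInfty (qPow h 0 * ((0 : MerInf h) : ℍ → ℂ)) := by
      rw [qPow_zero, one_mul]
      exact Filter.const_boundedAtFilter _ (0 : ℂ)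
    rw [LqFun_eq _ hb, LqAux, qPow_zero, one_mul]
    show _ * HahnSeries.ofPowerSeries ℤ ℂ (qExpansion (h : ℝ) (0 : ℍ → ℂ)) = 0
    rw [qExpansion_zero]
    simp
  map_add' := by
    intro f g
    obtain ⟨m, hm⟩ := f.2.2.2
    obtain ⟨n, hn⟩ := g.2.2.2
    have hf' := bdd_qPow_add hm n
    have hg' : IsBoundedAtImInfty (qPow h (m + n) * (g : ℍ → ℂ)) := by
      rw [add_comm]; exact bdd_qPow_add hn m
    have e : qPow h (m + n) * ((f + g : MerInf h) : ℍ → ℂ)
        = qPow h (m + n) * (f : ℍ → ℂ) + qPow h (m + n) * (g : ℍ → ℂ) := by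
      push_cast; ring
    have hb : IsBoundedAtImInfty (qPow h (m + n) * ((f + g : MerInf h) : ℍ → ℂ)) := by
      rw [e]; exact hf'.add hg'
    rw [LqFun_eq _ hb, LqFun_eq f hf', LqFun_eq g hg', LqAux, LqAux, LqAux, e,
      qExpansion_add (isHolBdd_qPow_mul f.2 hf').analyticAt
        (isHolBdd_qPow_mul g.2 hg').analyticAt, map_add, mul_add]
  commutes' := by
    intro c
    have hb : IsBoundedAtImInfty (qPow h 0 * ((algebraMap ℂ (MerInf h) c : MerInf h) : ℍ → ℂ)) := by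
      rw [qPow_zero, one_mul]
      exact Filter.const_boundedAtFilter _ c
    show LqFun h _ = _
    rw [LqFun_eq _ hb, LqAux, qPow_zero, one_mul]
    show _ * HahnSeries.ofPowerSeries ℤ ℂ (qExpansion (h : ℝ) (fun _ : ℍ => c)) = _
    rw [qExpansion_const, HahnSeries.ofPowerSeries_C]
    have h0 : (HahnSeries.single (-((0 : ℕ) : ℤ)) (1 : ℂ) : LaurentSeries ℂ) = 1 := by simp
    rw [h0, one_mul]
    rw [HahnSeries.algebraMap_apply']
    simp

theorem Lq_apply {h : ℕ} [NeZero h] (f : MerInf h) {m : ℕ}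
    (hm : IsBoundedAtImInfty (qPow h m * (f : ℍ → ℂ))) :
    Lq h f = HahnSeries.single (-(m : ℤ)) (1 : ℂ) *
      HahnSeries.ofPowerSeries ℤ ℂ (qExpansion (h : ℝ) (qPow h m * (f : ℍ → ℂ))) :=
  LqFun_eq f hm

theorem Lq_injective (h : ℕ) [NeZero h] : Function.Injective (Lq h) := by
  rw [injective_iff_map_eq_zero]
  intro f hf
  obtain ⟨m, hm⟩ := f.2.2.2
  rw [Lq_apply f hm] at hf
  have h1 : (HahnSeries.single (-(m : ℤ)) (1 : ℂ) : LaurentSeries ℂ) ≠ 0 := by
    simp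
  have h2 := (mul_eq_zero.mp hf).resolve_left h1
  have h3 : qExpansion (h : ℝ) (qPow h m * (f : ℍ → ℂ)) = 0 :=
    HahnSeries.ofPowerSeries_injective (by rw [h2, map_zero])
  have hH := isHolBdd_qPow_mul f.2 hm
  have h4 := (qExpansion_eq_zero_iff (hpos h) hH.per hH.mdiff hH.bdd).mp h3
  ext z
  have h5 := congrFun h4 z
  simp only [Pi.mul_apply, Pi.zero_apply, mul_eq_zero] at h5
  exact h5.resolve_left (qPow_ne_zero h m z)

/-- For a function bounded at `i∞` the Laurent expansion is the Mathlib `q`-expansion. -/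
theorem Lq_of_bdd {h : ℕ} [NeZero h] (f : MerInf h) (hb : IsBoundedAtImInfty (f : ℍ → ℂ)) :
    Lq h f = HahnSeries.ofPowerSeries ℤ ℂ (qExpansion (h : ℝ) (f : ℍ → ℂ)) := by
  have hb' : IsBoundedAtImInfty (qPow h 0 * (f : ℍ → ℂ)) := by rwa [qPow_zero, one_mul]
  rw [Lq_apply f hb', qPow_zero, one_mul]
  simp

theorem coeff_ofPowerSeries_int (P : PowerSeries ℂ) (k : ℤ) :
    (HahnSeries.ofPowerSeries ℤ ℂ P).coeff k = if 0 ≤ k then P.coeff k.toNat else 0 := by
  split_ifs with hk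
  · obtain ⟨n, rfl⟩ := Int.eq_ofNat_of_zero_le hk
    rw [Int.toNat_natCast]
    exact HahnSeries.ofPowerSeries_apply_coeff P n
  · rw [HahnSeries.ofPowerSeries_apply]
    apply HahnSeries.embDomain_of_notMem_range
    rintro ⟨n, hn⟩
    apply hk
    rw [← hn]
    exact Int.natCast_nonneg n

theorem Lq_coeff {h : ℕ} [NeZero h] (f : MerInf h) {m : ℕ}
    (hm : IsBoundedAtImInfty (qPow h m * (f : ℍ → ℂ))) (n : ℤ) :
    (Lq h f).coeff n = if 0 ≤ n + m then
      (qExpansion (h : ℝ) (qPow h m * (f : ℍ → ℂ))).coeff (n + m).toNat else 0 := by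
  rw [Lq_apply f hm, HahnSeries.coeff_single_mul, one_mul, coeff_ofPowerSeries_int, sub_neg_eq_add]

theorem Lq_coeff_of_lt {h : ℕ} [NeZero h] (f : MerInf h) {m : ℕ}
    (hm : IsBoundedAtImInfty (qPow h m * (f : ℍ → ℂ))) {n : ℤ} (hn : n < -(m : ℤ)) :
    (Lq h f).coeff n = 0 := by
  rw [Lq_coeff f hm, if_neg (by omega)]

theorem Lq_coeff_sub {h : ℕ} [NeZero h] (f : MerInf h) {m : ℕ}
    (hm : IsBoundedAtImInfty (qPow h m * (f : ℍ → ℂ))) (k : ℕ) :
    (Lq h f).coeff ((k : ℤ) - m) = (qExpansion (h : ℝ) (qPow h m * (f : ℍ → ℂ))).coeff k := by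
  rw [Lq_coeff f hm, if_pos (by omega)]
  congr 2
  omega

/-! ### Bridge with pointwise convergent expansions -/

/-- Shifting a `ℤ`-indexed expansion with exponents `≥ -m` to an `ℕ`-indexed one. -/
theorem hasSum_shift_iff {h : ℕ} {L : LaurentSeries ℂ} {m : ℕ}
    (hLm : ∀ n : ℤ, n < -(m : ℤ) → L.coeff n = 0) (τ : ℍ) (a : ℂ) :
    HasSum (fun n : ℤ => L.coeff n * 𝕢 (h : ℝ) (τ : ℂ) ^ n) a ↔
      HasSum (fun k : ℕ => L.coeff ((k : ℤ) - m) • 𝕢 (h : ℝ) (τ : ℂ) ^ k) (qPow h m τ * a) := by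
  have hq : 𝕢 (h : ℝ) (τ : ℂ) ≠ 0 := Function.Periodic.qParam_ne_zero _
  have hg : Function.Injective (fun k : ℕ => (k : ℤ) - m) := by
    intro a b hab
    simpa using hab
  have hfun : ((fun n : ℤ => L.coeff n * 𝕢 (h : ℝ) (τ : ℂ) ^ n * qPow h m τ) ∘
      fun k : ℕ => (k : ℤ) - m) = fun k : ℕ => L.coeff ((k : ℤ) - m) • 𝕢 (h : ℝ) (τ : ℂ) ^ k := by
    funext k
    simp only [comp_apply, smul_eq_mul, qPow_apply]
    rw [mul_assoc, ← zpow_natCast (𝕢 (h : ℝ) (τ : ℂ)) m, ← zpow_add₀ hq, sub_add_cancel,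
      zpow_natCast]
  rw [← hasSum_mul_right_iff (qPow_ne_zero h m τ), mul_comm a,
    ← Function.Injective.hasSum_iff hg, hfun]
  · intro n hn
    have : n < -(m : ℤ) := by
      by_contra hcon
      apply hn
      exact ⟨(n + m).toNat, by simp only; omega⟩
    simp [hLm n this]

/-- The Laurent expansion converges pointwise on `ℍ` to the function. -/
theorem hasSum_Lq {h : ℕ} [NeZero h] (f : MerInf h) (τ : ℍ) :
    HasSum (fun n : ℤ => (Lq h f).coeff n * 𝕢 (h : ℝ) (τ : ℂ) ^ n) ((f : ℍ → ℂ) τ) := by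
  obtain ⟨m, hm⟩ := f.2.2.2
  rw [hasSum_shift_iff (fun n hn => Lq_coeff_of_lt f hm hn)]
  have hH := isHolBdd_qPow_mul f.2 hm
  have := hasSum_qExpansion (hpos h) hH.per hH.mdiff hH.bdd τ
  simpa only [Lq_coeff_sub f hm, Pi.mul_apply] using this

/-- The cusp function of a function given by a convergent `q`-expansion (copy of a private
Mathlib lemma). -/
theorem hasSum_cuspFunction_of_hasSum_punctured {h : ℝ} {f : ℍ → ℂ} (hh : 0 < h) {c : ℕ → ℂ}
    (hf : ∀ (τ : ℍ), HasSum (fun m ↦ c m • 𝕢 h τ ^ m) (f τ)) {q : ℂ} (hq : ‖q‖ < 1)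
    (hq1 : q ≠ 0) : HasSum (fun m ↦ c m • q ^ m) (cuspFunction h f q) := by
  have h1 := Function.Periodic.im_invQParam_pos_of_norm_lt_one hh hq hq1
  let τ : ℍ := ⟨Function.Periodic.invQParam h q, h1⟩
  have h2 := (Function.Periodic.cuspFunction_eq_of_nonzero h (f ∘ ofComplex) hq1)
  have h3 : cuspFunction h f q = f τ := by
    simpa [UpperHalfPlane.ofComplex_apply_of_im_pos h1] using! h2
  have h4 := hf τ
  have h5 : 𝕢 h (τ : ℂ) = q := Function.Periodic.qParam_right_inv hh.ne' hq1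
  rw [h5] at h4
  rw [h3]
  exact h4

/-- Copy of a private Mathlib lemma. -/
theorem hasFPowerSeriesOnBall_update_of_hasSum {h : ℝ} {f : ℍ → ℂ} (hh : 0 < h) {c : ℕ → ℂ}
    (hf : ∀ τ : ℍ, HasSum (fun m : ℕ ↦ (c m) • 𝕢 h τ ^ m) (f τ)) :
    HasFPowerSeriesOnBall (update (cuspFunction h f) 0 (c 0)) (.ofScalars ℂ c) 0 1 := by
  constructor
  · refine le_of_forall_lt_imp_le_of_dense fun r hr ↦ ?_
    rcases eq_or_ne r 0 with rfl | hr'
    · simp
    · lift r to NNReal using hr.ne_top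
      let : FiniteDimensional ℝ ℂ := Complex.basisOneI.finiteDimensional_of_finite
      apply FormalMultilinearSeries.le_radius_of_summable
      simpa [smul_eq_mul, norm_mul, mul_comm, mul_left_comm, mul_assoc] using
        (hasSum_cuspFunction_of_hasSum_punctured hh hf (q := r) (by simpa using hr)
          (mod_cast hr')).summable.norm
  · simp
  · intro y hy
    rw [← ENNReal.coe_one, Metric.eball_coe, NNReal.coe_one, mem_ball_zero_iff] at hy
    rcases eq_or_ne y 0 with rfl | hy'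
    · simpa +contextual [zero_pow_eq] using hasSum_ite_eq 0 (c 0)
    · simpa [update_of_ne hy', mul_comm]
        using hasSum_cuspFunction_of_hasSum_punctured hh hf hy hy'

/-- A function given on all of `ℍ` by a convergent power series in `q_h` is holomorphic,
periodic and bounded at `i∞`. -/
theorem isHolBdd_of_hasSum {h : ℕ} [NeZero h] {f : ℍ → ℂ} {c : ℕ → ℂ}
    (hf : ∀ τ : ℍ, HasSum (fun m : ℕ ↦ (c m) • 𝕢 (h : ℝ) τ ^ m) (f τ)) : IsHolBdd h f where
  mdiff := by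
    have hF := hasFPowerSeriesOnBall_update_of_hasSum (hpos h) hf
    have hFd : DifferentiableOn ℂ (update (cuspFunction (h : ℝ) f) 0 (c 0)) (Metric.eball 0 1) :=
      hF.differentiableOn
    rw [UpperHalfPlane.mdifferentiable_iff]
    have hmaps : Set.MapsTo (𝕢 (h : ℝ)) {z : ℂ | 0 < z.im} (Metric.eball 0 1) := by
      intro w hw
      have := Function.Periodic.norm_qParam_lt_one (hpos h) hw
      rw [← ENNReal.coe_one, Metric.eball_coe, NNReal.coe_one, mem_ball_zero_iff]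
      exact this
    have hcomp : DifferentiableOn ℂ
        (fun w => update (cuspFunction (h : ℝ) f) 0 (c 0) (𝕢 (h : ℝ) w)) {z : ℂ | 0 < z.im} :=
      hFd.comp (Function.Periodic.differentiable_qParam (h := (h : ℝ))).differentiableOn hmaps
    refine hcomp.congr ?_
    intro w hw
    simp only [comp_apply, ofComplex_apply_of_im_pos hw]
    rw [update_of_ne (Function.Periodic.qParam_ne_zero _)]
    exact (hf ⟨w, hw⟩).unique (hasSum_cuspFunction_of_hasSum_punctured (hpos h) hf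
      (Function.Periodic.norm_qParam_lt_one (hpos h) hw) (Function.Periodic.qParam_ne_zero _))
  per := by
    rw [periodic_comp_ofComplex_iff]
    intro z
    refine (hf _).unique ?_
    simpa only [qParam_vadd] using hf z
  bdd := isBoundedAtImInfty_of_hasSum_qExpansion (hpos h) hf

/-- A function given on all of `ℍ` by a convergent Laurent series in `q_h` lies in `MerInf h`. -/
theorem mem_MerInf_of_hasSum {h : ℕ} [NeZero h] {f : ℍ → ℂ} {L : LaurentSeries ℂ}
    (hL : ∀ τ : ℍ, HasSum (fun n : ℤ => L.coeff n * 𝕢 (h : ℝ) (τ : ℂ) ^ n) (f τ)) :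
    f ∈ MerInf h := by
  set m : ℕ := (-L.order).toNat with hm
  have hLm : ∀ n : ℤ, n < -(m : ℤ) → L.coeff n = 0 := fun n hn =>
    HahnSeries.coeff_eq_zero_of_lt_order (by omega)
  have hG : IsHolBdd h (qPow h m * f) :=
    isHolBdd_of_hasSum (c := fun k : ℕ => L.coeff ((k : ℤ) - m))
      (fun τ => (hasSum_shift_iff hLm τ (f τ)).mp (hL τ))
  refine ⟨?_, ?_, m, hG.bdd⟩
  · -- holomorphy: `f = (q^m)⁻¹ * (q^m f)`
    rw [UpperHalfPlane.mdifferentiable_iff]
    have h1 := UpperHalfPlane.mdifferentiable_iff.mp hG.mdiff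
    have h2 : DifferentiableOn ℂ (fun w : ℂ => (𝕢 (h : ℝ) w ^ m)⁻¹) {z : ℂ | 0 < z.im} :=
      (((Function.Periodic.differentiable_qParam (h := (h : ℝ))).pow m).differentiableOn).inv
        (fun w _ => pow_ne_zero _ (Function.Periodic.qParam_ne_zero _))
    refine (h2.mul h1).congr ?_
    intro w hw
    simp only [comp_apply, Pi.mul_apply, qPow_apply, ofComplex_apply_of_im_pos hw]
    rw [inv_mul_cancel_left₀ (pow_ne_zero _ (Function.Periodic.qParam_ne_zero _))]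
  · rw [periodic_comp_ofComplex_iff]
    intro z
    refine (hL _).unique ?_
    simpa only [qParam_vadd] using hL z

/-- **Uniqueness**: a convergent Laurent expansion in `q_h` is the Laurent expansion `Lq`. -/
theorem Lq_eq_of_hasSum {h : ℕ} [NeZero h] {f : ℍ → ℂ} {L : LaurentSeries ℂ}
    (hL : ∀ τ : ℍ, HasSum (fun n : ℤ => L.coeff n * 𝕢 (h : ℝ) (τ : ℂ) ^ n) (f τ)) :
    Lq h ⟨f, mem_MerInf_of_hasSum hL⟩ = L := by
  set m : ℕ := (-L.order).toNat with hm
  have hLm : ∀ n : ℤ, n < -(m : ℤ) → L.coeff n = 0 := fun n hn =>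
    HahnSeries.coeff_eq_zero_of_lt_order (by omega)
  have hsum : ∀ τ : ℍ, HasSum (fun k : ℕ => L.coeff ((k : ℤ) - m) • 𝕢 (h : ℝ) (τ : ℂ) ^ k)
      ((qPow h m * f) τ) := fun τ => (hasSum_shift_iff hLm τ (f τ)).mp (hL τ)
  have hG : IsHolBdd h (qPow h m * f) := isHolBdd_of_hasSum hsum
  ext n
  rw [Lq_coeff ⟨f, mem_MerInf_of_hasSum hL⟩ hG.bdd]
  split_ifs with hn
  · have := qExpansion_coeff_unique_fun (hpos h) hG.analyticAt hsum (n + m).toNat
    rw [← this]
    congr 1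
    omega
  · exact (hLm n (by omega)).symm

/-- The bridge in `iff` form. -/
theorem hasSum_iff_Lq_eq {h : ℕ} [NeZero h] {f : ℍ → ℂ} {L : LaurentSeries ℂ} :
    (∀ τ : ℍ, HasSum (fun n : ℤ => L.coeff n * 𝕢 (h : ℝ) (τ : ℂ) ^ n) (f τ)) ↔
      ∃ hf : f ∈ MerInf h, Lq h ⟨f, hf⟩ = L := by
  constructor
  · intro hL
    exact ⟨mem_MerInf_of_hasSum hL, Lq_eq_of_hasSum hL⟩
  · rintro ⟨hf, rfl⟩ τ
    exact hasSum_Lq ⟨f, hf⟩ τ

/-! ### Order at `i∞` -/

/-- `q_h^m · f` is bounded at `i∞` iff the Laurent expansion has no terms below `q_h^{-m}`. -/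
theorem isBoundedAtImInfty_qPow_mul_iff {h : ℕ} [NeZero h] (f : MerInf h) (m : ℕ) :
    IsBoundedAtImInfty (qPow h m * (f : ℍ → ℂ)) ↔
      ∀ n : ℤ, n < -(m : ℤ) → (Lq h f).coeff n = 0 := by
  constructor
  · intro hm n hn
    exact Lq_coeff_of_lt f hm hn
  · intro hLm
    exact isBoundedAtImInfty_of_hasSum_qExpansion (hpos h)
      (c := fun k : ℕ => (Lq h f).coeff ((k : ℤ) - m))
      (fun τ => (hasSum_shift_iff hLm τ _).mp (hasSum_Lq f τ))

theorem coeff_lt_iff_le_order (L : LaurentSeries ℂ) (a : ℤ) :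
    (∀ n : ℤ, n < a → L.coeff n = 0) ↔ (L = 0 ∨ a ≤ L.order) := by
  constructor
  · intro hL
    by_cases h0 : L = 0
    · exact Or.inl h0
    · right
      by_contra hlt
      exact h0 (HahnSeries.coeff_order_eq_zero.mp (hL _ (not_le.mp hlt)))
  · rintro (rfl | hL) n hn
    · simp
    · exact HahnSeries.coeff_eq_zero_of_lt_order (lt_of_lt_of_le hn hL)

/-- `q_h^m · f` is bounded at `i∞` iff `f = 0` or the order of the expansion is `≥ -m`. -/
theorem isBoundedAtImInfty_qPow_mul_iff_order {h : ℕ} [NeZero h] (f : MerInf h) (m : ℕ) :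
    IsBoundedAtImInfty (qPow h m * (f : ℍ → ℂ)) ↔ (Lq h f = 0 ∨ -(m : ℤ) ≤ (Lq h f).order) := by
  rw [isBoundedAtImInfty_qPow_mul_iff, coeff_lt_iff_le_order]

/-- `f` is bounded at `i∞` iff the order of its Laurent expansion is nonnegative. -/
theorem isBoundedAtImInfty_iff_order {h : ℕ} [NeZero h] (f : MerInf h) :
    IsBoundedAtImInfty (f : ℍ → ℂ) ↔ 0 ≤ (Lq h f).order := by
  have := isBoundedAtImInfty_qPow_mul_iff_order f 0
  rw [qPow_zero, one_mul] at this
  rw [this]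
  constructor
  · rintro (h0 | h0)
    · rw [h0]; simp
    · simpa using h0
  · intro h0
    exact Or.inr (by simpa using h0)

/-! ### Comparison with powers of the discriminant -/

local notation "Δ" => ModularForm.discriminant

theorem qParam_isBigO_discriminant :
    (fun τ : ℍ => 𝕢 (1 : ℝ) (τ : ℂ)) =O[atImInfty] Δ :=
  (Asymptotics.isBigO_of_le _ (fun τ => by
    rw [Function.Periodic.norm_qParam, Real.norm_of_nonneg (Real.exp_pos _).le]
    simp)).trans ModularForm.exp_isBigO_discriminant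

theorem discriminant_isBigO_qParam (h : ℕ) [NeZero h] :
    Δ =O[atImInfty] (fun τ : ℍ => 𝕢 (h : ℝ) (τ : ℂ)) := by
  have h1 := CuspFormClass.exp_decay_atImInfty (h := 1) CuspForm.discriminant one_pos
    one_mem_strictPeriods_SL
  refine h1.trans (Asymptotics.isBigO_of_le _ (fun τ => ?_))
  rw [Function.Periodic.norm_qParam, Real.norm_of_nonneg (Real.exp_pos _).le, Real.exp_le_exp]
  have hh : (1 : ℝ) ≤ (h : ℝ) := by exact_mod_cast Nat.one_le_iff_ne_zero.mpr (NeZero.ne h)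
  have hy : 0 < τ.im := τ.im_pos
  rw [div_one, UpperHalfPlane.coe_im, neg_mul, neg_mul, neg_div, neg_le_neg_iff]
  exact div_le_self (by positivity) hh

theorem qParam_pow_eq_one (h : ℕ) [NeZero h] (w : ℂ) : 𝕢 (h : ℝ) w ^ h = 𝕢 (1 : ℝ) w := by
  have hh : (h : ℂ) ≠ 0 := by exact_mod_cast NeZero.ne h
  simp only [Function.Periodic.qParam]
  rw [← Complex.exp_nat_mul]
  congr 1
  push_cast
  field_simp

/-- A bound by a power of `Δ` gives a bound by a power of `q_h`. -/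
theorem bdd_qPow_of_bdd_discriminant_pow {h : ℕ} [NeZero h] {f : ℍ → ℂ} {m : ℕ}
    (hb : IsBoundedAtImInfty (fun z => Δ z ^ m * f z)) :
    IsBoundedAtImInfty (qPow h (h * m) * f) := by
  have h1 : (fun τ : ℍ => 𝕢 (1 : ℝ) (τ : ℂ) ^ m) =O[atImInfty] (fun τ => Δ τ ^ m) :=
    qParam_isBigO_discriminant.pow m
  have h2 : (fun τ : ℍ => 𝕢 (1 : ℝ) (τ : ℂ) ^ m * f τ) =O[atImInfty] (fun τ => Δ τ ^ m * f τ) :=
    h1.mul (Asymptotics.isBigO_refl f _)
  have h3 : qPow h (h * m) * f = fun τ : ℍ => 𝕢 (1 : ℝ) (τ : ℂ) ^ m * f τ := by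
    funext τ
    simp only [Pi.mul_apply, qPow_apply, pow_mul, qParam_pow_eq_one]
  rw [h3]
  exact h2.trans hb

/-- A bound by a power of `q_h` gives a bound by the same power of `Δ`. -/
theorem bdd_discriminant_pow_of_bdd_qPow {h : ℕ} [NeZero h] {f : ℍ → ℂ} {m : ℕ}
    (hb : IsBoundedAtImInfty (qPow h m * f)) :
    IsBoundedAtImInfty (fun z => Δ z ^ m * f z) := by
  have h1 : (fun τ : ℍ => Δ τ ^ m) =O[atImInfty] (fun τ : ℍ => 𝕢 (h : ℝ) (τ : ℂ) ^ m) :=
    (discriminant_isBigO_qParam h).pow m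
  have h2 : (fun τ : ℍ => Δ τ ^ m * f τ) =O[atImInfty] (fun τ => 𝕢 (h : ℝ) (τ : ℂ) ^ m * f τ) :=
    h1.mul (Asymptotics.isBigO_refl f _)
  exact h2.trans hb

/-- Membership in `MerInf h` via a bound by a power of `Δ`. -/
theorem mem_MerInf_iff_discriminant {h : ℕ} [NeZero h] {f : ℍ → ℂ} :
    f ∈ MerInf h ↔ MDifferentiable 𝓘(ℂ) 𝓘(ℂ) f ∧ Periodic (f ∘ ofComplex) (h : ℝ) ∧
      ∃ m : ℕ, IsBoundedAtImInfty (fun z => Δ z ^ m * f z) := by
  constructor
  · rintro ⟨h1, h2, m, hm⟩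
    exact ⟨h1, h2, m, bdd_discriminant_pow_of_bdd_qPow hm⟩
  · rintro ⟨h1, h2, m, hm⟩
    exact ⟨h1, h2, h * m, bdd_qPow_of_bdd_discriminant_pow hm⟩

/-! ### Change of period -/

theorem qParam_mul_pow (h k : ℕ) [NeZero h] [NeZero k] (w : ℂ) :
    𝕢 ((h * k : ℕ) : ℝ) w ^ k = 𝕢 (h : ℝ) w := by
  have hh : (h : ℂ) ≠ 0 := by exact_mod_cast NeZero.ne h
  have hk : (k : ℂ) ≠ 0 := by exact_mod_cast NeZero.ne k
  simp only [Function.Periodic.qParam]
  rw [← Complex.exp_nat_mul]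
  congr 1
  push_cast
  field_simp

/-- Re-expanding a `q_h`-expansion in `q_{hk}`. -/
theorem hasSum_qExpand_iff {h k : ℕ} [NeZero h] [NeZero k] (L : LaurentSeries ℂ) (τ : ℍ) (a : ℂ) :
    HasSum (fun n : ℤ => (ModularCurve.qExpand ℂ k L).coeff n *
        𝕢 ((h * k : ℕ) : ℝ) (τ : ℂ) ^ n) a ↔
      HasSum (fun n : ℤ => L.coeff n * 𝕢 (h : ℝ) (τ : ℂ) ^ n) a := by
  have hg : Function.Injective (fun n : ℤ => (k : ℤ) * n) :=
    mul_right_injective₀ (by exact_mod_cast NeZero.ne k)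
  have hfun : ((fun n : ℤ => (ModularCurve.qExpand ℂ k L).coeff n *
      𝕢 ((h * k : ℕ) : ℝ) (τ : ℂ) ^ n) ∘ fun n : ℤ => (k : ℤ) * n)
      = fun n : ℤ => L.coeff n * 𝕢 (h : ℝ) (τ : ℂ) ^ n := by
    funext n
    simp only [comp_apply, ModularCurve.qExpand_coeff_mul]
    rw [zpow_mul, zpow_natCast, qParam_mul_pow]
  rw [← hfun, Function.Injective.hasSum_iff hg]
  intro n hn
  rw [ModularCurve.qExpand_coeff_of_not_dvd k L (fun ⟨c, hc⟩ => hn ⟨c, hc.symm⟩), zero_mul]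

theorem MerInf_le_mul (h k : ℕ) [NeZero h] [NeZero k] : MerInf h ≤ MerInf (h * k) := by
  intro f hf
  exact mem_MerInf_of_hasSum (L := ModularCurve.qExpand ℂ k (Lq h ⟨f, hf⟩))
    (fun τ => (hasSum_qExpand_iff _ τ _).mpr (hasSum_Lq ⟨f, hf⟩ τ))

/-- The `q_{hk}`-expansion of an `h`-periodic function is obtained by `q ↦ q^k`. -/
theorem Lq_mul_period (h k : ℕ) [NeZero h] [NeZero k] (f : MerInf h) :
    Lq (h * k) (Subalgebra.inclusion (MerInf_le_mul h k) f) =
      ModularCurve.qExpand ℂ k (Lq h f) :=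
  Lq_eq_of_hasSum (f := (f : ℍ → ℂ)) (L := ModularCurve.qExpand ℂ k (Lq h f))
    (fun τ => (hasSum_qExpand_iff _ τ _).mpr (hasSum_Lq f τ))

/-! ### Leading term at `i∞` -/

/-- A holomorphic periodic function bounded at `i∞` tends to the constant term of its
`q`-expansion. -/
theorem IsHolBdd.tendsto_coeff_zero {h : ℕ} [NeZero h] {f : ℍ → ℂ} (hf : IsHolBdd h f) :
    Tendsto f atImInfty (𝓝 ((qExpansion (h : ℝ) f).coeff 0)) := by
  have h1 : (cuspFunction (h : ℝ) f ∘ fun τ : ℍ ↦ 𝕢 (h : ℝ) (τ : ℂ) : ℍ → ℂ) = f := by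
    funext τ
    simpa using eq_cuspFunction τ (hpos h).ne' hf.per
  have h2 : (qExpansion (h : ℝ) f).coeff 0 = cuspFunction (h : ℝ) f 0 := by
    simp [qExpansion_coeff]
  rw [h2]
  simpa [h1] using hf.analyticAt.continuousAt.tendsto.comp (qParam_tendsto_atImInfty (hpos h))

/-- Shifting the exponents of a pointwise convergent expansion. -/
theorem hasSum_single_mul_iff {h : ℕ} (L : LaurentSeries ℂ) (m : ℤ) (τ : ℍ) (a : ℂ) :
    HasSum (fun n : ℤ => (HahnSeries.single (-m) (1 : ℂ) * L).coeff n * 𝕢 (h : ℝ) (τ : ℂ) ^ n)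
        (𝕢 (h : ℝ) (τ : ℂ) ^ (-m) * a) ↔
      HasSum (fun n : ℤ => L.coeff n * 𝕢 (h : ℝ) (τ : ℂ) ^ n) a := by
  have hq : 𝕢 (h : ℝ) (τ : ℂ) ≠ 0 := Function.Periodic.qParam_ne_zero _
  have hfun : ((fun n : ℤ => L.coeff n * 𝕢 (h : ℝ) (τ : ℂ) ^ n * 𝕢 (h : ℝ) (τ : ℂ) ^ (-m)) ∘
      (Equiv.addRight m)) =
      fun n : ℤ => (HahnSeries.single (-m) (1 : ℂ) * L).coeff n * 𝕢 (h : ℝ) (τ : ℂ) ^ n := by
    funext n
    simp only [comp_apply, Equiv.coe_addRight, HahnSeries.coeff_single_mul, one_mul,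
      sub_neg_eq_add]
    rw [mul_assoc, ← zpow_add₀ hq, add_neg_cancel_right]
  rw [← hfun, (Equiv.addRight m).hasSum_iff, mul_comm _ a,
    hasSum_mul_right_iff (zpow_ne_zero _ hq)]

/-- **Leading term**: for `f` in `MerInf h`, `q_h^{-m} f` tends at `i∞` to the
leading coefficient of the Laurent expansion, where `m` is its order. -/
theorem tendsto_zpow_neg_order_mul {h : ℕ} [NeZero h] (f : MerInf h) :
    Tendsto (fun z : ℍ => 𝕢 (h : ℝ) (z : ℂ) ^ (-(Lq h f).order) * (f : ℍ → ℂ) z) atImInfty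
      (𝓝 ((Lq h f).coeff (Lq h f).order)) := by
  set L := Lq h f with hLdef
  set m := L.order with hm
  set g : ℍ → ℂ := fun z : ℍ => 𝕢 (h : ℝ) (z : ℂ) ^ (-m) * (f : ℍ → ℂ) z with hg
  have hsum : ∀ τ : ℍ, HasSum (fun n : ℤ => (HahnSeries.single (-m) (1 : ℂ) * L).coeff n *
      𝕢 (h : ℝ) (τ : ℂ) ^ n) (g τ) := fun τ =>
    (hasSum_single_mul_iff L m τ _).mpr (hasSum_Lq f τ)
  have hmem : g ∈ MerInf h := mem_MerInf_of_hasSum hsum
  have hLq : Lq h ⟨g, hmem⟩ = HahnSeries.single (-m) (1 : ℂ) * L := Lq_eq_of_hasSum hsum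
  have hbdd : IsBoundedAtImInfty g := by
    have h0 := (isBoundedAtImInfty_qPow_mul_iff ⟨g, hmem⟩ 0).mpr (by
      intro n hn
      rw [hLq, HahnSeries.coeff_single_mul, one_mul, sub_neg_eq_add]
      exact HahnSeries.coeff_eq_zero_of_lt_order (by
        have : n < 0 := by simpa using hn
        omega))
    rwa [qPow_zero, one_mul] at h0
  have hH : IsHolBdd h g := ⟨hmem.1, hmem.2.1, hbdd⟩
  have h1 := hH.tendsto_coeff_zero
  have h2 : (qExpansion (h : ℝ) g).coeff 0 = L.coeff m := by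
    have h3 := Lq_of_bdd ⟨g, hmem⟩ hbdd
    rw [hLq] at h3
    have h4 := congrArg (fun x : LaurentSeries ℂ => x.coeff 0) h3
    simp only [HahnSeries.coeff_single_mul, one_mul, sub_neg_eq_add, zero_add] at h4
    rw [h4]
    exact_mod_cast (HahnSeries.ofPowerSeries_apply_coeff (Γ := ℤ) (qExpansion (h : ℝ) g) 0).symm
  rw [h2] at h1
  exact h1

theorem Lq_coeff_order_ne_zero {h : ℕ} [NeZero h] {f : MerInf h} (hf : f ≠ 0) :
    (Lq h f).coeff (Lq h f).order ≠ 0 := by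
  intro h0
  exact hf (Lq_injective h (by rw [HahnSeries.coeff_order_eq_zero.mp h0, map_zero]))

/-- The architect's shape: existence of the exponent and the nonzero limit. -/
theorem exists_tendsto_zpow_mul {h : ℕ} [NeZero h] (f : MerInf h) (hf : f ≠ 0) :
    ∃ (m : ℤ) (c : ℂ), m = (Lq h f).order ∧ c ≠ 0 ∧
      Tendsto (fun z : ℍ => 𝕢 (h : ℝ) (z : ℂ) ^ (-m) * (f : ℍ → ℂ) z) atImInfty (𝓝 c) :=
  ⟨_, _, rfl, Lq_coeff_order_ne_zero hf, tendsto_zpow_neg_order_mul f⟩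

/-- Uniqueness of the exponent `m` such that `q_h^{-m} G` has a nonzero limit at `i∞`. -/
theorem zpow_exponent_unique {h : ℕ} [NeZero h] {G : ℍ → ℂ} {m m' : ℤ} {c c' : ℂ}
    (hc : c ≠ 0) (hc' : c' ≠ 0)
    (hm : Tendsto (fun z : ℍ => 𝕢 (h : ℝ) (z : ℂ) ^ (-m) * G z) atImInfty (𝓝 c))
    (hm' : Tendsto (fun z : ℍ => 𝕢 (h : ℝ) (z : ℂ) ^ (-m') * G z) atImInfty (𝓝 c')) :
    m = m' := by
  have key : ∀ {a b : ℤ} {x y : ℂ}, x ≠ 0 →
      Tendsto (fun z : ℍ => 𝕢 (h : ℝ) (z : ℂ) ^ (-a) * G z) atImInfty (𝓝 x) →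
      Tendsto (fun z : ℍ => 𝕢 (h : ℝ) (z : ℂ) ^ (-b) * G z) atImInfty (𝓝 y) → ¬ a < b := by
    intro a b x y hx ha hb hab
    obtain ⟨k, hk⟩ : ∃ k : ℕ, b - a = (k : ℤ) + 1 :=
      ⟨(b - a - 1).toNat, by omega⟩
    have hq := qParam_tendsto_atImInfty (hpos h)
    have h1 : Tendsto (fun z : ℍ => 𝕢 (h : ℝ) (z : ℂ) ^ (k + 1)) atImInfty (𝓝 0) := by
      have := hq.pow (k + 1)
      simpa using this
    have h2 := h1.mul hb
    rw [zero_mul] at h2
    have h3 : (fun z : ℍ => 𝕢 (h : ℝ) (z : ℂ) ^ (k + 1) * (𝕢 (h : ℝ) (z : ℂ) ^ (-b) * G z))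
        = fun z : ℍ => 𝕢 (h : ℝ) (z : ℂ) ^ (-a) * G z := by
      funext z
      have hq0 : 𝕢 (h : ℝ) (z : ℂ) ≠ 0 := Function.Periodic.qParam_ne_zero _
      rw [← mul_assoc, ← zpow_natCast, ← zpow_add₀ hq0]
      congr 2
      push_cast
      omega
    rw [h3] at h2
    exact hx (tendsto_nhds_unique ha h2)
  rcases lt_trichotomy m m' with hlt | heq | hgt
  · exact absurd hlt (key hc hm hm')
  · exact heq
  · exact absurd hgt (key hc' hm' hm)

end Fermat.Agent.S24.QLaurent
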