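import Fermat.Agent.S24.QExpJ
import Fermat.Agent.S24.QLaurent
import Fermat.Agent.S24.LevelOneInv

/-!
# S24 — level one, rational form ("L1D")

A holomorphic `SL(2, ℤ)`-invariant function on `ℍ` which has a `q_N`-expansion with coefficients
in the image of `ι : K →+* ℂ` is a polynomial in `J` with coefficients in `K`.
-/

set_option autoImplicit false

open UpperHalfPlane ModularForm ModularCurve
open scoped MatrixGroups Manifold

namespace Fermat.Agent.S24.LevelOneRat

open Fermat.Agent.S24 Fermat.Agent.S24.QExp Fermat.Agent.S24.LevelOneInv Fermat.Agent.S20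

noncomputable section

/-- A Laurent series over `ℂ` all of whose coefficients lie in the range of `ι` comes from a
Laurent series over `K`. -/
theorem exists_coeffMap_eq {K : Type*} [Field K] (ι : K →+* ℂ) (M : LaurentSeries ℂ)
    (h : ∀ n, M.coeff n ∈ Set.range ι) : ∃ S : LaurentSeries K, coeffMap ι S = M := by
  classical
  choose c hc using h
  have hsupp : Function.support c ⊆ M.support := by
    intro n hn
    rw [Function.mem_support] at hn
    rw [HahnSeries.mem_support, ← hc n]
    exact fun h0 => hn (ι.injective (h0.trans (map_zero ι).symm))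
  refine ⟨⟨c, M.isPWO_support.mono hsupp⟩, ?_⟩
  ext n
  rw [coeffMap_coeff]
  exact hc n

/-- The `q`-expansion of a polynomial in `J`. -/
theorem hasQExp_poly_Jfun (P : Polynomial ℂ) :
    HasQExp 1 (fun z => P.eval (Jfun z)) (Polynomial.aeval jqC P) := by
  have hJ : HasQExp 1 Jfun jqC := hasQExp_Jfun
  rw [Polynomial.aeval_eq_sum_range]
  have h1 : (fun z : ℍ => P.eval (Jfun z)) =
      ∑ k ∈ Finset.range (P.natDegree + 1), (fun z => P.coeff k * (Jfun ^ k) z) := by
    funext z
    rw [Polynomial.eval_eq_sum_range, Finset.sum_apply]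
    rfl
  rw [h1]
  refine HasQExp.sum _ _ _ (fun k _ => ?_)
  have h2 := (hJ.pow k).const_mul (P.coeff k)
  convert h2 using 1
  rw [Algebra.smul_def, algebraMap_laurentSeries_eq_single, HahnSeries.C_apply]

/-- **L1D.** A holomorphic `SL(2, ℤ)`-invariant function with a `K`-rational `q_N`-expansion is a
polynomial in `J` over `K`. -/
theorem exists_poly_of_invariant_rational {K : Type*} [Field K] [Algebra ℚ K] (ι : K →+* ℂ)
    (G : ℍ → ℂ) (hG : MDifferentiable 𝓘(ℂ) 𝓘(ℂ) G)
    (hinv : ∀ (γ : SL(2, ℤ)) (z : ℍ), G (γ • z) = G z) (N : ℕ) [NeZero N]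
    (L : LaurentSeries K) (hL : HasQExp N G (coeffMap ι L)) :
    ∃ a : Polynomial K, ∀ z, G z = (a.map ι).eval (Jfun z) := by
  have hmem : G ∈ QLaurent.MerInf N := QLaurent.mem_MerInf_of_hasSum hL
  obtain ⟨-, -, m, hm⟩ := QLaurent.mem_MerInf_iff_discriminant.1 hmem
  have hb : IsBoundedAtImInfty (Δf ^ m * G) := hm
  obtain ⟨P, -, hP⟩ := exists_poly_of_invariant G hG hinv m hb
  have hP' : ∀ z, G z = P.eval (Jfun z) := hP
  have h1 : HasQExp 1 G (Polynomial.aeval jqC P) :=
    (hasQExp_poly_Jfun P).congr_fun' (fun z => (hP' z).symm)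
  have h2 : HasQExp N G (qExpand ℂ N (Polynomial.aeval jqC P)) := by
    intro τ
    have h3 := (QLaurent.hasSum_qExpand_iff (h := 1) (k := N) (Polynomial.aeval jqC P) τ
      (G τ)).mpr (h1 τ)
    simpa only [one_mul] using h3
  have h3 : qExpand ℂ N (Polynomial.aeval jqC P) = coeffMap ι L := h2.unique hL
  have hcoef : ∀ n, (Polynomial.aeval jqC P).coeff n ∈ Set.range ι := by
    intro n
    have h4 := congrArg (fun s : LaurentSeries ℂ => s.coeff ((N : ℤ) * n)) h3
    simp only [qExpand_coeff_mul, coeffMap_coeff] at h4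
    exact ⟨_, h4.symm⟩
  obtain ⟨S, hS⟩ := exists_coeffMap_eq ι _ hcoef
  obtain ⟨Q, hQ, -⟩ := exists_poly_descent ι P S hS.symm
  exact ⟨Q, fun z => by rw [hQ]; exact hP' z⟩

end

end Fermat.Agent.S24.LevelOneRat
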