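import Mathlib

/-!
# S24 / B-ORD : orders of vanishing of holomorphic functions on the upper half plane

Mathlib only.  For `f : ℍ → ℂ` and `τ : ℍ` we put

  `ord f τ := analyticOrderNatAt (f ∘ UpperHalfPlane.ofComplex) (τ : ℂ)`   (a natural number).

For holomorphic `f ≢ 0` this is the usual order of vanishing.  Exports:

* `analyticAt_comp_ofComplex`, `analyticOrderAt_ne_top`, `coe_ord`
* `ord_eq_zero_iff`, `ord_pos_iff`, `ord_mul`, `ord_pow`, `min_ord_le_ord_add`, `ord_const`,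
  `ord_const_mul`, `ord_neg`, `ord_prod`
* `ord_comp_glPos`, `ord_comp_sl` : invariance under Möbius substitutions
* `pow_ord_eq_one_of_fixed` : the multiplier of a Möbius map fixing `τ` and leaving `f` invariant
  is an `ord f τ`-th root of unity
* `two_dvd_ord_of_fixed`, `three_dvd_ord_of_fixed` : the fixed point lemmas
* `ord_sub_ord_eq_of_mul_eq_mul` : the `ℤ`-valued order of a quotient is well defined.
-/

namespace Fermat.Agent.S24.OrdAt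

open UpperHalfPlane Filter Topology
open scoped MatrixGroups Manifold

/-- The order of vanishing at `τ` of a function on the upper half plane. -/
noncomputable def ord (f : ℍ → ℂ) (τ : ℍ) : ℕ :=
  analyticOrderNatAt (f ∘ ofComplex) (τ : ℂ)

theorem ord_def (f : ℍ → ℂ) (τ : ℍ) :
    ord f τ = analyticOrderNatAt (f ∘ ofComplex) (τ : ℂ) := rfl

/-- A holomorphic function on `ℍ`, read on `ℂ` through `ofComplex`, is analytic at the points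
of `ℍ`. -/
theorem analyticAt_comp_ofComplex {f : ℍ → ℂ} (hf : MDifferentiable 𝓘(ℂ) 𝓘(ℂ) f) (τ : ℍ) :
    AnalyticAt ℂ (f ∘ ofComplex) (τ : ℂ) :=
  DifferentiableOn.analyticAt (UpperHalfPlane.mdifferentiable_iff.mp hf)
    (isOpen_upperHalfPlaneSet.mem_nhds τ.im_pos)

theorem analyticOnNhd_comp_ofComplex {f : ℍ → ℂ} (hf : MDifferentiable 𝓘(ℂ) 𝓘(ℂ) f) :
    AnalyticOnNhd ℂ (f ∘ ofComplex) {z : ℂ | 0 < z.im} :=
  DifferentiableOn.analyticOnNhd (UpperHalfPlane.mdifferentiable_iff.mp hf)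
    isOpen_upperHalfPlaneSet

/-- Identity theorem: a holomorphic function on `ℍ` which is not identically zero has finite
order at every point. -/
theorem analyticOrderAt_ne_top {f : ℍ → ℂ} (hf : MDifferentiable 𝓘(ℂ) 𝓘(ℂ) f) (h0 : f ≠ 0)
    (τ : ℍ) : analyticOrderAt (f ∘ ofComplex) (τ : ℂ) ≠ ⊤ := by
  intro htop
  apply h0
  have h1 : f ∘ ofComplex =ᶠ[𝓝 (τ : ℂ)] 0 := analyticOrderAt_eq_top.mp htop
  have hpre : IsPreconnected {z : ℂ | 0 < z.im} := (convex_halfSpace_im_gt 0).isPreconnected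
  have h2 := (analyticOnNhd_comp_ofComplex hf).eqOn_zero_of_preconnected_of_eventuallyEq_zero
    hpre (show (τ : ℂ) ∈ {z : ℂ | 0 < z.im} from τ.im_pos) h1
  funext z
  have := h2 (show (z : ℂ) ∈ {z : ℂ | 0 < z.im} from z.im_pos)
  simpa using this

theorem coe_ord {f : ℍ → ℂ} (hf : MDifferentiable 𝓘(ℂ) 𝓘(ℂ) f) (h0 : f ≠ 0) (τ : ℍ) :
    ((ord f τ : ℕ) : ℕ∞) = analyticOrderAt (f ∘ ofComplex) (τ : ℂ) :=
  Nat.cast_analyticOrderNatAt (analyticOrderAt_ne_top hf h0 τ)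

theorem ord_eq_zero_iff {f : ℍ → ℂ} (hf : MDifferentiable 𝓘(ℂ) 𝓘(ℂ) f) (h0 : f ≠ 0) (τ : ℍ) :
    ord f τ = 0 ↔ f τ ≠ 0 := by
  have h := (analyticAt_comp_ofComplex hf τ).analyticOrderAt_eq_zero
  rw [← coe_ord hf h0 τ] at h
  simpa using h

theorem ord_pos_iff {f : ℍ → ℂ} (hf : MDifferentiable 𝓘(ℂ) 𝓘(ℂ) f) (h0 : f ≠ 0) (τ : ℍ) :
    0 < ord f τ ↔ f τ = 0 := by
  rw [Nat.pos_iff_ne_zero, Ne, ord_eq_zero_iff hf h0 τ, not_not]

theorem ord_mul {f g : ℍ → ℂ} (hf : MDifferentiable 𝓘(ℂ) 𝓘(ℂ) f)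
    (hg : MDifferentiable 𝓘(ℂ) 𝓘(ℂ) g) (hf0 : f ≠ 0) (hg0 : g ≠ 0) (τ : ℍ) :
    ord (f * g) τ = ord f τ + ord g τ := by
  have h := analyticOrderNatAt_mul (analyticAt_comp_ofComplex hf τ)
    (analyticAt_comp_ofComplex hg τ) (analyticOrderAt_ne_top hf hf0 τ)
    (analyticOrderAt_ne_top hg hg0 τ)
  exact h

theorem ord_mul' {f g : ℍ → ℂ} (hf : MDifferentiable 𝓘(ℂ) 𝓘(ℂ) f)
    (hg : MDifferentiable 𝓘(ℂ) 𝓘(ℂ) g) (hf0 : f ≠ 0) (hg0 : g ≠ 0) (τ : ℍ) :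
    ord (fun z => f z * g z) τ = ord f τ + ord g τ :=
  ord_mul hf hg hf0 hg0 τ

theorem ord_pow {f : ℍ → ℂ} (hf : MDifferentiable 𝓘(ℂ) 𝓘(ℂ) f) (n : ℕ) (τ : ℍ) :
    ord (f ^ n) τ = n * ord f τ := by
  have h := analyticOrderNatAt_pow (analyticAt_comp_ofComplex hf τ) n
  exact h

theorem ord_pow' {f : ℍ → ℂ} (hf : MDifferentiable 𝓘(ℂ) 𝓘(ℂ) f) (n : ℕ) (τ : ℍ) :
    ord (fun z => f z ^ n) τ = n * ord f τ :=
  ord_pow hf n τ

theorem min_ord_le_ord_add {f g : ℍ → ℂ} (hf : MDifferentiable 𝓘(ℂ) 𝓘(ℂ) f)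
    (hg : MDifferentiable 𝓘(ℂ) 𝓘(ℂ) g) (hf0 : f ≠ 0) (hg0 : g ≠ 0) (hfg : f + g ≠ 0) (τ : ℍ) :
    min (ord f τ) (ord g τ) ≤ ord (f + g) τ := by
  have h := le_analyticOrderAt_add (f := f ∘ ofComplex) (g := g ∘ ofComplex) (z₀ := (τ : ℂ))
  have e : (f ∘ ofComplex + g ∘ ofComplex) = (f + g) ∘ ofComplex := rfl
  rw [e, ← coe_ord hf hf0, ← coe_ord hg hg0, ← coe_ord (hf.add hg) hfg] at h
  rcases le_total (ord f τ) (ord g τ) with hle | hle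
  · rw [min_eq_left hle]
    rw [min_eq_left (by exact_mod_cast hle)] at h
    exact_mod_cast h
  · rw [min_eq_right hle]
    rw [min_eq_right (by exact_mod_cast hle)] at h
    exact_mod_cast h

theorem ord_const {c : ℂ} (hc : c ≠ 0) (τ : ℍ) : ord (fun _ => c) τ = 0 := by
  have hmd : MDifferentiable 𝓘(ℂ) 𝓘(ℂ) (fun _ : ℍ => c) := mdifferentiable_const
  have h0 : (fun _ : ℍ => c) ≠ 0 := fun h => hc (by simpa using congrFun h τ)
  exact (ord_eq_zero_iff hmd h0 τ).mpr hc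

theorem ord_const_mul {f : ℍ → ℂ} (hf : MDifferentiable 𝓘(ℂ) 𝓘(ℂ) f) (hf0 : f ≠ 0) {c : ℂ}
    (hc : c ≠ 0) (τ : ℍ) : ord (fun z => c * f z) τ = ord f τ := by
  have hmd : MDifferentiable 𝓘(ℂ) 𝓘(ℂ) (fun _ : ℍ => c) := mdifferentiable_const
  have h0 : (fun _ : ℍ => c) ≠ 0 := fun h => hc (by simpa using congrFun h τ)
  have := ord_mul' hmd hf h0 hf0 τ
  rw [this, ord_const hc, zero_add]

theorem ord_neg (f : ℍ → ℂ) (τ : ℍ) : ord (-f) τ = ord f τ := by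
  have e : (-f) ∘ ofComplex = -(f ∘ ofComplex) := rfl
  rw [ord_def, e, analyticOrderNatAt, analyticOrderAt_neg]
  rfl

/-- Invariance of the order under a Möbius substitution (positive determinant). -/
theorem ord_comp_glPos (f : ℍ → ℂ) {g : GL (Fin 2) ℝ} (hg : 0 < g.val.det) (τ : ℍ) :
    ord (fun z => f (g • z)) τ = ord f (g • τ) := by
  have e : (fun z : ℍ => f (g • z)) ∘ ofComplex
      = (f ∘ ofComplex) ∘ (fun z : ℂ => ((g • ofComplex z : ℍ) : ℂ)) := by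
    funext z
    simp
  rw [ord_def, e, analyticOrderNatAt,
    analyticOrderAt_comp_of_deriv_ne_zero (τ.analyticAt_smul hg) (τ.deriv_smul_ne_zero hg)]
  simp [ord_def, analyticOrderNatAt]

theorem sl_det_pos (γ : SL(2, ℤ)) : 0 < ((γ : GL (Fin 2) ℝ)).val.det := by
  have h : ((γ : GL (Fin 2) ℝ)).val.det = 1 :=
    (Matrix.SpecialLinearGroup.map (Int.castRingHom ℝ) γ).det_coe
  rw [h]
  exact one_pos

/-- Invariance of the order under `SL(2, ℤ)`-substitutions. -/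
theorem ord_comp_sl (f : ℍ → ℂ) (γ : SL(2, ℤ)) (τ : ℍ) :
    ord (fun z => f (γ • z)) τ = ord f (γ • τ) :=
  ord_comp_glPos f (sl_det_pos γ) τ

/-! ### The fixed point lemma -/

/-- Local lemma: if `f ∘ φ = f` near a fixed point `z₀` of `φ`, and `f` has finite order `n`
at `z₀`, then the multiplier `φ'(z₀)` is an `n`-th root of unity. -/
theorem deriv_pow_analyticOrderNatAt_eq_one {f φ : ℂ → ℂ} {z₀ : ℂ} (hf : AnalyticAt ℂ f z₀)
    (hne : analyticOrderAt f z₀ ≠ ⊤) (hφ : AnalyticAt ℂ φ z₀) (hfix : φ z₀ = z₀)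
    (hinv : ∀ᶠ z in 𝓝 z₀, f (φ z) = f z) :
    deriv φ z₀ ^ analyticOrderNatAt f z₀ = 1 := by
  obtain ⟨g, hg, hg0, hfg⟩ := (hf.analyticOrderAt_eq_natCast
    (n := analyticOrderNatAt f z₀)).mp (Nat.cast_analyticOrderNatAt hne).symm
  set n := analyticOrderNatAt f z₀
  set h := dslope φ z₀ with hh
  have hφd : DifferentiableAt ℂ φ z₀ := hφ.differentiableAt
  have hcont : ContinuousAt h z₀ := continuousAt_dslope_same.mpr hφd
  have hh0 : h z₀ = deriv φ z₀ := dslope_same φ z₀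
  have hφz : ∀ z, φ z - z₀ = (z - z₀) * h z := by
    intro z
    have := sub_smul_dslope φ z₀ z
    rw [hfix] at this
    simpa [smul_eq_mul] using this.symm
  have hφt : Tendsto φ (𝓝 z₀) (𝓝 z₀) := by
    have := hφ.continuousAt.tendsto
    rwa [hfix] at this
  have hfg' : ∀ᶠ z in 𝓝 z₀, f (φ z) = (φ z - z₀) ^ n • g (φ z) := hφt.eventually hfg
  have key : (fun z => h z ^ n * g (φ z)) =ᶠ[𝓝[≠] z₀] g := by
    have h1 : ∀ᶠ z in 𝓝 z₀, z ∈ ({z₀}ᶜ : Set ℂ) → h z ^ n * g (φ z) = g z := by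
      filter_upwards [hfg, hfg', hinv] with z h1 h2 h3 hz
      rw [h1, h2, hφz z, mul_pow] at h3
      simp only [smul_eq_mul] at h3
      have hz' : (z - z₀) ^ n ≠ 0 := pow_ne_zero _ (sub_ne_zero.mpr hz)
      exact mul_left_cancel₀ hz' (by rw [← h3]; ring)
    exact eventually_nhdsWithin_iff.mpr h1
  have hc1 : ContinuousAt (fun z => h z ^ n * g (φ z)) z₀ := by
    refine (hcont.pow n).mul ?_
    have h2 : ContinuousAt g (φ z₀) := by rw [hfix]; exact hg.continuousAt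
    exact ContinuousAt.comp (g := g) (f := φ) h2 hφ.continuousAt
  have hc2 : ContinuousAt g z₀ := hg.continuousAt
  have h3 := ((hc1.eventuallyEq_nhds_iff_eventuallyEq_nhdsNE hc2).mp key).self_of_nhds
  simp only [hfix, hh0] at h3
  exact mul_right_cancel₀ hg0 (by rw [h3, one_mul])

/-- If `g ∈ GL₂(ℝ)⁺` fixes `τ` and leaves the holomorphic `f ≢ 0` invariant, then the multiplier
`det g / (cτ + d)²` of `g` at `τ` is an `ord f τ`-th root of unity. -/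
theorem pow_ord_eq_one_of_fixed {f : ℍ → ℂ} (hf : MDifferentiable 𝓘(ℂ) 𝓘(ℂ) f) (h0 : f ≠ 0)
    {g : GL (Fin 2) ℝ} (hg : 0 < g.val.det) (τ : ℍ) (hτ : g • τ = τ)
    (hinv : ∀ z : ℍ, f (g • z) = f z) :
    (((g.val.det : ℝ) : ℂ) / denom g τ ^ 2) ^ ord f τ = 1 := by
  have h := deriv_pow_analyticOrderNatAt_eq_one (f := f ∘ ofComplex)
    (φ := fun z : ℂ => ((g • ofComplex z : ℍ) : ℂ)) (z₀ := (τ : ℂ))
    (analyticAt_comp_ofComplex hf τ) (analyticOrderAt_ne_top hf h0 τ) (τ.analyticAt_smul hg)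
    (by simp [hτ]) (Eventually.of_forall fun z => by simp [hinv])
  rw [τ.deriv_smul hg] at h
  exact h

theorem sl_det_eq_one (γ : SL(2, ℤ)) : ((γ : GL (Fin 2) ℝ)).val.det = 1 :=
  (Matrix.SpecialLinearGroup.map (Int.castRingHom ℝ) γ).det_coe

/-- For `δ ∈ SL(2, ℤ)` fixing `τ` and leaving the holomorphic `f ≢ 0` invariant,
`((cτ + d)²) ^ ord f τ = 1`. -/
theorem denom_sq_pow_ord_eq_one {f : ℍ → ℂ} (hf : MDifferentiable 𝓘(ℂ) 𝓘(ℂ) f) (h0 : f ≠ 0)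
    (δ : SL(2, ℤ)) (τ : ℍ) (hτ : δ • τ = τ) (hinv : ∀ z : ℍ, f (δ • z) = f z) :
    (denom (δ : GL (Fin 2) ℝ) τ ^ 2) ^ ord f τ = 1 := by
  have h := pow_ord_eq_one_of_fixed hf h0 (sl_det_pos δ) τ hτ hinv
  rw [sl_det_eq_one δ, Complex.ofReal_one, one_div, inv_pow] at h
  exact inv_eq_one.mp h

/-- The quadratic equation satisfied by the automorphy factor `μ = cτ + d` of an element of
`SL(2, ℤ)` at a fixed point: `μ² - (a + d) μ + 1 = 0`. -/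
theorem denom_quadratic_of_fixed (δ : SL(2, ℤ)) (τ : ℍ) (hτ : δ • τ = τ) :
    denom (δ : GL (Fin 2) ℝ) τ ^ 2
      - (((δ 0 0 : ℤ) : ℂ) + ((δ 1 1 : ℤ) : ℂ)) * denom (δ : GL (Fin 2) ℝ) τ + 1 = 0 := by
  have hd : denom (δ : GL (Fin 2) ℝ) τ = ((δ 1 0 : ℤ) : ℂ) * τ + ((δ 1 1 : ℤ) : ℂ) := by
    simp [denom]
  have hne : ((δ 1 0 : ℤ) : ℂ) * τ + ((δ 1 1 : ℤ) : ℂ) ≠ 0 := by
    rw [← hd]; exact denom_ne_zero _ τ
  have h1 := congrArg (fun z : ℍ => (z : ℂ)) hτ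
  simp only [coe_specialLinearGroup_apply] at h1
  have h2 : ((δ 0 0 : ℤ) : ℂ) * τ + ((δ 0 1 : ℤ) : ℂ)
      = τ * (((δ 1 0 : ℤ) : ℂ) * τ + ((δ 1 1 : ℤ) : ℂ)) := by
    have h1' : (((δ 0 0 : ℤ) : ℂ) * τ + ((δ 0 1 : ℤ) : ℂ))
        / (((δ 1 0 : ℤ) : ℂ) * τ + ((δ 1 1 : ℤ) : ℂ)) = τ := by
      simpa using h1
    rw [div_eq_iff hne] at h1'
    exact h1'
  have hdet : ((δ 0 0 : ℤ) : ℂ) * ((δ 1 1 : ℤ) : ℂ) - ((δ 0 1 : ℤ) : ℂ) * ((δ 1 0 : ℤ) : ℂ) = 1 := by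
    have := δ.det_coe
    rw [Matrix.det_fin_two] at this
    exact_mod_cast this
  rw [hd]
  linear_combination (-((δ 1 0 : ℤ) : ℂ)) * h2 - hdet

/-- **Fixed point lemma, order 2.** If `δ ∈ SL(2, ℤ)` with `δ² = -1` fixes `τ` and the
holomorphic function `f ≢ 0` is `δ`-invariant, then `ord f τ` is even. -/
theorem two_dvd_ord_of_fixed {f : ℍ → ℂ} (hf : MDifferentiable 𝓘(ℂ) 𝓘(ℂ) f) (h0 : f ≠ 0)
    (δ : SL(2, ℤ)) (hδ : δ ^ 2 = -1) (τ : ℍ) (hτ : δ • τ = τ)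
    (hinv : ∀ z : ℍ, f (δ • z) = f z) : 2 ∣ ord f τ := by
  have hq := denom_quadratic_of_fixed δ τ hτ
  have hp := denom_sq_pow_ord_eq_one hf h0 δ τ hτ hinv
  -- trace zero
  have e00 := congrArg (fun M : SL(2, ℤ) => M.val 0 0) hδ
  have e01 := congrArg (fun M : SL(2, ℤ) => M.val 0 1) hδ
  have e10 := congrArg (fun M : SL(2, ℤ) => M.val 1 0) hδ
  have e11 := congrArg (fun M : SL(2, ℤ) => M.val 1 1) hδ
  simp [pow_two, Matrix.mul_apply, Fin.sum_univ_two] at e00 e01 e10 e11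
  have htr : (δ 0 0 : ℤ) + δ 1 1 = 0 := by
    by_contra hne
    have hb : (δ 0 1 : ℤ) = 0 := by
      have : (δ 0 1 : ℤ) * ((δ 0 0 : ℤ) + δ 1 1) = 0 := by linear_combination e01
      exact (mul_eq_zero.mp this).resolve_right hne
    rw [hb] at e00
    nlinarith [sq_nonneg (δ 0 0 : ℤ)]
  have htrC : ((δ 0 0 : ℤ) : ℂ) + ((δ 1 1 : ℤ) : ℂ) = 0 := by exact_mod_cast htr
  rw [htrC, zero_mul, sub_zero] at hq
  have hsq : denom (δ : GL (Fin 2) ℝ) τ ^ 2 = -1 := by linear_combination hq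
  rw [hsq] at hp
  have hne1 : (-1 : ℂ) ≠ 1 := by norm_num
  exact even_iff_two_dvd.mp ((neg_one_pow_eq_one_iff_even hne1).mp hp)

/-- **Fixed point lemma, order 3.** If `δ ∈ SL(2, ℤ)` with `δ³ = -1`, `δ ≠ -1` fixes `τ` and the
holomorphic function `f ≢ 0` is `δ`-invariant, then `3 ∣ ord f τ`. -/
theorem three_dvd_ord_of_fixed {f : ℍ → ℂ} (hf : MDifferentiable 𝓘(ℂ) 𝓘(ℂ) f) (h0 : f ≠ 0)
    (δ : SL(2, ℤ)) (hδ : δ ^ 3 = -1) (hδ1 : δ ≠ -1) (τ : ℍ) (hτ : δ • τ = τ)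
    (hinv : ∀ z : ℍ, f (δ • z) = f z) : 3 ∣ ord f τ := by
  have hq := denom_quadratic_of_fixed δ τ hτ
  have hp := denom_sq_pow_ord_eq_one hf h0 δ τ hτ hinv
  have e00 := congrArg (fun M : SL(2, ℤ) => M.val 0 0) hδ
  have e01 := congrArg (fun M : SL(2, ℤ) => M.val 0 1) hδ
  have e10 := congrArg (fun M : SL(2, ℤ) => M.val 1 0) hδ
  have e11 := congrArg (fun M : SL(2, ℤ) => M.val 1 1) hδ
  simp [pow_succ, Matrix.mul_apply, Fin.sum_univ_two] at e00 e01 e10 e11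
  have hdet : (δ 0 0 : ℤ) * δ 1 1 - δ 0 1 * δ 1 0 = 1 := by
    have := δ.det_coe
    rw [Matrix.det_fin_two] at this
    exact this
  have htr : (δ 0 0 : ℤ) + δ 1 1 = 1 := by
    have h1 : (((δ 0 0 : ℤ) + δ 1 1) - 1) ^ 2 * (((δ 0 0 : ℤ) + δ 1 1) + 2) = 0 := by
      linear_combination e00 + e11 + (3 * (δ 0 0 : ℤ) + 3 * δ 1 1) * hdet
    rcases mul_eq_zero.mp h1 with h2 | h2
    · have := pow_eq_zero_iff (two_ne_zero) |>.mp h2
      linarith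
    · exfalso
      apply hδ1
      have ht : (δ 0 0 : ℤ) + δ 1 1 = -2 := by linarith
      have ha : (δ 0 0 : ℤ) = -1 := by
        have : 3 * (δ 0 0 : ℤ) = -3 := by
          linear_combination e00 + (2 * (δ 0 0 : ℤ) + δ 1 1) * hdet
            + (1 - (δ 0 0 : ℤ) * ((δ 0 0 : ℤ) + δ 1 1 - 2)) * ht
        linarith
      have hd : (δ 1 1 : ℤ) = -1 := by linarith
      have hbc : (δ 0 1 : ℤ) * δ 1 0 = 0 := by
        rw [ha, hd] at hdet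
        linarith
      have hb : (δ 0 1 : ℤ) = 0 := by
        have : 3 * (δ 0 1 : ℤ) = 0 := by
          rw [ha, hd] at e01
          linear_combination e01 - (δ 0 1 : ℤ) * hbc
        linarith
      have hc : (δ 1 0 : ℤ) = 0 := by
        have : 3 * (δ 1 0 : ℤ) = 0 := by
          rw [ha, hd] at e10
          linear_combination e10 - (δ 1 0 : ℤ) * hbc
        linarith
      ext i j
      fin_cases i <;> fin_cases j <;> simp [ha, hb, hc, hd]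
  have htrC : ((δ 0 0 : ℤ) : ℂ) + ((δ 1 1 : ℤ) : ℂ) = 1 := by exact_mod_cast htr
  rw [htrC, one_mul] at hq
  set μ := denom (δ : GL (Fin 2) ℝ) τ with hμ
  have hμ2 : μ ^ 2 = μ - 1 := by linear_combination hq
  have hω3 : (μ ^ 2) ^ 3 = 1 := by
    have h3 : μ ^ 3 = -1 := by linear_combination (μ + 1) * hq
    calc (μ ^ 2) ^ 3 = (μ ^ 3) ^ 2 := by ring
      _ = 1 := by rw [h3]; norm_num
  have hω1 : μ ^ 2 ≠ 1 := by
    intro h1
    have h2 : μ = 2 := by linear_combination h1 - hμ2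
    rw [h2] at h1
    norm_num at h1
  have hord : orderOf (μ ^ 2) = 3 := by
    have hdvd : orderOf (μ ^ 2) ∣ 3 := orderOf_dvd_of_pow_eq_one hω3
    rcases (Nat.dvd_prime Nat.prime_three).mp hdvd with h | h
    · exact absurd (orderOf_eq_one_iff.mp h) hω1
    · exact h
  rw [← hord]
  exact orderOf_dvd_of_pow_eq_one hp

/-- `S ^ 2 = -1` in `SL(2, ℤ)`. -/
theorem S_sq_eq_neg_one : ModularGroup.S ^ 2 = (-1 : SL(2, ℤ)) := by
  decide

/-- `(S * T) ^ 3 = -1` in `SL(2, ℤ)`. -/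
theorem ST_cube_eq_neg_one : (ModularGroup.S * ModularGroup.T) ^ 3 = (-1 : SL(2, ℤ)) := by
  decide

theorem ST_ne_neg_one : (ModularGroup.S * ModularGroup.T) ≠ (-1 : SL(2, ℤ)) := by
  decide

/-- Conjugates: `(γ δ γ⁻¹)^n = -1` if `δ^n = -1`. -/
theorem conj_pow_eq_neg_one (γ δ : SL(2, ℤ)) (n : ℕ) (hδ : δ ^ n = -1) :
    (γ * δ * γ⁻¹) ^ n = -1 := by
  rw [conj_pow, hδ]
  have hc : γ * (-1 : SL(2, ℤ)) = -1 * γ := by
    ext i j
    simp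
  rw [hc, mul_assoc, mul_inv_cancel, mul_one]

/-- Fixed point lemma at a point `τ` with `S • τ = τ` (i.e. `τ = i`): an `S`-invariant
holomorphic function has even order there. -/
theorem two_dvd_ord_of_S {f : ℍ → ℂ} (hf : MDifferentiable 𝓘(ℂ) 𝓘(ℂ) f) (h0 : f ≠ 0)
    (τ : ℍ) (hτ : ModularGroup.S • τ = τ) (hinv : ∀ z : ℍ, f (ModularGroup.S • z) = f z) :
    2 ∣ ord f τ :=
  two_dvd_ord_of_fixed hf h0 ModularGroup.S S_sq_eq_neg_one τ hτ hinv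

/-- Fixed point lemma at a point `τ` with `(S * T) • τ = τ` (i.e. `τ = ρ`): an `S * T`-invariant
holomorphic function has order divisible by `3` there. -/
theorem three_dvd_ord_of_ST {f : ℍ → ℂ} (hf : MDifferentiable 𝓘(ℂ) 𝓘(ℂ) f) (h0 : f ≠ 0)
    (τ : ℍ) (hτ : (ModularGroup.S * ModularGroup.T) • τ = τ)
    (hinv : ∀ z : ℍ, f ((ModularGroup.S * ModularGroup.T) • z) = f z) :
    3 ∣ ord f τ :=
  three_dvd_ord_of_fixed hf h0 _ ST_cube_eq_neg_one ST_ne_neg_one τ hτ hinv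

/-- Translate form, as used for coset representatives: if `F` is invariant under
`g⁻¹ * δ * g` (`δ` fixing `τ`, `δ² = -1`), then `z ↦ F (g⁻¹ • z)` has even order at `τ`. -/
theorem two_dvd_ord_translate {F : ℍ → ℂ} (hF : MDifferentiable 𝓘(ℂ) 𝓘(ℂ) F) (h0 : F ≠ 0)
    (g δ : SL(2, ℤ)) (hδ : δ ^ 2 = -1) (τ : ℍ) (hτ : δ • τ = τ)
    (hinv : ∀ z : ℍ, F ((g⁻¹ * δ * g) • z) = F z) :
    2 ∣ ord (fun z => F (g⁻¹ • z)) τ := by
  have hmd : MDifferentiable 𝓘(ℂ) 𝓘(ℂ) (fun z : ℍ => F (g⁻¹ • z)) :=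
    hF.comp (UpperHalfPlane.mdifferentiable_smul (sl_det_pos g⁻¹))
  have hne : (fun z : ℍ => F (g⁻¹ • z)) ≠ 0 := by
    intro h
    apply h0
    funext z
    have := congrFun h (g • z)
    simpa [← mul_smul] using this
  refine two_dvd_ord_of_fixed hmd hne δ hδ τ hτ fun z => ?_
  have := hinv (g⁻¹ • z)
  simp only [← mul_smul] at this ⊢
  rw [← this]
  congr 2
  group

/-- Translate form, order 3. -/
theorem three_dvd_ord_translate {F : ℍ → ℂ} (hF : MDifferentiable 𝓘(ℂ) 𝓘(ℂ) F) (h0 : F ≠ 0)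
    (g δ : SL(2, ℤ)) (hδ : δ ^ 3 = -1) (hδ1 : δ ≠ -1) (τ : ℍ) (hτ : δ • τ = τ)
    (hinv : ∀ z : ℍ, F ((g⁻¹ * δ * g) • z) = F z) :
    3 ∣ ord (fun z => F (g⁻¹ • z)) τ := by
  have hmd : MDifferentiable 𝓘(ℂ) 𝓘(ℂ) (fun z : ℍ => F (g⁻¹ • z)) :=
    hF.comp (UpperHalfPlane.mdifferentiable_smul (sl_det_pos g⁻¹))
  have hne : (fun z : ℍ => F (g⁻¹ • z)) ≠ 0 := by
    intro h
    apply h0
    funext z
    have := congrFun h (g • z)
    simpa [← mul_smul] using this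
  refine three_dvd_ord_of_fixed hmd hne δ hδ hδ1 τ hτ fun z => ?_
  have := hinv (g⁻¹ • z)
  simp only [← mul_smul] at this ⊢
  rw [← this]
  congr 2
  group

/-! ### Products -/

theorem ord_one (τ : ℍ) : ord (1 : ℍ → ℂ) τ = 0 :=
  ord_const one_ne_zero τ

theorem mdifferentiable_prod {ι : Type*} (s : Finset ι) (f : ι → ℍ → ℂ)
    (hf : ∀ i ∈ s, MDifferentiable 𝓘(ℂ) 𝓘(ℂ) (f i)) :
    MDifferentiable 𝓘(ℂ) 𝓘(ℂ) (∏ i ∈ s, f i) := by
  classical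
  induction s using Finset.induction_on with
  | empty =>
    rw [Finset.prod_empty]
    exact mdifferentiable_const
  | insert a s ha ih =>
    rw [Finset.prod_insert ha]
    exact (hf a (Finset.mem_insert_self a s)).mul
      (ih fun i hi => hf i (Finset.mem_insert_of_mem hi))

theorem ord_prod {ι : Type*} (s : Finset ι) (f : ι → ℍ → ℂ)
    (hf : ∀ i ∈ s, MDifferentiable 𝓘(ℂ) 𝓘(ℂ) (f i)) (h0 : ∀ i ∈ s, f i ≠ 0) (τ : ℍ) :
    ord (∏ i ∈ s, f i) τ = ∑ i ∈ s, ord (f i) τ := by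
  classical
  induction s using Finset.induction_on with
  | empty => simpa using ord_one τ
  | insert a s ha ih =>
    rw [Finset.prod_insert ha, Finset.sum_insert ha]
    have hfs : ∀ i ∈ s, MDifferentiable 𝓘(ℂ) 𝓘(ℂ) (f i) :=
      fun i hi => hf i (Finset.mem_insert_of_mem hi)
    have h0s : ∀ i ∈ s, f i ≠ 0 := fun i hi => h0 i (Finset.mem_insert_of_mem hi)
    have hprod : MDifferentiable 𝓘(ℂ) 𝓘(ℂ) (∏ i ∈ s, f i) := mdifferentiable_prod s f hfs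
    have hprod0 : (∏ i ∈ s, f i) ≠ 0 := by
      rw [Ne, UpperHalfPlane.prod_eq_zero_iff hfs]
      rintro ⟨i, hi, hi0⟩
      exact h0s i hi hi0
    rw [ord_mul (hf a (Finset.mem_insert_self a s)) hprod (h0 a (Finset.mem_insert_self a s))
      hprod0 τ, ih hfs h0s]

/-! ### Quotients -/

/-- The `ℤ`-valued order of a quotient `p / q` of holomorphic functions is well defined. -/
theorem ord_sub_ord_eq_of_mul_eq_mul {p q p' q' : ℍ → ℂ}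
    (hp : MDifferentiable 𝓘(ℂ) 𝓘(ℂ) p) (hq : MDifferentiable 𝓘(ℂ) 𝓘(ℂ) q)
    (hp' : MDifferentiable 𝓘(ℂ) 𝓘(ℂ) p') (hq' : MDifferentiable 𝓘(ℂ) 𝓘(ℂ) q')
    (hp0 : p ≠ 0) (hq0 : q ≠ 0) (hp'0 : p' ≠ 0) (hq'0 : q' ≠ 0)
    (h : p * q' = p' * q) (τ : ℍ) :
    (ord p τ : ℤ) - ord q τ = (ord p' τ : ℤ) - ord q' τ := by
  have h1 := ord_mul hp hq' hp0 hq'0 τ
  have h2 := ord_mul hp' hq hp'0 hq0 τ
  rw [h] at h1
  have : (ord p τ : ℤ) + ord q' τ = ord p' τ + ord q τ := by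
    exact_mod_cast h1.symm.trans h2
  linarith

/-- Multiplicativity of the `ℤ`-valued order of quotients. -/
theorem ord_sub_ord_mul {p q p' q' : ℍ → ℂ}
    (hp : MDifferentiable 𝓘(ℂ) 𝓘(ℂ) p) (hq : MDifferentiable 𝓘(ℂ) 𝓘(ℂ) q)
    (hp' : MDifferentiable 𝓘(ℂ) 𝓘(ℂ) p') (hq' : MDifferentiable 𝓘(ℂ) 𝓘(ℂ) q')
    (hp0 : p ≠ 0) (hq0 : q ≠ 0) (hp'0 : p' ≠ 0) (hq'0 : q' ≠ 0) (τ : ℍ) :
    (ord (p * p') τ : ℤ) - ord (q * q') τ
      = ((ord p τ : ℤ) - ord q τ) + ((ord p' τ : ℤ) - ord q' τ) := by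
  rw [ord_mul hp hp' hp0 hp'0, ord_mul hq hq' hq0 hq'0]
  push_cast
  ring

/-- Ultrametric inequality for the `ℤ`-valued order of quotients:
`p/q + p'/q' = (p q' + p' q)/(q q')`. -/
theorem min_le_ord_sub_ord_add {p q p' q' : ℍ → ℂ}
    (hp : MDifferentiable 𝓘(ℂ) 𝓘(ℂ) p) (hq : MDifferentiable 𝓘(ℂ) 𝓘(ℂ) q)
    (hp' : MDifferentiable 𝓘(ℂ) 𝓘(ℂ) p') (hq' : MDifferentiable 𝓘(ℂ) 𝓘(ℂ) q')
    (hp0 : p ≠ 0) (hq0 : q ≠ 0) (hp'0 : p' ≠ 0) (hq'0 : q' ≠ 0)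
    (hs : p * q' + p' * q ≠ 0) (τ : ℍ) :
    min ((ord p τ : ℤ) - ord q τ) ((ord p' τ : ℤ) - ord q' τ)
      ≤ (ord (p * q' + p' * q) τ : ℤ) - ord (q * q') τ := by
  have h1 := min_ord_le_ord_add (hp.mul hq') (hp'.mul hq)
    (by rw [Ne, UpperHalfPlane.mul_eq_zero_iff hp hq']; exact not_or.mpr ⟨hp0, hq'0⟩)
    (by rw [Ne, UpperHalfPlane.mul_eq_zero_iff hp' hq]; exact not_or.mpr ⟨hp'0, hq0⟩) hs τ
  rw [ord_mul hp hq' hp0 hq'0, ord_mul hp' hq hp'0 hq0] at h1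
  rw [ord_mul hq hq' hq0 hq'0]
  have h2 : ((min (ord p τ + ord q' τ) (ord p' τ + ord q τ) : ℕ) : ℤ)
      ≤ (ord (p * q' + p' * q) τ : ℤ) := by exact_mod_cast h1
  rw [Nat.cast_min] at h2
  push_cast at h2 ⊢
  rcases min_le_iff.mp h2 with h3 | h3
  · exact min_le_iff.mpr (Or.inl (by linarith))
  · exact min_le_iff.mpr (Or.inr (by linarith))

end Fermat.Agent.S24.OrdAt
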