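import Fermat.Agent.S24.ModDefs
import Fermat.Agent.S24.OrdAt

/-!
# S24 / B-ORD : the lemmas of `OrdAt.lean` for the `ordAt` and `trans` of `ModDefs.lean`

`Fermat.Agent.S24.ordAt G τ = (OrdAt.ord G τ : ℤ)` holds by `rfl`.
-/

namespace Fermat.Agent.S24.OrdAt

open UpperHalfPlane Filter Topology
open scoped MatrixGroups Manifold

theorem ordAt_eq_ord (G : ℍ → ℂ) (τ : ℍ) : ordAt G τ = (ord G τ : ℤ) := rfl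

theorem ordAt_nonneg (G : ℍ → ℂ) (τ : ℍ) : 0 ≤ ordAt G τ := by
  rw [ordAt_eq_ord]
  exact Int.natCast_nonneg _

theorem ordAt_eq_zero_iff {G : ℍ → ℂ} (hG : MDifferentiable 𝓘(ℂ) 𝓘(ℂ) G) (h0 : G ≠ 0) (τ : ℍ) :
    ordAt G τ = 0 ↔ G τ ≠ 0 := by
  rw [ordAt_eq_ord, Int.natCast_eq_zero, ord_eq_zero_iff hG h0]

theorem ordAt_pos_iff {G : ℍ → ℂ} (hG : MDifferentiable 𝓘(ℂ) 𝓘(ℂ) G) (h0 : G ≠ 0) (τ : ℍ) :
    0 < ordAt G τ ↔ G τ = 0 := by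
  rw [ordAt_eq_ord, Int.natCast_pos, ord_pos_iff hG h0]

theorem ordAt_mul {G H : ℍ → ℂ} (hG : MDifferentiable 𝓘(ℂ) 𝓘(ℂ) G)
    (hH : MDifferentiable 𝓘(ℂ) 𝓘(ℂ) H) (hG0 : G ≠ 0) (hH0 : H ≠ 0) (τ : ℍ) :
    ordAt (G * H) τ = ordAt G τ + ordAt H τ := by
  simp only [ordAt_eq_ord, ord_mul hG hH hG0 hH0 τ, Nat.cast_add]

theorem ordAt_pow {G : ℍ → ℂ} (hG : MDifferentiable 𝓘(ℂ) 𝓘(ℂ) G) (n : ℕ) (τ : ℍ) :
    ordAt (G ^ n) τ = n * ordAt G τ := by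
  simp only [ordAt_eq_ord, ord_pow hG n τ, Nat.cast_mul]

theorem min_ordAt_le_ordAt_add {G H : ℍ → ℂ} (hG : MDifferentiable 𝓘(ℂ) 𝓘(ℂ) G)
    (hH : MDifferentiable 𝓘(ℂ) 𝓘(ℂ) H) (hG0 : G ≠ 0) (hH0 : H ≠ 0) (hGH : G + H ≠ 0) (τ : ℍ) :
    min (ordAt G τ) (ordAt H τ) ≤ ordAt (G + H) τ := by
  have h := min_ord_le_ord_add hG hH hG0 hH0 hGH τ
  simp only [ordAt_eq_ord]
  rw [← Nat.cast_min]
  exact_mod_cast h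

theorem ordAt_const {c : ℂ} (hc : c ≠ 0) (τ : ℍ) : ordAt (fun _ => c) τ = 0 := by
  rw [ordAt_eq_ord, ord_const hc τ, Nat.cast_zero]

theorem ordAt_prod {ι : Type*} (s : Finset ι) (f : ι → ℍ → ℂ)
    (hf : ∀ i ∈ s, MDifferentiable 𝓘(ℂ) 𝓘(ℂ) (f i)) (h0 : ∀ i ∈ s, f i ≠ 0) (τ : ℍ) :
    ordAt (∏ i ∈ s, f i) τ = ∑ i ∈ s, ordAt (f i) τ := by
  simp only [ordAt_eq_ord, ord_prod s f hf h0 τ, Nat.cast_sum]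

/-- Orders of a translate: `ord_τ (G ∘ g⁻¹) = ord_{g⁻¹ τ} G`. -/
theorem ordAt_trans (g : SL(2, ℤ)) (G : ℍ → ℂ) (τ : ℍ) :
    ordAt (trans g G) τ = ordAt G (g⁻¹ • τ) := by
  simp only [ordAt_eq_ord]
  exact congrArg _ (ord_comp_sl G g⁻¹ τ)

/-- Orders of an invariant function are constant on orbits. -/
theorem ordAt_smul_of_invariant {G : ℍ → ℂ} (γ : SL(2, ℤ)) (hinv : ∀ z : ℍ, G (γ • z) = G z)
    (τ : ℍ) : ordAt G (γ • τ) = ordAt G τ := by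
  simp only [ordAt_eq_ord]
  rw [← ord_comp_sl G γ τ]
  have : (fun z => G (γ • z)) = G := funext hinv
  rw [this]

theorem mdifferentiable_trans {G : ℍ → ℂ} (hG : MDifferentiable 𝓘(ℂ) 𝓘(ℂ) G) (g : SL(2, ℤ)) :
    MDifferentiable 𝓘(ℂ) 𝓘(ℂ) (trans g G) :=
  hG.comp (UpperHalfPlane.mdifferentiable_smul (sl_det_pos g⁻¹))

theorem trans_ne_zero {G : ℍ → ℂ} (h0 : G ≠ 0) (g : SL(2, ℤ)) : trans g G ≠ 0 := by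
  intro h
  apply h0
  funext z
  have := congrFun h (g • z)
  simpa [trans, ← mul_smul] using this

theorem trans_mul (g : SL(2, ℤ)) (G H : ℍ → ℂ) : trans g (G * H) = trans g G * trans g H := rfl

theorem trans_add (g : SL(2, ℤ)) (G H : ℍ → ℂ) : trans g (G + H) = trans g G + trans g H := rfl

theorem trans_apply (g : SL(2, ℤ)) (G : ℍ → ℂ) (z : ℍ) : trans g G z = G (g⁻¹ • z) := rfl

/-- `trans (g * γ) G = trans g G` if `G` is `γ`-invariant (e.g. `γ ∈ Γ₀(N)`): the translate only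
depends on the coset `g Γ`. -/
theorem trans_mul_of_invariant {G : ℍ → ℂ} (g γ : SL(2, ℤ)) (hinv : ∀ z : ℍ, G (γ • z) = G z) :
    trans (g * γ) G = trans g G := by
  funext z
  simp only [trans, mul_inv_rev, mul_smul]
  have := hinv (γ⁻¹ • g⁻¹ • z)
  rw [smul_inv_smul] at this
  exact this.symm

/-- `trans (δ * g) G τ`-orders: `ord_τ (trans (δ g) G) = ord_{δ⁻¹ τ} (trans g G)`. -/
theorem ordAt_trans_mul (δ g : SL(2, ℤ)) (G : ℍ → ℂ) (τ : ℍ) :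
    ordAt (trans (δ * g) G) τ = ordAt (trans g G) (δ⁻¹ • τ) := by
  rw [ordAt_trans, ordAt_trans, mul_inv_rev, mul_smul]

/-- **Fixed point lemma, order 2, for translates.**  If `δ² = -1`, `δ • τ = τ` and `G` is invariant
under `g⁻¹ * δ * g` (i.e. the coset `g Γ` is fixed by `δ` and `G` is `Γ`-invariant), then
`ord_τ (G ∘ g⁻¹)` is even. -/
theorem two_dvd_ordAt_trans {G : ℍ → ℂ} (hG : MDifferentiable 𝓘(ℂ) 𝓘(ℂ) G) (h0 : G ≠ 0)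
    (g δ : SL(2, ℤ)) (hδ : δ ^ 2 = -1) (τ : ℍ) (hτ : δ • τ = τ)
    (hinv : ∀ z : ℍ, G ((g⁻¹ * δ * g) • z) = G z) :
    (2 : ℤ) ∣ ordAt (trans g G) τ := by
  rw [ordAt_eq_ord]
  exact_mod_cast two_dvd_ord_translate hG h0 g δ hδ τ hτ hinv

/-- **Fixed point lemma, order 3, for translates.** -/
theorem three_dvd_ordAt_trans {G : ℍ → ℂ} (hG : MDifferentiable 𝓘(ℂ) 𝓘(ℂ) G) (h0 : G ≠ 0)
    (g δ : SL(2, ℤ)) (hδ : δ ^ 3 = -1) (hδ1 : δ ≠ -1) (τ : ℍ) (hτ : δ • τ = τ)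
    (hinv : ∀ z : ℍ, G ((g⁻¹ * δ * g) • z) = G z) :
    (3 : ℤ) ∣ ordAt (trans g G) τ := by
  rw [ordAt_eq_ord]
  exact_mod_cast three_dvd_ord_translate hG h0 g δ hδ hδ1 τ hτ hinv

/-- Well-definedness of `ordAt P - ordAt Q` on quotients. -/
theorem ordAt_sub_ordAt_eq_of_mul_eq_mul {p q p' q' : ℍ → ℂ}
    (hp : MDifferentiable 𝓘(ℂ) 𝓘(ℂ) p) (hq : MDifferentiable 𝓘(ℂ) 𝓘(ℂ) q)
    (hp' : MDifferentiable 𝓘(ℂ) 𝓘(ℂ) p') (hq' : MDifferentiable 𝓘(ℂ) 𝓘(ℂ) q')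
    (hp0 : p ≠ 0) (hq0 : q ≠ 0) (hp'0 : p' ≠ 0) (hq'0 : q' ≠ 0)
    (h : p * q' = p' * q) (τ : ℍ) :
    ordAt p τ - ordAt q τ = ordAt p' τ - ordAt q' τ :=
  ord_sub_ord_eq_of_mul_eq_mul hp hq hp' hq' hp0 hq0 hp'0 hq'0 h τ

theorem ordAt_sub_ordAt_mul {p q p' q' : ℍ → ℂ}
    (hp : MDifferentiable 𝓘(ℂ) 𝓘(ℂ) p) (hq : MDifferentiable 𝓘(ℂ) 𝓘(ℂ) q)
    (hp' : MDifferentiable 𝓘(ℂ) 𝓘(ℂ) p') (hq' : MDifferentiable 𝓘(ℂ) 𝓘(ℂ) q')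
    (hp0 : p ≠ 0) (hq0 : q ≠ 0) (hp'0 : p' ≠ 0) (hq'0 : q' ≠ 0) (τ : ℍ) :
    ordAt (p * p') τ - ordAt (q * q') τ
      = (ordAt p τ - ordAt q τ) + (ordAt p' τ - ordAt q' τ) :=
  ord_sub_ord_mul hp hq hp' hq' hp0 hq0 hp'0 hq'0 τ

theorem min_le_ordAt_sub_ordAt_add {p q p' q' : ℍ → ℂ}
    (hp : MDifferentiable 𝓘(ℂ) 𝓘(ℂ) p) (hq : MDifferentiable 𝓘(ℂ) 𝓘(ℂ) q)
    (hp' : MDifferentiable 𝓘(ℂ) 𝓘(ℂ) p') (hq' : MDifferentiable 𝓘(ℂ) 𝓘(ℂ) q')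
    (hp0 : p ≠ 0) (hq0 : q ≠ 0) (hp'0 : p' ≠ 0) (hq'0 : q' ≠ 0)
    (hs : p * q' + p' * q ≠ 0) (τ : ℍ) :
    min (ordAt p τ - ordAt q τ) (ordAt p' τ - ordAt q' τ)
      ≤ ordAt (p * q' + p' * q) τ - ordAt (q * q') τ :=
  min_le_ord_sub_ord_add hp hq hp' hq' hp0 hq0 hp'0 hq'0 hs τ

end Fermat.Agent.S24.OrdAt
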