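/-
S24, package B-ORD (helper79): orders of holomorphic functions on the upper half plane
at a point.  Mathlib only.

For `f : ℍ → ℂ` holomorphic (`MDifferentiable 𝓘(ℂ) 𝓘(ℂ) f`) the order at `τ : ℍ` is
`ordAt f τ := analyticOrderNatAt (f ∘ ofComplex) ↑τ`.  We prove: holomorphic functions form a
domain, the valuation axioms for `ordAt`, the `ℤ`-valued order `ordFrac` of a fraction,
invariance under substitution by `SL(2, ℤ)`, and the divisibility of the order of a function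
invariant under an elliptic element at its fixed point.
-/
import Mathlib

set_option autoImplicit false

open UpperHalfPlane Complex Filter Topology
open scoped MatrixGroups Manifold

namespace Fermat.Agent.S24.OrdH

/-- The upper half plane as an open subset of `ℂ`. -/
def UHP : Set ℂ := {z : ℂ | 0 < z.im}

theorem isOpen_UHP : IsOpen UHP := isOpen_lt continuous_const Complex.continuous_im

theorem convex_UHP : Convex ℝ UHP := by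
  intro x hx y hy a b ha hb hab
  simp only [UHP, Set.mem_ofPred_eq] at hx hy ⊢
  simp only [Complex.add_im, Complex.smul_im, smul_eq_mul]
  rcases eq_or_lt_of_le ha with rfl | ha'
  · have hb1 : b = 1 := by linarith
    subst hb1
    simpa using hy
  · have h1 : 0 < a * x.im := mul_pos ha' hx
    have h2 : 0 ≤ b * y.im := mul_nonneg hb hy.le
    linarith

theorem isPreconnected_UHP : IsPreconnected UHP := convex_UHP.isPreconnected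

theorem coe_mem_UHP (τ : ℍ) : (τ : ℂ) ∈ UHP := τ.im_pos

variable {f g : ℍ → ℂ}

/-- A holomorphic function on `ℍ`, read on `ℂ` through `ofComplex`, is analytic on a
neighbourhood of the open upper half plane. -/
theorem analyticOnNhd (hf : MDifferentiable 𝓘(ℂ) 𝓘(ℂ) f) :
    AnalyticOnNhd ℂ (f ∘ ofComplex) UHP :=
  (UpperHalfPlane.mdifferentiable_iff.mp hf).analyticOnNhd isOpen_UHP

theorem analyticAt (hf : MDifferentiable 𝓘(ℂ) 𝓘(ℂ) f) (τ : ℍ) :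
    AnalyticAt ℂ (f ∘ ofComplex) (τ : ℂ) :=
  analyticOnNhd hf τ (coe_mem_UHP τ)

/-- Identity theorem: a holomorphic function on `ℍ` with infinite order at one point is zero. -/
theorem eq_zero_of_order_eq_top (hf : MDifferentiable 𝓘(ℂ) 𝓘(ℂ) f) {τ : ℍ}
    (h : analyticOrderAt (f ∘ ofComplex) (τ : ℂ) = ⊤) : f = 0 := by
  funext z
  by_contra hz
  have hne : analyticOrderAt (f ∘ ofComplex) (z : ℂ) ≠ ⊤ := by
    have h0 : analyticOrderAt (f ∘ ofComplex) (z : ℂ) = 0 := by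
      rw [(analyticAt hf z).analyticOrderAt_eq_zero]
      simpa [Function.comp, ofComplex_apply] using hz
    rw [h0]
    exact ENat.zero_ne_top
  exact (analyticOnNhd hf).analyticOrderAt_ne_top_of_isPreconnected isPreconnected_UHP
    (coe_mem_UHP z) (coe_mem_UHP τ) hne h

theorem order_ne_top (hf : MDifferentiable 𝓘(ℂ) 𝓘(ℂ) f) (hf0 : f ≠ 0) (τ : ℍ) :
    analyticOrderAt (f ∘ ofComplex) (τ : ℂ) ≠ ⊤ :=
  fun h => hf0 (eq_zero_of_order_eq_top hf h)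

/-- The order of vanishing of `f : ℍ → ℂ` at `τ` (junk value `0` if `f` is identically zero). -/
noncomputable def ordAt (f : ℍ → ℂ) (τ : ℍ) : ℕ := analyticOrderNatAt (f ∘ ofComplex) (τ : ℂ)

theorem coe_ordAt (hf : MDifferentiable 𝓘(ℂ) 𝓘(ℂ) f) (hf0 : f ≠ 0) (τ : ℍ) :
    ((ordAt f τ : ℕ) : ℕ∞) = analyticOrderAt (f ∘ ofComplex) (τ : ℂ) :=
  Nat.cast_analyticOrderNatAt (order_ne_top hf hf0 τ)

/-- Holomorphic functions on `ℍ` form a domain. -/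
theorem eq_zero_or_eq_zero_of_mul_eq_zero (hf : MDifferentiable 𝓘(ℂ) 𝓘(ℂ) f)
    (hg : MDifferentiable 𝓘(ℂ) 𝓘(ℂ) g) (h : f * g = 0) : f = 0 ∨ g = 0 := by
  by_contra hcon
  rw [not_or] at hcon
  obtain ⟨hf0, hg0⟩ := hcon
  have τ : ℍ := UpperHalfPlane.I
  have hmul : analyticOrderAt ((f * g) ∘ ofComplex) (τ : ℂ) =
      analyticOrderAt (f ∘ ofComplex) (τ : ℂ) + analyticOrderAt (g ∘ ofComplex) (τ : ℂ) :=
    analyticOrderAt_mul (analyticAt hf τ) (analyticAt hg τ)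
  have htop : analyticOrderAt ((f * g) ∘ ofComplex) (τ : ℂ) = ⊤ := by
    rw [h, analyticOrderAt_eq_top]
    exact Eventually.of_forall fun z => rfl
  rw [htop] at hmul
  rcases WithTop.add_eq_top.mp hmul.symm with h1 | h1
  · exact order_ne_top hf hf0 τ h1
  · exact order_ne_top hg hg0 τ h1

theorem mul_ne_zero' (hf : MDifferentiable 𝓘(ℂ) 𝓘(ℂ) f)
    (hg : MDifferentiable 𝓘(ℂ) 𝓘(ℂ) g) (hf0 : f ≠ 0) (hg0 : g ≠ 0) : f * g ≠ 0 := fun h =>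
  (eq_zero_or_eq_zero_of_mul_eq_zero hf hg h).elim hf0 hg0

/-- `ordAt` is additive on products of nonzero holomorphic functions. -/
theorem ordAt_mul (hf : MDifferentiable 𝓘(ℂ) 𝓘(ℂ) f) (hg : MDifferentiable 𝓘(ℂ) 𝓘(ℂ) g)
    (hf0 : f ≠ 0) (hg0 : g ≠ 0) (τ : ℍ) : ordAt (f * g) τ = ordAt f τ + ordAt g τ := by
  have hmul : analyticOrderAt ((f * g) ∘ ofComplex) (τ : ℂ) =
      analyticOrderAt (f ∘ ofComplex) (τ : ℂ) + analyticOrderAt (g ∘ ofComplex) (τ : ℂ) :=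
    analyticOrderAt_mul (analyticAt hf τ) (analyticAt hg τ)
  have h3 := coe_ordAt (hf.mul hg) (mul_ne_zero' hf hg hf0 hg0) τ
  rw [hmul, ← coe_ordAt hf hf0 τ, ← coe_ordAt hg hg0 τ] at h3
  exact_mod_cast h3

/-- Ultrametric inequality for `ordAt`. -/
theorem min_ordAt_le_ordAt_add (hf : MDifferentiable 𝓘(ℂ) 𝓘(ℂ) f)
    (hg : MDifferentiable 𝓘(ℂ) 𝓘(ℂ) g) (hf0 : f ≠ 0) (hg0 : g ≠ 0) (hfg : f + g ≠ 0) (τ : ℍ) :
    min (ordAt f τ) (ordAt g τ) ≤ ordAt (f + g) τ := by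
  have hadd : min (analyticOrderAt (f ∘ ofComplex) (τ : ℂ))
      (analyticOrderAt (g ∘ ofComplex) (τ : ℂ)) ≤
      analyticOrderAt ((f + g) ∘ ofComplex) (τ : ℂ) := le_analyticOrderAt_add
  rw [← coe_ordAt hf hf0 τ, ← coe_ordAt hg hg0 τ, ← coe_ordAt (hf.add hg) hfg τ] at hadd
  rw [min_le_iff] at hadd ⊢
  rcases hadd with h | h
  · left; exact_mod_cast h
  · right; exact_mod_cast h

theorem ordAt_eq_zero_iff (hf : MDifferentiable 𝓘(ℂ) 𝓘(ℂ) f) (hf0 : f ≠ 0) (τ : ℍ) :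
    ordAt f τ = 0 ↔ f τ ≠ 0 := by
  have h := coe_ordAt hf hf0 τ
  have h2 : analyticOrderAt (f ∘ ofComplex) (τ : ℂ) = 0 ↔ f τ ≠ 0 := by
    rw [(analyticAt hf τ).analyticOrderAt_eq_zero]
    simp [Function.comp, ofComplex_apply]
  rw [← h2, ← h]
  exact_mod_cast Iff.rfl

theorem ordAt_pos_iff (hf : MDifferentiable 𝓘(ℂ) 𝓘(ℂ) f) (hf0 : f ≠ 0) (τ : ℍ) :
    0 < ordAt f τ ↔ f τ = 0 := by
  rw [Nat.pos_iff_ne_zero, Ne, ordAt_eq_zero_iff hf hf0 τ, not_not]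

theorem ordAt_const {c : ℂ} (hc : c ≠ 0) (τ : ℍ) : ordAt (fun _ : ℍ => c) τ = 0 := by
  have hhol : MDifferentiable 𝓘(ℂ) 𝓘(ℂ) (fun _ : ℍ => c) := mdifferentiable_const
  have hne : (fun _ : ℍ => c) ≠ 0 := fun h => hc (congrFun h τ)
  exact (ordAt_eq_zero_iff hhol hne τ).mpr hc

theorem pow_ne_zero' (hf : MDifferentiable 𝓘(ℂ) 𝓘(ℂ) f) (hf0 : f ≠ 0) (n : ℕ) : f ^ n ≠ 0 := by
  induction n with
  | zero =>
    rw [pow_zero]
    exact fun h => one_ne_zero (congrFun h UpperHalfPlane.I)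
  | succ k ih =>
    rw [pow_succ]
    exact mul_ne_zero' (hf.pow k) hf ih hf0

theorem ordAt_pow (hf : MDifferentiable 𝓘(ℂ) 𝓘(ℂ) f) (hf0 : f ≠ 0) (n : ℕ) (τ : ℍ) :
    ordAt (f ^ n) τ = n * ordAt f τ := by
  have hpow : analyticOrderAt ((f ^ n) ∘ ofComplex) (τ : ℂ) =
      n • analyticOrderAt (f ∘ ofComplex) (τ : ℂ) :=
    analyticOrderAt_pow (analyticAt hf τ) n
  have hne : f ^ n ≠ 0 := pow_ne_zero' hf hf0 n
  have h3 := coe_ordAt (hf.pow n) hne τ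
  rw [hpow, ← coe_ordAt hf hf0 τ] at h3
  rw [nsmul_eq_mul] at h3
  exact_mod_cast h3

/-- A zero with nonvanishing derivative is simple (the shape of `S20/SerreFacts`). -/
theorem ordAt_eq_one_of_deriv_ne_zero (hf : MDifferentiable 𝓘(ℂ) 𝓘(ℂ) f) {τ : ℍ}
    (h0 : f τ = 0) (h1 : deriv (f ∘ ofComplex) (τ : ℂ) ≠ 0) : ordAt f τ = 1 := by
  have hfz : (f ∘ ofComplex) (τ : ℂ) = 0 := by simpa [Function.comp, ofComplex_apply] using h0
  have h := (analyticAt hf τ).analyticOrderAt_eq_one_of_zero_deriv_ne_zero hfz h1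
  unfold ordAt analyticOrderNatAt
  rw [h]
  rfl

/-- The Möbius map on `ℂ` attached to `γ : GL (Fin 2) ℝ`. -/
noncomputable def moeb (γ : GL (Fin 2) ℝ) (w : ℂ) : ℂ := num γ w / denom γ w

theorem coe_smul_eq_moeb {γ : GL (Fin 2) ℝ} (hγ : 0 < γ.det.val) (z : ℍ) :
    ((γ • z : ℍ) : ℂ) = moeb γ (z : ℂ) := coe_smul_of_det_pos hγ z

theorem det_eq (γ : GL (Fin 2) ℝ) :
    (γ.det.val : ℂ) = (γ 0 0 : ℂ) * (γ 1 1 : ℂ) - (γ 0 1 : ℂ) * (γ 1 0 : ℂ) := by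
  rw [Matrix.GeneralLinearGroup.val_det_apply, Matrix.det_fin_two]
  push_cast
  ring

theorem hasDerivAt_moeb (γ : GL (Fin 2) ℝ) {w : ℂ} (hw : 0 < w.im) :
    HasDerivAt (moeb γ) ((γ.det.val : ℂ) / (denom γ w) ^ 2) w := by
  have hd : denom γ w ≠ 0 := denom_ne_zero_of_im γ hw.ne'
  have h1 : HasDerivAt (fun w : ℂ => num γ w) (γ 0 0 : ℂ) w := by
    simpa [num] using ((hasDerivAt_id w).const_mul (γ 0 0 : ℂ)).add_const (γ 0 1 : ℂ)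
  have h2 : HasDerivAt (fun w : ℂ => denom γ w) (γ 1 0 : ℂ) w := by
    simpa [denom] using ((hasDerivAt_id w).const_mul (γ 1 0 : ℂ)).add_const (γ 1 1 : ℂ)
  have h3 := h1.div h2 hd
  have hval : ((γ 0 0 : ℂ) * denom γ w - num γ w * (γ 1 0 : ℂ)) / (denom γ w) ^ 2 =
      (γ.det.val : ℂ) / (denom γ w) ^ 2 := by
    congr 1
    rw [det_eq, num, denom]
    ring
  rw [hval] at h3
  exact h3

theorem analyticAt_moeb (γ : GL (Fin 2) ℝ) {w : ℂ} (hw : 0 < w.im) :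
    AnalyticAt ℂ (moeb γ) w := by
  have hd : denom γ w ≠ 0 := denom_ne_zero_of_im γ hw.ne'
  have h1 : AnalyticAt ℂ (fun w : ℂ => num γ w) w := by
    unfold num; fun_prop
  have h2 : AnalyticAt ℂ (fun w : ℂ => denom γ w) w := by
    unfold denom; fun_prop
  exact h1.div h2 hd

theorem deriv_moeb_ne_zero {γ : GL (Fin 2) ℝ} (hγ : 0 < γ.det.val) {w : ℂ} (hw : 0 < w.im) :
    deriv (moeb γ) w ≠ 0 := by
  rw [(hasDerivAt_moeb γ hw).deriv]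
  exact div_ne_zero (by exact_mod_cast hγ.ne') (pow_ne_zero 2 (denom_ne_zero_of_im γ hw.ne'))

theorem comp_smul_eventuallyEq (f : ℍ → ℂ) {γ : GL (Fin 2) ℝ} (hγ : 0 < γ.det.val) (τ : ℍ) :
    (fun z : ℍ => f (γ • z)) ∘ ofComplex =ᶠ[𝓝 (τ : ℂ)] (f ∘ ofComplex) ∘ moeb γ := by
  filter_upwards [isOpen_UHP.mem_nhds (coe_mem_UHP τ)] with w hw
  have hw' : 0 < w.im := hw
  simp only [Function.comp_apply]
  rw [ofComplex_apply_of_im_pos hw']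
  have h := coe_smul_eq_moeb hγ ⟨w, hw'⟩
  rw [UpperHalfPlane.coe_mk] at h
  rw [← h, ofComplex_apply]

/-- Substitution by `γ ∈ GL₂(ℝ)⁺`: the order of `f ∘ γ` at `τ` is the order of `f` at `γ τ`.
No hypothesis on `f` is needed. -/
theorem analyticOrderAt_comp_smul_GL (f : ℍ → ℂ) {γ : GL (Fin 2) ℝ} (hγ : 0 < γ.det.val) (τ : ℍ) :
    analyticOrderAt ((fun z : ℍ => f (γ • z)) ∘ ofComplex) (τ : ℂ) =
      analyticOrderAt (f ∘ ofComplex) ((γ • τ : ℍ) : ℂ) := by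
  rw [analyticOrderAt_congr (comp_smul_eventuallyEq f hγ τ),
    analyticOrderAt_comp_of_deriv_ne_zero (analyticAt_moeb γ τ.im_pos)
      (deriv_moeb_ne_zero hγ τ.im_pos), coe_smul_eq_moeb hγ]

theorem ordAt_comp_smul_GL (f : ℍ → ℂ) {γ : GL (Fin 2) ℝ} (hγ : 0 < γ.det.val) (τ : ℍ) :
    ordAt (fun z : ℍ => f (γ • z)) τ = ordAt f (γ • τ) := by
  unfold ordAt analyticOrderNatAt
  rw [analyticOrderAt_comp_smul_GL f hγ]

/-- Precomposition with `γ ∈ GL₂(ℝ)⁺` preserves holomorphy. -/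
theorem mdifferentiable_comp_smul_GL (hf : MDifferentiable 𝓘(ℂ) 𝓘(ℂ) f) {γ : GL (Fin 2) ℝ}
    (hγ : 0 < γ.det.val) : MDifferentiable 𝓘(ℂ) 𝓘(ℂ) (fun z : ℍ => f (γ • z)) := by
  rw [UpperHalfPlane.mdifferentiable_iff]
  intro w hw
  have hw' : 0 < w.im := hw
  have hAn : AnalyticAt ℂ ((f ∘ ofComplex) ∘ moeb γ) w := by
    have h1 := analyticAt_moeb γ hw'
    have h2 : AnalyticAt ℂ (f ∘ ofComplex) (moeb γ w) := by
      have h := coe_smul_eq_moeb hγ ⟨w, hw'⟩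
      rw [UpperHalfPlane.coe_mk] at h
      rw [← h]
      exact analyticAt hf _
    exact h2.comp h1
  have hEq := comp_smul_eventuallyEq f hγ ⟨w, hw'⟩
  rw [UpperHalfPlane.coe_mk] at hEq
  exact (hAn.differentiableAt.congr_of_eventuallyEq hEq).differentiableWithinAt

theorem det_pos_SL (γ : SL(2, ℤ)) : 0 < (γ : GL (Fin 2) ℝ).det.val := by
  simp

theorem ordAt_comp_smul (f : ℍ → ℂ) (γ : SL(2, ℤ)) (τ : ℍ) :
    ordAt (fun z : ℍ => f (γ • z)) τ = ordAt f (γ • τ) :=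
  ordAt_comp_smul_GL f (det_pos_SL γ) τ

theorem mdifferentiable_comp_smul (hf : MDifferentiable 𝓘(ℂ) 𝓘(ℂ) f) (γ : SL(2, ℤ)) :
    MDifferentiable 𝓘(ℂ) 𝓘(ℂ) (fun z : ℍ => f (γ • z)) :=
  mdifferentiable_comp_smul_GL hf (det_pos_SL γ)

theorem comp_smul_ne_zero (hf0 : f ≠ 0) (γ : SL(2, ℤ)) : (fun z : ℍ => f (γ • z)) ≠ 0 := by
  intro h
  apply hf0
  funext z
  have := congrFun h (γ⁻¹ • z)
  simpa using this

theorem moeb_sub_moeb (γ : GL (Fin 2) ℝ) {w τ : ℂ} (hw : denom γ w ≠ 0) (hτ : denom γ τ ≠ 0) :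
    moeb γ w - moeb γ τ = (γ.det.val : ℂ) * (w - τ) / (denom γ w * denom γ τ) := by
  unfold moeb
  rw [div_sub_div _ _ hw hτ]
  congr 1
  rw [det_eq, num, num, denom, denom]
  ring

/-- Key local computation: if `γ ∈ GL₂(ℝ)⁺` fixes `τ` and the fraction `f / g` of nonzero
holomorphic functions is `γ`-invariant, then the leading coefficients force
`det γ ^ ord f * μ ^ (2 ord g) = det γ ^ ord g * μ ^ (2 ord f)` with `μ = denom γ τ`. -/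
theorem det_pow_mul_denom_pow_eq (hf : MDifferentiable 𝓘(ℂ) 𝓘(ℂ) f)
    (hg : MDifferentiable 𝓘(ℂ) 𝓘(ℂ) g) (hf0 : f ≠ 0) (hg0 : g ≠ 0)
    {γ : GL (Fin 2) ℝ} (hγ : 0 < γ.det.val) (τ : ℍ) (hfix : γ • τ = τ)
    (hinv : ∀ z : ℍ, f (γ • z) * g z = f z * g (γ • z)) :
    (γ.det.val : ℂ) ^ ordAt f τ * denom γ τ ^ (2 * ordAt g τ) =
      (γ.det.val : ℂ) ^ ordAt g τ * denom γ τ ^ (2 * ordAt f τ) := by
  obtain ⟨A, hA, hA0, hFA⟩ :=
    ((analyticAt hf τ).analyticOrderAt_eq_natCast).mp (coe_ordAt hf hf0 τ).symm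
  obtain ⟨B, hB, hB0, hGB⟩ :=
    ((analyticAt hg τ).analyticOrderAt_eq_natCast).mp (coe_ordAt hg hg0 τ).symm
  set kf := ordAt f τ with hkf
  set kg := ordAt g τ with hkg
  set d : ℂ := (γ.det.val : ℂ) with hd
  have hmτ : moeb γ (τ : ℂ) = (τ : ℂ) := by rw [← coe_smul_eq_moeb hγ, hfix]
  have hm_cont : ContinuousAt (moeb γ) (τ : ℂ) := (analyticAt_moeb γ τ.im_pos).continuousAt
  have hm_tend : Tendsto (moeb γ) (𝓝 (τ : ℂ)) (𝓝 (τ : ℂ)) := by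
    have h := hm_cont.tendsto
    rwa [hmτ] at h
  have hFA' := hm_tend.eventually hFA
  have hGB' := hm_tend.eventually hGB
  have hinvF : ∀ᶠ w in 𝓝 (τ : ℂ),
      (f ∘ ofComplex) (moeb γ w) * (g ∘ ofComplex) w =
        (f ∘ ofComplex) w * (g ∘ ofComplex) (moeb γ w) := by
    filter_upwards [comp_smul_eventuallyEq f hγ τ, comp_smul_eventuallyEq g hγ τ] with w h1 h2
    simp only [Function.comp_apply] at h1 h2 ⊢
    rw [← h1, ← h2]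
    exact hinv (ofComplex w)
  have hDτ : denom γ (τ : ℂ) ≠ 0 := denom_ne_zero γ τ
  have key : ∀ᶠ w in 𝓝[≠] (τ : ℂ),
      A (moeb γ w) * B w * d ^ kf * (denom γ w * denom γ (τ : ℂ)) ^ kg =
        A w * B (moeb γ w) * d ^ kg * (denom γ w * denom γ (τ : ℂ)) ^ kf := by
    have hUHP : ∀ᶠ w in 𝓝 (τ : ℂ), w ∈ UHP := isOpen_UHP.mem_nhds (coe_mem_UHP τ)
    filter_upwards [nhdsWithin_le_nhds hFA, nhdsWithin_le_nhds hGB, nhdsWithin_le_nhds hFA',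
      nhdsWithin_le_nhds hGB', nhdsWithin_le_nhds hinvF, nhdsWithin_le_nhds hUHP,
      self_mem_nhdsWithin] with w h1 h2 h3 h4 h5 h6 h7
    have hX : w - (τ : ℂ) ≠ 0 := sub_ne_zero.mpr h7
    have hDw : denom γ w ≠ 0 := denom_ne_zero_of_im γ (ne_of_gt h6)
    have hP : denom γ w * denom γ (τ : ℂ) ≠ 0 := mul_ne_zero hDw hDτ
    have hsub : moeb γ w - (τ : ℂ) = d * (w - τ) / (denom γ w * denom γ (τ : ℂ)) := by
      have h := moeb_sub_moeb γ hDw hDτ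
      rwa [hmτ] at h
    rw [h3, h4, h1, h2, hsub] at h5
    simp only [smul_eq_mul] at h5
    have e1 : (d * (w - τ) / (denom γ w * denom γ (τ : ℂ))) ^ kf *
        (denom γ w * denom γ (τ : ℂ)) ^ kf = d ^ kf * (w - τ) ^ kf := by
      rw [← mul_pow, div_mul_cancel₀ _ hP, mul_pow]
    have e2 : (d * (w - τ) / (denom γ w * denom γ (τ : ℂ))) ^ kg *
        (denom γ w * denom γ (τ : ℂ)) ^ kg = d ^ kg * (w - τ) ^ kg := by
      rw [← mul_pow, div_mul_cancel₀ _ hP, mul_pow]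
    have hXX : (w - (τ : ℂ)) ^ kf * (w - (τ : ℂ)) ^ kg ≠ 0 :=
      mul_ne_zero (pow_ne_zero _ hX) (pow_ne_zero _ hX)
    apply mul_left_cancel₀ hXX
    linear_combination ((denom γ w * denom γ (τ : ℂ)) ^ kf *
        (denom γ w * denom γ (τ : ℂ)) ^ kg) * h5
      - (A (moeb γ w) * B w * (denom γ w * denom γ (τ : ℂ)) ^ kg * (w - τ) ^ kg) * e1
      + (A w * B (moeb γ w) * (denom γ w * denom γ (τ : ℂ)) ^ kf * (w - τ) ^ kf) * e2
  have hAm : ContinuousAt (fun w => A (moeb γ w)) (τ : ℂ) := by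
    have hA' : ContinuousAt A (moeb γ (τ : ℂ)) := by rw [hmτ]; exact hA.continuousAt
    exact ContinuousAt.comp (g := A) (f := moeb γ) hA' hm_cont
  have hBm : ContinuousAt (fun w => B (moeb γ w)) (τ : ℂ) := by
    have hB' : ContinuousAt B (moeb γ (τ : ℂ)) := by rw [hmτ]; exact hB.continuousAt
    exact ContinuousAt.comp (g := B) (f := moeb γ) hB' hm_cont
  have hDc : ContinuousAt (fun w : ℂ => denom γ w) (τ : ℂ) := by
    unfold denom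
    fun_prop
  have hL : Tendsto (fun w => A (moeb γ w) * B w * d ^ kf *
      (denom γ w * denom γ (τ : ℂ)) ^ kg) (𝓝[≠] (τ : ℂ))
      (𝓝 (A (moeb γ τ) * B τ * d ^ kf * (denom γ (τ : ℂ) * denom γ (τ : ℂ)) ^ kg)) :=
    ((((hAm.mul hB.continuousAt).mul continuousAt_const).mul
      ((hDc.mul continuousAt_const).pow kg)).tendsto).mono_left nhdsWithin_le_nhds
  have hR : Tendsto (fun w => A w * B (moeb γ w) * d ^ kg *
      (denom γ w * denom γ (τ : ℂ)) ^ kf) (𝓝[≠] (τ : ℂ))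
      (𝓝 (A τ * B (moeb γ τ) * d ^ kg * (denom γ (τ : ℂ) * denom γ (τ : ℂ)) ^ kf)) :=
    ((((hA.continuousAt.mul hBm).mul continuousAt_const).mul
      ((hDc.mul continuousAt_const).pow kf)).tendsto).mono_left nhdsWithin_le_nhds
  have hlim := tendsto_nhds_unique_of_eventuallyEq hL hR key
  rw [hmτ] at hlim
  have hAB : A (τ : ℂ) * B (τ : ℂ) ≠ 0 := mul_ne_zero hA0 hB0
  apply mul_left_cancel₀ hAB
  linear_combination hlim

/-- The `ℤ`-valued order at `τ` of the fraction `f / g` of two holomorphic functions. -/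
noncomputable def ordFrac (f g : ℍ → ℂ) (τ : ℍ) : ℤ := (ordAt f τ : ℤ) - (ordAt g τ : ℤ)

/-- `ordFrac` only depends on the fraction. -/
theorem ordFrac_congr {f₁ g₁ f₂ g₂ : ℍ → ℂ} (hf₁ : MDifferentiable 𝓘(ℂ) 𝓘(ℂ) f₁)
    (hg₁ : MDifferentiable 𝓘(ℂ) 𝓘(ℂ) g₁) (hf₂ : MDifferentiable 𝓘(ℂ) 𝓘(ℂ) f₂)
    (hg₂ : MDifferentiable 𝓘(ℂ) 𝓘(ℂ) g₂) (hf₁0 : f₁ ≠ 0) (hg₁0 : g₁ ≠ 0) (hf₂0 : f₂ ≠ 0)
    (hg₂0 : g₂ ≠ 0) (h : f₁ * g₂ = f₂ * g₁) (τ : ℍ) : ordFrac f₁ g₁ τ = ordFrac f₂ g₂ τ := by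
  have h1 := ordAt_mul hf₁ hg₂ hf₁0 hg₂0 τ
  have h2 := ordAt_mul hf₂ hg₁ hf₂0 hg₁0 τ
  rw [h] at h1
  unfold ordFrac
  omega

theorem ordFrac_mul {f₁ g₁ f₂ g₂ : ℍ → ℂ} (hf₁ : MDifferentiable 𝓘(ℂ) 𝓘(ℂ) f₁)
    (hg₁ : MDifferentiable 𝓘(ℂ) 𝓘(ℂ) g₁) (hf₂ : MDifferentiable 𝓘(ℂ) 𝓘(ℂ) f₂)
    (hg₂ : MDifferentiable 𝓘(ℂ) 𝓘(ℂ) g₂) (hf₁0 : f₁ ≠ 0) (hg₁0 : g₁ ≠ 0) (hf₂0 : f₂ ≠ 0)
    (hg₂0 : g₂ ≠ 0) (τ : ℍ) :
    ordFrac (f₁ * f₂) (g₁ * g₂) τ = ordFrac f₁ g₁ τ + ordFrac f₂ g₂ τ := by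
  unfold ordFrac
  rw [ordAt_mul hf₁ hf₂ hf₁0 hf₂0 τ, ordAt_mul hg₁ hg₂ hg₁0 hg₂0 τ]
  push_cast
  ring

/-- Ultrametric inequality for the order of a sum of fractions `f₁/g₁ + f₂/g₂`. -/
theorem min_ordFrac_le_ordFrac_add {f₁ g₁ f₂ g₂ : ℍ → ℂ} (hf₁ : MDifferentiable 𝓘(ℂ) 𝓘(ℂ) f₁)
    (hg₁ : MDifferentiable 𝓘(ℂ) 𝓘(ℂ) g₁) (hf₂ : MDifferentiable 𝓘(ℂ) 𝓘(ℂ) f₂)
    (hg₂ : MDifferentiable 𝓘(ℂ) 𝓘(ℂ) g₂) (hf₁0 : f₁ ≠ 0) (hg₁0 : g₁ ≠ 0) (hf₂0 : f₂ ≠ 0)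
    (hg₂0 : g₂ ≠ 0) (hsum : f₁ * g₂ + f₂ * g₁ ≠ 0) (τ : ℍ) :
    min (ordFrac f₁ g₁ τ) (ordFrac f₂ g₂ τ) ≤ ordFrac (f₁ * g₂ + f₂ * g₁) (g₁ * g₂) τ := by
  have h := min_ordAt_le_ordAt_add (hf₁.mul hg₂) (hf₂.mul hg₁) (mul_ne_zero' hf₁ hg₂ hf₁0 hg₂0)
    (mul_ne_zero' hf₂ hg₁ hf₂0 hg₁0) hsum τ
  rw [ordAt_mul hf₁ hg₂ hf₁0 hg₂0 τ, ordAt_mul hf₂ hg₁ hf₂0 hg₁0 τ] at h
  unfold ordFrac
  rw [ordAt_mul hg₁ hg₂ hg₁0 hg₂0 τ]
  push_cast
  omega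

theorem ordFrac_const {c c' : ℂ} (hc : c ≠ 0) (hc' : c' ≠ 0) (τ : ℍ) :
    ordFrac (fun _ : ℍ => c) (fun _ : ℍ => c') τ = 0 := by
  unfold ordFrac
  rw [ordAt_const hc, ordAt_const hc']
  simp

theorem ordFrac_self_one (f : ℍ → ℂ) (τ : ℍ) : ordFrac f 1 τ = ordAt f τ := by
  unfold ordFrac
  have h : ordAt (1 : ℍ → ℂ) τ = 0 := ordAt_const (c := 1) one_ne_zero τ
  rw [h]
  simp

theorem ordFrac_inv (f g : ℍ → ℂ) (τ : ℍ) : ordFrac g f τ = - ordFrac f g τ := by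
  unfold ordFrac
  ring

theorem ordFrac_comp_smul (f g : ℍ → ℂ) (γ : SL(2, ℤ)) (τ : ℍ) :
    ordFrac (fun z : ℍ => f (γ • z)) (fun z : ℍ => g (γ • z)) τ = ordFrac f g (γ • τ) := by
  unfold ordFrac
  rw [ordAt_comp_smul, ordAt_comp_smul]

/-! ### Elliptic fixed points -/

theorem denom_SL_mul_of_fixed (γ δ : SL(2, ℤ)) (τ : ℍ) (hfix : δ • τ = τ) :
    denom ((γ * δ : SL(2, ℤ)) : GL (Fin 2) ℝ) τ =
      denom (γ : GL (Fin 2) ℝ) τ * denom (δ : GL (Fin 2) ℝ) τ := by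
  have h := denom_cocycle (γ : GL (Fin 2) ℝ) (δ : GL (Fin 2) ℝ) τ.im_ne_zero
  have h2 : num (δ : GL (Fin 2) ℝ) τ / denom (δ : GL (Fin 2) ℝ) τ = (τ : ℂ) := by
    have h3 := coe_smul_eq_moeb (det_pos_SL δ) τ
    rw [← ModularGroup.sl_moeb, hfix] at h3
    exact h3.symm
  rw [h2] at h
  rw [← h]
  congr 1
  simp

theorem denom_SL_pow_of_fixed (δ : SL(2, ℤ)) (τ : ℍ) (hfix : δ • τ = τ) (n : ℕ) :
    denom ((δ ^ n : SL(2, ℤ)) : GL (Fin 2) ℝ) τ = denom (δ : GL (Fin 2) ℝ) τ ^ n := by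
  induction n with
  | zero => simp [denom]
  | succ k ih => rw [pow_succ, denom_SL_mul_of_fixed _ _ _ hfix, ih, pow_succ]

theorem denom_SL_neg_one (τ : ℍ) : denom ((-1 : SL(2, ℤ)) : GL (Fin 2) ℝ) τ = -1 := by
  rw [ModularGroup.denom_apply]
  simp

theorem eq_neg_one_of_denom_eq_neg_one (δ : SL(2, ℤ)) (τ : ℍ) (hfix : δ • τ = τ)
    (hμ : denom (δ : GL (Fin 2) ℝ) τ = -1) : δ = -1 := by
  have h := ModularGroup.denom_apply δ τ
  rw [hμ] at h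
  have him := congrArg Complex.im h
  have hre := congrArg Complex.re h
  simp at him hre
  have hc : δ 1 0 = 0 := by
    rcases him with h0 | h0
    · exact h0
    · exact absurd h0 τ.im_ne_zero
  have hd : δ 1 1 = -1 := by
    rw [hc] at hre
    simp at hre
    have : ((δ 1 1 : ℤ) : ℝ) = -1 := by linarith
    exact_mod_cast this
  have hdet := δ.det_coe
  rw [Matrix.det_fin_two, hc, hd] at hdet
  have ha : δ 0 0 = -1 := by linarith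
  have hfix' := congrArg (fun z : ℍ => (z : ℂ)) hfix
  simp only [coe_specialLinearGroup_apply] at hfix'
  rw [hc, hd, ha] at hfix'
  simp at hfix'
  have hb : δ 0 1 = 0 := by
    have h1 : ((δ 0 1 : ℤ) : ℂ) = 0 := by
      have h2 : (-(τ : ℂ) + ((δ 0 1 : ℤ) : ℂ)) = -(τ : ℂ) := by
        field_simp at hfix'
        linear_combination -hfix'
      linear_combination h2
    exact_mod_cast h1
  ext i j
  fin_cases i <;> fin_cases j <;> simp [ha, hb, hc, hd]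

/-- If `δ ∈ SL(2, ℤ)` fixes `τ` and the fraction `f / g` is `δ`-invariant, then
`μ ^ (2 ord g) = μ ^ (2 ord f)` for `μ = denom δ τ = c τ + d`. -/
theorem denom_pow_eq_of_fixed (hf : MDifferentiable 𝓘(ℂ) 𝓘(ℂ) f)
    (hg : MDifferentiable 𝓘(ℂ) 𝓘(ℂ) g) (hf0 : f ≠ 0) (hg0 : g ≠ 0)
    (δ : SL(2, ℤ)) (τ : ℍ) (hfix : δ • τ = τ)
    (hinv : ∀ z : ℍ, f (δ • z) * g z = f z * g (δ • z)) :
    denom (δ : GL (Fin 2) ℝ) τ ^ (2 * ordAt g τ) = denom (δ : GL (Fin 2) ℝ) τ ^ (2 * ordAt f τ) := by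
  have h := det_pow_mul_denom_pow_eq hf hg hf0 hg0 (det_pos_SL δ) τ hfix hinv
  have hdet : (((δ : GL (Fin 2) ℝ).det.val : ℝ) : ℂ) = 1 := by simp
  rw [hdet, one_pow, one_pow, one_mul, one_mul] at h
  exact h

/-- Fixed point of an element of order 4 (`δ² = -1`, e.g. a conjugate of `S`): the order at `τ`
of a `δ`-invariant fraction is even. -/
theorem two_dvd_ordFrac_of_fixed (hf : MDifferentiable 𝓘(ℂ) 𝓘(ℂ) f)
    (hg : MDifferentiable 𝓘(ℂ) 𝓘(ℂ) g) (hf0 : f ≠ 0) (hg0 : g ≠ 0)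
    (δ : SL(2, ℤ)) (τ : ℍ) (hfix : δ • τ = τ) (hδ : δ ^ 2 = -1)
    (hinv : ∀ z : ℍ, f (δ • z) * g z = f z * g (δ • z)) :
    (2 : ℤ) ∣ ordFrac f g τ := by
  have h := denom_pow_eq_of_fixed hf hg hf0 hg0 δ τ hfix hinv
  have hμ : denom (δ : GL (Fin 2) ℝ) τ ^ 2 = -1 := by
    rw [← denom_SL_pow_of_fixed δ τ hfix 2, hδ, denom_SL_neg_one]
  rw [pow_mul, pow_mul, hμ] at h
  unfold ordFrac
  rcases Nat.even_or_odd (ordAt f τ) with h1 | h1 <;>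
    rcases Nat.even_or_odd (ordAt g τ) with h2 | h2
  · obtain ⟨a, ha⟩ := h1
    obtain ⟨b, hb⟩ := h2
    omega
  · rw [h1.neg_one_pow, h2.neg_one_pow] at h
    norm_num at h
  · rw [h1.neg_one_pow, h2.neg_one_pow] at h
    norm_num at h
  · obtain ⟨a, ha⟩ := h1
    obtain ⟨b, hb⟩ := h2
    omega

/-- Fixed point of an element of order 6 (`δ³ = -1`, `δ ≠ -1`, e.g. a conjugate of `S T`): the
order at `τ` of a `δ`-invariant fraction is divisible by `3`. -/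
theorem three_dvd_ordFrac_of_fixed (hf : MDifferentiable 𝓘(ℂ) 𝓘(ℂ) f)
    (hg : MDifferentiable 𝓘(ℂ) 𝓘(ℂ) g) (hf0 : f ≠ 0) (hg0 : g ≠ 0)
    (δ : SL(2, ℤ)) (τ : ℍ) (hfix : δ • τ = τ) (hδ : δ ^ 3 = -1) (hδ1 : δ ≠ -1)
    (hinv : ∀ z : ℍ, f (δ • z) * g z = f z * g (δ • z)) :
    (3 : ℤ) ∣ ordFrac f g τ := by
  have h := denom_pow_eq_of_fixed hf hg hf0 hg0 δ τ hfix hinv
  set μ := denom (δ : GL (Fin 2) ℝ) τ with hμdef
  have hμ3 : μ ^ 3 = -1 := by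
    rw [hμdef, ← denom_SL_pow_of_fixed δ τ hfix 3, hδ, denom_SL_neg_one]
  have hμ1 : μ ≠ -1 := fun h1 => hδ1 (eq_neg_one_of_denom_eq_neg_one δ τ hfix h1)
  have hμ0 : μ ≠ 0 := denom_ne_zero _ τ
  have hω0 : μ ^ 2 ≠ 0 := pow_ne_zero 2 hμ0
  set u : ℂˣ := Units.mk0 (μ ^ 2) hω0 with hu
  have hu3 : u ^ 3 = 1 := by
    apply Units.ext
    simp only [hu, Units.val_pow_eq_pow_val, Units.val_mk0, Units.val_one]
    linear_combination (μ ^ 3 - 1) * hμ3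
  have hu1 : u ≠ 1 := by
    intro h1
    have h2 : μ ^ 2 = 1 := by
      have := congrArg Units.val h1
      simpa [hu] using this
    apply hμ1
    have h3 : μ ^ 3 = μ := by rw [pow_succ, h2, one_mul]
    rw [← h3, hμ3]
  have : Fact (Nat.Prime 3) := ⟨Nat.prime_three⟩
  have hord : orderOf u = 3 := orderOf_eq_prime hu3 hu1
  have hpow : u ^ ordAt g τ = u ^ ordAt f τ := by
    apply Units.ext
    simp only [hu, Units.val_pow_eq_pow_val, Units.val_mk0]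
    rw [← pow_mul, ← pow_mul]
    exact h
  rw [pow_eq_pow_iff_modEq, hord] at hpow
  unfold ordFrac
  exact (Nat.modEq_iff_dvd.mp hpow)

theorem two_dvd_ordAt_of_fixed (hf : MDifferentiable 𝓘(ℂ) 𝓘(ℂ) f) (hf0 : f ≠ 0)
    (δ : SL(2, ℤ)) (τ : ℍ) (hfix : δ • τ = τ) (hδ : δ ^ 2 = -1)
    (hinv : ∀ z : ℍ, f (δ • z) = f z) : 2 ∣ ordAt f τ := by
  have h1 : MDifferentiable 𝓘(ℂ) 𝓘(ℂ) (1 : ℍ → ℂ) := mdifferentiable_const
  have h2 := two_dvd_ordFrac_of_fixed hf h1 hf0 one_ne_zero δ τ hfix hδ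
    (fun z => by rw [hinv z]; rfl)
  rw [ordFrac_self_one] at h2
  exact_mod_cast h2

theorem three_dvd_ordAt_of_fixed (hf : MDifferentiable 𝓘(ℂ) 𝓘(ℂ) f) (hf0 : f ≠ 0)
    (δ : SL(2, ℤ)) (τ : ℍ) (hfix : δ • τ = τ) (hδ : δ ^ 3 = -1) (hδ1 : δ ≠ -1)
    (hinv : ∀ z : ℍ, f (δ • z) = f z) : 3 ∣ ordAt f τ := by
  have h1 : MDifferentiable 𝓘(ℂ) 𝓘(ℂ) (1 : ℍ → ℂ) := mdifferentiable_const
  have h2 := three_dvd_ordFrac_of_fixed hf h1 hf0 one_ne_zero δ τ hfix hδ hδ1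
    (fun z => by rw [hinv z]; rfl)
  rw [ordFrac_self_one] at h2
  exact_mod_cast h2

end Fermat.Agent.S24.OrdH
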