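/-
S24, B-top [PT] (helper79): `Γ₀(N)`-invariance of the point valuations `valPt N τ` and
divisibility at elliptic fixed points, on the names of `ModDefs.lean`.

  * `mdiff_ev`            : `ev N P` is holomorphic on `ℍ`;
  * `ev_smul_Gamma0`      : `ev N P (γ • z) = ev N P z` for `γ ∈ Γ₀(N)`;
  * `valPt_smul_Gamma0`   : `valPt N (γ • τ) f = valPt N τ f` for `γ ∈ Γ₀(N)`;
  * `two_dvd_valPt`, `three_dvd_valPt` : divisibility of `valPt N τ f` at a fixed point of an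
    element `δ ∈ Γ₀(N)` with `δ² = -1`, resp. `δ³ = -1`, `δ ≠ -1`.
-/
import Fermat.Agent.S24.ModDefs
import Fermat.Agent.S24.OrdH
import Fermat.Agent.S24.QExpJ
import Fermat.Agent.S24.QLaurent
import Fermat.Agent.S24.HNF
import Fermat.Agent.S24.JPt

set_option autoImplicit false

open UpperHalfPlane ModularForm
open scoped MatrixGroups Manifold

namespace Fermat.Agent.S24.PtInv

open Fermat.Agent.S24

noncomputable section

variable (N : ℕ) [NeZero N]

/-- `ev N P` is holomorphic on `ℍ` (it has a global `q`-expansion). -/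
theorem mdiff_ev (P : MvPolynomial (Dv N) KQ) : MDiff (ev N P) := by
  have h := QLaurent.mem_MerInf_of_hasSum (h := 1) (QExp.hasQExp_ev N P)
  exact h.1

omit [NeZero N] in
/-- Pointwise description of `ev`. -/
theorem ev_apply (P : MvPolynomial (Dv N) KQ) (z : ℍ) :
    ev N P z = MvPolynomial.eval₂ iotaK (fun d : Dv N => Jabd d.1 0 1 z) P := by
  have h := MvPolynomial.comp_eval₂Hom ((Pi.constRingHom ℍ ℂ).comp iotaK)
    (fun d : Dv N => Jabd d.1 0 1) (Pi.evalRingHom (fun _ : ℍ => ℂ) z)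
  have h2 := congrArg (fun φ => φ P) h
  simp only [RingHom.comp_apply, Pi.evalRingHom_apply] at h2
  rw [ev]
  rw [h2]
  rfl

/-- The generators `z ↦ J(d z)`, `d ∣ N`, are `Γ₀(N)`-invariant. -/
theorem Jabd_smul_Gamma0 (d : Dv N) (γ : SL(2, ℤ)) (hγ : γ ∈ CongruenceSubgroup.Gamma0 N)
    (z : ℍ) : Jabd d.1 0 1 (γ • z) = Jabd d.1 0 1 z := by
  have hd : 0 < d.1 := Nat.pos_of_ne_zero (d.neZero).out
  have him : ∀ w : ℍ, 0 < ((((d.1 : ℕ) : ℂ) * (w : ℂ) + ((0 : ℕ) : ℂ)) / ((1 : ℕ) : ℂ)).im := by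
    intro w
    simp only [Nat.cast_zero, add_zero, Nat.cast_one, div_one]
    rw [Complex.mul_im]
    simp only [Complex.natCast_re, Complex.natCast_im, zero_mul, add_zero]
    exact mul_pos (by exact_mod_cast hd) w.im_pos
  unfold Jabd
  refine HNF.invariant_of_mem_Gamma0 Jfun JPt.Jfun_smul N d.1 d.2 γ hγ z _ _ ?_ ?_
  · rw [ofComplex_apply_of_im_pos (him (γ • z))]
    simp
  · rw [ofComplex_apply_of_im_pos (him z)]
    simp

/-- `ev N P` is `Γ₀(N)`-invariant. -/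
theorem ev_smul_Gamma0 (P : MvPolynomial (Dv N) KQ) (γ : SL(2, ℤ))
    (hγ : γ ∈ CongruenceSubgroup.Gamma0 N) (z : ℍ) : ev N P (γ • z) = ev N P z := by
  have h : (fun d : Dv N => Jabd d.1 0 1 (γ • z)) = (fun d : Dv N => Jabd d.1 0 1 z) :=
    funext fun d => Jabd_smul_Gamma0 N d γ hγ z
  rw [ev_apply, ev_apply, h]

/-- B-BRIDGE in the form used here. -/
theorem ev_ne_zero {P : MvPolynomial (Dv N) KQ} (h : fm N P ≠ 0) : ev N P ≠ 0 :=
  fun h0 => h ((QExp.ev_eq_zero_iff N P).mp h0)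

theorem ordAt_eq_cast (G : ℍ → ℂ) (τ : ℍ) : ordAt G τ = (OrdH.ordAt G τ : ℤ) := rfl

/-- **`Γ₀(N)`-invariance of the point valuation.** -/
theorem valPt_smul_Gamma0 (γ : SL(2, ℤ)) (hγ : γ ∈ CongruenceSubgroup.Gamma0 N) (τ : ℍ)
    (f : FN N) : valPt N (γ • τ) f = valPt N τ f := by
  unfold valPt
  split_ifs with h
  · have key : ∀ P : MvPolynomial (Dv N) KQ, ordAt (ev N P) (γ • τ) = ordAt (ev N P) τ := by
      intro P
      rw [ordAt_eq_cast, ordAt_eq_cast, ← OrdH.ordAt_comp_smul (ev N P) γ τ]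
      congr 2
      funext z
      exact ev_smul_Gamma0 N P γ hγ z
    rw [key, key]
  · rfl

/-- `valPt` of a nonzero element on its chosen representative, as an `ordFrac`. -/
theorem exists_rep_valPt (τ : ℍ) (f : FN N) (hf : f ≠ 0) (h : ∃ P Q, IsRep N f P Q) :
    ∃ P Q : MvPolynomial (Dv N) KQ, fm N P ≠ 0 ∧ fm N Q ≠ 0 ∧
      valPt N τ f = OrdH.ordFrac (ev N P) (ev N Q) τ := by
  refine ⟨h.choose, h.choose_spec.choose, ?_, h.choose_spec.choose_spec.1, ?_⟩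
  · intro h0
    apply hf
    rw [h.choose_spec.choose_spec.2, h0, zero_div]
  · unfold valPt
    rw [dif_pos h]
    rfl

/-- **Elliptic fixed point of order 2**: if `δ ∈ Γ₀(N)`, `δ² = -1` fixes `τ`, then every
`valPt N τ f` is even. -/
theorem two_dvd_valPt (δ : SL(2, ℤ)) (hδN : δ ∈ CongruenceSubgroup.Gamma0 N)
    (hδ : δ ^ 2 = -1) (τ : ℍ) (hfix : δ • τ = τ) (f : FN N) (hf : f ≠ 0) :
    (2 : ℤ) ∣ valPt N τ f := by
  by_cases h : ∃ P Q, IsRep N f P Q
  · obtain ⟨P, Q, hP, hQ, hval⟩ := exists_rep_valPt N τ f hf h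
    rw [hval]
    exact OrdH.two_dvd_ordFrac_of_fixed (mdiff_ev N P) (mdiff_ev N Q) (ev_ne_zero N hP)
      (ev_ne_zero N hQ) δ τ hfix hδ
      (fun z => by rw [ev_smul_Gamma0 N P δ hδN z, ev_smul_Gamma0 N Q δ hδN z])
  · unfold valPt
    rw [dif_neg h]
    exact dvd_zero _

/-- **Elliptic fixed point of order 3**: if `δ ∈ Γ₀(N)`, `δ³ = -1`, `δ ≠ -1` fixes `τ`, then
every `valPt N τ f` is divisible by `3`. -/
theorem three_dvd_valPt (δ : SL(2, ℤ)) (hδN : δ ∈ CongruenceSubgroup.Gamma0 N)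
    (hδ : δ ^ 3 = -1) (hδ1 : δ ≠ -1) (τ : ℍ) (hfix : δ • τ = τ) (f : FN N) (hf : f ≠ 0) :
    (3 : ℤ) ∣ valPt N τ f := by
  by_cases h : ∃ P Q, IsRep N f P Q
  · obtain ⟨P, Q, hP, hQ, hval⟩ := exists_rep_valPt N τ f hf h
    rw [hval]
    exact OrdH.three_dvd_ordFrac_of_fixed (mdiff_ev N P) (mdiff_ev N Q) (ev_ne_zero N hP)
      (ev_ne_zero N hQ) δ τ hfix hδ hδ1
      (fun z => by rw [ev_smul_Gamma0 N P δ hδN z, ev_smul_Gamma0 N Q δ hδN z])
  · unfold valPt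
    rw [dif_neg h]
    exact dvd_zero _

end

end Fermat.Agent.S24.PtInv
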