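import Fermat.Agent.S24.DegCore
import Fermat.Agent.S24.LevelOneRat
import Fermat.Agent.S24.CuspHom
import Fermat.Agent.S24.PtTop
import Fermat.Agent.S24.HNFMod
import Fermat.Agent.S24.OrdAtMod

/-!
# S24 — B-top `[DEG]`

* `transcendental_jBar`, `finiteDimensional_jBar`, `card_XN_le_finrank`, `exists_charpoly`
  (exact statements of the architect's skeleton).

The abstract algebra is `DegCore`; here it is instantiated with the ring `RN N` of holomorphic
functions on `ℍ` all of whose translates have a `ℚ̄`-rational `q_N`-expansion, `T q := trans q.out`.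
-/

set_option autoImplicit false
set_option linter.unusedSectionVars false

open UpperHalfPlane ModularForm ModularCurve CongruenceSubgroup
open scoped MatrixGroups Manifold IntermediateField

noncomputable section

namespace Fermat.Agent.S24.Deg

open Fermat.Agent.S24 Fermat.Agent.S24.QExp Polynomial

theorem trans_trans (g' g : SL(2, ℤ)) (G : ℍ → ℂ) : trans g' (trans g G) = trans (g' * g) G := by
  funext z
  show G (g⁻¹ • g'⁻¹ • z) = G ((g' * g)⁻¹ • z)
  rw [mul_inv_rev, mul_smul]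

theorem trans_one (G : ℍ → ℂ) : trans 1 G = G := by
  funext z
  show G ((1 : SL(2, ℤ))⁻¹ • z) = G z
  rw [inv_one, one_smul]

variable (N : ℕ) [NeZero N]

/-- Holomorphic functions on `ℍ` all of whose translates have a `ℚ̄`-rational `q_N`-expansion. -/
def RN : Subring (ℍ → ℂ) where
  carrier := {G | MDiff G ∧ ∀ g : SL(2, ℤ), ∃ L : LaurentSeries KQ,
    HasQExp N (trans g G) (coeffMap iotaK L)}
  mul_mem' := by
    rintro a b ⟨ha, ha'⟩ ⟨hb, hb'⟩
    refine ⟨ha.mul hb, fun g => ?_⟩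
    obtain ⟨L, hL⟩ := ha' g
    obtain ⟨M, hM⟩ := hb' g
    exact ⟨L * M, by rw [map_mul]; exact hL.mul hM⟩
  one_mem' := ⟨mdifferentiable_const, fun g => ⟨1, by rw [map_one]; exact HasQExp.one N⟩⟩
  add_mem' := by
    rintro a b ⟨ha, ha'⟩ ⟨hb, hb'⟩
    refine ⟨ha.add hb, fun g => ?_⟩
    obtain ⟨L, hL⟩ := ha' g
    obtain ⟨M, hM⟩ := hb' g
    exact ⟨L + M, by rw [map_add]; exact hL.add hM⟩
  zero_mem' := ⟨mdifferentiable_const, fun g => ⟨0, by rw [map_zero]; exact HasQExp.zero N⟩⟩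
  neg_mem' := by
    rintro a ⟨ha, ha'⟩
    refine ⟨ha.neg, fun g => ?_⟩
    obtain ⟨L, hL⟩ := ha' g
    exact ⟨-L, by rw [map_neg]; exact hL.neg⟩

theorem mem_RN {G : ℍ → ℂ} : G ∈ RN N ↔ MDiff G ∧ ∀ g : SL(2, ℤ), ∃ L : LaurentSeries KQ,
    HasQExp N (trans g G) (coeffMap iotaK L) := Iff.rfl

instance : IsDomain (RN N) := by
  have : NoZeroDivisors (RN N) := ⟨fun {a b} hab => by
    have h' : (a : ℍ → ℂ) * (b : ℍ → ℂ) = 0 := congrArg Subtype.val hab
    rcases (UpperHalfPlane.mul_eq_zero_iff a.2.1 b.2.1).1 h' with h1 | h1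
    · left; exact Subtype.ext h1
    · right; exact Subtype.ext h1⟩
  exact NoZeroDivisors.to_isDomain _

/-- `ev` with values in `RN`. -/
def evR : MvPolynomial (Dv N) KQ →+* RN N :=
  (ev N).codRestrict (RN N) (fun P => ⟨PtInv.mdiff_ev N P, fun g => ⟨_, hasQExp_trans_ev N g P⟩⟩)

theorem evR_coe (P : MvPolynomial (Dv N) KQ) : ((evR N P : RN N) : ℍ → ℂ) = ev N P := rfl

/-- Translation by `g` as a ring endomorphism of `RN`. -/
def transR (g : SL(2, ℤ)) : RN N →+* RN N where
  toFun G := ⟨trans g G.1, OrdAt.mdifferentiable_trans G.2.1 g, fun g' => by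
    obtain ⟨L, hL⟩ := G.2.2 (g' * g)
    exact ⟨L, by rw [trans_trans]; exact hL⟩⟩
  map_one' := Subtype.ext rfl
  map_mul' _ _ := Subtype.ext rfl
  map_zero' := Subtype.ext rfl
  map_add' _ _ := Subtype.ext rfl

theorem transR_coe (g : SL(2, ℤ)) (G : RN N) : ((transR N g G : RN N) : ℍ → ℂ) = trans g G.1 :=
  rfl

theorem transR_injective (g : SL(2, ℤ)) : Function.Injective (transR N g) := by
  intro G H h
  apply Subtype.ext
  funext z
  have h1 := congrFun (congrArg Subtype.val h) (g • z)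
  simp only [transR_coe] at h1
  have e : ∀ F : ℍ → ℂ, trans g F (g • z) = F z := fun F => by
    show F (g⁻¹ • g • z) = F z
    rw [inv_smul_smul]
  rwa [e, e] at h1

/-- `ev` of a polynomial in the generator `X_1`. -/
theorem ev_toMv (a : KQ[X]) (z : ℍ) :
    ev N (DegCore.toMv (JPt.d1 N) a) z = (a.map iotaK).eval (Jfun z) := by
  induction a using Polynomial.induction_on' with
  | add p q hp hq =>
    rw [map_add, map_add, Pi.add_apply, hp, hq, Polynomial.map_add, Polynomial.eval_add]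
  | monomial n c =>
    rw [DegCore.toMv, Polynomial.aeval_monomial, map_mul, map_pow, JPt.ev_X_d1,
      Polynomial.map_monomial, Polynomial.eval_monomial, MvPolynomial.algebraMap_eq]
    simp [ev]

theorem evR_toMv_coe (a : KQ[X]) :
    ((evR N (DegCore.toMv (JPt.d1 N) a) : RN N) : ℍ → ℂ) = fun z => (a.map iotaK).eval (Jfun z) :=
  funext fun z => ev_toMv N a z

/-- A `Fintype` structure on the coset space (used locally only). -/
@[reducible] def fintypeXN : Fintype (XN N) := Fintype.ofFinite _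

attribute [local instance] fintypeXN

/-- Bridge. -/
theorem hbridge (P : MvPolynomial (Dv N) KQ) : fm N P = 0 ↔ evR N P = 0 := by
  rw [← ev_eq_zero_iff]
  constructor
  · intro h
    exact Subtype.ext h
  · intro h
    exact congrArg Subtype.val h

theorem hT0 (P : MvPolynomial (Dv N) KQ) :
    transR N ((1 : SL(2, ℤ)) : XN N).out (evR N P) = evR N P := by
  apply Subtype.ext
  show trans ((1 : SL(2, ℤ)) : XN N).out (ev N P) = ev N P
  rw [HNFMod.trans_ev_eq_of_coset_eq N P _ 1 (QuotientGroup.out_eq' _), trans_one]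

theorem hinv (a : KQ[X]) (g : SL(2, ℤ)) :
    transR N g (evR N (DegCore.toMv (JPt.d1 N) a)) = evR N (DegCore.toMv (JPt.d1 N) a) := by
  apply Subtype.ext
  funext z
  show ev N (DegCore.toMv (JPt.d1 N) a) (g⁻¹ • z) = ev N (DegCore.toMv (JPt.d1 N) a) z
  rw [ev_toMv, ev_toMv, JPt.Jfun_smul]

theorem htr (a : KQ[X]) (h0 : evR N (DegCore.toMv (JPt.d1 N) a) = 0) : a = 0 := by
  have h : ∀ z : ℍ, (a.map iotaK).eval (Jfun z) = 0 := fun z => by
    rw [← ev_toMv N]
    exact congrFun (congrArg Subtype.val h0) z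
  have h1 : a.map iotaK = 0 := LevelOneInv.poly_eq_zero_of_forall_eval_J _ h
  exact (Polynomial.map_eq_zero iotaK).1 h1

theorem hdist : Function.Injective
    (fun q : XN N => transR N q.out (evR N (MvPolynomial.X (⟨N, dvd_rfl⟩ : Dv N)))) := by
  intro q q' h
  exact HNFMod.injective_trans_out_ev N (congrArg Subtype.val h)

/-- The symmetric functions of the conjugates are polynomials in `J` over `ℚ̄`. -/
theorem hsym (P Q : MvPolynomial (Dv N) KQ) (k : ℕ) : ∃ a : KQ[X],
    (∏ q : XN N, (C (transR N q.out (evR N Q)) * X - C (transR N q.out (evR N P)))).coeff k =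
      evR N (DegCore.toMv (JPt.d1 N) a) := by
  set A : (RN N)[X] :=
    ∏ q : XN N, (C (transR N q.out (evR N Q)) * X - C (transR N q.out (evR N P))) with hA_def
  have key : ∀ (γ : SL(2, ℤ)) (R : MvPolynomial (Dv N) KQ) (q : XN N),
      transR N γ (transR N q.out (evR N R)) = transR N (γ • q).out (evR N R) := by
    intro γ R q
    apply Subtype.ext
    show trans γ (trans q.out (ev N R)) = trans (γ • q).out (ev N R)
    rw [trans_trans]
    refine HNFMod.trans_ev_eq_of_coset_eq N R _ _ ?_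
    rw [QuotientGroup.out_eq']
    conv_rhs => rw [← QuotientGroup.out_eq' q]
    rfl
  have hA : ∀ γ : SL(2, ℤ), A.map (transR N γ) = A := by
    intro γ
    rw [hA_def, Polynomial.map_prod]
    simp only [Polynomial.map_sub, Polynomial.map_mul, Polynomial.map_C, Polynomial.map_X, key]
    exact Fintype.prod_equiv (MulAction.toPerm γ) _ _ (fun q => rfl)
  have hc : ∀ γ : SL(2, ℤ), transR N γ (A.coeff k) = A.coeff k := fun γ => by
    rw [← Polynomial.coeff_map, hA]
  have hinv' : ∀ (γ : SL(2, ℤ)) (z : ℍ), (A.coeff k).1 (γ • z) = (A.coeff k).1 z := by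
    intro γ z
    have h1 := congrFun (congrArg Subtype.val (hc γ⁻¹)) z
    rw [transR_coe] at h1
    have h2 : trans γ⁻¹ (A.coeff k).1 z = (A.coeff k).1 (γ • z) := by
      show (A.coeff k).1 (γ⁻¹⁻¹ • z) = _
      rw [inv_inv]
    rw [← h2]
    exact h1
  obtain ⟨L, hL⟩ := (A.coeff k).2.2 1
  rw [trans_one] at hL
  obtain ⟨a, ha⟩ := LevelOneRat.exists_poly_of_invariant_rational iotaK _ (A.coeff k).2.1 hinv' N
    L hL
  refine ⟨a, Subtype.ext ?_⟩
  rw [evR_toMv_coe]
  funext z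
  exact ha z

theorem fm_X_d1 : fm N (MvPolynomial.X (JPt.d1 N)) = jBar N := by
  simp [fm, jBar]

theorem hrep (f : FN N) : ∃ P Q, fm N Q ≠ 0 ∧ f = fm N P / fm N Q := exists_isRep N f

/-! ### Raw valuations on `RN` -/

theorem coe_ne_zero {G : RN N} (h : G ≠ 0) : (G : ℍ → ℂ) ≠ 0 := fun h0 => h (Subtype.ext h0)

theorem ordAt_mul_RN (τ : ℍ) (a b : RN N) (ha : a ≠ 0) (hb : b ≠ 0) :
    ordAt ((a * b : RN N) : ℍ → ℂ) τ = ordAt (a : ℍ → ℂ) τ + ordAt (b : ℍ → ℂ) τ :=
  OrdAt.ordAt_mul a.2.1 b.2.1 (coe_ne_zero N ha) (coe_ne_zero N hb) τ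

theorem ordAt_add_RN (τ : ℍ) (a b : RN N) (ha : a ≠ 0) (hb : b ≠ 0) (hab : a + b ≠ 0) :
    min (ordAt (a : ℍ → ℂ) τ) (ordAt (b : ℍ → ℂ) τ) ≤ ordAt ((a + b : RN N) : ℍ → ℂ) τ :=
  OrdAt.min_ordAt_le_ordAt_add a.2.1 b.2.1 (coe_ne_zero N ha) (coe_ne_zero N hb)
    (coe_ne_zero N hab) τ

/-- The order at `i∞` of a translate of a nonzero element of `RN` is the order of a nonzero
Laurent series expanding it. -/
theorem exists_series (g : SL(2, ℤ)) (a : RN N) (ha : a ≠ 0) :
    ∃ L : LaurentSeries ℂ, L ≠ 0 ∧ HasQExp N (trans g (a : ℍ → ℂ)) L ∧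
      ordInf N (trans g (a : ℍ → ℂ)) = L.order := by
  obtain ⟨L, hL⟩ := a.2.2 g
  have hne : coeffMap iotaK L ≠ 0 := by
    intro h0
    have h1 := (hL.eq_zero_iff).2 h0
    apply ha
    apply transR_injective N g
    rw [map_zero]
    apply Subtype.ext
    funext z
    exact h1 z
  exact ⟨_, hne, hL, hL.ordInf_eq hne⟩

theorem ordInf_mul_RN (g : SL(2, ℤ)) (a b : RN N) (ha : a ≠ 0) (hb : b ≠ 0) :
    ordInf N (trans g ((a * b : RN N) : ℍ → ℂ)) =
      ordInf N (trans g (a : ℍ → ℂ)) + ordInf N (trans g (b : ℍ → ℂ)) := by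
  obtain ⟨L, hL0, hL, hLo⟩ := exists_series N g a ha
  obtain ⟨M, hM0, hM, hMo⟩ := exists_series N g b hb
  have h : HasQExp N (trans g ((a * b : RN N) : ℍ → ℂ)) (L * M) := hL.mul hM
  rw [h.ordInf_eq (mul_ne_zero hL0 hM0), hLo, hMo, HahnSeries.order_mul hL0 hM0]

theorem ordInf_add_RN (g : SL(2, ℤ)) (a b : RN N) (ha : a ≠ 0) (hb : b ≠ 0) (hab : a + b ≠ 0) :
    min (ordInf N (trans g (a : ℍ → ℂ))) (ordInf N (trans g (b : ℍ → ℂ))) ≤
      ordInf N (trans g ((a + b : RN N) : ℍ → ℂ)) := by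
  obtain ⟨L, hL0, hL, hLo⟩ := exists_series N g a ha
  obtain ⟨M, hM0, hM, hMo⟩ := exists_series N g b hb
  have h : HasQExp N (trans g ((a + b : RN N) : ℍ → ℂ)) (L + M) := hL.add hM
  have hne : L + M ≠ 0 := by
    intro h0
    rw [h0] at h
    have h1 := (h.eq_zero_iff).2 rfl
    apply hab
    apply transR_injective N g
    rw [map_zero]
    apply Subtype.ext
    funext z
    exact h1 z
  rw [h.ordInf_eq hne, hLo, hMo]
  exact HahnSeries.min_order_le_order_add hne

end Fermat.Agent.S24.Deg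

namespace Fermat.Agent.S24

open Fermat.Agent.S24.Deg Fermat.Agent.S24.QExp Polynomial

variable (N : ℕ) [NeZero N]

attribute [local instance] fintypeXN

/-- `j` is transcendental over `ℚ̄`. -/
theorem transcendental_jBar : Transcendental KQ (jBar N) := by
  rw [← fm_X_d1]
  exact DegCore.transcendental_j (fm N) (evR N) (JPt.d1 N) (hbridge N) (htr N)

theorem finiteDimensional_and_finrank_jBar :
    FiniteDimensional KQ⟮jBar N⟯ (FN N) ∧
      Module.finrank KQ⟮jBar N⟯ (FN N) = Nat.card (XN N) := by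
  have h := DegCore.finrank_eq_card (fm := fm N) (ev := evR N)
    (T := fun q : XN N => transR N q.out) (d1 := JPt.d1 N) (hbridge N)
    (fun q => transR_injective N q.out) ((1 : SL(2, ℤ)) : XN N) (hT0 N) (hsym N) (hrep N)
    (fun a q => hinv N a q.out) (MvPolynomial.X (⟨N, dvd_rfl⟩ : Dv N)) (hdist N)
  rw [fm_X_d1] at h
  rw [Nat.card_eq_fintype_card]
  exact h

/-- `F / ℚ̄(j)` is finite. -/
theorem finiteDimensional_jBar : FiniteDimensional KQ⟮jBar N⟯ (FN N) :=
  (finiteDimensional_and_finrank_jBar N).1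

/-- The degree of `F / ℚ̄(j)` is the index of `Γ₀(N)`. -/
theorem finrank_jBar : Module.finrank KQ⟮jBar N⟯ (FN N) = Nat.card (XN N) :=
  (finiteDimensional_and_finrank_jBar N).2

theorem card_XN_le_finrank : Nat.card (XN N) ≤ Module.finrank KQ⟮jBar N⟯ (FN N) :=
  (finrank_jBar N).ge

theorem isRep_one : IsRep N (1 : FN N) 1 1 := by
  refine ⟨?_, ?_⟩
  · rw [map_one]; exact one_ne_zero
  · rw [map_one, div_one]

/-- Every `f` is a root of a monic polynomial over `ℚ̄(j)` whose coefficients are regular wherever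
all conjugates of `f` are regular. -/
theorem exists_charpoly (f : FN N) :
    ∃ P : Polynomial (FN N), P.Monic ∧ P.eval f = 0 ∧ (∀ k, P.coeff k ∈ KQ⟮jBar N⟯) ∧
      (∀ τ0 : ℍ, (∀ g : SL(2, ℤ), 0 ≤ valPt N (g • τ0) f) →
        ∀ k, P.coeff k ≠ 0 → ∀ g : SL(2, ℤ), 0 ≤ valPt N (g • τ0) (P.coeff k)) ∧
      ((∀ g : SL(2, ℤ), 0 ≤ valCusp N g f) →
        ∀ k, P.coeff k ≠ 0 → ∀ g : SL(2, ℤ), 0 ≤ valCusp N g (P.coeff k)) := by
  by_cases hf0 : f = 0
  · subst hf0
    have hcoef : ∀ k, (X : Polynomial (FN N)).coeff k ≠ 0 → (X : Polynomial (FN N)).coeff k = 1 := by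
      intro k hk
      rw [Polynomial.coeff_X] at hk ⊢
      split_ifs at hk ⊢ with h
      · rfl
      · exact absurd rfl hk
    refine ⟨X, monic_X, eval_X, fun k => ?_, fun τ0 _ k hk g => ?_, fun _ k hk g => ?_⟩
    · rw [Polynomial.coeff_X]
      split_ifs
      · exact one_mem _
      · exact zero_mem _
    · rw [hcoef k hk, PtTop.valPt_eq_of_isRep N _ (isRep_one N) one_ne_zero, sub_self]
    · rw [hcoef k hk, valCusp_eq_of_isRep N g one_ne_zero (isRep_one N), sub_self]
  obtain ⟨P, Q, hrepf⟩ := exists_isRep N f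
  have hQ : fm N Q ≠ 0 := hrepf.1
  have hfe : f = fm N P / fm N Q := hrepf.2
  have hP : fm N P ≠ 0 := by
    intro h0
    apply hf0
    rw [hfe, h0, zero_div]
  obtain ⟨p, hmonic, -, hroot, hcoef⟩ := DegCore.exists_monic_root_val (fm := fm N) (ev := evR N)
    (T := fun q : XN N => transR N q.out) (d1 := JPt.d1 N) (hbridge N)
    (fun q => transR_injective N q.out) ((1 : SL(2, ℤ)) : XN N) (hT0 N) (hsym N) P Q hP hQ
  refine ⟨p, hmonic, by rw [hfe]; exact hroot, fun k => ?_, fun τ0 hτ0 k hk g => ?_,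
    fun hc k hk g => ?_⟩
  · obtain ⟨A, B, -, hAB, -⟩ := hcoef k
    rw [hAB, ← fm_X_d1]
    exact div_mem (DegCore.fm_toMv_mem _ _ A) (DegCore.fm_toMv_mem _ _ B)
  · obtain ⟨A, B, hB, hAB, hval⟩ := hcoef k
    have hA : fm N (DegCore.toMv (JPt.d1 N) A) ≠ 0 := by
      intro h0
      apply hk
      rw [hAB, h0, zero_div]
    have hrepk : IsRep N (p.coeff k) (DegCore.toMv (JPt.d1 N) A) (DegCore.toMv (JPt.d1 N) B) :=
      ⟨hB, hAB⟩
    rw [PtTop.valPt_eq_of_isRep N _ hrepk hk]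
    have h := hval (fun G : RN N => ordAt (G : ℍ → ℂ) (g • τ0)) (ordAt_mul_RN N _)
      (ordAt_add_RN N _) (fun q => by
        show ordAt (trans q.out (ev N Q)) (g • τ0) ≤ ordAt (trans q.out (ev N P)) (g • τ0)
        rw [OrdAt.ordAt_trans, OrdAt.ordAt_trans]
        have h1 := hτ0 (q.out⁻¹ * g)
        rw [mul_smul, PtTop.valPt_eq_of_isRep N _ hrepf hf0] at h1
        omega)
    rcases h with h | h
    · exact absurd ((hbridge N _).2 h) hA
    · have h' : ordAt (ev N (DegCore.toMv (JPt.d1 N) B)) (g • τ0) ≤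
          ordAt (ev N (DegCore.toMv (JPt.d1 N) A)) (g • τ0) := h
      omega
  · obtain ⟨A, B, hB, hAB, hval⟩ := hcoef k
    have hA : fm N (DegCore.toMv (JPt.d1 N) A) ≠ 0 := by
      intro h0
      apply hk
      rw [hAB, h0, zero_div]
    have hrepk : IsRep N (p.coeff k) (DegCore.toMv (JPt.d1 N) A) (DegCore.toMv (JPt.d1 N) B) :=
      ⟨hB, hAB⟩
    rw [valCusp_eq_of_isRep N g hk hrepk]
    have h := hval (fun G : RN N => ordInf N (trans g (G : ℍ → ℂ))) (ordInf_mul_RN N g)
      (ordInf_add_RN N g) (fun q => by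
        show ordInf N (trans g (trans q.out (ev N Q))) ≤ ordInf N (trans g (trans q.out (ev N P)))
        rw [trans_trans, trans_trans]
        have h1 := hc (g * q.out)
        rw [valCusp_eq_of_isRep N _ hf0 hrepf] at h1
        omega)
    rcases h with h | h
    · exact absurd ((hbridge N _).2 h) hA
    · have h' : ordInf N (trans g (ev N (DegCore.toMv (JPt.d1 N) B))) ≤
          ordInf N (trans g (ev N (DegCore.toMv (JPt.d1 N) A))) := h
      omega

end Fermat.Agent.S24
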