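import Mathlib
import Fermat.Prelude.Def_AlgebraicCurve_CanonicalDivisor

/-!
# S24: differentials of a function field at a place (Kaehler + Nakayama route)
-/

set_option autoImplicit false
set_option linter.style.haveILetI false

namespace Fermat.Agent.S24.KaehlerOrd

open KaehlerDifferential AlgebraicCurve IsLocalRing

variable {K F : Type*} [Field K] [Field F] [Algebra K F]

/-- the chosen uniformizer behind `v.dCoord` -/
theorem exists_irreducible_dCoord (v : Place K F) :
    ∃ π : v.toValuationSubring, Irreducible π ∧ v.dCoord = D K F (π : F) :=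
  ⟨_, (IsDiscreteValuationRing.exists_irreducible v.toValuationSubring).choose_spec, rfl⟩

/-- Local lemma: `d(O_v) ⊆ O_v · dπ` for a uniformizer `π`, when the residue field is `K` and
`Ω[O_v/K]` is a finite `O_v`-module. -/
theorem exists_D_eq_smul_D_irreducible (v : Place K F)
    (hres : ∀ a : v.toValuationSubring, ∃ c : K,
      a - algebraMap K v.toValuationSubring c ∈ maximalIdeal v.toValuationSubring)
    [Module.Finite v.toValuationSubring Ω[v.toValuationSubring⁄K]]
    {π : v.toValuationSubring} (hπ : Irreducible π) (u : v.toValuationSubring) :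
    ∃ w : v.toValuationSubring, D K F (u : F) = (w : F) • D K F (π : F) := by
  let φ : Ω[v.toValuationSubring⁄K] →ₗ[v.toValuationSubring] Ω[F⁄K] :=
    KaehlerDifferential.map K K v.toValuationSubring F
  have hφD : ∀ a : v.toValuationSubring, φ (D K v.toValuationSubring a) = D K F (a : F) :=
    fun a => KaehlerDifferential.map_D K K v.toValuationSubring F a
  let M : Submodule v.toValuationSubring Ω[F⁄K] := LinearMap.range φ
  let N : Submodule v.toValuationSubring Ω[F⁄K] :=
    Submodule.span v.toValuationSubring {D K F (π : F)}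
  have hMfg : M.FG := by
    have h := Module.Finite.fg_top (R := v.toValuationSubring)
      (M := Ω[v.toValuationSubring⁄K])
    have h2 := h.map φ
    rwa [Submodule.map_top] at h2
  have hMle : M ≤ N ⊔ maximalIdeal v.toValuationSubring • M := by
    rintro _ ⟨ω, rfl⟩
    have hω : ω ∈ Submodule.span v.toValuationSubring
        (Set.range (D K v.toValuationSubring)) := by
      rw [KaehlerDifferential.span_range_derivation]; trivial
    induction hω using Submodule.span_induction with
    | mem x hx =>
      obtain ⟨a, rfl⟩ := hx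
      obtain ⟨c, hc⟩ := hres a
      rw [hπ.maximalIdeal_eq, Ideal.mem_span_singleton'] at hc
      obtain ⟨a₁, ha₁⟩ := hc
      have ha : a = algebraMap K v.toValuationSubring c + a₁ * π := by rw [ha₁]; ring
      rw [ha, map_add, Derivation.map_algebraMap, zero_add, Derivation.leibniz, map_add,
        map_smul, map_smul, hφD, hφD]
      refine Submodule.add_mem_sup (Submodule.smul_mem _ _ (Submodule.subset_span rfl)) ?_
      refine Submodule.smul_mem_smul ?_ ⟨D K v.toValuationSubring a₁, hφD a₁⟩
      rw [hπ.maximalIdeal_eq]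
      exact Ideal.mem_span_singleton_self π
    | zero => rw [map_zero]; exact zero_mem _
    | add x y _ _ hx hy => rw [map_add]; exact add_mem hx hy
    | smul r x _ hx =>
      rw [map_smul]
      exact Submodule.smul_mem _ r hx
  have hle : M ≤ N := Submodule.le_of_le_smul_of_le_jacobson_bot hMfg
    (IsLocalRing.jacobson_eq_maximalIdeal ⊥ bot_ne_top).ge hMle
  have hu : D K F (u : F) ∈ N := hle ⟨D K v.toValuationSubring u, hφD u⟩
  obtain ⟨w, hw⟩ := Submodule.mem_span_singleton.mp hu
  exact ⟨w, hw.symm⟩

/-- `ord_v(dg/dπ) = ord_v(g) - 1` whenever `ord_v(g) ≠ 0` (characteristic zero): `e - 1` at a zero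
of order `e`, `-e - 1` at a pole of order `e`. -/
theorem ordDifferential_D [CharZero K] (v : Place K F) [v.DCoordGenerates] [Nontrivial Ω[F⁄K]]
    (hres : ∀ a : v.toValuationSubring, ∃ c : K,
      a - algebraMap K v.toValuationSubring c ∈ maximalIdeal v.toValuationSubring)
    [Module.Finite v.toValuationSubring Ω[v.toValuationSubring⁄K]]
    (g : F) (hg : v.ord g ≠ 0) : v.ordDifferential (D K F g) = v.ord g - 1 := by
  obtain ⟨π, hπ, hd⟩ := exists_irreducible_dCoord v
  have hg0 : g ≠ 0 := by
    rintro rfl
    exact hg v.ord_zero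
  obtain ⟨u, hu⟩ := v.exists_unit_mul_zpow hg0 hπ
  obtain ⟨w, hw⟩ := exists_D_eq_smul_D_irreducible v hres hπ (u : v.toValuationSubring)
  have hπF : (π : F) ≠ 0 := by
    simpa [ne_eq, ZeroMemClass.coe_eq_zero] using hπ.ne_zero
  have hmK : ((v.ord g : ℤ) : K) ≠ 0 := Int.cast_ne_zero.mpr hg
  have hunit : IsUnit (algebraMap K v.toValuationSubring ((v.ord g : ℤ) : K) *
      (u : v.toValuationSubring) + π * w) := by
    have h1 : IsUnit (algebraMap K v.toValuationSubring ((v.ord g : ℤ) : K) *
        (u : v.toValuationSubring)) :=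
      ((isUnit_iff_ne_zero.mpr hmK).map _).mul u.isUnit
    have h2 : π * w ∈ maximalIdeal v.toValuationSubring :=
      Ideal.mul_mem_right _ _ hπ.not_isUnit
    by_contra hcon
    have h3 : algebraMap K v.toValuationSubring ((v.ord g : ℤ) : K) *
        (u : v.toValuationSubring) + π * w ∈ maximalIdeal v.toValuationSubring := hcon
    have h4 := (maximalIdeal v.toValuationSubring).sub_mem h3 h2
    rw [add_sub_cancel_right] at h4
    exact h4 h1
  obtain ⟨u', hu'⟩ := hunit
  have hu'F : ((u' : v.toValuationSubring) : F) =
      ((v.ord g : ℤ) : F) * ((u : v.toValuationSubring) : F) + (π : F) * (w : F) := by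
    rw [hu']
    push_cast
    simp
  have key : D K F g = (((u' : v.toValuationSubring) : F) * (π : F) ^ (v.ord g - 1)) • v.dCoord := by
    rw [hd, hu'F]
    conv_lhs => rw [hu]
    rw [Derivation.leibniz, Derivation.leibniz_zpow, hw, ← Int.cast_smul_eq_zsmul F]
    simp only [smul_smul, ← add_smul]
    congr 1
    have hz : (π : F) ^ (v.ord g) = (π : F) ^ (v.ord g - 1) * (π : F) := by
      rw [← zpow_add_one₀ hπF, sub_add_cancel]
    rw [hz]
    ring
  rw [Place.ordDifferential, v.differentialCoeff_unique key, v.ord_unit_smul_zpow u' hπ]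

section SpanD

open IntermediateField
open scoped IntermediateField.algebraAdjoinAdjoin

/-- In characteristic zero, a field algebraic over `K(x)` is formally étale over `K[x]`. -/
theorem formallyEtale_adjoin_singleton [CharZero K] (x : F) [Algebra.IsAlgebraic K⟮x⟯ F] :
    Algebra.FormallyEtale (Algebra.adjoin K ({x} : Set F)) F := by
  haveI : CharZero K⟮x⟯ := charZero_of_injective_algebraMap (algebraMap K K⟮x⟯).injective
  haveI : Algebra.IsSeparable K⟮x⟯ F := Algebra.IsAlgebraic.isSeparable_of_perfectField
  haveI : Algebra.FormallyEtale K⟮x⟯ F := Algebra.FormallyEtale.of_isSeparable K⟮x⟯ F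
  haveI : Algebra.FormallyEtale (Algebra.adjoin K ({x} : Set F)) K⟮x⟯ :=
    Algebra.FormallyEtale.of_isLocalization (nonZeroDivisors (Algebra.adjoin K ({x} : Set F)))
  exact Algebra.FormallyEtale.comp (Algebra.adjoin K ({x} : Set F)) K⟮x⟯ F

/-- `d` of an element of `K[x]` is a multiple of `dx`. -/
theorem D_mem_span_of_mem_adjoin (x : F) {a : F} (ha : a ∈ Algebra.adjoin K ({x} : Set F)) :
    D K F a ∈ Submodule.span F {D K F x} := by
  induction ha using Algebra.adjoin_induction with
  | mem y hy =>
    rw [Set.mem_singleton_iff] at hy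
    subst hy
    exact Submodule.subset_span rfl
  | algebraMap r =>
    rw [Derivation.map_algebraMap]
    exact zero_mem _
  | add y z _ _ hy hz =>
    rw [map_add]
    exact add_mem hy hz
  | mul y z _ _ hy hz =>
    rw [Derivation.leibniz]
    exact add_mem (Submodule.smul_mem _ _ hz) (Submodule.smul_mem _ _ hy)

/-- `Ω[F/K] = F · dx` when `F` is algebraic over `K(x)` (characteristic zero). -/
theorem span_D_eq_top [CharZero K] (x : F) [Algebra.IsAlgebraic K⟮x⟯ F] :
    Submodule.span F {D K F x} = ⊤ := by
  haveI := formallyEtale_adjoin_singleton (K := K) x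
  rw [eq_top_iff]
  rintro ω -
  obtain ⟨t, rfl⟩ := (KaehlerDifferential.tensorKaehlerEquivOfFormallyEtale K
    (Algebra.adjoin K ({x} : Set F)) F).surjective ω
  induction t using TensorProduct.induction_on with
  | zero => rw [map_zero]; exact zero_mem _
  | tmul f η =>
    rw [KaehlerDifferential.tensorKaehlerEquivOfFormallyEtale_apply,
      KaehlerDifferential.mapBaseChange_tmul]
    refine Submodule.smul_mem _ _ ?_
    have hη : η ∈ Submodule.span (Algebra.adjoin K ({x} : Set F))
        (Set.range (D K (Algebra.adjoin K ({x} : Set F)))) := by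
      rw [KaehlerDifferential.span_range_derivation]; trivial
    induction hη using Submodule.span_induction with
    | mem y hy =>
      obtain ⟨a, rfl⟩ := hy
      rw [KaehlerDifferential.map_D]
      exact D_mem_span_of_mem_adjoin x a.2
    | zero => rw [map_zero]; exact zero_mem _
    | add y z _ _ hy hz => rw [map_add]; exact add_mem hy hz
    | smul r y _ hy =>
      rw [map_smul, ← algebraMap_smul F r]
      exact Submodule.smul_mem _ _ hy
  | add t s ht hs => rw [map_add]; exact add_mem ht hs

end SpanD

end Fermat.Agent.S24.KaehlerOrd
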