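import Mathlib
import Fermat.Agent.S24.KaehlerOrd

/-!
# S24: `dx ≠ 0` for a separating variable, and `DCoordGenerates` at every place

Setting: `F` a field over `K` (characteristic zero), algebraic over `K(x)`.
* `D_ne_zero`: if `x` is transcendental over `K`, then `D K F x ≠ 0`.
* `nontrivial_kaehler`: hence `Ω[F⁄K]` is nontrivial.
* `transcendental_of_ord_ne_zero`: an element with nonzero order at some place is transcendental.
* `isAlgebraic_adjoin_of_transcendental`: exchange (transcendence degree one).
* `dCoordGenerates`: every place `v` satisfies `v.DCoordGenerates`.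
-/

set_option autoImplicit false
set_option linter.style.haveILetI false

namespace Fermat.Agent.S24.DNeZero

open KaehlerDifferential AlgebraicCurve IntermediateField Polynomial
open scoped IntermediateField.algebraAdjoinAdjoin TensorProduct

variable {K F : Type*} [Field K] [Field F] [Algebra K F]

theorem aeval_symm_algEquivOfTranscendental (x : F) (hx : Transcendental K x)
    (a : Algebra.adjoin K ({x} : Set F)) :
    aeval x ((algEquivOfTranscendental K x hx).symm a) = (a : F) := by
  have h := (algEquivOfTranscendental K x hx).apply_symm_apply a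
  rw [algEquivOfTranscendental_apply] at h
  have h2 := congrArg (Subtype.val) h
  rw [Polynomial.aeval_subalgebra_coe] at h2
  exact h2

/-- The derivation `f(x) ↦ f'(x)` of `K[x]` with values in `F`, for `x` transcendental over `K`. -/
noncomputable def derivAdjoin (x : F) (hx : Transcendental K x) :
    Derivation K (Algebra.adjoin K ({x} : Set F)) F :=
  Derivation.mk'
    { toFun := fun a => aeval x (derivative ((algEquivOfTranscendental K x hx).symm a))
      map_add' := by intro a b; simp
      map_smul' := by intro c a; simp }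
    (by
      intro a b
      simp only [LinearMap.coe_mk, AddHom.coe_mk, map_mul, derivative_mul, map_add,
        aeval_symm_algEquivOfTranscendental, Subalgebra.smul_def, smul_eq_mul]
      ring)

theorem derivAdjoin_apply (x : F) (hx : Transcendental K x)
    (a : Algebra.adjoin K ({x} : Set F)) :
    derivAdjoin x hx a = aeval x (derivative ((algEquivOfTranscendental K x hx).symm a)) := rfl

theorem derivAdjoin_gen (x : F) (hx : Transcendental K x) :
    derivAdjoin x hx ⟨x, Algebra.self_mem_adjoin_singleton K x⟩ = 1 := by
  rw [derivAdjoin_apply]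
  have h : (algEquivOfTranscendental K x hx).symm ⟨x, Algebra.self_mem_adjoin_singleton K x⟩
      = (X : K[X]) := by
    rw [AlgEquiv.symm_apply_eq, algEquivOfTranscendental_apply_X]
  rw [h, derivative_X, map_one]

/-- `dx ≠ 0` when `x` is transcendental over `K` and `F` is algebraic over `K(x)` (char. zero). -/
theorem D_ne_zero [CharZero K] (x : F) (hx : Transcendental K x) [Algebra.IsAlgebraic K⟮x⟯ F] :
    D K F x ≠ 0 := by
  haveI := KaehlerOrd.formallyEtale_adjoin_singleton (K := K) x
  intro h0
  have h1 := KaehlerDifferential.tensorKaehlerEquivOfFormallyEtale_symm_D_algebraMap K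
    (Algebra.adjoin K ({x} : Set F)) F ⟨x, Algebra.self_mem_adjoin_singleton K x⟩
  have h2 : algebraMap (Algebra.adjoin K ({x} : Set F)) F
      ⟨x, Algebra.self_mem_adjoin_singleton K x⟩ = x := rfl
  rw [h2, h0, map_zero] at h1
  have h3 := congrArg
    (LinearMap.liftBaseChange F (derivAdjoin x hx).liftKaehlerDifferential) h1
  rw [map_zero, LinearMap.liftBaseChange_tmul, one_smul,
    Derivation.liftKaehlerDifferential_comp_D, derivAdjoin_gen] at h3
  exact zero_ne_one h3

theorem nontrivial_kaehler [CharZero K] (x : F) (hx : Transcendental K x)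
    [Algebra.IsAlgebraic K⟮x⟯ F] : Nontrivial Ω[F⁄K] :=
  nontrivial_of_ne _ _ (D_ne_zero x hx)

/-- An element which is algebraic over the constants has order zero at every place. -/
theorem ord_eq_zero_of_isAlgebraic (v : Place K F) {g : F} (hg : IsAlgebraic K g) :
    v.ord g = 0 := by
  rcases eq_or_ne g 0 with rfl | hg0
  · exact v.ord_zero
  have hmem : ∀ {y : F}, IsAlgebraic K y → ∃ a : v.toValuationSubring, (a : F) = y := by
    intro y hy
    have h1 : IsIntegral v.toValuationSubring y := hy.isIntegral.tower_top
    obtain ⟨a, ha⟩ := (IsIntegrallyClosed.isIntegral_iff (R := v.toValuationSubring) (K := F)).mp h1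
    exact ⟨a, ha⟩
  obtain ⟨a, ha⟩ := hmem hg
  obtain ⟨b, hb⟩ := hmem hg.inv
  have hab : a * b = 1 := by
    apply Subtype.ext
    push_cast
    rw [ha, hb, mul_inv_cancel₀ hg0]
  have hu : IsUnit a := IsUnit.of_mul_eq_one _ hab
  obtain ⟨u, rfl⟩ := hu
  rw [← ha]
  exact v.ord_coe_unit u

theorem transcendental_of_ord_ne_zero (v : Place K F) {g : F} (hg : v.ord g ≠ 0) :
    Transcendental K g := fun h => hg (ord_eq_zero_of_isAlgebraic v h)

/-- Exchange: if `F` is algebraic over `K(x)` and `y` is transcendental over `K`, then `F` is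
algebraic over `K(y)`. -/
theorem isAlgebraic_adjoin_of_transcendental (x : F) [Algebra.IsAlgebraic K⟮x⟯ F] {y : F}
    (hy : Transcendental K y) : Algebra.IsAlgebraic K⟮y⟯ F := by
  haveI : Algebra.IsAlgebraic (Algebra.adjoin K ({x} : Set F)) K⟮x⟯ :=
    IsLocalization.isAlgebraic _ (nonZeroDivisors (Algebra.adjoin K ({x} : Set F)))
  haveI : Algebra.IsAlgebraic (Algebra.adjoin K ({x} : Set F)) F :=
    Algebra.IsAlgebraic.trans (Algebra.adjoin K ({x} : Set F)) K⟮x⟯ F
  have h1 : Algebra.trdeg K F ≤ 1 := by
    have := Algebra.IsAlgebraic.trdeg_le_cardinalMk K ({x} : Set F)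
    simpa using this
  have hind : AlgebraicIndependent K (fun _ : PUnit => y) :=
    (algebraicIndependent_unique_type_iff (ι := PUnit)).mpr hy
  have hb : IsTranscendenceBasis K (fun _ : PUnit => y) :=
    hind.isTranscendenceBasis_of_trdeg_le_of_finite (by simpa using h1)
  have h2 := hb.isAlgebraic_field
  have hr : Set.range (fun _ : PUnit => y) = {y} := by
    ext z; simp [eq_comm]
  rwa [hr] at h2

/-- Every place of a function field of one variable in characteristic zero satisfies
`DCoordGenerates`. -/
theorem dCoordGenerates [CharZero K] (x : F) [Algebra.IsAlgebraic K⟮x⟯ F] (v : Place K F) :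
    v.DCoordGenerates := by
  obtain ⟨π, hπ, hd⟩ := KaehlerOrd.exists_irreducible_dCoord v
  have hord : v.ord (π : F) ≠ 0 := by
    rw [v.ord_coe_irreducible hπ]; exact one_ne_zero
  have htr : Transcendental K (π : F) := transcendental_of_ord_ne_zero v hord
  haveI := isAlgebraic_adjoin_of_transcendental (K := K) x htr
  exact ⟨by rw [hd]; exact KaehlerOrd.span_D_eq_top (π : F)⟩

end Fermat.Agent.S24.DNeZero
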