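import Mathlib
import Fermat.Prelude.Def_AlgebraicCurve_CanonicalDivisor
import Fermat.Prelude.Def_AlgebraicCurve_Repartitions

/-!
# S24, part A: basic facts on `AlgebraicCurve.Place.ord`

Elementary lemmas relating `Place.ord` with membership in the valuation subring.
-/

set_option autoImplicit false

noncomputable section

namespace Fermat.Agent.S24

open AlgebraicCurve WithZero

variable {K F : Type*} [Field K] [Field F] [Algebra K F]

/-- Places at which `y` vanishes. -/
def zerosOf (K : Type*) {F : Type*} [Field K] [Field F] [Algebra K F] (y : F) :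
    Set (Place K F) :=
  {v | 0 < v.ord y}

/-- Places at which `y` has a pole. -/
def polesOf (K : Type*) {F : Type*} [Field K] [Field F] [Algebra K F] (y : F) :
    Set (Place K F) :=
  {v | v.ord y < 0}

/-- Places over the value `c` of `x`. -/
def placesOver (x : F) (c : K) : Set (Place K F) := zerosOf K (x - algebraMap K F c)

theorem mem_zerosOf {y : F} {v : Place K F} : v ∈ zerosOf K y ↔ 0 < v.ord y := Iff.rfl

theorem mem_polesOf {y : F} {v : Place K F} : v ∈ polesOf K y ↔ v.ord y < 0 := Iff.rfl

theorem mem_placesOver {x : F} {c : K} {v : Place K F} :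
    v ∈ placesOver x c ↔ 0 < v.ord (x - algebraMap K F c) := Iff.rfl

theorem ord_nonneg_of_mem (v : Place K F) {f : F} (hf : f ∈ v.toValuationSubring) :
    0 ≤ v.ord f := by
  rcases eq_or_ne f 0 with rfl | h0
  · simp
  · have h := v.adicValuation_le_one_of_mem hf
    rcases (v.adicValuation_le_one_iff).1 h with h | h
    · exact absurd h h0
    · exact h

theorem mem_of_ord_nonneg (v : Place K F) {f : F} (hf : 0 ≤ v.ord f) :
    f ∈ v.toValuationSubring := by
  rcases eq_or_ne f 0 with rfl | h0
  · exact v.toValuationSubring.zero_mem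
  obtain ⟨π, hπ⟩ := IsDiscreteValuationRing.exists_irreducible v.toValuationSubring
  obtain ⟨u, hu⟩ := v.exists_unit_mul_zpow h0 hπ
  rw [hu]
  refine v.toValuationSubring.mul_mem _ _ (u : v.toValuationSubring).2 ?_
  obtain ⟨n, hn⟩ := Int.eq_ofNat_of_zero_le hf
  rw [hn, zpow_natCast]
  exact pow_mem π.2 n

theorem mem_iff_ord_nonneg (v : Place K F) {f : F} :
    f ∈ v.toValuationSubring ↔ 0 ≤ v.ord f :=
  ⟨fun h => ord_nonneg_of_mem v h, fun h => mem_of_ord_nonneg v h⟩

theorem notMem_iff_ord_neg (v : Place K F) {f : F} :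
    f ∉ v.toValuationSubring ↔ v.ord f < 0 := by
  constructor
  · intro h
    by_contra h'
    exact h (mem_of_ord_nonneg v (not_lt.1 h'))
  · intro h hf
    exact absurd (ord_nonneg_of_mem v hf) (not_le.2 h)

theorem ord_algebraMap (v : Place K F) (a : K) : v.ord (algebraMap K F a) = 0 := by
  rcases eq_or_ne a 0 with rfl | ha
  · simp
  have h1 := ord_nonneg_of_mem v (v.algebraMap_mem' a)
  have h2 := ord_nonneg_of_mem v (v.algebraMap_mem' a⁻¹)
  rw [map_inv₀, v.ord_inv] at h2
  omega

theorem ord_pos_iff (v : Place K F) {f : F} :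
    0 < v.ord f ↔ f⁻¹ ∉ v.toValuationSubring := by
  rw [notMem_iff_ord_neg, v.ord_inv]
  omega

theorem ord_add_ge (v : Place K F) {f g : F} (hf : f ≠ 0) (hg : g ≠ 0) (hfg : f + g ≠ 0) :
    min (v.ord f) (v.ord g) ≤ v.ord (f + g) := by
  have h : v.adicValuation (f + g) ≤ max (v.adicValuation f) (v.adicValuation g) :=
    v.adicValuation.map_add_le_max' f g
  rw [v.adicValuation_eq_exp_neg_ord hf, v.adicValuation_eq_exp_neg_ord hg,
    v.adicValuation_eq_exp_neg_ord hfg] at h
  rcases le_max_iff.1 h with h | h
  · rw [exp_le_exp] at h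
    exact (min_le_left _ _).trans (by omega)
  · rw [exp_le_exp] at h
    exact (min_le_right _ _).trans (by omega)

theorem ord_sub_ge (v : Place K F) {f g : F} (hf : f ≠ 0) (hg : g ≠ 0) (hfg : f - g ≠ 0) :
    min (v.ord f) (v.ord g) ≤ v.ord (f - g) := by
  have h := ord_add_ge v hf (neg_ne_zero.2 hg) (by rwa [← sub_eq_add_neg])
  have hneg : v.ord (-g) = v.ord g := by
    have : (-g) = (-1 : F) * g := by ring
    rw [this, v.ord_mul (by simp) hg]
    have h1 : v.ord (-1 : F) = 0 := by
      have := ord_algebraMap v (-1 : K)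
      simpa using this
    rw [h1, zero_add]
  rwa [hneg, ← sub_eq_add_neg] at h

/-- A place is determined by its valuation subring up to inclusion. -/
theorem place_eq_of_le {v w : Place K F} (h : v.toValuationSubring ≤ w.toValuationSubring) :
    v = w :=
  Place.ext (ValuationSubring.eq_of_le_of_ne_top _ h w.ne_top')

/-- Two places with the same sign pattern of `ord` agree. -/
theorem place_eq_of_ord {v w : Place K F} (h : ∀ f : F, 0 ≤ v.ord f → 0 ≤ w.ord f) : v = w := by
  refine place_eq_of_le fun f hf => ?_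
  exact mem_of_ord_nonneg w (h f (ord_nonneg_of_mem v hf))

end Fermat.Agent.S24
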