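import Mathlib
import Fermat.Agent.S24.PlaceBasic

/-!
# S24, part A1/A2: places of a function field versus primes of an integral closure,
and the fundamental identity `∑_{v : y(v) = 0} ord_v y = [F : K(y)]`.
-/

set_option autoImplicit false

noncomputable section

namespace Fermat.Agent.S24

open AlgebraicCurve WithZero IsDedekindDomain

variable {K F : Type*} [Field K] [Field F] [Algebra K F]

section Dict

variable {C : Type*} [CommRing C] [IsDedekindDomain C] [Algebra C F] [IsFractionRing C F]

/-- The place attached to a nonzero prime of a Dedekind domain `C` with fraction field `F`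
containing the constants. -/
def placeOfPrime (hK : ∀ a : K, algebraMap K F a ∈ (algebraMap C F).range)
    (P : HeightOneSpectrum C) : Place K F where
  toValuationSubring := (P.valuation F).valuationSubring
  algebraMap_mem' a := by
    obtain ⟨c, hc⟩ := hK a
    rw [← hc, Valuation.mem_valuationSubring_iff]
    exact P.valuation_le_one c
  ne_top' := by
    intro h
    obtain ⟨π, hπ⟩ := P.valuation_exists_uniformizer F
    have h1 : π⁻¹ ∈ (P.valuation F).valuationSubring := h ▸ ValuationSubring.mem_top _
    rw [Valuation.mem_valuationSubring_iff, map_inv₀, hπ, ← exp_neg, neg_neg] at h1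
    have h2 : (exp (1 : ℤ) : ℤᵐ⁰) ≤ exp 0 := by simpa using h1
    rw [exp_le_exp] at h2
    omega
  isPrincipalIdealRing' := by
    rw [← HeightOneSpectrum.valuationSubringAtPrime_eq_valuationSubring]
    have : IsNoetherianRing ↥(HeightOneSpectrum.valuationSubringAtPrime F P) := inferInstance
    exact IsPrincipalIdealRing.of_isNoetherianRing_of_isBezout

theorem placeOfPrime_toValuationSubring (hK : ∀ a : K, algebraMap K F a ∈ (algebraMap C F).range)
    (P : HeightOneSpectrum C) :
    (placeOfPrime hK P).toValuationSubring = (P.valuation F).valuationSubring := rfl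

theorem mem_placeOfPrime_iff (hK : ∀ a : K, algebraMap K F a ∈ (algebraMap C F).range)
    (P : HeightOneSpectrum C) (f : F) :
    f ∈ (placeOfPrime hK P).toValuationSubring ↔ P.valuation F f ≤ 1 :=
  Valuation.mem_valuationSubring_iff _ _

/-- The `ord` of the place attached to `P` is the `P`-adic valuation. -/
theorem valuation_eq_exp_neg_ord (hK : ∀ a : K, algebraMap K F a ∈ (algebraMap C F).range)
    (P : HeightOneSpectrum C) {f : F} (hf : f ≠ 0) :
    P.valuation F f = exp (-(placeOfPrime hK P).ord f) := by
  set v := placeOfPrime hK P with hv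
  obtain ⟨π, hπ⟩ := IsDiscreteValuationRing.exists_irreducible v.toValuationSubring
  obtain ⟨u, hu⟩ := v.exists_unit_mul_zpow hf hπ
  -- units have valuation one
  have hunit : ∀ w : v.toValuationSubringˣ, P.valuation F ((w : v.toValuationSubring) : F) = 1 := by
    intro w
    have h1 : P.valuation F ((w : v.toValuationSubring) : F) ≤ 1 :=
      (mem_placeOfPrime_iff hK P _).1 (w : v.toValuationSubring).2
    have h2 : P.valuation F (((w⁻¹ : v.toValuationSubringˣ) : v.toValuationSubring) : F) ≤ 1 :=
      (mem_placeOfPrime_iff hK P _).1 ((w⁻¹ : v.toValuationSubringˣ) : v.toValuationSubring).2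
    have h3 : ((w : v.toValuationSubring) : F) *
        (((w⁻¹ : v.toValuationSubringˣ) : v.toValuationSubring) : F) = 1 := by
      have h := congrArg (Subtype.val) (w.mul_inv)
      simpa only [MulMemClass.coe_mul, OneMemClass.coe_one] using h
    have h4 := congrArg (P.valuation F) h3
    rw [map_mul, map_one] at h4
    refine le_antisymm h1 ?_
    by_contra hlt
    rw [not_le] at hlt
    have : P.valuation F ((w : v.toValuationSubring) : F) *
        P.valuation F (((w⁻¹ : v.toValuationSubringˣ) : v.toValuationSubring) : F) < 1 := by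
      calc _ ≤ P.valuation F ((w : v.toValuationSubring) : F) * 1 := by gcongr
        _ = _ := mul_one _
        _ < 1 := hlt
    exact absurd h4 (ne_of_lt this)
  -- the uniformizer has valuation exp (-1)
  have hπval : P.valuation F (π : F) = exp (-1 : ℤ) := by
    have hπ0 : (π : F) ≠ 0 := by
      simpa [ne_eq, ZeroMemClass.coe_eq_zero] using hπ.ne_zero
    have h1 : P.valuation F (π : F) ≤ 1 := (mem_placeOfPrime_iff hK P _).1 π.2
    have hne1 : P.valuation F (π : F) ≠ 1 := by
      intro h
      have hinv : (π : F)⁻¹ ∈ v.toValuationSubring := by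
        rw [mem_placeOfPrime_iff, map_inv₀, h, inv_one]
      apply hπ.not_isUnit
      refine IsUnit.of_mul_eq_one ⟨(π : F)⁻¹, hinv⟩ ?_
      ext
      simp [hπ0]
    obtain ⟨ϖ, hϖ⟩ := P.valuation_exists_uniformizer F
    have hϖmem : ϖ ∈ v.toValuationSubring := by
      rw [mem_placeOfPrime_iff, hϖ]
      exact (exp_le_exp.2 (by norm_num : (-1 : ℤ) ≤ 0)).trans_eq exp_zero
    have hϖnu : ¬ IsUnit (⟨ϖ, hϖmem⟩ : v.toValuationSubring) := by
      rintro ⟨w, hw⟩
      have := hunit w
      rw [hw] at this
      simp only at this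
      rw [hϖ] at this
      have h' : (exp (-1 : ℤ) : ℤᵐ⁰) = exp 0 := by simpa using this
      rw [exp_inj] at h'
      omega
    have hmem : (⟨ϖ, hϖmem⟩ : v.toValuationSubring) ∈
        IsLocalRing.maximalIdeal v.toValuationSubring := hϖnu
    rw [hπ.maximalIdeal_eq, Ideal.mem_span_singleton] at hmem
    obtain ⟨a, ha⟩ := hmem
    have ha' : ϖ = (π : F) * (a : F) := by
      exact congrArg Subtype.val ha
    have hle : (exp (-1 : ℤ) : ℤᵐ⁰) ≤ P.valuation F (π : F) := by
      rw [← hϖ, ha', map_mul]
      calc _ ≤ P.valuation F (π : F) * 1 := by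
            gcongr
            exact (mem_placeOfPrime_iff hK P _).1 a.2
        _ = _ := mul_one _
    have hπv0 : P.valuation F (π : F) ≠ 0 := (Valuation.ne_zero_iff _).2 hπ0
    obtain ⟨m, hm⟩ : ∃ m : ℤ, P.valuation F (π : F) = exp m := ⟨log _, (exp_log hπv0).symm⟩
    rw [hm] at hle h1 hne1 ⊢
    rw [exp_le_exp] at hle
    have h1' : (exp m : ℤᵐ⁰) ≤ exp 0 := by simpa using h1
    rw [exp_le_exp] at h1'
    have : m ≠ 0 := by
      rintro rfl
      exact hne1 exp_zero
    congr 1
    omega
  rw [hu, map_mul, map_zpow₀, hunit u, one_mul, v.ord_unit_smul_zpow u hπ, hπval, ← exp_zsmul]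
  simp

end Dict

/-- Elements integral over a ring mapping into a valuation subring lie in it. -/
theorem mem_valuationSubring_of_isIntegral {A : Type*} [CommRing A] [Algebra A F]
    (V : ValuationSubring F) (hA : ∀ x : A, algebraMap A F x ∈ V) {z : F}
    (hz : IsIntegral A z) : z ∈ V := by
  obtain ⟨q, hq, hz⟩ := hz
  let φ : A →+* V := (algebraMap A F).codRestrict V.toSubring hA
  have hφ : (algebraMap V F).comp φ = algebraMap A F := by
    ext x
    rfl
  have hzV : IsIntegral V z := by
    refine ⟨q.map φ, hq.map φ, ?_⟩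
    rw [Polynomial.eval₂_map, hφ]
    exact hz
  obtain ⟨y, rfl⟩ := IsIntegrallyClosed.isIntegral_iff.1 hzV
  exact y.2

section Fund

variable [IsAlgClosed K]
variable {A : Type*} [CommRing A] [IsDedekindDomain A] [Algebra K A] [Algebra A F]
  [IsScalarTower K A F]

omit [IsAlgClosed K] [IsDedekindDomain A] [Algebra A F] [IsScalarTower K A F] in
/-- If `A` is generated over `K` by `a`, then `A / (a) = K`. -/
theorem surjective_algebraMap_quotient_span (a : A)
    (hgen : Algebra.adjoin K ({a} : Set A) = ⊤) :
    Function.Surjective (algebraMap K (A ⧸ Ideal.span {a})) := by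
  intro x
  obtain ⟨x, rfl⟩ := Ideal.Quotient.mk_surjective x
  have hx : x ∈ Algebra.adjoin K ({a} : Set A) := hgen ▸ Algebra.mem_top
  induction hx using Algebra.adjoin_induction with
  | mem x hx =>
    refine ⟨0, ?_⟩
    rw [map_zero, eq_comm, Ideal.Quotient.eq_zero_iff_mem, Set.mem_singleton_iff.1 hx]
    exact Ideal.mem_span_singleton_self a
  | algebraMap r => exact ⟨r, rfl⟩
  | add x y _ _ hx hy =>
    obtain ⟨c, hc⟩ := hx
    obtain ⟨d, hd⟩ := hy
    exact ⟨c + d, by rw [map_add, hc, hd, map_add]⟩
  | mul x y _ _ hx hy =>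
    obtain ⟨c, hc⟩ := hx
    obtain ⟨d, hd⟩ := hy
    exact ⟨c * d, by rw [map_mul, hc, hd, map_mul]⟩

omit [IsDedekindDomain A] [Algebra A F] [IsScalarTower K A F] in
/-- Residue degree one over a prime with residue field `K`. -/
theorem finrank_quotient_eq_one {C : Type*} [CommRing C] [Algebra A C] [Module.Finite A C]
    (p : Ideal A) [p.IsMaximal]
    (hres : Function.Surjective (algebraMap K (A ⧸ p)))
    (P : Ideal C) [P.IsMaximal] [P.LiesOver p] :
    Module.finrank (A ⧸ p) (C ⧸ P) = 1 := by
  let _ : Field (A ⧸ p) := Ideal.Quotient.field p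
  let _ : Field (C ⧸ P) := Ideal.Quotient.field P
  let algK : Algebra K (C ⧸ P) :=
    ((algebraMap (A ⧸ p) (C ⧸ P)).comp (algebraMap K (A ⧸ p))).toAlgebra
  have : IsScalarTower K (A ⧸ p) (C ⧸ P) := IsScalarTower.of_algebraMap_eq (fun _ => rfl)
  have : Algebra.IsIntegral K (A ⧸ p) := Algebra.isIntegral_of_surjective hres
  have : Algebra.IsIntegral (A ⧸ p) (C ⧸ P) := Algebra.IsIntegral.of_finite _ _
  have : Algebra.IsIntegral K (C ⧸ P) := Algebra.IsIntegral.trans (A ⧸ p)
  have hbij : Function.Bijective (algebraMap K (C ⧸ P)) :=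
    IsAlgClosed.algebraMap_bijective_of_isIntegral
  refine finrank_eq_one_iff_of_nonzero' (1 : C ⧸ P) one_ne_zero |>.2 ?_
  intro w
  obtain ⟨c, hc⟩ := hbij.2 w
  refine ⟨algebraMap K (A ⧸ p) c, ?_⟩
  rw [Algebra.smul_def, mul_one]
  exact hc

/-- **Fundamental identity.**  Let `A` be a Dedekind `K`-algebra generated by one element `a`
with `(a)` maximal, `C` a finite torsion-free Dedekind `A`-algebra with fraction field `F`.
Then the places of `F/K` at which `a` vanishes are finite in number and their orders add up to
`[F : Frac A]`. -/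
theorem exists_finite_sum_ord_eq_finrank
    (C : Type*) [CommRing C] [IsDedekindDomain C] [Algebra C F] [IsFractionRing C F]
    [Algebra A C] [IsScalarTower A C F] [Module.Finite A C] [Module.IsTorsionFree A C]
    (K' : Type*) [Field K'] [Algebra A K'] [IsFractionRing A K'] [Algebra K' F]
    [IsScalarTower A K' F]
    (a : A) (ha0 : a ≠ 0) [hmax : (Ideal.span {a}).IsMaximal]
    (hgen : Algebra.adjoin K ({a} : Set A) = ⊤) :
    ∃ hfin : (zerosOf K (algebraMap A F a)).Finite,
      ∑ v ∈ hfin.toFinset, v.ord (algebraMap A F a) = (Module.finrank K' F : ℤ) := by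
  classical
  set p : Ideal A := Ideal.span {a} with hp
  have hp0 : p ≠ ⊥ := by
    rw [hp, Ne, Ideal.span_singleton_eq_bot]
    exact ha0
  have hK : ∀ c : K, algebraMap K F c ∈ (algebraMap C F).range := fun c =>
    ⟨algebraMap A C (algebraMap K A c), by
      rw [← IsScalarTower.algebraMap_apply A C F, ← IsScalarTower.algebraMap_apply K A F]⟩
  have hres : Function.Surjective (algebraMap K (A ⧸ p)) :=
    surjective_algebraMap_quotient_span a hgen
  have hinjAC : Function.Injective (algebraMap A C) := FaithfulSMul.algebraMap_injective A C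
  have hinjCF : Function.Injective (algebraMap C F) := IsFractionRing.injective C F
  have haF : algebraMap A F a = algebraMap C F (algebraMap A C a) :=
    IsScalarTower.algebraMap_apply A C F a
  have haF0 : algebraMap A F a ≠ 0 := by
    rw [haF]
    exact fun h => ha0 (hinjAC (hinjCF (by rw [h, map_zero, map_zero])))
  have hsum := Ideal.sum_ramification_inertia C K' F hp0
  set S := IsDedekindDomain.primesOverFinset p C with hS
  have hmemS : ∀ P : Ideal C, P ∈ S ↔ P ∈ p.primesOver C :=
    fun P => IsDedekindDomain.mem_primesOverFinset_iff hp0 C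
  have hne : ∀ P : {P // P ∈ S}, P.1 ≠ ⊥ := fun P => by
    haveI := ((hmemS P.1).1 P.2).2
    exact Ideal.ne_bot_of_liesOver_of_ne_bot hp0 P.1
  let hs : {P // P ∈ S} → HeightOneSpectrum C := fun P =>
    ⟨P.1, ((hmemS P.1).1 P.2).1, hne P⟩
  let Φ : {P // P ∈ S} → Place K F := fun P => placeOfPrime hK (hs P)
  let vp : HeightOneSpectrum A := ⟨p, hmax.isPrime, hp0⟩
  have hvp : vp.intValuation a = exp (-1 : ℤ) := vp.intValuation_singleton ha0 rfl
  -- Claim 1: order of `a` = ramification index
  have hord : ∀ P : {P // P ∈ S},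
      (Φ P).ord (algebraMap A F a) = (p.ramificationIdx' P.1 : ℤ) := by
    intro P
    haveI : (hs P).asIdeal.LiesOver vp.asIdeal := ((hmemS P.1).1 P.2).2
    have h1 := HeightOneSpectrum.intValuation_liesOver vp (hs P) a
    have h2 := valuation_eq_exp_neg_ord hK (hs P) haF0
    have h3 : (hs P).valuation F (algebraMap A F a) = exp (-(p.ramificationIdx' P.1 : ℤ)) := by
      rw [haF, (hs P).valuation_of_algebraMap (K := F) (algebraMap A C a), ← h1, hvp,
        ← exp_nsmul]
      change exp ((p.ramificationIdx' P.1) • (-1 : ℤ)) = _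
      simp
    rw [h3, exp_inj] at h2
    have h2' : (Φ P).ord (algebraMap A F a) = (p.ramificationIdx' P.1 : ℤ) := by
      have : (placeOfPrime hK (hs P)).ord (algebraMap A F a) = (Φ P).ord (algebraMap A F a) := rfl
      omega
    exact h2'
  -- inertia degrees are one
  have hdeg : ∀ P : {P // P ∈ S}, p.inertiaDeg' P.1 = 1 := by
    intro P
    haveI : P.1.LiesOver p := ((hmemS P.1).1 P.2).2
    haveI : P.1.IsMaximal := ((hmemS P.1).1 P.2).1.isMaximal (hne P)
    rw [Ideal.inertiaDeg'_algebraMap p P.1]
    exact finrank_quotient_eq_one p hres P.1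
  -- Claim 2: injectivity
  have hinj : Function.Injective Φ := by
    intro P Q hPQ
    apply Subtype.ext
    ext c
    by_cases hc : c = 0
    · simp [hc]
    have hcF : algebraMap C F c ≠ 0 := fun h => hc (hinjCF (by rw [h, map_zero]))
    have key : ∀ R : {P // P ∈ S}, c ∈ R.1 ↔ 0 < (Φ R).ord (algebraMap C F c) := by
      intro R
      have h := (hs R).valuation_lt_one_iff_mem (K := F) c
      have h2 := valuation_eq_exp_neg_ord hK (hs R) hcF
      rw [h2, ← exp_zero, exp_lt_exp] at h
      rw [← h]
      have : (placeOfPrime hK (hs R)).ord (algebraMap C F c) = (Φ R).ord (algebraMap C F c) := rfl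
      omega
    rw [key P, key Q, hPQ]
  -- Claim 3: surjectivity onto the zeros of `a`
  have hsurj : ∀ v : Place K F, 0 < v.ord (algebraMap A F a) → ∃ P, Φ P = v := by
    intro v hv
    have hA : ∀ x : A, algebraMap A F x ∈ v.toValuationSubring := by
      intro x
      have hx : x ∈ Algebra.adjoin K ({a} : Set A) := hgen ▸ Algebra.mem_top
      induction hx using Algebra.adjoin_induction with
      | mem x hx =>
        rw [Set.mem_singleton_iff.1 hx]
        exact mem_of_ord_nonneg v hv.le
      | algebraMap r =>
        rw [← IsScalarTower.algebraMap_apply K A F]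
        exact v.algebraMap_mem' r
      | add x y _ _ hx hy =>
        rw [map_add]
        exact add_mem hx hy
      | mul x y _ _ hx hy =>
        rw [map_mul]
        exact mul_mem hx hy
    have hC : ∀ c : C, algebraMap C F c ∈ v.toValuationSubring := by
      intro c
      have hint : IsIntegral A c := IsIntegral.of_finite A c
      have hint' : IsIntegral A (algebraMap C F c) := hint.map (IsScalarTower.toAlgHom A C F)
      exact mem_valuationSubring_of_isIntegral v.toValuationSubring hA hint'
    let φ : C →+* v.toValuationSubring :=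
      (algebraMap C F).codRestrict v.toValuationSubring.toSubring hC
    have hφ : ∀ c : C, ((φ c : v.toValuationSubring) : F) = algebraMap C F c := fun c => rfl
    let P : Ideal C := (IsLocalRing.maximalIdeal v.toValuationSubring).comap φ
    have hPprime : P.IsPrime := Ideal.comap_isPrime φ _
    have hmemP : ∀ c : C, c ∈ P ↔ 0 < v.ord (algebraMap C F c) ∨ c = 0 := by
      intro c
      show φ c ∈ IsLocalRing.maximalIdeal v.toValuationSubring ↔ _
      rw [IsLocalRing.mem_maximalIdeal, mem_nonunits_iff]
      by_cases hc : c = 0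
      · simp [hc]
      have hcF : algebraMap C F c ≠ 0 := fun h => hc (hinjCF (by rw [h, map_zero]))
      simp only [hc, or_false]
      constructor
      · intro hnu
        by_contra hle
        rw [not_lt] at hle
        have h0 : v.ord (algebraMap C F c) = 0 := le_antisymm hle (ord_nonneg_of_mem v (hC c))
        apply hnu
        have hinv : (algebraMap C F c)⁻¹ ∈ v.toValuationSubring := by
          apply mem_of_ord_nonneg
          rw [v.ord_inv, h0, neg_zero]
        refine IsUnit.of_mul_eq_one ⟨(algebraMap C F c)⁻¹, hinv⟩ ?_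
        ext
        simp [hφ, hcF]
      · rintro hpos ⟨w, hw⟩
        have h0 := v.ord_coe_unit w
        rw [hw, hφ] at h0
        omega
    have haP : algebraMap A C a ∈ P := by
      rw [hmemP, ← haF]
      exact Or.inl hv
    have hPlies : P.LiesOver p := by
      constructor
      have hle : p ≤ P.under A := by
        rw [hp, Ideal.span_le, Set.singleton_subset_iff]
        exact haP
      have hne_top : P.under A ≠ ⊤ := (Ideal.IsPrime.under A P).ne_top
      exact (hmax.eq_of_le hne_top hle)
    have hPS : P ∈ S := (hmemS P).2 ⟨hPprime, hPlies⟩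
    refine ⟨⟨P, hPS⟩, ?_⟩
    apply place_eq_of_le
    intro f hf
    rw [mem_placeOfPrime_iff] at hf
    obtain ⟨n, d, hnd⟩ := (hs ⟨P, hPS⟩).exists_primeCompl_mul_eq_of_integer f hf
    have hd : (d : C) ∉ P := d.2
    have hd0 : algebraMap C F (d : C) ≠ 0 := by
      intro h
      apply hd
      rw [hmemP]
      exact Or.inr (hinjCF (by rw [h, map_zero]))
    have hdinv : (algebraMap C F (d : C))⁻¹ ∈ v.toValuationSubring := by
      apply mem_of_ord_nonneg
      rw [v.ord_inv]
      have h1 := ord_nonneg_of_mem v (hC (d : C))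
      have h2 : ¬ (0 < v.ord (algebraMap C F (d : C))) := fun h => hd ((hmemP _).2 (Or.inl h))
      omega
    have hf' : f = algebraMap C F n * (algebraMap C F (d : C))⁻¹ := by
      rw [← hnd]
      field_simp
    rw [hf']
    exact mul_mem (hC n) hdinv
  have himg : zerosOf K (algebraMap A F a) = Set.range Φ := by
    ext v
    constructor
    · intro hv
      exact hsurj v hv
    · rintro ⟨P, rfl⟩
      show 0 < (Φ P).ord (algebraMap A F a)
      rw [hord]
      haveI : P.1.LiesOver p := ((hmemS P.1).1 P.2).2
      haveI : P.1.IsPrime := ((hmemS P.1).1 P.2).1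
      have := Ideal.IsDedekindDomain.ramificationIdx'_ne_zero_of_liesOver P.1 hp0 (p := p)
      positivity
  have hfin : (zerosOf K (algebraMap A F a)).Finite := by
    rw [himg]
    exact Set.finite_range Φ
  refine ⟨hfin, ?_⟩
  have htof : hfin.toFinset = Finset.univ.image Φ := by
    ext v
    simp [himg]
  rw [htof, Finset.sum_image (fun x _ y _ h => hinj h), ← hsum]
  push_cast
  rw [← Finset.sum_coe_sort S]
  refine Finset.sum_congr rfl fun P _ => ?_
  rw [hord P, hdeg P]
  simp

end Fund

section Concrete

open IntermediateField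
open scoped IntermediateField.algebraAdjoinAdjoin

/-- **Fundamental identity** for a transcendental element `y` of a function field `F/K`:
the zeros of `y` are finite in number and their orders add up to `[F : K(y)]`. -/
theorem zerosOf_finite_sum [IsAlgClosed K] [CharZero K] (y : F) (hy : Transcendental K y)
    [FiniteDimensional K⟮y⟯ F] :
    ∃ hfin : (zerosOf K y).Finite,
      ∑ v ∈ hfin.toFinset, v.ord y = (Module.finrank K⟮y⟯ F : ℤ) := by
  let e := Polynomial.algEquivOfTranscendental K y hy
  haveI : IsPrincipalIdealRing (Algebra.adjoin K {y}) :=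
    IsPrincipalIdealRing.of_surjective e.toRingEquiv e.surjective
  haveI : CharZero K⟮y⟯ := charZero_of_injective_algebraMap (algebraMap K K⟮y⟯).injective
  haveI : IsDedekindDomain (integralClosure (Algebra.adjoin K {y}) F) :=
    integralClosure.isDedekindDomain (Algebra.adjoin K {y}) K⟮y⟯ F
  haveI : IsFractionRing (integralClosure (Algebra.adjoin K {y}) F) F :=
    integralClosure.isFractionRing_of_finite_extension K⟮y⟯ F
  haveI : Module.Finite (Algebra.adjoin K {y}) (integralClosure (Algebra.adjoin K {y}) F) :=
    IsIntegralClosure.finite (Algebra.adjoin K {y}) K⟮y⟯ F _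
  let a : Algebra.adjoin K {y} := ⟨y, Algebra.self_mem_adjoin_singleton K y⟩
  have ha : e Polynomial.X = a := by
    apply Subtype.ext
    simp [e, a]
  have ha0 : a ≠ 0 := by
    intro h
    have : y = 0 := congrArg Subtype.val h
    exact hy (this ▸ isAlgebraic_zero)
  have hirr : Irreducible a := by
    rw [← ha]
    exact (MulEquiv.irreducible_iff e.toMulEquiv).2 Polynomial.irreducible_X
  haveI hmax : (Ideal.span {a}).IsMaximal := PrincipalIdealRing.isMaximal_of_irreducible hirr
  have hgen : Algebra.adjoin K ({a} : Set (Algebra.adjoin K {y})) = ⊤ := by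
    have h := Algebra.adjoin_adjoin_coe_preimage (R := K) (s := ({y} : Set F))
    convert h using 2
    ext x
    simp [a, Subtype.ext_iff]
  exact exists_finite_sum_ord_eq_finrank (K := K) (F := F)
    (integralClosure (Algebra.adjoin K {y}) F) K⟮y⟯ a ha0 hgen

end Concrete

end Fermat.Agent.S24
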