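import Mathlib
import Fermat.Agent.S24.FundId
import Fermat.Agent.S24.DNeZero

/-!
# S24, part A1/A2 (continued): values of a function at a place, residue degree one,
zeros and poles, principal divisors have degree zero.
-/

set_option autoImplicit false

noncomputable section

namespace Fermat.Agent.S24

open AlgebraicCurve WithZero IntermediateField Polynomial

variable {K F : Type*} [Field K] [Field F] [Algebra K F]

/-! ### Transfer between generators -/

theorem adjoin_inv_eq (y : F) : K⟮y⁻¹⟯ = K⟮y⟯ := by
  apply le_antisymm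
  · rw [adjoin_simple_le_iff]
    exact inv_mem (mem_adjoin_simple_self K y)
  · rw [adjoin_simple_le_iff]
    have := inv_mem (mem_adjoin_simple_self K y⁻¹)
    rwa [inv_inv] at this

theorem adjoin_sub_algebraMap_eq (y : F) (c : K) : K⟮y - algebraMap K F c⟯ = K⟮y⟯ := by
  apply le_antisymm
  · rw [adjoin_simple_le_iff]
    exact sub_mem (mem_adjoin_simple_self K y) (IntermediateField.algebraMap_mem _ c)
  · rw [adjoin_simple_le_iff]
    have := add_mem (mem_adjoin_simple_self K (y - algebraMap K F c))
      (IntermediateField.algebraMap_mem K⟮y - algebraMap K F c⟯ c)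
    rwa [sub_add_cancel] at this

theorem transcendental_inv {y : F} (hy : Transcendental K y) : Transcendental K y⁻¹ := by
  intro h
  exact hy (by simpa using h.inv)

theorem transcendental_sub_algebraMap {y : F} (hy : Transcendental K y) (c : K) :
    Transcendental K (y - algebraMap K F c) := by
  intro h
  apply hy
  have := h.add (isAlgebraic_algebraMap (R := K) (A := F) c)
  rwa [sub_add_cancel] at this

theorem finrank_adjoin_congr {y z : F} (h : K⟮y⟯ = K⟮z⟯) :
    Module.finrank K⟮y⟯ F = Module.finrank K⟮z⟯ F :=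
  congrArg (fun E : IntermediateField K F => Module.finrank E F) h

theorem finiteDimensional_adjoin_congr {y z : F} (h : K⟮y⟯ = K⟮z⟯) [hfd : FiniteDimensional K⟮y⟯ F] :
    FiniteDimensional K⟮z⟯ F :=
  h ▸ hfd

/-- If `F` is finite over `K(x)` then it is finite over `K(z)` for every transcendental `z`. -/
theorem finiteDimensional_of_transcendental (x : F) [FiniteDimensional K⟮x⟯ F] {z : F}
    (hz : Transcendental K z) : FiniteDimensional K⟮z⟯ F := by
  haveI : Algebra.IsAlgebraic K⟮x⟯ F := Algebra.IsAlgebraic.of_finite _ _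
  haveI halg : Algebra.IsAlgebraic K⟮z⟯ F := DNeZero.isAlgebraic_adjoin_of_transcendental x hz
  obtain ⟨S, hS⟩ := (Module.Finite.fg_top : (⊤ : Submodule K⟮x⟯ F).FG)
  classical
  let T : Set F := insert x (S : Set F)
  haveI : Finite T := Set.Finite.to_subtype ((Finset.finite_toSet S).insert x)
  have hfin : FiniteDimensional K⟮z⟯ (IntermediateField.adjoin K⟮z⟯ T) :=
    IntermediateField.finiteDimensional_adjoin
      (fun t _ => (Algebra.IsAlgebraic.isAlgebraic t).isIntegral)
  have htop : IntermediateField.adjoin K⟮z⟯ T = ⊤ := by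
    rw [eq_top_iff]
    intro f hfT
    clear hfT
    have hx : K⟮x⟯ ≤ (IntermediateField.adjoin K⟮z⟯ T).restrictScalars K := by
      rw [adjoin_simple_le_iff, IntermediateField.mem_restrictScalars]
      exact IntermediateField.subset_adjoin _ _ (Set.mem_insert x _)
    have hf : f ∈ Submodule.span K⟮x⟯ (S : Set F) := hS ▸ Submodule.mem_top
    induction hf using Submodule.span_induction with
    | mem s hs => exact IntermediateField.subset_adjoin _ _ (Set.mem_insert_of_mem x hs)
    | zero => exact zero_mem _
    | add a b _ _ ha hb => exact add_mem ha hb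
    | smul c a _ ha =>
      rw [Algebra.smul_def]
      exact mul_mem (hx c.2) ha
  rw [htop] at hfin
  exact Module.Finite.equiv (IntermediateField.topEquiv (F := K⟮z⟯) (E := F)).toLinearEquiv

/-! ### Values at a place -/

/-- If `F` is algebraic over `K(x)`, every place is either a pole of `x` or a zero of `x - c`
for some constant `c`. -/
theorem exists_value_of_isAlgebraic [IsAlgClosed K] (x : F) [Algebra.IsAlgebraic K⟮x⟯ F]
    (v : Place K F) : v.ord x < 0 ∨ ∃ c : K, 0 < v.ord (x - algebraMap K F c) := by
  by_contra hcon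
  rw [not_or, not_lt, not_exists] at hcon
  obtain ⟨hx0, hc⟩ := hcon
  replace hc : ∀ c : K, v.ord (x - algebraMap K F c) ≤ 0 := fun c => not_lt.1 (hc c)
  have hxmem : x ∈ v.toValuationSubring := mem_of_ord_nonneg v hx0
  have hinv : ∀ c : K, (x - algebraMap K F c)⁻¹ ∈ v.toValuationSubring := fun c =>
    mem_of_ord_nonneg v (by rw [v.ord_inv]; have := hc c; omega)
  have hpoly : ∀ p : K[X], aeval x p ∈ v.toValuationSubring := by
    intro p
    induction p using Polynomial.induction_on with
    | C a => rw [aeval_C]; exact v.algebraMap_mem' a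
    | add p q hp hq => rw [map_add]; exact add_mem hp hq
    | monomial n a h =>
      rw [map_mul, aeval_C, map_pow, aeval_X]
      exact mul_mem (v.algebraMap_mem' a) (pow_mem hxmem _)
  have hpolyinv : ∀ n : ℕ, ∀ p : K[X], p.natDegree ≤ n → (aeval x p)⁻¹ ∈ v.toValuationSubring := by
    intro n
    induction n with
    | zero =>
      intro p hp
      rw [Polynomial.eq_C_of_natDegree_le_zero hp, aeval_C, ← map_inv₀]
      exact v.algebraMap_mem' _
    | succ n ih =>
      intro p hp
      by_cases hd : p.natDegree ≤ n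
      · exact ih p hd
      have hdeg : p.degree ≠ 0 := by
        intro h
        have h' := Polynomial.natDegree_eq_zero_iff_degree_le_zero.2 (le_of_eq h)
        omega
      obtain ⟨r, hr⟩ := IsAlgClosed.exists_root p hdeg
      obtain ⟨q, hq⟩ := Polynomial.dvd_iff_isRoot.2 hr
      have hp0 : p ≠ 0 := by
        rintro rfl
        simp at hd
      have hq0 : q ≠ 0 := by
        rintro rfl
        simp at hq
        exact hp0 hq
      have hqdeg : q.natDegree ≤ n := by
        have := congrArg Polynomial.natDegree hq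
        rw [Polynomial.natDegree_mul (Polynomial.X_sub_C_ne_zero r) hq0,
          Polynomial.natDegree_X_sub_C] at this
        omega
      rw [hq, map_mul, mul_inv]
      refine mul_mem ?_ (ih q hqdeg)
      simpa using hinv r
  have hKx : ∀ z : K⟮x⟯, (z : F) ∈ v.toValuationSubring := by
    intro z
    obtain ⟨r, s, hrs⟩ := (IntermediateField.mem_adjoin_simple_iff K (z : F)).1 z.2
    rw [hrs, div_eq_mul_inv]
    exact mul_mem (hpoly r) (hpolyinv _ s le_rfl)
  apply v.ne_top'
  rw [eq_top_iff]
  intro f _
  have hint : IsIntegral K⟮x⟯ f := (Algebra.IsAlgebraic.isAlgebraic f).isIntegral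
  exact mem_valuationSubring_of_isIntegral v.toValuationSubring hKx hint

/-- **A1**: every place is a pole of `x` or lies over a value `c ∈ K`. -/
theorem exists_value [IsAlgClosed K] (x : F) (_hx : Transcendental K x) [FiniteDimensional K⟮x⟯ F]
    (v : Place K F) : v ∈ polesOf K x ∨ ∃ c : K, v ∈ placesOver x c := by
  haveI : Algebra.IsAlgebraic K⟮x⟯ F := Algebra.IsAlgebraic.of_finite _ _
  exact exists_value_of_isAlgebraic x v

/-- The residue field of every place is `K`. -/
theorem residueTrivial [IsAlgClosed K] (x : F) [Algebra.IsAlgebraic K⟮x⟯ F] (v : Place K F)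
    (a : v.toValuationSubring) :
    ∃ c : K, a - algebraMap K v.toValuationSubring c ∈
      IsLocalRing.maximalIdeal v.toValuationSubring := by
  by_cases halg : IsAlgebraic K (a : F)
  · have hint : IsIntegral K (a : F) := halg.isIntegral
    have hdeg := IsAlgClosed.degree_eq_one_of_irreducible K (minpoly.irreducible hint)
    obtain ⟨c, hc⟩ := minpoly.mem_range_of_degree_eq_one K (a : F) hdeg
    refine ⟨c, ?_⟩
    have : a - algebraMap K v.toValuationSubring c = 0 := by
      apply Subtype.ext
      simp [hc]
    rw [this]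
    exact zero_mem _
  · have htr : Transcendental K (a : F) := halg
    haveI := DNeZero.isAlgebraic_adjoin_of_transcendental (K := K) x htr
    rcases exists_value_of_isAlgebraic (a : F) v with h | ⟨c, hc⟩
    · exact absurd (ord_nonneg_of_mem v a.2) (not_le.2 h)
    · refine ⟨c, ?_⟩
      rw [IsLocalRing.mem_maximalIdeal, mem_nonunits_iff]
      rintro ⟨w, hw⟩
      have h0 := v.ord_coe_unit w
      rw [hw] at h0
      have : ((a - algebraMap K v.toValuationSubring c : v.toValuationSubring) : F)
          = (a : F) - algebraMap K F c := by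
        simp
      rw [this] at h0
      omega

/-- **A1**: every place has degree one. -/
theorem deg_eq_one_of_isAlgebraic [IsAlgClosed K] (x : F) [Algebra.IsAlgebraic K⟮x⟯ F]
    (v : Place K F) : v.deg = 1 := by
  show Module.finrank K v.ResidueField = 1
  refine (finrank_eq_one_iff_of_nonzero' (1 : v.ResidueField) one_ne_zero).2 ?_
  intro w
  obtain ⟨a, rfl⟩ := IsLocalRing.residue_surjective w
  obtain ⟨c, hc⟩ := residueTrivial x v a
  refine ⟨c, ?_⟩
  rw [Algebra.smul_def, mul_one]
  have h1 : IsLocalRing.residue v.toValuationSubring (a - algebraMap K v.toValuationSubring c)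
      = 0 := (IsLocalRing.residue_eq_zero_iff _).2 hc
  rw [map_sub, sub_eq_zero] at h1
  rw [h1]
  rfl

theorem deg_eq_one [IsAlgClosed K] (x : F) (_hx : Transcendental K x) [FiniteDimensional K⟮x⟯ F]
    (v : Place K F) : v.deg = 1 := by
  haveI : Algebra.IsAlgebraic K⟮x⟯ F := Algebra.IsAlgebraic.of_finite _ _
  exact deg_eq_one_of_isAlgebraic x v

/-! ### Zeros, poles, principal divisors -/

/-- **A2** for `y = x - c`. -/
theorem placesOver_finite_sum [IsAlgClosed K] [CharZero K] (x : F) (hx : Transcendental K x)
    [FiniteDimensional K⟮x⟯ F] (c : K) :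
    ∃ hfin : (placesOver x c).Finite,
      ∑ v ∈ hfin.toFinset, v.ord (x - algebraMap K F c) = (Module.finrank K⟮x⟯ F : ℤ) := by
  haveI : FiniteDimensional K⟮x - algebraMap K F c⟯ F :=
    finiteDimensional_adjoin_congr (adjoin_sub_algebraMap_eq x c).symm
  have h := zerosOf_finite_sum (x - algebraMap K F c) (transcendental_sub_algebraMap hx c)
  rw [finrank_adjoin_congr (adjoin_sub_algebraMap_eq x c)] at h
  exact h

/-- **A2** for `y = x⁻¹`. -/
theorem polesOf_finite_sum [IsAlgClosed K] [CharZero K] (x : F) (hx : Transcendental K x)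
    [FiniteDimensional K⟮x⟯ F] :
    ∃ hfin : (polesOf K x).Finite,
      ∑ v ∈ hfin.toFinset, (-v.ord x) = (Module.finrank K⟮x⟯ F : ℤ) := by
  haveI : FiniteDimensional K⟮x⁻¹⟯ F := finiteDimensional_adjoin_congr (adjoin_inv_eq x).symm
  obtain ⟨hfin, h⟩ := zerosOf_finite_sum x⁻¹ (transcendental_inv hx)
  rw [finrank_adjoin_congr (adjoin_inv_eq x)] at h
  have hset : zerosOf K x⁻¹ = polesOf K x := by
    ext v
    simp only [mem_zerosOf, mem_polesOf, v.ord_inv]
    omega
  have hfin' : (polesOf K x).Finite := hset ▸ hfin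
  refine ⟨hfin', ?_⟩
  rw [← h]
  have : hfin'.toFinset = hfin.toFinset := by
    ext v
    simp [hset]
  rw [this]
  exact Finset.sum_congr rfl fun v _ => (v.ord_inv x).symm

/-- **A2**: principal divisors have degree zero. -/
theorem sum_ord_eq_zero [IsAlgClosed K] [CharZero K] (x : F) (_hx : Transcendental K x)
    [FiniteDimensional K⟮x⟯ F] (f : F) (_hf : f ≠ 0) (S : Finset (Place K F))
    (hS : ∀ v : Place K F, v.ord f ≠ 0 → v ∈ S) : ∑ v ∈ S, v.ord f = 0 := by
  classical
  by_cases halg : IsAlgebraic K f
  · exact Finset.sum_eq_zero fun v _ => DNeZero.ord_eq_zero_of_isAlgebraic v halg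
  have htr : Transcendental K f := halg
  haveI : FiniteDimensional K⟮f⟯ F := finiteDimensional_of_transcendental x htr
  obtain ⟨hz, hzs⟩ := zerosOf_finite_sum f htr
  obtain ⟨hp, hps⟩ := polesOf_finite_sum f htr
  have h1 : ∑ v ∈ S, v.ord f = ∑ v ∈ S.filter (fun v => 0 < v.ord f), v.ord f
      + ∑ v ∈ S.filter (fun v => ¬ 0 < v.ord f), v.ord f :=
    (Finset.sum_filter_add_sum_filter_not S _ _).symm
  have h2 : S.filter (fun v => 0 < v.ord f) = hz.toFinset := by
    ext v
    simp only [Finset.mem_filter, Set.Finite.mem_toFinset, mem_zerosOf]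
    exact ⟨fun h => h.2, fun h => ⟨hS v (ne_of_gt h), h⟩⟩
  have h3 : ∑ v ∈ S.filter (fun v => ¬ 0 < v.ord f), v.ord f
      = ∑ v ∈ hp.toFinset, v.ord f := by
    symm
    apply Finset.sum_subset
    · intro v hv
      rw [Set.Finite.mem_toFinset, mem_polesOf] at hv
      rw [Finset.mem_filter]
      exact ⟨hS v (ne_of_lt hv), by omega⟩
    · intro v hv hv'
      rw [Finset.mem_filter] at hv
      rw [Set.Finite.mem_toFinset, mem_polesOf] at hv'
      omega
  rw [h1, h2, h3, hzs]
  have : ∑ v ∈ hp.toFinset, v.ord f = -(Module.finrank K⟮f⟯ F : ℤ) := by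
    rw [← hps, Finset.sum_neg_distrib, neg_neg]
  rw [this]
  ring

end Fermat.Agent.S24
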