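/-
S24, piece A3: differentials at a place of a function field.

* abstract Taylor expansion `taylor : V →ₐ[K] K⟦X⟧` of a domain `V` with an element `π`
  such that every element is congruent to a constant modulo `π`;
* for a place `v` with residue field `K`: the order of `d x` with respect to the
  coordinate differential `v.dCoord` is `ord_v x - 1` when `ord_v x ≠ 0` (char. 0);
* `Ω[F⁄K] = F · dx` when `F` is algebraic over `K(x)` (char. 0).
-/
import Mathlib
import Fermat.Prelude.Def_ModularCurve_CanonicalDivisor

set_option autoImplicit false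
set_option linter.unusedSectionVars false

noncomputable section

open KaehlerDifferential

namespace Fermat.Agent.S24.Diff

/-! ### Abstract Taylor expansion -/

section Taylor

variable {K V : Type*} [Field K] [CommRing V] [IsDomain V] [Algebra K V]
variable (π : V) (hres : ∀ a : V, ∃ c : K, π ∣ a - algebraMap K V c)

/-- The constant term of `a` modulo `π`. -/
def tRes (a : V) : K := (hres a).choose

theorem tRes_spec (a : V) : π ∣ a - algebraMap K V (tRes π hres a) := (hres a).choose_spec

/-- The shift `(a - a(0)) / π`. -/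
def tShift (a : V) : V := (tRes_spec π hres a).choose

theorem tShift_spec (a : V) :
    a - algebraMap K V (tRes π hres a) = π * tShift π hres a :=
  (tRes_spec π hres a).choose_spec

variable {π}

theorem tRes_unique (hπu : ¬ IsUnit π) {a : V} {c : K} (h : π ∣ a - algebraMap K V c) :
    tRes π hres a = c := by
  by_contra hne
  have h1 := tRes_spec π hres a
  have h2 : π ∣ algebraMap K V (tRes π hres a - c) := by
    have : algebraMap K V (tRes π hres a - c)
        = (a - algebraMap K V c) - (a - algebraMap K V (tRes π hres a)) := by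
      rw [map_sub]; ring
    rw [this]; exact dvd_sub h h1
  have hu : IsUnit (algebraMap K V (tRes π hres a - c)) :=
    (IsUnit.mk0 _ (sub_ne_zero.mpr hne)).map _
  exact hπu (isUnit_of_dvd_unit h2 hu)

theorem tRes_add (hπu : ¬ IsUnit π) (a b : V) :
    tRes π hres (a + b) = tRes π hres a + tRes π hres b :=
  tRes_unique hres hπu (by
    have := dvd_add (tRes_spec π hres a) (tRes_spec π hres b)
    convert this using 1; rw [map_add]; ring)

theorem tRes_mul (hπu : ¬ IsUnit π) (a b : V) :
    tRes π hres (a * b) = tRes π hres a * tRes π hres b :=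
  tRes_unique hres hπu (by
    have h1 := (tRes_spec π hres a).mul_right b
    have h2 := (tRes_spec π hres b).mul_left (algebraMap K V (tRes π hres a))
    have := dvd_add h1 h2
    convert this using 1; rw [map_mul]; ring)

theorem tRes_algebraMap (hπu : ¬ IsUnit π) (c : K) :
    tRes π hres (algebraMap K V c) = c :=
  tRes_unique hres hπu (by simp)

theorem tRes_self (hπu : ¬ IsUnit π) : tRes π hres π = 0 :=
  tRes_unique hres hπu (by simp)

theorem tShift_unique (hπ0 : π ≠ 0) {a b : V}
    (h : a - algebraMap K V (tRes π hres a) = π * b) : tShift π hres a = b :=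
  mul_left_cancel₀ hπ0 ((tShift_spec π hres a).symm.trans h)

theorem tShift_add (hπ0 : π ≠ 0) (hπu : ¬ IsUnit π) (a b : V) :
    tShift π hres (a + b) = tShift π hres a + tShift π hres b :=
  tShift_unique hres hπ0 (by
    rw [tRes_add hres hπu, map_add, mul_add, ← tShift_spec, ← tShift_spec]; ring)

theorem tShift_mul (hπ0 : π ≠ 0) (hπu : ¬ IsUnit π) (a b : V) :
    tShift π hres (a * b)
      = algebraMap K V (tRes π hres a) * tShift π hres b + tShift π hres a * b :=
  tShift_unique hres hπ0 (by
    rw [tRes_mul hres hπu, map_mul]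
    have ha := tShift_spec π hres a
    have hb := tShift_spec π hres b
    calc a * b - algebraMap K V (tRes π hres a) * algebraMap K V (tRes π hres b)
        = algebraMap K V (tRes π hres a) * (b - algebraMap K V (tRes π hres b))
          + (a - algebraMap K V (tRes π hres a)) * b := by ring
      _ = _ := by rw [ha, hb]; ring)

theorem tShift_algebraMap (hπ0 : π ≠ 0) (hπu : ¬ IsUnit π) (c : K) :
    tShift π hres (algebraMap K V c) = 0 :=
  tShift_unique hres hπ0 (by rw [tRes_algebraMap hres hπu]; simp)

theorem tShift_self (hπ0 : π ≠ 0) (hπu : ¬ IsUnit π) : tShift π hres π = 1 :=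
  tShift_unique hres hπ0 (by rw [tRes_self hres hπu]; simp)

variable (π)

/-- The Taylor expansion of `a` in the variable `π`, as a function. -/
def taylorFun (a : V) : PowerSeries K :=
  PowerSeries.mk fun n => tRes π hres ((tShift π hres)^[n] a)

theorem coeff_taylorFun (n : ℕ) (a : V) :
    PowerSeries.coeff n (taylorFun π hres a) = tRes π hres ((tShift π hres)^[n] a) :=
  PowerSeries.coeff_mk _ _

theorem coeff_zero_taylorFun (a : V) :
    PowerSeries.coeff 0 (taylorFun π hres a) = tRes π hres a := by
  rw [coeff_taylorFun]; rfl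

theorem coeff_succ_taylorFun (n : ℕ) (a : V) :
    PowerSeries.coeff (n + 1) (taylorFun π hres a)
      = PowerSeries.coeff n (taylorFun π hres (tShift π hres a)) := by
  rw [coeff_taylorFun, coeff_taylorFun, Function.iterate_succ_apply]

theorem taylorFun_eq (a : V) :
    taylorFun π hres a
      = PowerSeries.C (tRes π hres a) + PowerSeries.X * taylorFun π hres (tShift π hres a) := by
  ext n
  cases n with
  | zero =>
    rw [coeff_zero_taylorFun, map_add, PowerSeries.coeff_zero_C, PowerSeries.coeff_zero_X_mul,
      add_zero]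
  | succ n =>
    rw [coeff_succ_taylorFun, map_add, PowerSeries.coeff_succ_X_mul, PowerSeries.coeff_C,
      if_neg (Nat.succ_ne_zero n), zero_add]

variable {π}

theorem iterate_tShift_add (hπ0 : π ≠ 0) (hπu : ¬ IsUnit π) (n : ℕ) (a b : V) :
    (tShift π hres)^[n] (a + b) = (tShift π hres)^[n] a + (tShift π hres)^[n] b := by
  induction n generalizing a b with
  | zero => rfl
  | succ n ih =>
    simp only [Function.iterate_succ_apply]
    rw [tShift_add hres hπ0 hπu, ih]

theorem taylorFun_add (hπ0 : π ≠ 0) (hπu : ¬ IsUnit π) (a b : V) :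
    taylorFun π hres (a + b) = taylorFun π hres a + taylorFun π hres b := by
  ext n
  rw [map_add, coeff_taylorFun, coeff_taylorFun, coeff_taylorFun,
    iterate_tShift_add hres hπ0 hπu, tRes_add hres hπu]

theorem taylorFun_zero (hπ0 : π ≠ 0) (hπu : ¬ IsUnit π) : taylorFun π hres 0 = 0 := by
  have h := taylorFun_add hres hπ0 hπu 0 0
  rw [add_zero] at h
  exact left_eq_add.mp h

theorem taylorFun_algebraMap (hπ0 : π ≠ 0) (hπu : ¬ IsUnit π) (c : K) :
    taylorFun π hres (algebraMap K V c) = PowerSeries.C c := by
  rw [taylorFun_eq, tRes_algebraMap hres hπu, tShift_algebraMap hres hπ0 hπu,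
    taylorFun_zero hres hπ0 hπu, mul_zero, add_zero]

theorem coeff_taylorFun_mul (hπ0 : π ≠ 0) (hπu : ¬ IsUnit π) (n : ℕ) :
    ∀ a b : V, PowerSeries.coeff n (taylorFun π hres (a * b))
      = PowerSeries.coeff n (taylorFun π hres a * taylorFun π hres b) := by
  induction n with
  | zero =>
    intro a b
    rw [coeff_zero_taylorFun, tRes_mul hres hπu, PowerSeries.coeff_zero_eq_constantCoeff,
      map_mul, ← PowerSeries.coeff_zero_eq_constantCoeff,
      coeff_zero_taylorFun, coeff_zero_taylorFun]
  | succ n ih =>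
    intro a b
    rw [coeff_succ_taylorFun, tShift_mul hres hπ0 hπu, taylorFun_add hres hπ0 hπu, map_add,
      ih, ih, taylorFun_algebraMap hres hπ0 hπu]
    conv_rhs => rw [taylorFun_eq π hres a, add_mul, mul_assoc, map_add,
      PowerSeries.coeff_succ_X_mul]
    rw [PowerSeries.coeff_C_mul, PowerSeries.coeff_C_mul, coeff_succ_taylorFun]

variable (π)

/-- The Taylor expansion in the variable `π` as a `K`-algebra homomorphism. -/
def taylor (hπ0 : π ≠ 0) (hπu : ¬ IsUnit π) : V →ₐ[K] PowerSeries K where
  toFun := taylorFun π hres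
  map_one' := by
    have := taylorFun_algebraMap hres hπ0 hπu (1 : K)
    simpa using this
  map_mul' a b := by
    ext n
    exact coeff_taylorFun_mul hres hπ0 hπu n a b
  map_zero' := taylorFun_zero hres hπ0 hπu
  map_add' := taylorFun_add hres hπ0 hπu
  commutes' c := by
    rw [taylorFun_algebraMap hres hπ0 hπu]
    rfl

variable {π}

theorem taylor_apply (hπ0 : π ≠ 0) (hπu : ¬ IsUnit π) (a : V) :
    taylor π hres hπ0 hπu a = taylorFun π hres a := rfl

theorem taylor_self (hπ0 : π ≠ 0) (hπu : ¬ IsUnit π) :
    taylor π hres hπ0 hπu π = PowerSeries.X := by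
  rw [taylor_apply, taylorFun_eq, tRes_self hres hπu, tShift_self hres hπ0 hπu, map_zero,
    zero_add, ← taylor_apply hres hπ0 hπu, map_one, mul_one]

theorem pow_dvd_of_coeff_taylorFun_eq_zero (n : ℕ) :
    ∀ a : V, (∀ i < n, PowerSeries.coeff i (taylorFun π hres a) = 0) → π ^ n ∣ a := by
  induction n with
  | zero => intro a _; simp
  | succ n ih =>
    intro a h
    have h0 : tRes π hres a = 0 := by
      rw [← coeff_zero_taylorFun]; exact h 0 (Nat.succ_pos n)
    have ha : a = π * tShift π hres a := by
      have := tShift_spec π hres a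
      rwa [h0, map_zero, sub_zero] at this
    have h' : π ^ n ∣ tShift π hres a := ih _ (fun i hi => by
      rw [← coeff_succ_taylorFun]; exact h (i + 1) (Nat.succ_lt_succ hi))
    rw [ha, pow_succ']
    exact mul_dvd_mul_left π h'

theorem taylor_injective (hπ0 : π ≠ 0) (hπu : ¬ IsUnit π)
    (hsep : ∀ a : V, (∀ n : ℕ, π ^ n ∣ a) → a = 0) :
    Function.Injective (taylor π hres hπ0 hπu) := by
  rw [injective_iff_map_eq_zero]
  intro a ha
  refine hsep a (fun n => pow_dvd_of_coeff_taylorFun_eq_zero hres n a (fun i _ => ?_))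
  rw [← taylor_apply hres hπ0 hπu, ha, map_zero]

theorem isUnit_taylor (hπ0 : π ≠ 0) (hπu : ¬ IsUnit π) {w : V} (hw : IsUnit w) :
    IsUnit (taylor π hres hπ0 hπu w) := hw.map _

theorem order_taylor_unit_mul_pow (hπ0 : π ≠ 0) (hπu : ¬ IsUnit π) {w : V} (hw : IsUnit w)
    (k : ℕ) : PowerSeries.order (taylor π hres hπ0 hπu (w * π ^ k)) = k := by
  rw [map_mul, map_pow, taylor_self, PowerSeries.order_mul, PowerSeries.order_X_pow,
    PowerSeries.order_zero_of_unit (isUnit_taylor hres hπ0 hπu hw), zero_add]

end Taylor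

/-! ### Order of the derivative of a power series -/

section PowerSeriesOrder

variable {K : Type*} [Field K] [CharZero K]

theorem order_derivative {f : PowerSeries K} {e : ℕ} (he : 0 < e)
    (hf : PowerSeries.order f = e) :
    PowerSeries.order (PowerSeries.derivative K f) = (e - 1 : ℕ) := by
  rw [PowerSeries.order_eq_nat] at hf ⊢
  obtain ⟨h1, h2⟩ := hf
  refine ⟨?_, fun i hi => ?_⟩
  · rw [PowerSeries.coeff_derivative, Nat.sub_add_cancel he]
    refine mul_ne_zero h1 ?_
    have : ((e - 1 : ℕ) : K) + 1 = (e : K) := by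
      rw [← Nat.cast_add_one, Nat.sub_add_cancel he]
    rw [this]
    exact_mod_cast he.ne'
  · rw [PowerSeries.coeff_derivative, h2 (i + 1) (by omega), zero_mul]

end PowerSeriesOrder

/-! ### Places -/

section Place

open IsLocalRing

variable {K F : Type*} [Field K] [Field F] [Algebra K F] (v : AlgebraicCurve.Place K F)

/-- The residue field of the place `v` is `K`. -/
def ResidueTrivial : Prop :=
  ∀ a : v.toValuationSubring, ∃ c : K,
    a - algebraMap K v.toValuationSubring c ∈ maximalIdeal v.toValuationSubring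

/-- The coordinate differential of `v` is `dϖ` for an irreducible `ϖ` of the valuation ring. -/
theorem exists_irreducible_dCoord :
    ∃ ϖ : v.toValuationSubring, Irreducible ϖ ∧ v.dCoord = D K F (ϖ : F) :=
  ⟨_, (IsDiscreteValuationRing.exists_irreducible v.toValuationSubring).choose_spec, rfl⟩

variable {v} {ϖ : v.toValuationSubring}

theorem dvd_sub_const (hϖ : Irreducible ϖ) (hres : ResidueTrivial v)
    (a : v.toValuationSubring) :
    ∃ c : K, ϖ ∣ a - algebraMap K v.toValuationSubring c := by
  obtain ⟨c, hc⟩ := hres a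
  refine ⟨c, ?_⟩
  rwa [hϖ.maximalIdeal_eq, Ideal.mem_span_singleton] at hc

theorem eq_zero_of_forall_pow_dvd (hϖ : Irreducible ϖ) (a : v.toValuationSubring)
    (h : ∀ n : ℕ, ϖ ^ n ∣ a) : a = 0 := by
  by_contra ha
  obtain ⟨n, u, hu⟩ := IsDiscreteValuationRing.eq_unit_mul_pow_irreducible ha hϖ
  obtain ⟨c, hc⟩ := h (n + 1)
  have h2 : ϖ ^ n * (u : v.toValuationSubring) = ϖ ^ n * (ϖ * c) := by
    rw [mul_comm, ← hu, hc, pow_succ, mul_assoc]
  have h3 : (u : v.toValuationSubring) = ϖ * c :=
    mul_left_cancel₀ (pow_ne_zero n hϖ.ne_zero) h2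
  exact hϖ.not_isUnit (isUnit_of_dvd_unit ⟨c, h3⟩ u.isUnit)

/-- The Taylor expansion at the place `v` in the variable `ϖ`. -/
def pTaylor (hϖ : Irreducible ϖ) (hres : ResidueTrivial v) :
    v.toValuationSubring →ₐ[K] PowerSeries K :=
  taylor ϖ (dvd_sub_const hϖ hres) hϖ.ne_zero hϖ.not_isUnit

theorem pTaylor_self (hϖ : Irreducible ϖ) (hres : ResidueTrivial v) :
    pTaylor hϖ hres ϖ = PowerSeries.X :=
  taylor_self _ _ _

theorem pTaylor_injective (hϖ : Irreducible ϖ) (hres : ResidueTrivial v) :
    Function.Injective (pTaylor hϖ hres) :=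
  taylor_injective _ _ _ (eq_zero_of_forall_pow_dvd hϖ)

theorem order_pTaylor (hϖ : Irreducible ϖ) (hres : ResidueTrivial v)
    {w : v.toValuationSubring} (hw : IsUnit w) (k : ℕ) :
    PowerSeries.order (pTaylor hϖ hres (w * ϖ ^ k)) = k :=
  order_taylor_unit_mul_pow _ _ _ hw k

/-- The key relation: if `b • du = a • dϖ` in `Ω[F⁄K]` then `τ a = τ b * (τ u)'`. -/
theorem pTaylor_eq_mul_derivative (hϖ : Irreducible ϖ) (hres : ResidueTrivial v)
    (u a b : v.toValuationSubring)
    (h : (b : F) • D K F (u : F) = (a : F) • D K F (ϖ : F)) :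
    pTaylor hϖ hres a
      = pTaylor hϖ hres b * PowerSeries.derivative K (pTaylor hϖ hres u) := by
  classical
  set τ := pTaylor hϖ hres with hτ
  let _ : Algebra v.toValuationSubring (PowerSeries K) := τ.toRingHom.toAlgebra
  have : IsScalarTower K v.toValuationSubring (PowerSeries K) :=
    IsScalarTower.of_algebraMap_eq (fun c => (τ.commutes c).symm)
  let δ : Derivation K v.toValuationSubring (PowerSeries K) :=
    (PowerSeries.derivative K).compAlgebraMap v.toValuationSubring
  have hδ : ∀ y : v.toValuationSubring, δ y = PowerSeries.derivative K (τ y) := fun y => rfl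
  let φ := δ.liftKaehlerDifferential
  have hφ : ∀ y, φ (D K v.toValuationSubring y) = PowerSeries.derivative K (τ y) := fun y => by
    rw [← hδ]; exact δ.liftKaehlerDifferential_comp_D y
  have := KaehlerDifferential.isLocalizedModule_map K v.toValuationSubring F
    (nonZeroDivisors v.toValuationSubring)
  set m : Ω[v.toValuationSubring⁄K] :=
    b • D K v.toValuationSubring u - a • D K v.toValuationSubring ϖ with hm
  have e1 : ∀ (c : v.toValuationSubring) (ω : Ω[F⁄K]), c • ω = (c : F) • ω := fun c ω => rfl
  have hm0 : KaehlerDifferential.map K K v.toValuationSubring F m = 0 := by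
    rw [hm, map_sub, map_smul, map_smul, KaehlerDifferential.map_D, KaehlerDifferential.map_D,
      sub_eq_zero, e1, e1]
    exact h
  obtain ⟨s, hs⟩ := (IsLocalizedModule.eq_zero_iff (nonZeroDivisors v.toValuationSubring)
    (KaehlerDifferential.map K K v.toValuationSubring F)).mp hm0
  rw [Submonoid.smul_def] at hs
  have h2 := congrArg φ hs
  have e2 : ∀ (c : v.toValuationSubring) (p : PowerSeries K), c • p = τ c * p := fun c p => rfl
  rw [map_zero, hm, map_smul, map_sub, map_smul, map_smul, hφ, hφ, e2, e2, e2] at h2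
  have hs0 : τ (s : v.toValuationSubring) ≠ 0 := by
    intro h0
    have := pTaylor_injective hϖ hres (h0.trans (map_zero _).symm)
    exact nonZeroDivisors.coe_ne_zero s this
  have h3 := (mul_eq_zero.mp h2).resolve_left hs0
  rw [hτ, pTaylor_self, PowerSeries.derivative_X, mul_one, sub_eq_zero] at h3
  exact h3.symm

end Place

/-! ### Consequences for `dCoord`, `differentialCoeff`, `ordDifferential` -/

section Main

variable {K F : Type*} [Field K] [Field F] [Algebra K F] (v : AlgebraicCurve.Place K F)

theorem ord_neg (f : F) : v.ord (-f) = v.ord f := by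
  simp [AlgebraicCurve.Place.ord]

/-- The coordinate differential of a place with residue field `K` is nonzero. -/
theorem dCoord_ne_zero (hres : ResidueTrivial v) : v.dCoord ≠ 0 := by
  obtain ⟨ϖ, hϖ, hd⟩ := exists_irreducible_dCoord v
  intro h0
  rw [hd] at h0
  have := pTaylor_eq_mul_derivative hϖ hres ϖ 1 0 (by simp [h0])
  rw [map_one, map_zero, zero_mul] at this
  exact one_ne_zero this

theorem nontrivial_kaehler (hres : ResidueTrivial v) : Nontrivial Ω[F⁄K] :=
  ⟨⟨v.dCoord, 0, dCoord_ne_zero v hres⟩⟩

/-- If `Ω[F⁄K]` is spanned by one element, then the coordinate differential of `v` spans. -/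
theorem dCoordGenerates_of_span (hres : ResidueTrivial v) {x : F}
    (hx : Submodule.span F {D K F x} = ⊤) : v.DCoordGenerates := by
  constructor
  have hmem : v.dCoord ∈ Submodule.span F {D K F x} := hx ▸ Submodule.mem_top
  obtain ⟨c, hc⟩ := Submodule.mem_span_singleton.mp hmem
  have hc0 : c ≠ 0 := by
    rintro rfl
    rw [zero_smul] at hc
    exact dCoord_ne_zero v hres hc.symm
  rw [eq_top_iff, ← hx, Submodule.span_le, Set.singleton_subset_iff]
  refine Submodule.mem_span_singleton.mpr ⟨c⁻¹, ?_⟩
  rw [← hc, smul_smul, inv_mul_cancel₀ hc0, one_smul]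

/-- Zero of order `e ≥ 1` of `x` at `v`: the coefficient of `dx` has order `e - 1`. -/
theorem differentialCoeff_D_of_pos [CharZero K] (hres : ResidueTrivial v) [v.DCoordGenerates]
    {x : F} {e : ℕ} (he : 0 < e) (hx0 : x ≠ 0) (hx : v.ord x = e) :
    v.differentialCoeff (D K F x) ≠ 0 ∧
      v.ord (v.differentialCoeff (D K F x)) = (e : ℤ) - 1 := by
  obtain ⟨ϖ, hϖ, hd⟩ := exists_irreducible_dCoord v
  have hDx : D K F x = v.differentialCoeff (D K F x) • D K F (ϖ : F) := by
    rw [← hd]; exact (v.differentialCoeff_smul_dCoord _).symm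
  generalize v.differentialCoeff (D K F x) = g at hDx ⊢
  obtain ⟨u, hu⟩ := v.exists_unit_mul_zpow hx0 hϖ
  rw [hx, zpow_natCast] at hu
  have hxV : (((u : v.toValuationSubring) * ϖ ^ e : v.toValuationSubring) : F) = x := by
    rw [hu]; simp
  have hord : PowerSeries.order (pTaylor hϖ hres ((u : v.toValuationSubring) * ϖ ^ e)) = e :=
    order_pTaylor hϖ hres u.isUnit e
  have hder := order_derivative he hord
  have hg0 : g ≠ 0 := by
    intro h0
    have := pTaylor_eq_mul_derivative hϖ hres ((u : v.toValuationSubring) * ϖ ^ e) 0 1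
      (by rw [hxV, hDx, h0]; simp)
    rw [map_zero, map_one, one_mul] at this
    rw [← this, PowerSeries.order_zero] at hder
    exact ENat.top_ne_natCast _ hder
  refine ⟨hg0, ?_⟩
  obtain ⟨w, hw⟩ := v.exists_unit_mul_zpow hg0 hϖ
  generalize v.ord g = z at hw ⊢
  have hϖF : (ϖ : F) ≠ 0 := by
    intro h0
    exact hϖ.ne_zero (Subtype.ext h0)
  have hab : ((ϖ ^ (-z).toNat : v.toValuationSubring) : F) * g
      = (((w : v.toValuationSubring) * ϖ ^ z.toNat : v.toValuationSubring) : F) := by
    rw [hw]
    push_cast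
    rw [← zpow_natCast, ← zpow_natCast, mul_left_comm, ← zpow_add₀ hϖF]
    congr 2
    omega
  have key := pTaylor_eq_mul_derivative hϖ hres ((u : v.toValuationSubring) * ϖ ^ e)
    ((w : v.toValuationSubring) * ϖ ^ z.toNat) (ϖ ^ (-z).toNat)
    (by rw [hxV, hDx, smul_smul, hab])
  have h1 : PowerSeries.order (pTaylor hϖ hres ((w : v.toValuationSubring) * ϖ ^ z.toNat))
      = z.toNat := order_pTaylor hϖ hres w.isUnit _
  have h2 : PowerSeries.order (pTaylor hϖ hres (ϖ ^ (-z).toNat)) = (-z).toNat := by
    have := order_pTaylor hϖ hres (isUnit_one (M := v.toValuationSubring)) (-z).toNat (ϖ := ϖ)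
    rwa [one_mul] at this
  rw [key, PowerSeries.order_mul, h2, hder] at h1
  have h3 : (-z).toNat + (e - 1) = z.toNat := by exact_mod_cast h1
  omega

/-- **Order of `dx`**: if `ord_v x = n ≠ 0` then `ord_v (dx) = n - 1` (characteristic zero,
residue field `K`). -/
theorem ordDifferential_D [CharZero K] (hres : ResidueTrivial v) [v.DCoordGenerates]
    {x : F} (hx0 : x ≠ 0) (hn : v.ord x ≠ 0) :
    v.differentialCoeff (D K F x) ≠ 0 ∧ v.ordDifferential (D K F x) = v.ord x - 1 := by
  rcases lt_or_gt_of_ne hn with hneg | hpos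
  · have hy0 : -x⁻¹ ≠ 0 := neg_ne_zero.mpr (inv_ne_zero hx0)
    have hy : v.ord (-x⁻¹) = ((-v.ord x).toNat : ℤ) := by
      rw [ord_neg, v.ord_inv]; omega
    obtain ⟨h1, h2⟩ := differentialCoeff_D_of_pos v hres (e := (-v.ord x).toNat) (by omega) hy0 hy
    have hD : D K F x = (x ^ 2) • D K F (-x⁻¹) := by
      have := (D K F).leibniz_inv (x⁻¹)
      rw [inv_inv] at this
      rw [this, map_neg, smul_neg, neg_smul]
    have := nontrivial_kaehler v hres
    have hc : v.differentialCoeff (D K F x) = (x ^ 2) * v.differentialCoeff (D K F (-x⁻¹)) := by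
      conv_lhs => rw [hD]
      exact v.differentialCoeff_smul _ _
    have hx2 : x ^ 2 ≠ 0 := pow_ne_zero 2 hx0
    refine ⟨by rw [hc]; exact mul_ne_zero hx2 h1, ?_⟩
    unfold AlgebraicCurve.Place.ordDifferential
    rw [hc, v.ord_mul hx2 h1, h2]
    have h4 : v.ord (x ^ 2) = 2 * v.ord x := by
      have := v.ord_zpow x 2
      simpa using this
    rw [h4]
    omega
  · obtain ⟨h1, h2⟩ := differentialCoeff_D_of_pos v hres (e := (v.ord x).toNat) (by omega) hx0
      (by omega)
    refine ⟨h1, ?_⟩
    unfold AlgebraicCurve.Place.ordDifferential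
    rw [h2]
    omega

/-- Zero of order `n ≠ 0` of `x - c`: `ord_v (dx) = n - 1`. -/
theorem ordDifferential_D_of_sub [CharZero K] (hres : ResidueTrivial v) [v.DCoordGenerates]
    {x : F} (c : K) (hx0 : x - algebraMap K F c ≠ 0) (hn : v.ord (x - algebraMap K F c) ≠ 0) :
    v.differentialCoeff (D K F x) ≠ 0 ∧
      v.ordDifferential (D K F x) = v.ord (x - algebraMap K F c) - 1 := by
  have h := ordDifferential_D v hres hx0 hn
  rwa [map_sub, Derivation.map_algebraMap, sub_zero] at h

/-- The differential of a function regular at `v` is regular at `v`. -/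
theorem ordDifferential_D_nonneg (hres : ResidueTrivial v) [v.DCoordGenerates]
    {x : F} (hx : x ∈ v.toValuationSubring) : 0 ≤ v.ordDifferential (D K F x) := by
  obtain ⟨ϖ, hϖ, hd⟩ := exists_irreducible_dCoord v
  unfold AlgebraicCurve.Place.ordDifferential
  have hDx : D K F x = v.differentialCoeff (D K F x) • D K F (ϖ : F) := by
    rw [← hd]; exact (v.differentialCoeff_smul_dCoord _).symm
  generalize v.differentialCoeff (D K F x) = g at hDx ⊢
  rcases eq_or_ne g 0 with rfl | hg0
  · simp
  obtain ⟨w, hw⟩ := v.exists_unit_mul_zpow hg0 hϖ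
  generalize v.ord g = z at hw ⊢
  have hϖF : (ϖ : F) ≠ 0 := by
    intro h0
    exact hϖ.ne_zero (Subtype.ext h0)
  have hab : ((ϖ ^ (-z).toNat : v.toValuationSubring) : F) * g
      = (((w : v.toValuationSubring) * ϖ ^ z.toNat : v.toValuationSubring) : F) := by
    rw [hw]
    push_cast
    rw [← zpow_natCast, ← zpow_natCast, mul_left_comm, ← zpow_add₀ hϖF]
    congr 2
    omega
  have key := pTaylor_eq_mul_derivative hϖ hres ⟨x, hx⟩
    ((w : v.toValuationSubring) * ϖ ^ z.toNat) (ϖ ^ (-z).toNat)
    (by rw [hDx, smul_smul, hab])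
  have h1 : PowerSeries.order (pTaylor hϖ hres ((w : v.toValuationSubring) * ϖ ^ z.toNat))
      = z.toNat := order_pTaylor hϖ hres w.isUnit _
  have h2 : PowerSeries.order (pTaylor hϖ hres (ϖ ^ (-z).toNat)) = (-z).toNat := by
    have := order_pTaylor hϖ hres (isUnit_one (M := v.toValuationSubring)) (-z).toNat (ϖ := ϖ)
    rwa [one_mul] at this
  have hne : PowerSeries.order (PowerSeries.derivative K (pTaylor hϖ hres ⟨x, hx⟩)) ≠ ⊤ := by
    intro htop
    rw [key, PowerSeries.order_mul, htop, add_top] at h1
    exact ENat.top_ne_natCast _ h1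
  obtain ⟨k, hk⟩ := ENat.ne_top_iff_exists.mp hne
  rw [key, PowerSeries.order_mul, h2, ← hk] at h1
  have h3 : (-z).toNat + k = z.toNat := by exact_mod_cast h1
  omega

/-- In characteristic zero, `Ω[F⁄K]` is spanned by `dx` as soon as `F` is algebraic over
`K(x)`. -/
theorem span_D_eq_top [CharZero K] (x : F)
    [Algebra.IsAlgebraic (IntermediateField.adjoin K {x}) F] :
    Submodule.span F {D K F x} = ⊤ := by
  -- Step 1: differentials of elements of `K(x)`
  have step1 : ∀ a : F, a ∈ IntermediateField.adjoin K {x} →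
      D K F a ∈ Submodule.span F {D K F x} := by
    intro a ha
    induction ha using IntermediateField.adjoin_induction with
    | mem y hy =>
      rw [Set.mem_singleton_iff] at hy
      rw [hy]
      exact Submodule.mem_span_singleton_self _
    | algebraMap c =>
      rw [Derivation.map_algebraMap]
      exact Submodule.zero_mem _
    | add y z _ _ hy hz =>
      rw [map_add]
      exact Submodule.add_mem _ hy hz
    | inv y _ hy =>
      rw [Derivation.leibniz_inv]
      exact Submodule.smul_mem _ _ hy
    | mul y z _ _ hy hz =>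
      rw [Derivation.leibniz]
      exact Submodule.add_mem _ (Submodule.smul_mem _ _ hz) (Submodule.smul_mem _ _ hy)
  -- Step 2: `F` is separable algebraic over `K(x)`, so `Ω[F⁄K(x)] = 0`
  have : Algebra.IsSeparable (IntermediateField.adjoin K {x}) F :=
    Algebra.IsAlgebraic.isSeparable_of_perfectField
  have : Algebra.FormallyUnramified (IntermediateField.adjoin K {x}) F :=
    Algebra.FormallyUnramified.of_isSeparable _ _
  have step2 : ∀ ω' : Ω[(IntermediateField.adjoin K {x})⁄K],
      KaehlerDifferential.map K K (IntermediateField.adjoin K {x}) F ω'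
        ∈ Submodule.span F {D K F x} := by
    intro ω'
    have hω' : ω' ∈ Submodule.span (IntermediateField.adjoin K {x})
        (Set.range (D K (IntermediateField.adjoin K {x}))) := by
      rw [KaehlerDifferential.span_range_derivation]; exact Submodule.mem_top
    induction hω' using Submodule.span_induction with
    | mem y hy =>
      obtain ⟨a, rfl⟩ := hy
      rw [KaehlerDifferential.map_D]
      exact step1 _ a.2
    | zero => rw [map_zero]; exact Submodule.zero_mem _
    | add y z _ _ hy hz => rw [map_add]; exact Submodule.add_mem _ hy hz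
    | smul c y _ hy =>
      rw [map_smul]
      exact Submodule.smul_mem _ (c : F) hy
  have step3 : ∀ t : TensorProduct (IntermediateField.adjoin K {x}) F
      Ω[(IntermediateField.adjoin K {x})⁄K],
      KaehlerDifferential.mapBaseChange K (IntermediateField.adjoin K {x}) F t
        ∈ Submodule.span F {D K F x} := by
    intro t
    induction t using TensorProduct.induction_on with
    | zero => rw [map_zero]; exact Submodule.zero_mem _
    | add t₁ t₂ h₁ h₂ => rw [map_add]; exact Submodule.add_mem _ h₁ h₂
    | tmul f ω' =>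
      rw [KaehlerDifferential.mapBaseChange_tmul]
      exact Submodule.smul_mem _ _ (step2 ω')
  rw [eq_top_iff]
  intro ω _
  have hex := KaehlerDifferential.exact_mapBaseChange_map K (IntermediateField.adjoin K {x}) F
  obtain ⟨t, rfl⟩ := (hex ω).mp (Subsingleton.elim _ _)
  exact step3 t

/-- The coordinate differential spans `Ω[F⁄K]` when `F` is algebraic over `K(x)`. -/
theorem dCoordGenerates_of_isAlgebraic [CharZero K] (hres : ResidueTrivial v) (x : F)
    [Algebra.IsAlgebraic (IntermediateField.adjoin K {x}) F] : v.DCoordGenerates :=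
  dCoordGenerates_of_span v hres (span_D_eq_top x)

/-- `dx ≠ 0` as soon as `x` has a zero or a pole at some place with residue field `K`. -/
theorem D_ne_zero_of_ord_ne_zero [CharZero K] (hres : ResidueTrivial v) [v.DCoordGenerates]
    {x : F} (hx0 : x ≠ 0) (hn : v.ord x ≠ 0) : D K F x ≠ 0 := by
  have := nontrivial_kaehler v hres
  intro h0
  have h := (ordDifferential_D v hres hx0 hn).1
  rw [h0, v.differentialCoeff_zero] at h
  exact h rfl

/-- Order of `f • dx` at `v` when `ord_v x ≠ 0`. -/
theorem ordDifferential_smul_D [CharZero K] (hres : ResidueTrivial v) [v.DCoordGenerates]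
    {x f : F} (hx0 : x ≠ 0) (hn : v.ord x ≠ 0) (hf : f ≠ 0) :
    v.ordDifferential (f • D K F x) = v.ord f + (v.ord x - 1) := by
  have := nontrivial_kaehler v hres
  obtain ⟨h1, h2⟩ := ordDifferential_D v hres hx0 hn
  rw [v.ordDifferential_smul hf h1, h2]

/-- Order of `f • dx` at `v` when `ord_v (x - c) ≠ 0`. -/
theorem ordDifferential_smul_D_of_sub [CharZero K] (hres : ResidueTrivial v)
    [v.DCoordGenerates] {x f : F} (c : K) (hx0 : x - algebraMap K F c ≠ 0)
    (hn : v.ord (x - algebraMap K F c) ≠ 0) (hf : f ≠ 0) :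
    v.ordDifferential (f • D K F x) = v.ord f + (v.ord (x - algebraMap K F c) - 1) := by
  have := nontrivial_kaehler v hres
  obtain ⟨h1, h2⟩ := ordDifferential_D_of_sub v hres c hx0 hn
  rw [v.ordDifferential_smul hf h1, h2]

end Main

end Fermat.Agent.S24.Diff
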