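/-
S24: every place of a function field in one variable over an algebraically closed field has
residue field `K`; hypothesis-free versions of the results of `Differential.lean`.
-/
import Mathlib
import Fermat.Agent.S24.Differential

set_option autoImplicit false

noncomputable section

open KaehlerDifferential IntermediateField

namespace Fermat.Agent.S24.Diff

variable {K F : Type*} [Field K] [Field F] [Algebra K F]

open scoped IntermediateField.algebraAdjoinAdjoin in
/-- Exchange: if `F` is algebraic over `K(x)` and `a` is transcendental over `K`, then `F` is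
algebraic over `K(a)`. -/
theorem isAlgebraic_adjoin_of_transcendental (x : F) [Algebra.IsAlgebraic K⟮x⟯ F] {a : F}
    (ha : Transcendental K a) : Algebra.IsAlgebraic K⟮a⟯ F := by
  have h1 : Algebra.IsAlgebraic (Algebra.adjoin K {x}) F :=
    (IsFractionRing.comap_isAlgebraic_iff (K := K⟮x⟯)).mpr inferInstance
  have h2 : Algebra.trdeg K F ≤ Cardinal.mk ({x} : Set F) :=
    Algebra.IsAlgebraic.trdeg_le_cardinalMk K {x}
  have hind : AlgebraicIndependent K (fun _ : PUnit => a) :=
    algebraicIndependent_unique_type_iff.mpr ha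
  have hb := hind.isTranscendenceBasis_of_trdeg_le_of_finite (by simpa using h2)
  have h3 := hb.isAlgebraic_field
  have h4 : Set.range (fun _ : PUnit => a) = {a} := Set.range_const
  rwa [h4] at h3

/-- Every place of a function field in one variable over an algebraically closed field has
residue field `K`. -/
theorem residueTrivial_of_isAlgClosed [IsAlgClosed K] (x : F) [Algebra.IsAlgebraic K⟮x⟯ F]
    (v : AlgebraicCurve.Place K F) : ResidueTrivial v := by
  intro a
  have key : ∃ p : Polynomial K, p ≠ 0 ∧
      Polynomial.aeval a p ∈ IsLocalRing.maximalIdeal v.toValuationSubring := by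
    by_contra hcon
    push Not at hcon
    have hunit : ∀ p : Polynomial K, p ≠ 0 → IsUnit (Polynomial.aeval a p) := fun p hp => by
      have := hcon p hp
      rwa [IsLocalRing.mem_maximalIdeal, mem_nonunits_iff, not_not] at this
    have hcoe : ∀ p : Polynomial K,
        ((Polynomial.aeval a p : v.toValuationSubring) : F) = Polynomial.aeval (a : F) p := by
      intro p
      exact (Polynomial.aeval_algebraMap_apply F a p).symm
    have htr : Transcendental K (a : F) := by
      rintro ⟨p, hp, h0⟩
      have h1 : Polynomial.aeval a p = 0 := Subtype.ext (by rw [hcoe]; exact h0)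
      exact (hunit p hp).ne_zero h1
    have halg := isAlgebraic_adjoin_of_transcendental x htr
    have hsub : ∀ y : F, y ∈ K⟮(a : F)⟯ → y ∈ v.toValuationSubring := by
      intro y hy
      obtain ⟨r, s, rfl⟩ := (IntermediateField.mem_adjoin_simple_iff K y).mp hy
      by_cases hs : s = 0
      · simp [hs, zero_mem]
      · obtain ⟨u, hu⟩ := hunit s hs
        have h2 : Polynomial.aeval (a : F) s = ((u : v.toValuationSubring) : F) := by
          rw [hu, hcoe]
        have h3 : ((u : v.toValuationSubring) : F)⁻¹
            = (((u⁻¹ : (v.toValuationSubring)ˣ) : v.toValuationSubring) : F) := by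
          apply inv_eq_of_mul_eq_one_right
          have h := congrArg (fun z : v.toValuationSubring => (z : F)) u.mul_inv
          exact h
        rw [← hcoe, h2, div_eq_mul_inv, h3]
        exact mul_mem (SetLike.coe_mem _) (SetLike.coe_mem _)
    apply v.ne_top'
    rw [eq_top_iff]
    intro f _
    have hf : IsIntegral K⟮(a : F)⟯ f := (halg.isAlgebraic f).isIntegral
    have hf' : IsIntegral v.toValuationSubring f := by
      obtain ⟨p, hp, hpf⟩ := hf
      let φ : K⟮(a : F)⟯ →+* v.toValuationSubring :=
        { toFun := fun y => ⟨y, hsub y y.2⟩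
          map_one' := rfl
          map_mul' := fun _ _ => rfl
          map_zero' := rfl
          map_add' := fun _ _ => rfl }
      refine ⟨p.map φ, hp.map φ, ?_⟩
      rw [Polynomial.eval₂_map]
      exact hpf
    obtain ⟨y, hy⟩ := IsIntegrallyClosed.isIntegral_iff.mp hf'
    rw [← hy]
    exact y.2
  obtain ⟨p, hp, hpm⟩ := key
  have hsplit := (IsAlgClosed.splits p).eq_prod_roots
  rw [hsplit, map_mul, Polynomial.aeval_C, Polynomial.aeval_def, Polynomial.eval₂_multiset_prod,
    Multiset.map_map] at hpm
  have hprime : (IsLocalRing.maximalIdeal v.toValuationSubring).IsPrime :=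
    (IsLocalRing.maximalIdeal.isMaximal _).isPrime
  have hlc : algebraMap K v.toValuationSubring p.leadingCoeff
      ∉ IsLocalRing.maximalIdeal v.toValuationSubring := by
    have hu : IsUnit (algebraMap K v.toValuationSubring p.leadingCoeff) :=
      (IsUnit.mk0 _ (Polynomial.leadingCoeff_ne_zero.mpr hp)).map _
    rw [IsLocalRing.mem_maximalIdeal, mem_nonunits_iff, not_not]
    exact hu
  have h5 := (hprime.mem_or_mem hpm).resolve_left hlc
  obtain ⟨t, ht, htm⟩ := (hprime.multiset_prod_mem_iff_exists_mem _).mp h5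
  obtain ⟨c, -, rfl⟩ := Multiset.mem_map.mp ht
  refine ⟨c, ?_⟩
  simpa using htm

section AlgClosed

variable [IsAlgClosed K] [CharZero K]

/-- The coordinate differential of every place spans `Ω[F⁄K]`. -/
theorem dCoordGenerates (x : F) [Algebra.IsAlgebraic K⟮x⟯ F] (v : AlgebraicCurve.Place K F) :
    v.DCoordGenerates :=
  dCoordGenerates_of_isAlgebraic v (residueTrivial_of_isAlgClosed x v) x

omit [CharZero K] in
/-- `Ω[F⁄K]` is nontrivial as soon as `F` has a place. -/
theorem nontrivial_kaehler_of_place (x : F) [Algebra.IsAlgebraic K⟮x⟯ F]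
    (v : AlgebraicCurve.Place K F) : Nontrivial Ω[F⁄K] :=
  nontrivial_kaehler v (residueTrivial_of_isAlgClosed x v)

/-- `ord_v (dy) = ord_v y - 1` whenever `ord_v y ≠ 0`. -/
theorem ordDifferential_D_eq (x : F) [Algebra.IsAlgebraic K⟮x⟯ F] (v : AlgebraicCurve.Place K F)
    {y : F} (hy0 : y ≠ 0) (hn : v.ord y ≠ 0) :
    v.ordDifferential (D K F y) = v.ord y - 1 :=
  haveI := dCoordGenerates x v
  (ordDifferential_D v (residueTrivial_of_isAlgClosed x v) hy0 hn).2

/-- `ord_v (dy) = ord_v (y - c) - 1` whenever `ord_v (y - c) ≠ 0`. -/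
theorem ordDifferential_D_sub_eq (x : F) [Algebra.IsAlgebraic K⟮x⟯ F]
    (v : AlgebraicCurve.Place K F) {y : F} (c : K) (hy0 : y - algebraMap K F c ≠ 0)
    (hn : v.ord (y - algebraMap K F c) ≠ 0) :
    v.ordDifferential (D K F y) = v.ord (y - algebraMap K F c) - 1 :=
  haveI := dCoordGenerates x v
  (ordDifferential_D_of_sub v (residueTrivial_of_isAlgClosed x v) c hy0 hn).2

/-- `ord_v (f • dy) = ord_v f + ord_v (y - c) - 1` whenever `ord_v (y - c) ≠ 0`. -/
theorem ordDifferential_smul_D_sub_eq (x : F) [Algebra.IsAlgebraic K⟮x⟯ F]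
    (v : AlgebraicCurve.Place K F) {y f : F} (c : K) (hy0 : y - algebraMap K F c ≠ 0)
    (hn : v.ord (y - algebraMap K F c) ≠ 0) (hf : f ≠ 0) :
    v.ordDifferential (f • D K F y) = v.ord f + (v.ord (y - algebraMap K F c) - 1) :=
  haveI := dCoordGenerates x v
  ordDifferential_smul_D_of_sub v (residueTrivial_of_isAlgClosed x v) c hy0 hn hf

/-- `ord_v (f • dy) = ord_v f + ord_v y - 1` whenever `ord_v y ≠ 0` (zeros and poles). -/
theorem ordDifferential_smul_D_eq (x : F) [Algebra.IsAlgebraic K⟮x⟯ F]
    (v : AlgebraicCurve.Place K F) {y f : F} (hy0 : y ≠ 0) (hn : v.ord y ≠ 0) (hf : f ≠ 0) :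
    v.ordDifferential (f • D K F y) = v.ord f + (v.ord y - 1) :=
  haveI := dCoordGenerates x v
  ordDifferential_smul_D v (residueTrivial_of_isAlgClosed x v) hy0 hn hf

/-- `dy ≠ 0` as soon as `y` has a zero or a pole at some place. -/
theorem D_ne_zero_of_ord_ne_zero' (x : F) [Algebra.IsAlgebraic K⟮x⟯ F]
    (v : AlgebraicCurve.Place K F) {y : F} (hy0 : y ≠ 0) (hn : v.ord y ≠ 0) : D K F y ≠ 0 :=
  haveI := dCoordGenerates x v
  D_ne_zero_of_ord_ne_zero v (residueTrivial_of_isAlgClosed x v) hy0 hn

end AlgClosed

end Fermat.Agent.S24.Diff
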