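import Mathlib
import Fermat.Agent.S24.FundId
import Fermat.Agent.S24.DNeZero

/-!
# S24, part A: transfers `x ↦ x - c`, `x ↦ x⁻¹` and the fundamental identity for fibres and poles

For `x : F` transcendental over `K` with `[FiniteDimensional K⟮x⟯ F]`:
* `y = x - c` and `y = x⁻¹` are transcendental, `K⟮y⟯ = K⟮x⟯`, `F` is finite over `K⟮y⟯` of the
  same degree;
* `h_zeros`, `h_poles`: the fundamental identity over every value `c` and over `∞`, in the shapes
  consumed by `RH.genus_eq_of_counts_core`.
-/

set_option autoImplicit false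
set_option linter.style.haveILetI false

namespace Fermat.Agent.S24.Transfer

open AlgebraicCurve IntermediateField

variable {K F : Type*} [Field K] [Field F] [Algebra K F]

theorem transcendental_sub_const {x : F} (hx : Transcendental K x) (c : K) :
    Transcendental K (x - algebraMap K F c) := by
  intro h
  apply hx
  have h2 : IsAlgebraic K ((x - algebraMap K F c) + algebraMap K F c) :=
    h.add (isAlgebraic_algebraMap c)
  rwa [sub_add_cancel] at h2

theorem transcendental_inv {x : F} (hx : Transcendental K x) : Transcendental K x⁻¹ := by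
  intro h
  apply hx
  have h2 := h.inv
  rwa [inv_inv] at h2

theorem transcendental_of_inv {x : F} (hx : Transcendental K x⁻¹) : Transcendental K x := by
  have := transcendental_inv hx
  rwa [inv_inv] at this

theorem adjoin_sub_const (x : F) (c : K) : K⟮x - algebraMap K F c⟯ = K⟮x⟯ := by
  apply le_antisymm
  · rw [adjoin_simple_le_iff]
    exact sub_mem (mem_adjoin_simple_self K x) (IntermediateField.algebraMap_mem _ c)
  · rw [adjoin_simple_le_iff]
    have h : x - algebraMap K F c + algebraMap K F c ∈ K⟮x - algebraMap K F c⟯ :=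
      add_mem (mem_adjoin_simple_self K _) (IntermediateField.algebraMap_mem _ c)
    rwa [sub_add_cancel] at h

theorem adjoin_inv (x : F) : K⟮x⁻¹⟯ = K⟮x⟯ := by
  apply le_antisymm
  · rw [adjoin_simple_le_iff]
    exact inv_mem (mem_adjoin_simple_self K x)
  · rw [adjoin_simple_le_iff]
    have h : (x⁻¹)⁻¹ ∈ K⟮x⁻¹⟯ := inv_mem (mem_adjoin_simple_self K _)
    rwa [inv_inv] at h

theorem finiteDimensional_of_eq {L L' : IntermediateField K F} (h : L = L')
    [FiniteDimensional L' F] : FiniteDimensional L F := by
  subst h; infer_instance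

theorem finrank_of_eq {L L' : IntermediateField K F} (h : L = L') :
    Module.finrank L F = Module.finrank L' F := by
  subst h; rfl

theorem finiteDimensional_sub_const (x : F) (c : K) [FiniteDimensional K⟮x⟯ F] :
    FiniteDimensional K⟮x - algebraMap K F c⟯ F :=
  finiteDimensional_of_eq (adjoin_sub_const x c)

theorem finiteDimensional_inv (x : F) [FiniteDimensional K⟮x⟯ F] :
    FiniteDimensional K⟮x⁻¹⟯ F :=
  finiteDimensional_of_eq (adjoin_inv x)

theorem finrank_sub_const (x : F) (c : K) :
    Module.finrank K⟮x - algebraMap K F c⟯ F = Module.finrank K⟮x⟯ F :=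
  finrank_of_eq (adjoin_sub_const x c)

theorem finrank_inv (x : F) : Module.finrank K⟮x⁻¹⟯ F = Module.finrank K⟮x⟯ F :=
  finrank_of_eq (adjoin_inv x)

/-- **Fundamental identity over a value `c`**: the places over `x = c` are finite in number and
their ramification indices `ord_v (x - c)` add up to `[F : K(x)]`. -/
theorem placesOver_finite_sum [IsAlgClosed K] [CharZero K] (x : F) (hx : Transcendental K x)
    [FiniteDimensional K⟮x⟯ F] (c : K) :
    ∃ hfin : {v : Place K F | 0 < v.ord (x - algebraMap K F c)}.Finite,
      ∑ v ∈ hfin.toFinset, v.ord (x - algebraMap K F c) = (Module.finrank K⟮x⟯ F : ℤ) := by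
  haveI := finiteDimensional_sub_const (K := K) x c
  obtain ⟨hfin, hsum⟩ := zerosOf_finite_sum (x - algebraMap K F c) (transcendental_sub_const hx c)
  rw [finrank_sub_const] at hsum
  exact ⟨hfin, hsum⟩

/-- **Fundamental identity over `∞`**: the poles of `x` are finite in number and their orders add
up to `[F : K(x)]`. -/
theorem polesOf_finite_sum [IsAlgClosed K] [CharZero K] (x : F) (hx : Transcendental K x)
    [FiniteDimensional K⟮x⟯ F] :
    ∃ hfin : {v : Place K F | v.ord x < 0}.Finite,
      ∑ v ∈ hfin.toFinset, (-v.ord x) = (Module.finrank K⟮x⟯ F : ℤ) := by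
  haveI := finiteDimensional_inv (K := K) x
  obtain ⟨hfin, hsum⟩ := zerosOf_finite_sum x⁻¹ (transcendental_inv hx)
  have heq : zerosOf K x⁻¹ = {v : Place K F | v.ord x < 0} := by
    ext v
    show 0 < v.ord x⁻¹ ↔ v.ord x < 0
    rw [Place.ord_inv]
    omega
  have hfin' : {v : Place K F | v.ord x < 0}.Finite := heq ▸ hfin
  refine ⟨hfin', ?_⟩
  have hset : hfin'.toFinset = hfin.toFinset := by
    ext v
    simp only [Set.Finite.mem_toFinset, heq]
  rw [hset, ← finrank_inv, ← hsum]
  exact Finset.sum_congr rfl (fun v _ => (v.ord_inv x).symm)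

/-- The same statements in the `zerosOf / polesOf / placesOver` vocabulary of `PlaceBasic`. -/
theorem placesOver_finite_sum' [IsAlgClosed K] [CharZero K] (x : F) (hx : Transcendental K x)
    [FiniteDimensional K⟮x⟯ F] (c : K) :
    ∃ hfin : (placesOver x c).Finite,
      ∑ v ∈ hfin.toFinset, v.ord (x - algebraMap K F c) = (Module.finrank K⟮x⟯ F : ℤ) :=
  placesOver_finite_sum x hx c

theorem polesOf_finite_sum' [IsAlgClosed K] [CharZero K] (x : F) (hx : Transcendental K x)
    [FiniteDimensional K⟮x⟯ F] :
    ∃ hfin : (polesOf K x).Finite,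
      ∑ v ∈ hfin.toFinset, (-v.ord x) = (Module.finrank K⟮x⟯ F : ℤ) :=
  polesOf_finite_sum x hx

/-- `F` is finite over `K(y)` for every transcendental `y` (`F` finite over `K(x)`). -/
theorem finiteDimensional_adjoin_of_transcendental (x : F) [FiniteDimensional K⟮x⟯ F] {y : F}
    (hy : Transcendental K y) : FiniteDimensional K⟮y⟯ F := by
  haveI := DNeZero.isAlgebraic_adjoin_of_transcendental (K := K) x hy
  -- `F = K(x)(b₁, …, bₙ) = K(y)(x, b₁, …, bₙ)` is finitely generated and algebraic over `K(y)`
  obtain ⟨s, hs⟩ := (Module.finite_def.mp (inferInstance : Module.Finite K⟮x⟯ F))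
  have hgen : IntermediateField.adjoin K⟮y⟯ (insert x (s : Set F)) = ⊤ := by
    rw [eq_top_iff]
    rintro f -
    have hf : f ∈ Submodule.span K⟮x⟯ (s : Set F) := by rw [hs]; trivial
    have hx_mem : x ∈ IntermediateField.adjoin K⟮y⟯ (insert x (s : Set F)) :=
      IntermediateField.subset_adjoin _ _ (Set.mem_insert _ _)
    have hKx : ∀ a : K⟮x⟯, (a : F) ∈ IntermediateField.adjoin K⟮y⟯ (insert x (s : Set F)) := by
      intro a
      have hle : K⟮x⟯ ≤ (IntermediateField.adjoin K⟮y⟯ (insert x (s : Set F))).restrictScalars K := by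
        rw [adjoin_simple_le_iff]
        exact hx_mem
      exact hle a.2
    induction hf using Submodule.span_induction with
    | mem z hz => exact IntermediateField.subset_adjoin _ _ (Set.mem_insert_of_mem _ hz)
    | zero => exact zero_mem _
    | add a b _ _ ha hb => exact add_mem ha hb
    | smul a z _ hz =>
      rw [Algebra.smul_def]
      exact mul_mem (hKx a) hz
  have hfin : (insert x (s : Set F)).Finite := (Finset.finite_toSet s).insert x
  have hfd : FiniteDimensional K⟮y⟯ (IntermediateField.adjoin K⟮y⟯ (insert x (s : Set F))) :=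
    IntermediateField.finiteDimensional_adjoin
      (fun z _ => (Algebra.IsAlgebraic.isAlgebraic (R := K⟮y⟯) z).isIntegral)
  rw [hgen] at hfd
  exact (IntermediateField.topEquiv (F := K⟮y⟯) (E := F)).toLinearEquiv.finiteDimensional

end Fermat.Agent.S24.Transfer
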