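import Mathlib
import Fermat.Agent.S24.Transfer
import Fermat.Agent.S24.ResidueTrivial

/-!
# S24, part A: the remaining general facts on places of a function field of one variable

`K` algebraically closed (of characteristic zero where needed), `x : F` transcendental over `K`,
`F` finite over `K(x)`.
* `exists_value`: every place is a pole of `x` or lies over a value `c : K` of `x`;
* `deg_eq_one`: every place has degree one;
* `sum_ord_eq_zero`: principal divisors have degree zero.
-/

set_option autoImplicit false
set_option linter.style.haveILetI false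

namespace Fermat.Agent.S24.ARest

open AlgebraicCurve IntermediateField IsLocalRing

variable {K F : Type*} [Field K] [Field F] [Algebra K F]

/-- Every place of `F` is a pole of `x` or a zero of `x - c` for some constant `c`. -/
theorem exists_value [IsAlgClosed K] (x : F) (hx : Transcendental K x)
    [Algebra.IsAlgebraic K⟮x⟯ F] (v : Place K F) :
    v.ord x < 0 ∨ ∃ c : K, 0 < v.ord (x - algebraMap K F c) := by
  by_cases hneg : v.ord x < 0
  · exact Or.inl hneg
  right
  have hmem : x ∈ v.toValuationSubring := mem_of_ord_nonneg v (not_lt.mp hneg)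
  obtain ⟨c, hc⟩ := Diff.residueTrivial_of_isAlgClosed x v ⟨x, hmem⟩
  refine ⟨c, ?_⟩
  have hne : x - algebraMap K F c ≠ 0 := by
    intro h
    apply hx
    rw [sub_eq_zero.mp h]
    exact isAlgebraic_algebraMap c
  rw [ord_pos_iff]
  intro hinv
  have hunit : IsUnit ((⟨x, hmem⟩ : v.toValuationSubring) - algebraMap K v.toValuationSubring c) := by
    refine IsUnit.of_mul_eq_one (⟨(x - algebraMap K F c)⁻¹, hinv⟩ : v.toValuationSubring) ?_
    apply Subtype.ext
    show (x - algebraMap K F c) * (x - algebraMap K F c)⁻¹ = 1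
    exact mul_inv_cancel₀ hne
  exact hc hunit

/-- Every place of `F` has degree one. -/
theorem deg_eq_one [IsAlgClosed K] (x : F) [Algebra.IsAlgebraic K⟮x⟯ F] (v : Place K F) :
    v.deg = 1 := by
  have hres := Diff.residueTrivial_of_isAlgClosed x v
  have hsurj : Function.Surjective (algebraMap K v.ResidueField) := by
    intro r
    obtain ⟨a, rfl⟩ := IsLocalRing.residue_surjective r
    obtain ⟨c, hc⟩ := hres a
    refine ⟨c, ?_⟩
    have h0 : IsLocalRing.residue v.toValuationSubring
        (a - algebraMap K v.toValuationSubring c) = 0 :=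
      (IsLocalRing.residue_eq_zero_iff _).mpr hc
    rw [map_sub, sub_eq_zero] at h0
    rw [h0]
    rfl
  have hbij : Function.Bijective (Algebra.linearMap K v.ResidueField) :=
    ⟨(algebraMap K v.ResidueField).injective, hsurj⟩
  have h := (LinearEquiv.ofBijective (Algebra.linearMap K v.ResidueField) hbij).finrank_eq
  rw [Module.finrank_self] at h
  exact h.symm

/-- Principal divisors have degree zero. -/
theorem sum_ord_eq_zero [IsAlgClosed K] [CharZero K] (x : F) [FiniteDimensional K⟮x⟯ F]
    (f : F) (S : Finset (Place K F)) (hS : ∀ v : Place K F, v.ord f ≠ 0 → v ∈ S) :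
    ∑ v ∈ S, v.ord f = 0 := by
  classical
  by_cases hfa : IsAlgebraic K f
  · exact Finset.sum_eq_zero (fun v _ => DNeZero.ord_eq_zero_of_isAlgebraic v hfa)
  have hft : Transcendental K f := hfa
  haveI := Transfer.finiteDimensional_adjoin_of_transcendental (K := K) x hft
  obtain ⟨hZ, hZsum⟩ := zerosOf_finite_sum f hft
  obtain ⟨hP, hPsum⟩ := Transfer.polesOf_finite_sum f hft
  have e1 : ∑ v ∈ hZ.toFinset, max (v.ord f) 0 = ∑ v ∈ S, max (v.ord f) 0 := by
    apply Finset.sum_subset
    · intro v hv
      have hv' : 0 < v.ord f := hZ.mem_toFinset.mp hv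
      exact hS v (by omega)
    · intro v _ hv
      have hv' : ¬ 0 < v.ord f := fun h => hv (hZ.mem_toFinset.mpr h)
      omega
  have e1' : ∑ v ∈ hZ.toFinset, max (v.ord f) 0 = ∑ v ∈ hZ.toFinset, v.ord f := by
    apply Finset.sum_congr rfl
    intro v hv
    have hv' : 0 < v.ord f := hZ.mem_toFinset.mp hv
    omega
  have e2 : ∑ v ∈ hP.toFinset, max (-v.ord f) 0 = ∑ v ∈ S, max (-v.ord f) 0 := by
    apply Finset.sum_subset
    · intro v hv
      have hv' : v.ord f < 0 := hP.mem_toFinset.mp hv
      exact hS v (by omega)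
    · intro v _ hv
      have hv' : ¬ v.ord f < 0 := fun h => hv (hP.mem_toFinset.mpr h)
      omega
  have e2' : ∑ v ∈ hP.toFinset, max (-v.ord f) 0 = ∑ v ∈ hP.toFinset, (-v.ord f) := by
    apply Finset.sum_congr rfl
    intro v hv
    have hv' : v.ord f < 0 := hP.mem_toFinset.mp hv
    omega
  have e3 : ∑ v ∈ S, v.ord f = ∑ v ∈ S, max (v.ord f) 0 - ∑ v ∈ S, max (-v.ord f) 0 := by
    rw [← Finset.sum_sub_distrib]
    apply Finset.sum_congr rfl
    intro v _
    omega
  rw [e3, ← e1, ← e2, e1', e2', hZsum, hPsum, sub_self]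

end Fermat.Agent.S24.ARest
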