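import Mathlib
import Fermat.Prelude.Def_AlgebraicCurve_DivisorClassGroup

/-!
# S24: a place from a `ℤ`-valued discrete valuation

`exists_place_of_val`: a function `val : F → ℤ` which is additive on products of nonzero elements,
satisfies the ultrametric inequality, vanishes on nonzero constants and is not identically zero on
`F \ {0}` is `e · ord_v` for a (unique) place `v` of `F/K` and a positive integer `e`.
-/

set_option autoImplicit false

namespace Fermat.Agent.S24.PlaceOfVal

open AlgebraicCurve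

variable {K F : Type*} [Field K] [Field F] [Algebra K F]

section Basic

variable (val : F → ℤ)
  (hmul : ∀ f g : F, f ≠ 0 → g ≠ 0 → val (f * g) = val f + val g)

include hmul

theorem val_one : val 1 = 0 := by
  have h := hmul 1 1 one_ne_zero one_ne_zero
  rw [mul_one] at h
  linarith

theorem val_inv {f : F} (hf : f ≠ 0) : val f⁻¹ = - val f := by
  have h := hmul f f⁻¹ hf (inv_ne_zero hf)
  rw [mul_inv_cancel₀ hf, val_one val hmul] at h
  linarith

theorem val_neg_one : val (-1) = 0 := by
  have h := hmul (-1) (-1) (neg_ne_zero.mpr one_ne_zero) (neg_ne_zero.mpr one_ne_zero)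
  rw [neg_one_mul, neg_neg, val_one val hmul] at h
  linarith

theorem val_neg {f : F} (hf : f ≠ 0) : val (-f) = val f := by
  have h := hmul (-1) f (neg_ne_zero.mpr one_ne_zero) hf
  rw [neg_one_mul, val_neg_one val hmul, zero_add] at h
  exact h

theorem val_zpow {f : F} (hf : f ≠ 0) (n : ℤ) : val (f ^ n) = n * val f := by
  induction n using Int.induction_on with
  | zero => simp [val_one val hmul]
  | succ n ih =>
    rw [zpow_add_one₀ hf, hmul _ _ (zpow_ne_zero _ hf) hf, ih]
    ring
  | pred n ih =>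
    rw [zpow_sub_one₀ hf, hmul _ _ (zpow_ne_zero _ hf) (inv_ne_zero hf), ih,
      val_inv val hmul hf]
    ring

end Basic

section Subring

variable (val : F → ℤ)
  (hmul : ∀ f g : F, f ≠ 0 → g ≠ 0 → val (f * g) = val f + val g)
  (hadd : ∀ f g : F, f ≠ 0 → g ≠ 0 → f + g ≠ 0 → min (val f) (val g) ≤ val (f + g))

/-- The valuation subring `{f | f = 0 ∨ 0 ≤ val f}`. -/
def valSubring : ValuationSubring F where
  carrier := {f | f = 0 ∨ 0 ≤ val f}
  mul_mem' := by
    intro a b ha hb
    by_cases ha0 : a = 0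
    · left; simp [ha0]
    by_cases hb0 : b = 0
    · left; simp [hb0]
    right
    rw [hmul a b ha0 hb0]
    have h1 := ha.resolve_left ha0
    have h2 := hb.resolve_left hb0
    omega
  one_mem' := Or.inr (by rw [val_one val hmul])
  add_mem' := by
    intro a b ha hb
    by_cases ha0 : a = 0
    · simpa [ha0] using hb
    by_cases hb0 : b = 0
    · simpa [hb0] using ha
    by_cases hab : a + b = 0
    · left; exact hab
    right
    have h1 := ha.resolve_left ha0
    have h2 := hb.resolve_left hb0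
    exact le_trans (le_min h1 h2) (hadd a b ha0 hb0 hab)
  zero_mem' := Or.inl rfl
  neg_mem' := by
    intro a ha
    by_cases ha0 : a = 0
    · left; simp [ha0]
    right
    rw [val_neg val hmul ha0]
    exact ha.resolve_left ha0
  mem_or_inv_mem' := by
    intro a
    by_cases ha0 : a = 0
    · left; left; exact ha0
    rcases le_total 0 (val a) with h | h
    · left; right; exact h
    · right; right
      rw [val_inv val hmul ha0]
      omega

theorem mem_valSubring {f : F} : f ∈ valSubring val hmul hadd ↔ f = 0 ∨ 0 ≤ val f := Iff.rfl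

theorem val_nonneg (a : valSubring val hmul hadd) (ha : (a : F) ≠ 0) : 0 ≤ val (a : F) :=
  a.2.resolve_left ha

theorem val_eq_zero_of_isUnit {a : valSubring val hmul hadd} (ha : IsUnit a) :
    val (a : F) = 0 := by
  obtain ⟨b, hb⟩ := ha.exists_right_inv
  have hbF : (a : F) * (b : F) = 1 := by
    have := congrArg Subtype.val hb
    simpa using this
  have ha0 : (a : F) ≠ 0 := left_ne_zero_of_mul_eq_one hbF
  have hb0 : (b : F) ≠ 0 := right_ne_zero_of_mul_eq_one hbF
  have h := hmul _ _ ha0 hb0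
  rw [hbF, val_one val hmul] at h
  have h1 := val_nonneg val hmul hadd a ha0
  have h2 := val_nonneg val hmul hadd b hb0
  omega

theorem isUnit_of_val_eq_zero {a : valSubring val hmul hadd} (ha0 : (a : F) ≠ 0)
    (ha : val (a : F) = 0) : IsUnit a := by
  have hmem : (a : F)⁻¹ ∈ valSubring val hmul hadd :=
    Or.inr (by rw [val_inv val hmul ha0, ha, neg_zero])
  refine IsUnit.of_mul_eq_one (⟨(a : F)⁻¹, hmem⟩ : valSubring val hmul hadd) ?_
  apply Subtype.ext
  show (a : F) * (a : F)⁻¹ = 1
  exact mul_inv_cancel₀ ha0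

theorem isPrincipalIdealRing_valSubring : IsPrincipalIdealRing (valSubring val hmul hadd) := by
  classical
  refine ⟨fun I => ?_⟩
  by_cases hI : I = ⊥
  · exact ⟨0, by rw [hI]; simp⟩
  obtain ⟨a₀, ha₀I, ha₀⟩ := Submodule.exists_mem_ne_zero_of_ne_bot hI
  have hex : ∃ n : ℕ, ∃ a : valSubring val hmul hadd, a ∈ I ∧ a ≠ 0 ∧ val (a : F) = n := by
    have ha₀F : (a₀ : F) ≠ 0 := fun h => ha₀ (Subtype.ext h)
    refine ⟨(val (a₀ : F)).toNat, a₀, ha₀I, ha₀, ?_⟩
    rw [Int.toNat_of_nonneg (val_nonneg val hmul hadd a₀ ha₀F)]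
  obtain ⟨a, haI, ha0, hva⟩ := Nat.find_spec hex
  have hmin := fun m (hm : m < Nat.find hex) => Nat.find_min hex hm
  have haF : (a : F) ≠ 0 := fun h => ha0 (Subtype.ext h)
  refine ⟨a, le_antisymm ?_ ?_⟩
  · intro b hb
    by_cases hb0 : b = 0
    · rw [hb0]; exact zero_mem _
    have hbF : (b : F) ≠ 0 := fun h => hb0 (Subtype.ext h)
    have hle : val (a : F) ≤ val (b : F) := by
      by_contra hlt
      push Not at hlt
      have hnn := val_nonneg val hmul hadd b hbF
      have hlt' : (val (b : F)).toNat < Nat.find hex := by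
        have : ((val (b : F)).toNat : ℤ) < (Nat.find hex : ℤ) := by
          rw [Int.toNat_of_nonneg hnn, ← hva]; exact hlt
        exact_mod_cast this
      exact hmin _ hlt' ⟨b, hb, hb0, (Int.toNat_of_nonneg hnn).symm⟩
    have hc : (b : F) * (a : F)⁻¹ ∈ valSubring val hmul hadd := by
      right
      rw [hmul _ _ hbF (inv_ne_zero haF), val_inv val hmul haF]
      omega
    have hbc : b = (⟨(b : F) * (a : F)⁻¹, hc⟩ : valSubring val hmul hadd) * a := by
      apply Subtype.ext
      show (b : F) = (b : F) * (a : F)⁻¹ * (a : F)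
      rw [mul_assoc, inv_mul_cancel₀ haF, mul_one]
    rw [hbc]
    exact Submodule.smul_mem _ _ (Submodule.subset_span rfl)
  · rw [Submodule.span_le]
    intro x hx
    rw [Set.mem_singleton_iff] at hx
    rw [hx]
    exact haI

/-- The place attached to `val`. -/
def placeOfVal (hK : ∀ c : K, c ≠ 0 → val (algebraMap K F c) = 0)
    (hne : ∃ f : F, f ≠ 0 ∧ val f ≠ 0) : Place K F where
  toValuationSubring := valSubring val hmul hadd
  algebraMap_mem' := fun a => by
    by_cases ha : a = 0
    · left; simp [ha]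
    · right; rw [hK a ha]
  ne_top' := by
    obtain ⟨f, hf, hvf⟩ := hne
    intro htop
    have h1 : f ∈ valSubring val hmul hadd := by rw [htop]; trivial
    have h2 : f⁻¹ ∈ valSubring val hmul hadd := by rw [htop]; trivial
    have h1' := h1.resolve_left hf
    have h2' := h2.resolve_left (inv_ne_zero hf)
    rw [val_inv val hmul hf] at h2'
    omega
  isPrincipalIdealRing' := isPrincipalIdealRing_valSubring val hmul hadd

theorem placeOfVal_toValuationSubring (hK : ∀ c : K, c ≠ 0 → val (algebraMap K F c) = 0)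
    (hne : ∃ f : F, f ≠ 0 ∧ val f ≠ 0) :
    (placeOfVal val hmul hadd hK hne).toValuationSubring = valSubring val hmul hadd := rfl

include hmul in
/-- The positive generator `e` of the value group, with an element `π` of value `e`. -/
theorem exists_min_pos (hne : ∃ f : F, f ≠ 0 ∧ val f ≠ 0) :
    ∃ (e : ℕ) (π : F), 0 < e ∧ π ≠ 0 ∧ val π = e ∧ ∀ f : F, f ≠ 0 → (e : ℤ) ∣ val f := by
  classical
  have hex : ∃ n : ℕ, 0 < n ∧ ∃ f : F, f ≠ 0 ∧ val f = n := by
    obtain ⟨f, hf, hvf⟩ := hne
    rcases lt_or_gt_of_ne hvf with h | h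
    · refine ⟨(- val f).toNat, ?_, f⁻¹, inv_ne_zero hf, ?_⟩
      · omega
      · rw [val_inv val hmul hf, Int.toNat_of_nonneg (by omega)]
    · refine ⟨(val f).toNat, ?_, f, hf, ?_⟩
      · omega
      · rw [Int.toNat_of_nonneg (by omega)]
  obtain ⟨hepos, π, hπ0, hπ⟩ := Nat.find_spec hex
  refine ⟨Nat.find hex, π, hepos, hπ0, hπ, fun f hf => ?_⟩
  have hepos' : (0 : ℤ) < (Nat.find hex : ℤ) := by exact_mod_cast hepos
  apply Int.dvd_of_emod_eq_zero
  by_contra hr
  have hr1 : 0 ≤ val f % (Nat.find hex : ℤ) := Int.emod_nonneg _ hepos'.ne'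
  have hr2 : val f % (Nat.find hex : ℤ) < (Nat.find hex : ℤ) := Int.emod_lt_of_pos _ hepos'
  have hg : val (f * π ^ (-(val f / (Nat.find hex : ℤ)))) = val f % (Nat.find hex : ℤ) := by
    rw [hmul _ _ hf (zpow_ne_zero _ hπ0), val_zpow val hmul hπ0, hπ, Int.emod_def]
    ring
  have hlt : (val f % (Nat.find hex : ℤ)).toNat < Nat.find hex := by
    have : ((val f % (Nat.find hex : ℤ)).toNat : ℤ) < (Nat.find hex : ℤ) := by
      rw [Int.toNat_of_nonneg hr1]; exact hr2
    exact_mod_cast this
  refine Nat.find_min hex hlt ⟨?_, f * π ^ (-(val f / (Nat.find hex : ℤ))),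
    mul_ne_zero hf (zpow_ne_zero _ hπ0), ?_⟩
  · have : (0 : ℤ) < ((val f % (Nat.find hex : ℤ)).toNat : ℤ) := by
      rw [Int.toNat_of_nonneg hr1]
      exact lt_of_le_of_ne hr1 (Ne.symm hr)
    exact_mod_cast this
  · rw [hg, Int.toNat_of_nonneg hr1]

theorem irreducible_of_val_eq {e : ℕ} (he : 0 < e) (hdvd : ∀ f : F, f ≠ 0 → (e : ℤ) ∣ val f)
    (π : valSubring val hmul hadd) (hπ0 : (π : F) ≠ 0) (hπ : val (π : F) = e) :
    Irreducible π := by
  have he' : (0 : ℤ) < (e : ℤ) := by exact_mod_cast he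
  refine ⟨fun hu => ?_, fun a b hab => ?_⟩
  · have := val_eq_zero_of_isUnit val hmul hadd hu
    omega
  · have habF : (π : F) = (a : F) * (b : F) := by
      have := congrArg Subtype.val hab
      simpa using this
    have ha0 : (a : F) ≠ 0 := by
      intro h; rw [h, zero_mul] at habF; exact hπ0 habF
    have hb0 : (b : F) ≠ 0 := by
      intro h; rw [h, mul_zero] at habF; exact hπ0 habF
    have hsum : val (a : F) + val (b : F) = e := by
      rw [← hmul _ _ ha0 hb0, ← habF, hπ]
    have h1 := val_nonneg val hmul hadd a ha0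
    have h2 := val_nonneg val hmul hadd b hb0
    obtain ⟨k, hk⟩ := hdvd _ ha0
    obtain ⟨l, hl⟩ := hdvd _ hb0
    have hk0 : 0 ≤ k := by
      by_contra hneg
      push Not at hneg
      have : (e : ℤ) * k < 0 := mul_neg_of_pos_of_neg he' hneg
      omega
    have hl0 : 0 ≤ l := by
      by_contra hneg
      push Not at hneg
      have : (e : ℤ) * l < 0 := mul_neg_of_pos_of_neg he' hneg
      omega
    have hkl : k + l = 1 := by
      have : (e : ℤ) * (k + l) = (e : ℤ) * 1 := by rw [mul_add, ← hk, ← hl, hsum, mul_one]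
      exact mul_left_cancel₀ he'.ne' this
    rcases (by omega : k = 0 ∨ l = 0) with h | h
    · left
      exact isUnit_of_val_eq_zero val hmul hadd ha0 (by rw [hk, h, mul_zero])
    · right
      exact isUnit_of_val_eq_zero val hmul hadd hb0 (by rw [hl, h, mul_zero])

end Subring

/-- **Place from a discrete valuation.** -/
theorem exists_place_of_val (val : F → ℤ)
    (hmul : ∀ f g : F, f ≠ 0 → g ≠ 0 → val (f * g) = val f + val g)
    (hadd : ∀ f g : F, f ≠ 0 → g ≠ 0 → f + g ≠ 0 → min (val f) (val g) ≤ val (f + g))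
    (hK : ∀ c : K, c ≠ 0 → val (algebraMap K F c) = 0)
    (hne : ∃ f : F, f ≠ 0 ∧ val f ≠ 0) :
    ∃ (v : Place K F) (e : ℕ), 0 < e ∧ ∀ f : F, f ≠ 0 → val f = e * v.ord f := by
  obtain ⟨e, π, he, hπ0, hπ, hdvd⟩ := exists_min_pos val hmul hne
  have hπmem : π ∈ valSubring val hmul hadd := Or.inr (by rw [hπ]; positivity)
  have hirr : Irreducible (⟨π, hπmem⟩ : valSubring val hmul hadd) :=
    irreducible_of_val_eq val hmul hadd he hdvd ⟨π, hπmem⟩ hπ0 hπ
  refine ⟨placeOfVal val hmul hadd hK hne, e, he, fun f hf => ?_⟩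
  have hirr' : Irreducible
      (⟨π, hπmem⟩ : (placeOfVal val hmul hadd hK hne).toValuationSubring) := hirr
  obtain ⟨u, hu⟩ := (placeOfVal val hmul hadd hK hne).exists_unit_mul_zpow hf hirr'
  have hunit : IsUnit (u : (placeOfVal val hmul hadd hK hne).toValuationSubring) := u.isUnit
  have hu0 : val ((u : (placeOfVal val hmul hadd hK hne).toValuationSubring) : F) = 0 :=
    val_eq_zero_of_isUnit val hmul hadd hunit
  have huF : ((u : (placeOfVal val hmul hadd hK hne).toValuationSubring) : F) ≠ 0 := by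
    intro h
    rw [h, zero_mul] at hu
    exact hf hu
  conv_lhs => rw [hu]
  rw [hmul _ _ huF (zpow_ne_zero _ hπ0), hu0, zero_add, val_zpow val hmul hπ0, hπ]
  ring

/-- Variant returning the explicit valuation ring. -/
theorem exists_place_of_val' (val : F → ℤ)
    (hmul : ∀ f g : F, f ≠ 0 → g ≠ 0 → val (f * g) = val f + val g)
    (hadd : ∀ f g : F, f ≠ 0 → g ≠ 0 → f + g ≠ 0 → min (val f) (val g) ≤ val (f + g))
    (hK : ∀ c : K, c ≠ 0 → val (algebraMap K F c) = 0)
    (hne : ∃ f : F, f ≠ 0 ∧ val f ≠ 0) :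
    ∃ (v : Place K F) (e : ℕ), 0 < e ∧ (∀ f : F, f ≠ 0 → val f = e * v.ord f) ∧
      ∀ f : F, f ∈ v.toValuationSubring ↔ f = 0 ∨ 0 ≤ val f := by
  obtain ⟨e, π, he, hπ0, hπ, hdvd⟩ := exists_min_pos val hmul hne
  have hπmem : π ∈ valSubring val hmul hadd := Or.inr (by rw [hπ]; positivity)
  have hirr : Irreducible (⟨π, hπmem⟩ : valSubring val hmul hadd) :=
    irreducible_of_val_eq val hmul hadd he hdvd ⟨π, hπmem⟩ hπ0 hπ
  refine ⟨placeOfVal val hmul hadd hK hne, e, he, fun f hf => ?_, fun f => Iff.rfl⟩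
  have hirr' : Irreducible
      (⟨π, hπmem⟩ : (placeOfVal val hmul hadd hK hne).toValuationSubring) := hirr
  obtain ⟨u, hu⟩ := (placeOfVal val hmul hadd hK hne).exists_unit_mul_zpow hf hirr'
  have hunit : IsUnit (u : (placeOfVal val hmul hadd hK hne).toValuationSubring) := u.isUnit
  have hu0 : val ((u : (placeOfVal val hmul hadd hK hne).toValuationSubring) : F) = 0 :=
    val_eq_zero_of_isUnit val hmul hadd hunit
  have huF : ((u : (placeOfVal val hmul hadd hK hne).toValuationSubring) : F) ≠ 0 := by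
    intro h
    rw [h, zero_mul] at hu
    exact hf hu
  conv_lhs => rw [hu]
  rw [hmul _ _ huF (zpow_ne_zero _ hπ0), hu0, zero_add, val_zpow val hmul hπ0, hπ]
  ring

end Fermat.Agent.S24.PlaceOfVal
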