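import Mathlib
import Fermat.Agent.S24.ModDefs

/-!
# S24, package B-CUSP (function level): orders at `i∞`

Limit calculus for `ordInf` / `MerInf` of `Fermat.Agent.S24.ModDefs`.

* `HasOrdInf h G m` : `q_h ^ (-m) * G` tends to a nonzero limit at `i∞`.
* uniqueness, `HasOrdInf.ordInf_eq`, products, inverses, sums, change of period,
  translations, affine substitutions `z ↦ (a z + b) / d`;
* `MerInf.exists_hasOrdInf` : a nonzero `MerInf` function has an order;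
* `MerInf.dvd_ordInf` : divisibility of the order for functions of smaller period.
-/

set_option autoImplicit false

open UpperHalfPlane ModularForm Filter Function
open scoped MatrixGroups Manifold Topology

noncomputable section

namespace Fermat.Agent.S24.OrdInf

local notation "𝕢" => Function.Periodic.qParam

/-- `G` has order `m` at `i∞` with respect to `q_h = exp(2πiz/h)`. -/
def HasOrdInf (h : ℕ) (G : ℍ → ℂ) (m : ℤ) : Prop :=
  ∃ c : ℂ, c ≠ 0 ∧ Tendsto (fun z : ℍ => 𝕢 (h : ℝ) z ^ (-m) * G z) atImInfty (𝓝 c)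

theorem qParam_ne_zero (h : ℕ) (z : ℍ) : 𝕢 (h : ℝ) (z : ℂ) ≠ 0 :=
  Function.Periodic.qParam_ne_zero _

theorem tendsto_qParam_zpow {h : ℕ} (hh : 0 < h) {k : ℤ} (hk : 0 < k) :
    Tendsto (fun z : ℍ => 𝕢 (h : ℝ) z ^ k) atImInfty (𝓝 0) := by
  obtain ⟨n, rfl⟩ := Int.eq_ofNat_of_zero_le hk.le
  have hn : n ≠ 0 := by rintro rfl; simp at hk
  have := (qParam_tendsto_atImInfty (h := (h : ℝ)) (by exact_mod_cast hh)).pow n
  simpa [zero_pow hn] using this

theorem HasOrdInf.tendsto_zero_of_lt {h : ℕ} (hh : 0 < h) {G : ℍ → ℂ} {m k : ℤ}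
    (hG : HasOrdInf h G m) (hk : k < m) :
    Tendsto (fun z : ℍ => 𝕢 (h : ℝ) z ^ (-k) * G z) atImInfty (𝓝 0) := by
  obtain ⟨c, hc, ht⟩ := hG
  have h1 := (tendsto_qParam_zpow hh (sub_pos.mpr hk)).mul ht
  rw [zero_mul] at h1
  refine h1.congr fun z => ?_
  rw [← mul_assoc, ← zpow_add₀ (qParam_ne_zero h z)]
  congr 2
  ring

theorem HasOrdInf.unique {h : ℕ} (hh : 0 < h) {G : ℍ → ℂ} {m m' : ℤ}
    (hG : HasOrdInf h G m) (hG' : HasOrdInf h G m') : m = m' := by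
  by_contra hne
  rcases lt_or_gt_of_ne hne with hlt | hlt
  · obtain ⟨c, hc, ht⟩ := hG
    exact hc (tendsto_nhds_unique ht (hG'.tendsto_zero_of_lt hh hlt))
  · obtain ⟨c, hc, ht⟩ := hG'
    exact hc (tendsto_nhds_unique ht (hG.tendsto_zero_of_lt hh hlt))

theorem HasOrdInf.ordInf_eq {h : ℕ} (hh : 0 < h) {G : ℍ → ℂ} {m : ℤ} (hG : HasOrdInf h G m) :
    ordInf h G = m := by
  have hex : ∃ m : ℤ, ∃ c : ℂ, c ≠ 0 ∧
      Tendsto (fun z : ℍ => 𝕢 (h : ℝ) z ^ (-m) * G z) atImInfty (𝓝 c) := ⟨m, hG⟩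
  unfold ordInf
  rw [dif_pos hex]
  exact HasOrdInf.unique hh hex.choose_spec hG

theorem HasOrdInf.ne_zero {h : ℕ} {G : ℍ → ℂ} {m : ℤ} (hG : HasOrdInf h G m) : G ≠ 0 := by
  rintro rfl
  obtain ⟨c, hc, ht⟩ := hG
  apply hc
  have h0 : Tendsto (fun z : ℍ => 𝕢 (h : ℝ) z ^ (-m) * (0 : ℍ → ℂ) z) atImInfty (𝓝 0) := by
    simp
  exact tendsto_nhds_unique ht h0

theorem hasOrdInf_const (h : ℕ) {c : ℂ} (hc : c ≠ 0) : HasOrdInf h (fun _ => c) 0 :=
  ⟨c, hc, by simp⟩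

theorem HasOrdInf.mul {h : ℕ} {G G' : ℍ → ℂ} {m m' : ℤ}
    (hG : HasOrdInf h G m) (hG' : HasOrdInf h G' m') : HasOrdInf h (G * G') (m + m') := by
  obtain ⟨c, hc, ht⟩ := hG
  obtain ⟨c', hc', ht'⟩ := hG'
  refine ⟨c * c', mul_ne_zero hc hc', (ht.mul ht').congr fun z => ?_⟩
  rw [neg_add, zpow_add₀ (qParam_ne_zero h z), Pi.mul_apply]
  ring

theorem HasOrdInf.inv {h : ℕ} {G : ℍ → ℂ} {m : ℤ}
    (hG : HasOrdInf h G m) : HasOrdInf h (fun z => (G z)⁻¹) (-m) := by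
  obtain ⟨c, hc, ht⟩ := hG
  refine ⟨c⁻¹, inv_ne_zero hc, (ht.inv₀ hc).congr fun z => ?_⟩
  rw [mul_inv, ← zpow_neg]

theorem HasOrdInf.pow {h : ℕ} {G : ℍ → ℂ} {m : ℤ}
    (hG : HasOrdInf h G m) (n : ℕ) : HasOrdInf h (G ^ n) (n * m) := by
  induction n with
  | zero =>
    simp only [pow_zero, Nat.cast_zero, zero_mul]
    exact hasOrdInf_const h one_ne_zero
  | succ n ih =>
    have := ih.mul hG
    rw [pow_succ]
    convert this using 1
    push_cast
    ring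

theorem HasOrdInf.congr {h : ℕ} {G G' : ℍ → ℂ} {m : ℤ}
    (hG : HasOrdInf h G m) (hGG' : ∀ z, G z = G' z) : HasOrdInf h G' m := by
  have : G = G' := funext hGG'
  rwa [← this]

/-- The order of a sum is at least the minimum of the orders. -/
theorem HasOrdInf.min_le_add {h : ℕ} (hh : 0 < h) {G G' : ℍ → ℂ} {m₁ m₂ m : ℤ}
    (hG : HasOrdInf h G m₁) (hG' : HasOrdInf h G' m₂) (hS : HasOrdInf h (G + G') m) :
    min m₁ m₂ ≤ m := by
  by_contra hlt
  rw [not_le, lt_min_iff] at hlt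
  obtain ⟨c, hc, ht⟩ := hS
  have h1 := (hG.tendsto_zero_of_lt hh hlt.1).add (hG'.tendsto_zero_of_lt hh hlt.2)
  rw [add_zero] at h1
  apply hc
  refine tendsto_nhds_unique ht (h1.congr fun z => ?_)
  rw [Pi.add_apply]
  ring

/-! ### Change of period -/

theorem qParam_mul_pow (h k : ℕ) (hk : 0 < k) (z : ℂ) :
    𝕢 ((h * k : ℕ) : ℝ) z ^ k = 𝕢 (h : ℝ) z := by
  unfold Function.Periodic.qParam
  rw [← Complex.exp_nat_mul]
  congr 1
  have hk' : (k : ℂ) ≠ 0 := by exact_mod_cast hk.ne'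
  push_cast
  by_cases hh : (h : ℂ) = 0
  · simp [hh]
  · field_simp

theorem hasOrdInf_mul_iff {h k : ℕ} (hk : 0 < k) {G : ℍ → ℂ} {m : ℤ} :
    HasOrdInf (h * k) G (k * m) ↔ HasOrdInf h G m := by
  have key : ∀ z : ℍ, 𝕢 ((h * k : ℕ) : ℝ) z ^ (-((k : ℤ) * m)) = 𝕢 (h : ℝ) z ^ (-m) := by
    intro z
    rw [← qParam_mul_pow h k hk, ← zpow_natCast, ← zpow_mul]
    congr 1
    ring
  unfold HasOrdInf
  simp only [key]

theorem HasOrdInf.mul_period {h : ℕ} {G : ℍ → ℂ} {m : ℤ} (hG : HasOrdInf h G m) {k : ℕ}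
    (hk : 0 < k) : HasOrdInf (h * k) G (k * m) :=
  (hasOrdInf_mul_iff hk).mpr hG

theorem ordInf_zero (h : ℕ) : ordInf h (0 : ℍ → ℂ) = 0 := by
  unfold ordInf
  rw [dif_neg]
  rintro ⟨m, hm⟩
  exact HasOrdInf.ne_zero (h := h) (m := m) hm rfl

/-! ### Affine substitutions `z ↦ (a z + x) / d` -/

theorem tendsto_affine_atImInfty {a d : ℕ} (ha : 0 < a) (hd : 0 < d) {x : ℝ} (s : ℍ → ℍ)
    (hs : ∀ z : ℍ, ((s z : ℍ) : ℂ) = ((a : ℂ) * z + x) / d) :
    Tendsto s atImInfty atImInfty := by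
  have him : ∀ z : ℍ, (s z).im = (a : ℝ) * z.im / d := by
    intro z
    have h1 : (s z).im = ((s z : ℍ) : ℂ).im := rfl
    rw [h1, hs z]
    have h2 : ((a : ℂ) * z + x) / d = ((a : ℝ) * (z : ℂ) + (x : ℂ)) * (((d : ℝ)⁻¹ : ℝ) : ℂ) := by
      push_cast
      rw [div_eq_mul_inv]
    rw [h2, Complex.mul_im]
    simp only [Complex.add_im, Complex.mul_im, Complex.ofReal_re, Complex.ofReal_im,
      Complex.add_re, Complex.mul_re, zero_mul, add_zero, mul_zero, sub_zero]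
    have : ((z : ℂ)).im = z.im := rfl
    rw [this]
    field_simp
    ring
  unfold atImInfty
  rw [tendsto_comap_iff]
  have h3 : (im ∘ s) = fun z : ℍ => (a : ℝ) * z.im / d := funext him
  rw [h3]
  have ha' : (0 : ℝ) < a := by exact_mod_cast ha
  have hd' : (0 : ℝ) < d := by exact_mod_cast hd
  exact (tendsto_comap.const_mul_atTop ha').atTop_div_const hd'

theorem qParam_affine {h a d : ℕ} (hh : 0 < h) (hd : 0 < d) (x : ℝ) (z w : ℂ)
    (hw : w = ((a : ℂ) * z + x) / d) :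
    𝕢 (h : ℝ) w = 𝕢 ((h * d : ℕ) : ℝ) z ^ a *
      Complex.exp (2 * Real.pi * Complex.I * x / ((h * d : ℕ) : ℝ)) := by
  unfold Function.Periodic.qParam
  rw [← Complex.exp_nat_mul, ← Complex.exp_add, hw]
  congr 1
  have hh' : (h : ℂ) ≠ 0 := by exact_mod_cast hh.ne'
  have hd' : (d : ℂ) ≠ 0 := by exact_mod_cast hd.ne'
  push_cast
  field_simp

/-- Orders under `z ↦ (a z + x) / d`. -/
theorem HasOrdInf.comp_affine {h a d : ℕ} (hh : 0 < h) (ha : 0 < a) (hd : 0 < d) {x : ℝ}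
    {G : ℍ → ℂ} {m : ℤ} (hG : HasOrdInf h G m) (s : ℍ → ℍ)
    (hs : ∀ z : ℍ, ((s z : ℍ) : ℂ) = ((a : ℂ) * z + x) / d) :
    HasOrdInf (h * d) (fun z => G (s z)) (a * m) := by
  obtain ⟨c, hc, ht⟩ := hG
  set ζ : ℂ := Complex.exp (2 * Real.pi * Complex.I * x / ((h * d : ℕ) : ℝ)) with hζ
  have hζ0 : ζ ≠ 0 := Complex.exp_ne_zero _
  have h1 := ht.comp (tendsto_affine_atImInfty ha hd s hs)
  refine ⟨ζ ^ m * c, mul_ne_zero (zpow_ne_zero _ hζ0) hc, (h1.const_mul (ζ ^ m)).congr fun z => ?_⟩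
  have hq := qParam_affine (h := h) (a := a) hh hd x (z : ℂ) (s z : ℂ) (hs z)
  rw [← hζ] at hq
  simp only [Function.comp_apply]
  have hζm : ζ ^ m ≠ 0 := zpow_ne_zero _ hζ0
  rw [hq, mul_zpow, ← zpow_natCast, ← zpow_mul, mul_neg, zpow_neg ζ m]
  field_simp

/-- Orders are invariant under real translations. -/
theorem HasOrdInf.comp_shift {h : ℕ} (hh : 0 < h) {x : ℝ} {G : ℍ → ℂ} {m : ℤ}
    (hG : HasOrdInf h G m) (s : ℍ → ℍ) (hs : ∀ z : ℍ, ((s z : ℍ) : ℂ) = z + x) :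
    HasOrdInf h (fun z => G (s z)) m := by
  have h1 := hG.comp_affine (a := 1) (d := 1) hh one_pos one_pos (x := x) s
    (by intro z; rw [hs z]; simp)
  simpa using h1

/-! ### `MerInf` -/

theorem norm_qParam_le_one (h : ℕ) (z : ℍ) : ‖𝕢 (h : ℝ) (z : ℂ)‖ ≤ 1 := by
  rw [Function.Periodic.norm_qParam]
  apply Real.exp_le_one_iff.mpr
  have h1 : 0 ≤ 2 * Real.pi * (z : ℂ).im / (h : ℝ) := by
    have : 0 < (z : ℂ).im := z.im_pos
    positivity
  have h2 : -2 * Real.pi * (z : ℂ).im / (h : ℝ) = -(2 * Real.pi * (z : ℂ).im / (h : ℝ)) := by ring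
  rw [h2]
  linarith

theorem isBounded_qParam_pow_mul {h : ℕ} {G : ℍ → ℂ} {M : ℕ}
    (hb : IsBoundedAtImInfty (fun z : ℍ => 𝕢 (h : ℝ) z ^ M * G z)) {M' : ℕ} (hM : M ≤ M') :
    IsBoundedAtImInfty (fun z : ℍ => 𝕢 (h : ℝ) z ^ M' * G z) := by
  rw [isBoundedAtImInfty_iff] at hb ⊢
  obtain ⟨C, A, hCA⟩ := hb
  refine ⟨C, A, fun z hz => ?_⟩
  obtain ⟨j, rfl⟩ := Nat.exists_eq_add_of_le hM
  have h1 := hCA z hz
  have h2 : ‖𝕢 (h : ℝ) (z : ℂ) ^ j‖ ≤ 1 := by
    rw [norm_pow]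
    exact pow_le_one₀ (norm_nonneg _) (norm_qParam_le_one h z)
  calc ‖𝕢 (h : ℝ) (z : ℂ) ^ (M + j) * G z‖
      = ‖𝕢 (h : ℝ) (z : ℂ) ^ j‖ * ‖𝕢 (h : ℝ) (z : ℂ) ^ M * G z‖ := by
        rw [← norm_mul]; congr 1; ring
    _ ≤ 1 * C := mul_le_mul h2 h1 (norm_nonneg _) zero_le_one
    _ = C := one_mul C

theorem mdiff_qParam_pow (h : ℕ) (M : ℕ) : MDiff (fun z : ℍ => 𝕢 (h : ℝ) (z : ℂ) ^ M) := by
  rw [UpperHalfPlane.mdifferentiable_iff]
  have hd : DifferentiableOn ℂ (fun w : ℂ => 𝕢 (h : ℝ) w ^ M) {z | 0 < z.im} :=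
    ((Function.Periodic.differentiable_qParam (h := (h : ℝ))).pow M).differentiableOn
  refine hd.congr fun w hw => ?_
  simp only [Function.comp_apply]
  rw [ofComplex_apply_of_im_pos hw]

theorem periodic_qParam_comp_ofComplex (h : ℕ) (M : ℕ) :
    Periodic ((fun z : ℍ => 𝕢 (h : ℝ) (z : ℂ) ^ M) ∘ ofComplex) ((h : ℝ) : ℂ) := by
  intro w
  simp only [Function.comp_apply]
  by_cases hw : 0 < w.im
  · have hw' : 0 < (w + ((h : ℝ) : ℂ)).im := by simpa using hw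
    rw [ofComplex_apply_of_im_pos hw, ofComplex_apply_of_im_pos hw']
    congr 1
    unfold Function.Periodic.qParam
    by_cases hh : (h : ℂ) = 0
    · have : (h : ℝ) = 0 := by exact_mod_cast hh
      simp [this]
    · have h1 : 2 * (Real.pi : ℂ) * Complex.I * (w + ((h : ℝ) : ℂ)) / ((h : ℝ) : ℂ)
          = 2 * Real.pi * Complex.I * w / ((h : ℝ) : ℂ) + 2 * Real.pi * Complex.I := by
        push_cast
        field_simp
      show Complex.exp (2 * (Real.pi : ℂ) * Complex.I * (w + ((h : ℝ) : ℂ)) / ((h : ℝ) : ℂ))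
        = Complex.exp (2 * Real.pi * Complex.I * w / ((h : ℝ) : ℂ))
      rw [h1, Complex.exp_add, Complex.exp_two_pi_mul_I, mul_one]
  · have hw0 : w.im ≤ 0 := not_lt.mp hw
    have hw' : (w + ((h : ℝ) : ℂ)).im ≤ 0 := by simpa using hw0
    rw [ofComplex_apply_eq_of_im_nonpos hw' hw0]

theorem merInf_const (h : ℕ) (c : ℂ) : MerInf h (fun _ => c) := by
  refine ⟨mdifferentiable_const, fun w => rfl, 0, ?_⟩
  rw [isBoundedAtImInfty_iff]
  exact ⟨‖c‖, 0, fun z _ => by simp⟩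

theorem MerInf.add {h : ℕ} {G G' : ℍ → ℂ} (hG : MerInf h G) (hG' : MerInf h G') :
    MerInf h (G + G') := by
  obtain ⟨hmd, hper, M, hb⟩ := hG
  obtain ⟨hmd', hper', M', hb'⟩ := hG'
  refine ⟨hmd.add hmd', hper.add hper', M + M', ?_⟩
  have h1 := isBounded_qParam_pow_mul hb (Nat.le_add_right M M')
  have h2 := isBounded_qParam_pow_mul hb' (Nat.le_add_left M' M)
  have h3 := h1.add h2
  refine h3.congr' (Eventually.of_forall fun z => ?_) (EventuallyEq.refl _ _)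
  simp only [Pi.add_apply]
  ring

theorem MerInf.mul {h : ℕ} {G G' : ℍ → ℂ} (hG : MerInf h G) (hG' : MerInf h G') :
    MerInf h (G * G') := by
  obtain ⟨hmd, hper, M, hb⟩ := hG
  obtain ⟨hmd', hper', M', hb'⟩ := hG'
  refine ⟨hmd.mul hmd', hper.mul hper', M + M', ?_⟩
  have h3 := hb.mul hb'
  refine h3.congr' (Eventually.of_forall fun z => ?_) (EventuallyEq.refl _ _)
  simp only [Pi.mul_apply]
  ring

theorem MerInf.neg {h : ℕ} {G : ℍ → ℂ} (hG : MerInf h G) : MerInf h (-G) := by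
  have h1 := MerInf.mul (merInf_const h (-1)) hG
  have h2 : ((fun _ => (-1 : ℂ)) * G : ℍ → ℂ) = -G := by
    funext z
    simp
  rwa [h2] at h1

theorem MerInf.sub {h : ℕ} {G G' : ℍ → ℂ} (hG : MerInf h G) (hG' : MerInf h G') :
    MerInf h (G - G') := by
  rw [sub_eq_add_neg]
  exact MerInf.add hG (MerInf.neg hG')

theorem MerInf.pow {h : ℕ} {G : ℍ → ℂ} (hG : MerInf h G) (n : ℕ) : MerInf h (G ^ n) := by
  induction n with
  | zero =>
    simp only [pow_zero]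
    exact merInf_const h 1
  | succ n ih =>
    rw [pow_succ]
    exact MerInf.mul ih hG

theorem merInf_sum {h : ℕ} {ι : Type*} (s : Finset ι) (G : ι → ℍ → ℂ)
    (hG : ∀ i ∈ s, MerInf h (G i)) : MerInf h (∑ i ∈ s, G i) := by
  classical
  induction s using Finset.induction_on with
  | empty =>
    simp only [Finset.sum_empty]
    exact merInf_const h 0
  | insert i s hi ih =>
    rw [Finset.sum_insert hi]
    exact MerInf.add (hG i (Finset.mem_insert_self i s))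
      (ih fun j hj => hG j (Finset.mem_insert_of_mem hj))

theorem merInf_prod {h : ℕ} {ι : Type*} (s : Finset ι) (G : ι → ℍ → ℂ)
    (hG : ∀ i ∈ s, MerInf h (G i)) : MerInf h (∏ i ∈ s, G i) := by
  classical
  induction s using Finset.induction_on with
  | empty =>
    simp only [Finset.prod_empty]
    exact merInf_const h 1
  | insert i s hi ih =>
    rw [Finset.prod_insert hi]
    exact MerInf.mul (hG i (Finset.mem_insert_self i s))
      (ih fun j hj => hG j (Finset.mem_insert_of_mem hj))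

theorem MerInf.mul_period {h : ℕ} {G : ℍ → ℂ} (hG : MerInf h G) {k : ℕ} (hk : 0 < k) :
    MerInf (h * k) G := by
  obtain ⟨hmd, hper, M, hb⟩ := hG
  refine ⟨hmd, ?_, M * k, ?_⟩
  · have := hper.nat_mul k
    have h2 : (((h * k : ℕ) : ℝ) : ℂ) = (k : ℂ) * ((h : ℝ) : ℂ) := by push_cast; ring
    rw [h2]
    exact this
  · refine hb.congr' (Eventually.of_forall fun z => ?_) (EventuallyEq.refl _ _)
    show 𝕢 (h : ℝ) (z : ℂ) ^ M * G z = 𝕢 ((h * k : ℕ) : ℝ) (z : ℂ) ^ (M * k) * G z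
    rw [← qParam_mul_pow h k hk, ← pow_mul, mul_comm k M]

/-- A nonzero function which is meromorphic at `i∞` has an order there. -/
theorem MerInf.exists_hasOrdInf {h : ℕ} (hh : 0 < h) {G : ℍ → ℂ} (hG : MerInf h G)
    (hne : G ≠ 0) : ∃ m : ℤ, HasOrdInf h G m := by
  obtain ⟨hmd, hper, M, hbd⟩ := hG
  set B : ℍ → ℂ := fun z => 𝕢 (h : ℝ) z ^ M * G z with hB
  have hh' : (0 : ℝ) < (h : ℝ) := by exact_mod_cast hh
  have hBper : Periodic (B ∘ ofComplex) (h : ℝ) :=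
    (periodic_qParam_comp_ofComplex h M).mul hper
  have hBmd : MDiff B := (mdiff_qParam_pow h M).mul hmd
  have han := analyticAt_cuspFunction_zero hh' hBper hBmd hbd
  have hBne : B ≠ 0 := by
    intro h0
    apply hne
    funext z
    have := congrFun h0 z
    simp only [hB, Pi.zero_apply, mul_eq_zero] at this
    rcases this with h1 | h1
    · exact absurd (pow_eq_zero_iff (n := M) (by
        rintro rfl
        simp at h1) |>.mp h1) (qParam_ne_zero h z)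
    · exact h1
  have hnot : ¬ ∀ᶠ q in 𝓝 (0 : ℂ), cuspFunction (h : ℝ) B q = 0 := by
    intro hev
    apply hBne
    rw [← qExpansion_eq_zero_iff hh' hBper hBmd hbd]
    ext n
    rw [qExpansion_coeff]
    have h2 : cuspFunction (h : ℝ) B =ᶠ[𝓝 0] (fun _ => (0 : ℂ)) := hev
    have h3 : iteratedDeriv n (cuspFunction (h : ℝ) B) 0 = 0 := by
      rw [h2.iteratedDeriv_eq n]
      simp
    simp [h3]
  obtain ⟨n, g, hg, hg0, hev⟩ := han.exists_eventuallyEq_pow_smul_nonzero_iff.mpr hnot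
  refine ⟨(n : ℤ) - M, g 0, hg0, ?_⟩
  have hq := qParam_tendsto_atImInfty hh'
  have h1 : Tendsto (fun z : ℍ => g (𝕢 (h : ℝ) z)) atImInfty (𝓝 (g 0)) :=
    hg.continuousAt.tendsto.comp hq
  refine h1.congr' ?_
  filter_upwards [hq.eventually hev] with z hz
  rw [eq_cuspFunction z hh'.ne' hBper] at hz
  simp only [sub_zero, smul_eq_mul, hB] at hz
  have hqz := qParam_ne_zero h z
  rw [neg_sub, zpow_sub₀ hqz, zpow_natCast, zpow_natCast, div_mul_eq_mul_div, hz]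
  field_simp

/-- Divisibility of the order at `i∞` for functions with a smaller period. -/
theorem MerInf.dvd_ordInf {h : ℕ} (hh : 0 < h) {G : ℍ → ℂ} (hG : MerInf h G) {k : ℕ}
    (hk : 0 < k) : (k : ℤ) ∣ ordInf (h * k) G := by
  by_cases hne : G = 0
  · rw [hne, ordInf_zero]
    exact dvd_zero _
  · obtain ⟨m, hm⟩ := MerInf.exists_hasOrdInf hh hG hne
    rw [(hm.mul_period hk).ordInf_eq (Nat.mul_pos hh hk)]
    exact dvd_mul_right _ _

theorem MerInf.hasOrdInf_ordInf {h : ℕ} (hh : 0 < h) {G : ℍ → ℂ} (hG : MerInf h G)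
    (hne : G ≠ 0) : HasOrdInf h G (ordInf h G) := by
  obtain ⟨m, hm⟩ := MerInf.exists_hasOrdInf hh hG hne
  rwa [hm.ordInf_eq hh]

end Fermat.Agent.S24.OrdInf
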