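import Fermat.Agent.S24.ModDefs
import Fermat.Agent.S24.QLaurent

/-!
# S24: `QLaurent` on the names of `ModDefs`

`ModDefs.MerInf h G` is membership in the subalgebra `QLaurent.MerInf h`; `ModDefs.laurentQ`
is `QLaurent.Lq`; `ModDefs.ordInf h G` is the order of the Laurent expansion, hence a raw
valuation on `MerInf h`.
-/

set_option autoImplicit false

noncomputable section

namespace Fermat.Agent.S24.QLaurentMod

open Function Filter Complex
open UpperHalfPlane hiding I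
open scoped Manifold Topology MatrixGroups

local notation "𝕢" => Function.Periodic.qParam

/-- `ModDefs.MerInf` is membership in the subalgebra `QLaurent.MerInf`. -/
theorem merInf_iff_mem {h : ℕ} [NeZero h] {G : ℍ → ℂ} :
    MerInf h G ↔ G ∈ QLaurent.MerInf h := Iff.rfl

theorem MerInf.mul {h : ℕ} [NeZero h] {G H : ℍ → ℂ} (hG : MerInf h G) (hH : MerInf h H) :
    MerInf h (G * H) :=
  (QLaurent.MerInf h).mul_mem (merInf_iff_mem.mp hG) (merInf_iff_mem.mp hH)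

theorem MerInf.add {h : ℕ} [NeZero h] {G H : ℍ → ℂ} (hG : MerInf h G) (hH : MerInf h H) :
    MerInf h (G + H) :=
  (QLaurent.MerInf h).add_mem (merInf_iff_mem.mp hG) (merInf_iff_mem.mp hH)

theorem MerInf.const (h : ℕ) [NeZero h] (c : ℂ) : MerInf h (fun _ : ℍ => c) :=
  (QLaurent.MerInf h).algebraMap_mem c

theorem MerInf.of_hasSum {h : ℕ} [NeZero h] {G : ℍ → ℂ} {L : LaurentSeries ℂ}
    (hL : ∀ τ : ℍ, HasSum (fun n : ℤ => L.coeff n * 𝕢 (h : ℝ) (τ : ℂ) ^ n) (G τ)) :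
    MerInf h G :=
  QLaurent.mem_MerInf_of_hasSum hL

/-- `ModDefs.laurentQ` is `QLaurent.Lq`. -/
theorem laurentQ_eq {h : ℕ} [NeZero h] (f : QLaurent.MerInf h) :
    laurentQ h (f : ℍ → ℂ) = QLaurent.Lq h f := by
  have hex : ∃ M : ℕ, IsBoundedAtImInfty (fun z : ℍ => 𝕢 (h : ℝ) (z : ℂ) ^ M * (f : ℍ → ℂ) z) :=
    f.2.2.2
  unfold laurentQ
  rw [dif_pos hex]
  exact (QLaurent.Lq_apply f (m := hex.choose) hex.choose_spec).symm

theorem laurentQ_eq_of_hasSum {h : ℕ} [NeZero h] {G : ℍ → ℂ} {L : LaurentSeries ℂ}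
    (hL : ∀ τ : ℍ, HasSum (fun n : ℤ => L.coeff n * 𝕢 (h : ℝ) (τ : ℂ) ^ n) (G τ)) :
    laurentQ h G = L := by
  rw [← QLaurent.Lq_eq_of_hasSum hL]
  exact laurentQ_eq ⟨G, QLaurent.mem_MerInf_of_hasSum hL⟩

/-- `ordInf` is determined by any nonzero limit of `q_h^{-m} G`. -/
theorem ordInf_eq_of_tendsto {h : ℕ} [NeZero h] {G : ℍ → ℂ} {m : ℤ} {c : ℂ} (hc : c ≠ 0)
    (hm : Tendsto (fun z : ℍ => 𝕢 (h : ℝ) (z : ℂ) ^ (-m) * G z) atImInfty (𝓝 c)) :
    ordInf h G = m := by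
  have hex : ∃ m : ℤ, ∃ c : ℂ, c ≠ 0 ∧
      Tendsto (fun z : ℍ => 𝕢 (h : ℝ) (z : ℂ) ^ (-m) * G z) atImInfty (𝓝 c) := ⟨m, c, hc, hm⟩
  unfold ordInf
  rw [dif_pos hex]
  obtain ⟨c', hc', hm'⟩ := hex.choose_spec
  exact QLaurent.zpow_exponent_unique hc' hc hm' hm

theorem ordInf_zero (h : ℕ) : ordInf h (0 : ℍ → ℂ) = 0 := by
  unfold ordInf
  split_ifs with hex
  · obtain ⟨c, hc, hm⟩ := hex.choose_spec
    exfalso
    apply hc
    have h0 : Tendsto (fun _ : ℍ => (0 : ℂ)) atImInfty (𝓝 0) := tendsto_const_nhds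
    refine tendsto_nhds_unique (hm.congr (fun z => ?_)) h0
    simp
  · rfl

/-- **`ordInf` is the order of the Laurent expansion.** -/
theorem ordInf_eq_order {h : ℕ} [NeZero h] (f : QLaurent.MerInf h) :
    ordInf h (f : ℍ → ℂ) = (QLaurent.Lq h f).order := by
  by_cases hf : f = 0
  · subst hf
    rw [map_zero, HahnSeries.order_zero]
    exact ordInf_zero h
  · exact ordInf_eq_of_tendsto (QLaurent.Lq_coeff_order_ne_zero hf)
      (QLaurent.tendsto_zpow_neg_order_mul f)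

theorem ordInf_eq_order_laurentQ {h : ℕ} [NeZero h] {G : ℍ → ℂ} (hG : MerInf h G) :
    ordInf h G = (laurentQ h G).order := by
  rw [laurentQ_eq ⟨G, hG⟩]
  exact ordInf_eq_order ⟨G, hG⟩

/-- For a function given by a pointwise convergent `q_h`-Laurent expansion `L`
(helper37's `HasQExp h G L`), `ordInf h G = L.order`. -/
theorem ordInf_eq_order_of_hasSum {h : ℕ} [NeZero h] {G : ℍ → ℂ} {L : LaurentSeries ℂ}
    (hL : ∀ τ : ℍ, HasSum (fun n : ℤ => L.coeff n * 𝕢 (h : ℝ) (τ : ℂ) ^ n) (G τ)) :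
    ordInf h G = L.order := by
  have h1 := ordInf_eq_order ⟨G, QLaurent.mem_MerInf_of_hasSum hL⟩
  rwa [QLaurent.Lq_eq_of_hasSum hL] at h1

/-- The nonzero limit defining `ordInf`. -/
theorem exists_tendsto_ordInf {h : ℕ} [NeZero h] {G : ℍ → ℂ} (hG : MerInf h G) (hG0 : G ≠ 0) :
    ∃ c : ℂ, c ≠ 0 ∧
      Tendsto (fun z : ℍ => 𝕢 (h : ℝ) (z : ℂ) ^ (-(ordInf h G)) * G z) atImInfty (𝓝 c) := by
  have hf : (⟨G, hG⟩ : QLaurent.MerInf h) ≠ 0 := fun h0 => hG0 (congrArg Subtype.val h0)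
  rw [ordInf_eq_order ⟨G, hG⟩]
  exact ⟨_, QLaurent.Lq_coeff_order_ne_zero hf, QLaurent.tendsto_zpow_neg_order_mul ⟨G, hG⟩⟩

/-! ### `ordInf` is a raw valuation on `MerInf h` -/

theorem ordInf_mul {h : ℕ} [NeZero h] {G H : ℍ → ℂ} (hG : MerInf h G) (hH : MerInf h H)
    (hG0 : G ≠ 0) (hH0 : H ≠ 0) : ordInf h (G * H) = ordInf h G + ordInf h H := by
  have h1 := ordInf_eq_order (⟨G, hG⟩ * ⟨H, hH⟩ : QLaurent.MerInf h)
  have hG' : QLaurent.Lq h ⟨G, hG⟩ ≠ 0 := fun h0 =>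
    hG0 (congrArg Subtype.val (QLaurent.Lq_injective h (h0.trans (map_zero _).symm)))
  have hH' : QLaurent.Lq h ⟨H, hH⟩ ≠ 0 := fun h0 =>
    hH0 (congrArg Subtype.val (QLaurent.Lq_injective h (h0.trans (map_zero _).symm)))
  rw [map_mul, HahnSeries.order_mul hG' hH', ← ordInf_eq_order ⟨G, hG⟩,
    ← ordInf_eq_order ⟨H, hH⟩] at h1
  exact h1

theorem mul_ne_zero_of_merInf {h : ℕ} [NeZero h] {G H : ℍ → ℂ} (hG : MerInf h G)
    (hH : MerInf h H) (hG0 : G ≠ 0) (hH0 : H ≠ 0) : G * H ≠ 0 := by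
  intro h0
  have hG' : QLaurent.Lq h ⟨G, hG⟩ ≠ 0 := fun h0 =>
    hG0 (congrArg Subtype.val (QLaurent.Lq_injective h (h0.trans (map_zero _).symm)))
  have hH' : QLaurent.Lq h ⟨H, hH⟩ ≠ 0 := fun h0 =>
    hH0 (congrArg Subtype.val (QLaurent.Lq_injective h (h0.trans (map_zero _).symm)))
  have h1 : QLaurent.Lq h (⟨G, hG⟩ * ⟨H, hH⟩ : QLaurent.MerInf h) = 0 := by
    have : (⟨G, hG⟩ * ⟨H, hH⟩ : QLaurent.MerInf h) = 0 := Subtype.ext h0
    rw [this, map_zero]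
  rw [map_mul] at h1
  exact (mul_ne_zero hG' hH') h1

theorem min_ordInf_le_ordInf_add {h : ℕ} [NeZero h] {G H : ℍ → ℂ} (hG : MerInf h G)
    (hH : MerInf h H) (hGH : G + H ≠ 0) :
    min (ordInf h G) (ordInf h H) ≤ ordInf h (G + H) := by
  have h1 := ordInf_eq_order (⟨G, hG⟩ + ⟨H, hH⟩ : QLaurent.MerInf h)
  have hne : QLaurent.Lq h ⟨G, hG⟩ + QLaurent.Lq h ⟨H, hH⟩ ≠ 0 := by
    rw [← map_add]
    intro h0
    exact hGH (congrArg Subtype.val (QLaurent.Lq_injective h (h0.trans (map_zero _).symm)))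
  have h2 := HahnSeries.min_order_le_order_add hne
  rw [map_add] at h1
  rw [ordInf_eq_order ⟨G, hG⟩, ordInf_eq_order ⟨H, hH⟩]
  exact h2.trans (le_of_eq h1.symm)

theorem ordInf_const (h : ℕ) [NeZero h] {c : ℂ} (hc : c ≠ 0) :
    ordInf h (fun _ : ℍ => c) = 0 := by
  refine ordInf_eq_of_tendsto (m := 0) hc ?_
  simp only [neg_zero, zpow_zero, one_mul]
  exact tendsto_const_nhds

/-- Change of the period: the order in `q_{hk}` is `k` times the order in `q_h`. -/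
theorem ordInf_mul_period (h k : ℕ) [NeZero h] [NeZero k] {G : ℍ → ℂ} (hG : MerInf h G) :
    ordInf (h * k) G = k * ordInf h G := by
  by_cases hG0 : G = 0
  · subst hG0
    rw [ordInf_zero, ordInf_zero, mul_zero]
  obtain ⟨c, hc, hm⟩ := exists_tendsto_ordInf hG hG0
  refine ordInf_eq_of_tendsto hc (hm.congr (fun z => ?_))
  rw [← QLaurent.qParam_mul_pow h k (z : ℂ), ← zpow_natCast, ← zpow_mul]
  congr 2
  ring

end Fermat.Agent.S24.QLaurentMod
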