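import Mathlib
import Fermat.Agent.S24.ModDefs

set_option autoImplicit false

open UpperHalfPlane ModularForm AlgebraicCurve CongruenceSubgroup Filter
open scoped MatrixGroups Manifold IntermediateField Topology

/-!
# S24: every element of `F` is a quotient `fm P / fm Q`
-/

noncomputable section

namespace Fermat.Agent.S24.Rep

open Fermat.Agent.S24

variable (N : ℕ) [NeZero N]

/-- The formal generators as Laurent series. -/
def jL (d : Dv N) : LaurentSeries KQ := (jFormal N d : LaurentSeries KQ)

theorem fm_coe (P : MvPolynomial (Dv N) KQ) :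
    ((fm N P : FN N) : LaurentSeries KQ) = MvPolynomial.aeval (jL N) P := by
  have h := AlgHom.congr_fun
    (MvPolynomial.comp_aeval (jFormal N) (ModularCurve.modularFunctionFieldBar N).val) P
  exact h

theorem modularFunctionFieldBar_le :
    (ModularCurve.modularFunctionFieldBar N : IntermediateField KQ (LaurentSeries KQ)) ≤
      IntermediateField.adjoin KQ (Set.range (jL N)) := by
  rw [ModularCurve.modularFunctionFieldBar, ModularCurve.laurentBaseChange,
    IntermediateField.adjoin_le_iff]
  rintro _ ⟨x, hx, rfl⟩
  set F' := IntermediateField.adjoin KQ (Set.range (jL N)) with hF'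
  let T : Subfield (LaurentSeries ℚ) := Subfield.comap (ModularCurve.coeffEmb KQ) F'.toSubfield
  have hT : (ModularCurve.modularFunctionFieldFull N).toSubfield ≤ T := by
    rw [ModularCurve.modularFunctionFieldFull, IntermediateField.adjoin_toSubfield,
      Subfield.closure_le]
    rintro y (⟨c, rfl⟩ | ⟨d, hd, hdN, rfl⟩)
    · show ModularCurve.coeffEmb KQ (algebraMap ℚ (LaurentSeries ℚ) c) ∈ F'.toSubfield
      rw [eq_ratCast, map_ratCast]
      exact SubfieldClass.ratCast_mem _ c
    · show ModularCurve.coeffEmb KQ (ModularCurve.qExpand ℚ d ModularCurve.jq) ∈ F'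
      exact IntermediateField.subset_adjoin KQ _ ⟨⟨d, hdN⟩, rfl⟩
  exact hT hx

theorem exists_isRep (f : FN N) : ∃ P Q, IsRep N f P Q := by
  have hf := modularFunctionFieldBar_le N f.2
  rw [IntermediateField.mem_adjoin_range_iff] at hf
  obtain ⟨r, s, hrs⟩ := hf
  by_cases hs : MvPolynomial.aeval (jL N) s = 0
  · refine ⟨0, 1, by simp [fm], ?_⟩
    apply Subtype.ext
    rw [hrs, hs, div_zero]
    simp
  · refine ⟨r, s, ?_, ?_⟩
    · intro h
      apply hs
      rw [← fm_coe, h]
      rfl
    · apply Subtype.ext
      rw [hrs, IntermediateField.coe_div, fm_coe, fm_coe]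

end Fermat.Agent.S24.Rep
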