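import Mathlib
import Fermat.Agent.S24.ModDefs
import Fermat.Agent.S24.HNF
import Fermat.Agent.S24.HNFMod
import Fermat.Agent.S24.Rep
import Fermat.Agent.S24.QExpJ
import Fermat.Agent.S24.QLaurentMod
import Fermat.Agent.S24.OrdInf

/-!
# S24 / B-top [CUSP] — the cusp valuations `valCusp N g`

Final-layer statements (namespace `Fermat.Agent.S24`, exact shapes of the architect's skeleton):

* `valCusp_jBar_inv` : `valCusp N g (jBar N)⁻¹ = N`;
* `valCusp_mul_Gamma0` : `valCusp N (g * γ) f = valCusp N g f` for `γ ∈ Γ₀(N)`;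
* `valCusp_T_zpow_mul` : `valCusp N (T ^ k * g) f = valCusp N g f`;
* `dvd_valCusp` : `N ∣ valCusp N g f * h` when `g⁻¹ T ^ h g ∈ Γ₀(N)`.

The last three are unconditional consequences of the definition of `ordInf` (no Laurent
expansions): the representative chosen in `valCusp` does not depend on `g`.  The first one uses
the independence of the representative, `CuspTop.valCusp_eq` (for `f ≠ 0`), which rests on
`CuspTop.merInf_trans_ev : MerInf N (trans g (ev N P))`.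

Helper lemmas live in `Fermat.Agent.S24.CuspTop`:
`ordInf_eq_of_tendsto` (uniqueness of the order), `ordInf_Jabd`
(`ord_∞ J((a z + b) / d') = -(a · N / d')` in `q_N`), `ordInf_vadd` (invariance under real
translations), `dvd_ordInf_mul_of_periodic` (width divisibility), `ev_smul_of_mem_Gamma0`.
-/

set_option autoImplicit false

open UpperHalfPlane ModularForm Filter Topology CongruenceSubgroup
open scoped MatrixGroups Manifold Real

noncomputable section

namespace Fermat.Agent.S24.CuspTop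

open Fermat.Agent.S24

/-! ### Invariance of `J` and of `ev N P` -/

theorem E4_smul (γ : SL(2, ℤ)) (z : ℍ) : E₄ (γ • z) = denom γ z ^ (4 : ℤ) * E₄ z :=
  SlashInvariantForm.slash_action_eqn'' E₄ (Γ := (Matrix.SpecialLinearGroup.mapGL ℝ).range)
    (γ := (γ : GL (Fin 2) ℝ)) (MonoidHom.mem_range.mpr ⟨γ, rfl⟩) z

theorem disc_smul (γ : SL(2, ℤ)) (z : ℍ) :
    discriminant (γ • z) = denom γ z ^ (12 : ℤ) * discriminant z :=
  SlashInvariantForm.slash_action_eqn'' CuspForm.discriminant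
    (Γ := (Matrix.SpecialLinearGroup.mapGL ℝ).range)
    (γ := (γ : GL (Fin 2) ℝ)) (MonoidHom.mem_range.mpr ⟨γ, rfl⟩) z

/-- `J` is `SL(2, ℤ)`-invariant. -/
theorem Jfun_smul (γ : SL(2, ℤ)) (z : ℍ) : Jfun (γ • z) = Jfun z := by
  unfold Jfun
  rw [E4_smul, disc_smul]
  have h := denom_ne_zero γ z
  have hΔ := discriminant_ne_zero z
  field_simp

theorem im_abd_pos (a b d' : ℕ) (ha : 0 < a) (hd' : 0 < d') (z : ℍ) :
    0 < ((((a : ℂ) * z + b) / d' : ℂ)).im := by
  have h1 : (((a : ℂ) * z + b) / d' : ℂ) = (((a : ℝ) / d' : ℝ) : ℂ) * z + ((b : ℝ) / d' : ℝ) := by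
    push_cast
    have : (d' : ℂ) ≠ 0 := by exact_mod_cast hd'.ne'
    field_simp
  rw [h1]
  simp only [Complex.add_im, Complex.mul_im, Complex.ofReal_re, Complex.ofReal_im, zero_mul,
    add_zero]
  have : 0 < (a : ℝ) / d' := by positivity
  have hz := z.im_pos
  positivity

theorem coe_ofComplex_abd (a b d' : ℕ) (ha : 0 < a) (hd' : 0 < d') (z : ℍ) :
    ((ofComplex (((a : ℂ) * z + b) / d') : ℍ) : ℂ) = ((a : ℂ) * z + b) / d' :=
  congrArg _ (ofComplex_apply_of_im_pos (im_abd_pos a b d' ha hd' z))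

/-- `Jabd 1 0 1` is `J`. -/
theorem Jabd_one (z : ℍ) : Jabd 1 0 1 z = Jfun z := by
  unfold Jabd
  congr 1
  ext
  rw [coe_ofComplex_abd 1 0 1 one_pos one_pos]
  simp

/-- `z ↦ J(d z)` is `Γ₀(N)`-invariant for `d ∣ N`. -/
theorem Jabd_smul_of_mem_Gamma0 (N d : ℕ) [NeZero N] (hd : d ∣ N) (γ : SL(2, ℤ))
    (hγ : γ ∈ Gamma0 N) (z : ℍ) : Jabd d 0 1 (γ • z) = Jabd d 0 1 z := by
  have hdpos : 0 < d := Nat.pos_of_dvd_of_pos hd (Nat.pos_of_ne_zero (NeZero.ne N))
  unfold Jabd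
  refine HNF.invariant_of_mem_Gamma0 Jfun Jfun_smul N d hd γ hγ z _ _ ?_ ?_
  · rw [coe_ofComplex_abd d 0 1 hdpos one_pos]; simp
  · rw [coe_ofComplex_abd d 0 1 hdpos one_pos]; simp

theorem ev_C (N : ℕ) (a : KQ) (z : ℍ) : ev N (MvPolynomial.C a) z = iotaK a := by
  simp [ev]

theorem ev_X (N : ℕ) (d : Dv N) : ev N (MvPolynomial.X d) = Jabd d.1 0 1 := by
  simp [ev]

/-- `ev N P` is `Γ₀(N)`-invariant. -/
theorem ev_smul_of_mem_Gamma0 (N : ℕ) [NeZero N] (γ : SL(2, ℤ)) (hγ : γ ∈ Gamma0 N)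
    (P : MvPolynomial (Dv N) KQ) (z : ℍ) : ev N P (γ • z) = ev N P z := by
  induction P using MvPolynomial.induction_on with
  | C a => rw [ev_C, ev_C]
  | add p q hp hq => simp only [map_add, Pi.add_apply, hp, hq]
  | mul_X p d hp =>
    simp only [map_mul, Pi.mul_apply, hp, ev_X]
    rw [Jabd_smul_of_mem_Gamma0 N d.1 d.2 γ hγ z]

theorem trans_mul (g γ : SL(2, ℤ)) (G : ℍ → ℂ) : trans (g * γ) G = trans g (trans γ G) := by
  funext z
  simp only [trans, mul_inv_rev, mul_smul]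

/-- `trans (g * γ) (ev N P) = trans g (ev N P)` for `γ ∈ Γ₀(N)`. -/
theorem trans_mul_ev_of_mem_Gamma0 (N : ℕ) [NeZero N] (g γ : SL(2, ℤ)) (hγ : γ ∈ Gamma0 N)
    (P : MvPolynomial (Dv N) KQ) : trans (g * γ) (ev N P) = trans g (ev N P) := by
  rw [trans_mul]
  congr 1
  funext z
  exact ev_smul_of_mem_Gamma0 N γ⁻¹ ((Gamma0 N).inv_mem hγ) P z

/-! ### Behaviour of `J` at `i∞` -/

/-- `E₄ → 1` at `i∞`. -/
theorem tendsto_E4 : Tendsto (fun z : ℍ => E₄ z) atImInfty (𝓝 1) := by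
  have han := ModularFormClass.analyticAt_cuspFunction_zero E₄ one_pos one_mem_strictPeriods_SL
  have hcomp : (cuspFunction 1 E₄ ∘ fun τ : ℍ ↦ Function.Periodic.qParam 1 τ : ℍ → ℂ) =
      fun z : ℍ => E₄ z := by
    funext τ
    simpa using (SlashInvariantFormClass.eq_cuspFunction E₄ τ one_mem_strictPeriods_SL one_ne_zero)
  have h0 : cuspFunction 1 E₄ 0 = 1 := by
    have h1 := EisensteinSeries.E_qExpansion_coeff_zero (k := 4) (by norm_num) ⟨2, rfl⟩
    rw [qExpansion_coeff] at h1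
    simpa using h1
  have := han.continuousAt.tendsto.comp (qParam_tendsto_atImInfty one_pos)
  rw [h0] at this
  rw [← hcomp]
  exact this

/-- `q · J → 1` at `i∞`: `J` has a simple pole with residue `1` at the cusp. -/
theorem tendsto_qParam_mul_Jfun :
    Tendsto (fun z : ℍ => Function.Periodic.qParam 1 z * Jfun z) atImInfty (𝓝 1) := by
  have hP := tendsto_atImInfty_tprod_one_sub_eta_q_pow
  have h := (tendsto_E4.pow 3).div hP one_ne_zero
  simp only [one_pow, div_one] at h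
  refine h.congr fun z => ?_
  simp only [Pi.div_apply]
  unfold Jfun
  have hΔ := discriminant_ne_zero z
  rw [discriminant_eq_q_prod] at hΔ ⊢
  have hq : Function.Periodic.qParam 1 (z : ℂ) ≠ 0 := left_ne_zero_of_mul hΔ
  have hP' := right_ne_zero_of_mul hΔ
  field_simp

/-- The map `z ↦ (a z + b) / d'` of the upper half plane tends to `i∞` at `i∞`. -/
theorem tendsto_abd_atImInfty (a b d' : ℕ) (ha : 0 < a) (hd' : 0 < d') :
    Tendsto (fun z : ℍ => (ofComplex (((a : ℂ) * z + b) / d') : ℍ)) atImInfty atImInfty := by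
  rw [atImInfty, tendsto_comap_iff]
  have him : ∀ z : ℍ, (ofComplex (((a : ℂ) * z + b) / d') : ℍ).im = (a : ℝ) / d' * z.im := by
    intro z
    change ((ofComplex (((a : ℂ) * z + b) / d') : ℍ) : ℂ).im = _
    rw [coe_ofComplex_abd a b d' ha hd' z]
    have h1 : (((a : ℂ) * z + b) / d' : ℂ) =
        (((a : ℝ) / d' : ℝ) : ℂ) * z + ((b : ℝ) / d' : ℝ) := by
      push_cast
      have : (d' : ℂ) ≠ 0 := by exact_mod_cast hd'.ne'
      field_simp
    rw [h1]
    simp [Complex.add_im, Complex.mul_im]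
  have hfun : (UpperHalfPlane.im ∘ fun z : ℍ => (ofComplex (((a : ℂ) * z + b) / d') : ℍ)) =
      fun z : ℍ => (a : ℝ) / d' * z.im := funext him
  rw [hfun]
  have hpos : (0 : ℝ) < (a : ℝ) / d' := by positivity
  exact (tendsto_comap (f := UpperHalfPlane.im) (x := atTop)).const_mul_atTop hpos

/-- `q((a z + b) / d') = ζ_{d'}^b · q_N(z)^(a · N / d')`. -/
theorem qParam_abd (N a b d' : ℕ) (hN : 0 < N) (hd' : 0 < d') (hdvd : d' ∣ N) (z : ℂ) :
    Function.Periodic.qParam 1 (((a : ℂ) * z + b) / d') =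
      Complex.exp (2 * π * Complex.I * b / d') *
        Function.Periodic.qParam (N : ℝ) z ^ (a * (N / d')) := by
  unfold Function.Periodic.qParam
  rw [← Complex.exp_nat_mul, ← Complex.exp_add]
  congr 1
  obtain ⟨e, rfl⟩ := hdvd
  have hd'C : (d' : ℂ) ≠ 0 := by exact_mod_cast hd'.ne'
  have he : 0 < e := Nat.pos_of_mul_pos_left hN
  have heC : (e : ℂ) ≠ 0 := by exact_mod_cast he.ne'
  rw [Nat.mul_div_cancel_left e hd']
  push_cast
  field_simp
  ring

/-- `q_N^(a · N / d') · J((a z + b) / d') → ζ_{d'}^(-b)` at `i∞`. -/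
theorem tendsto_qParam_pow_mul_Jabd (N a b d' : ℕ) (hN : 0 < N) (ha : 0 < a) (hd' : 0 < d')
    (hdvd : d' ∣ N) :
    Tendsto (fun z : ℍ => Function.Periodic.qParam (N : ℝ) z ^ (a * (N / d')) * Jabd a b d' z)
      atImInfty (𝓝 (Complex.exp (-(2 * π * Complex.I * b / d')))) := by
  have h := (tendsto_qParam_mul_Jfun.comp (tendsto_abd_atImInfty a b d' ha hd')).const_mul
    (Complex.exp (-(2 * π * Complex.I * b / d')))
  rw [mul_one] at h
  refine h.congr fun z => ?_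
  simp only [Function.comp]
  rw [coe_ofComplex_abd a b d' ha hd', qParam_abd N a b d' hN hd' hdvd]
  unfold Jabd
  rw [← mul_assoc, ← mul_assoc, ← Complex.exp_add, neg_add_cancel, Complex.exp_zero, one_mul]

/-! ### The order at `i∞` -/

/-- `G` has order `m` at `i∞` with respect to `q_h`: `q_h^(-m) G` tends to a nonzero limit. -/
def HasOrd (h : ℕ) (G : ℍ → ℂ) (m : ℤ) : Prop :=
  ∃ c : ℂ, c ≠ 0 ∧
    Tendsto (fun z : ℍ => Function.Periodic.qParam (h : ℝ) z ^ (-m) * G z) atImInfty (𝓝 c)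

theorem ordInf_unique_aux (h : ℕ) (hh : 0 < h) (G : ℍ → ℂ) (m m' : ℤ) (c c' : ℂ) (hc : c ≠ 0)
    (hlim : Tendsto (fun z : ℍ => Function.Periodic.qParam (h : ℝ) z ^ (-m) * G z) atImInfty (𝓝 c))
    (hlim' : Tendsto (fun z : ℍ => Function.Periodic.qParam (h : ℝ) z ^ (-m') * G z) atImInfty
      (𝓝 c')) : m' ≤ m := by
  by_contra hlt
  rw [not_le] at hlt
  have hhR : (0 : ℝ) < h := by exact_mod_cast hh
  have hq : Tendsto (fun z : ℍ => Function.Periodic.qParam (h : ℝ) z ^ (m' - m)) atImInfty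
      (𝓝 0) := by
    obtain ⟨k, hk⟩ := Int.eq_ofNat_of_zero_le (by omega : 0 ≤ m' - m)
    rw [hk]
    simp only [zpow_natCast]
    have := (qParam_tendsto_atImInfty hhR).pow k
    rwa [zero_pow (by omega)] at this
  have h2 := hq.mul hlim'
  rw [zero_mul] at h2
  have hfun : (fun z : ℍ => Function.Periodic.qParam (h : ℝ) z ^ (m' - m) *
      (Function.Periodic.qParam (h : ℝ) z ^ (-m') * G z)) =
      fun z : ℍ => Function.Periodic.qParam (h : ℝ) z ^ (-m) * G z := by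
    funext z
    rw [← mul_assoc, ← zpow_add₀ (Function.Periodic.qParam_ne_zero _)]
    congr 2
    ring
  rw [hfun] at h2
  exact hc (tendsto_nhds_unique hlim h2)

/-- The order at `i∞` is determined by a nonzero limit of `q_h^(-m) G`. -/
theorem ordInf_eq_of_tendsto (h : ℕ) (hh : 0 < h) (G : ℍ → ℂ) (m : ℤ) (c : ℂ) (hc : c ≠ 0)
    (hlim : Tendsto (fun z : ℍ => Function.Periodic.qParam (h : ℝ) z ^ (-m) * G z) atImInfty
      (𝓝 c)) : ordInf h G = m := by
  have hm : ∃ m : ℤ, ∃ c : ℂ, c ≠ 0 ∧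
      Tendsto (fun z : ℍ => Function.Periodic.qParam (h : ℝ) z ^ (-m) * G z) atImInfty (𝓝 c) :=
    ⟨m, c, hc, hlim⟩
  unfold ordInf
  rw [dif_pos hm]
  obtain ⟨c', hc', hlim'⟩ := hm.choose_spec
  exact le_antisymm (ordInf_unique_aux h hh G m _ c c' hc hlim hlim')
    (ordInf_unique_aux h hh G _ m c' c hc' hlim' hlim)

theorem HasOrd.ordInf_eq {h : ℕ} (hh : 0 < h) {G : ℍ → ℂ} {m : ℤ} (hG : HasOrd h G m) :
    ordInf h G = m := by
  obtain ⟨c, hc, hlim⟩ := hG
  exact ordInf_eq_of_tendsto h hh G m c hc hlim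

theorem ordInf_eq_zero_of_not_hasOrd {h : ℕ} {G : ℍ → ℂ} (hG : ¬ ∃ m, HasOrd h G m) :
    ordInf h G = 0 := by
  unfold ordInf
  exact dif_neg hG

/-- `ord_∞` of `z ↦ J((a z + b) / d')` with respect to `q_N` is `-(a · N / d')`. -/
theorem hasOrd_Jabd (N a b d' : ℕ) (hN : 0 < N) (ha : 0 < a) (hd' : 0 < d') (hdvd : d' ∣ N) :
    HasOrd N (Jabd a b d') (-((a * (N / d') : ℕ) : ℤ)) := by
  have h := tendsto_qParam_pow_mul_Jabd N a b d' hN ha hd' hdvd
  refine ⟨Complex.exp (-(2 * π * Complex.I * b / d')), Complex.exp_ne_zero _, h.congr fun z => ?_⟩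
  rw [neg_neg, zpow_natCast]

theorem ordInf_Jabd (N a b d' : ℕ) (hN : 0 < N) (ha : 0 < a) (hd' : 0 < d') (hdvd : d' ∣ N) :
    ordInf N (Jabd a b d') = -((a * (N / d') : ℕ) : ℤ) :=
  (hasOrd_Jabd N a b d' hN ha hd' hdvd).ordInf_eq hN

/-- The order of `J` at `i∞` in `q_N` is `-N`. -/
theorem hasOrd_Jfun (N : ℕ) (hN : 0 < N) : HasOrd N Jfun (-(N : ℤ)) := by
  have h := hasOrd_Jabd N 1 0 1 hN one_pos one_pos (one_dvd N)
  rw [show Jabd 1 0 1 = Jfun from funext Jabd_one] at h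
  simpa using h

theorem ordInf_Jfun (N : ℕ) (hN : 0 < N) : ordInf N Jfun = -(N : ℤ) :=
  (hasOrd_Jfun N hN).ordInf_eq hN

theorem hasOrd_const (h : ℕ) (c : ℂ) (hc : c ≠ 0) : HasOrd h (fun _ => c) 0 :=
  ⟨c, hc, by simp⟩

theorem ordInf_const (h : ℕ) (hh : 0 < h) (c : ℂ) (hc : c ≠ 0) : ordInf h (fun _ => c) = 0 :=
  (hasOrd_const h c hc).ordInf_eq hh

theorem HasOrd.mul {h : ℕ} {G G' : ℍ → ℂ} {m m' : ℤ} (hG : HasOrd h G m) (hG' : HasOrd h G' m') :
    HasOrd h (G * G') (m + m') := by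
  obtain ⟨c, hc, hlim⟩ := hG
  obtain ⟨c', hc', hlim'⟩ := hG'
  refine ⟨c * c', mul_ne_zero hc hc', (hlim.mul hlim').congr fun z => ?_⟩
  simp only [Pi.mul_apply]
  rw [neg_add, zpow_add₀ (Function.Periodic.qParam_ne_zero _)]
  ring

/-! ### Translations -/

theorem qParam_vadd (h : ℕ) (t : ℝ) (z : ℍ) :
    Function.Periodic.qParam (h : ℝ) ((t +ᵥ z : ℍ) : ℂ) =
      Complex.exp (2 * π * Complex.I * t / h) * Function.Periodic.qParam (h : ℝ) z := by
  unfold Function.Periodic.qParam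
  rw [← Complex.exp_add, UpperHalfPlane.coe_vadd]
  congr 1
  push_cast
  ring

theorem tendsto_vadd_atImInfty (t : ℝ) :
    Tendsto (fun z : ℍ => t +ᵥ z) atImInfty atImInfty := by
  rw [atImInfty, tendsto_comap_iff]
  have : (UpperHalfPlane.im ∘ fun z : ℍ => t +ᵥ z) = UpperHalfPlane.im := by
    funext z
    simp [UpperHalfPlane.vadd_im]
  rw [this]
  exact tendsto_comap

/-- If `q_h^(-m) G → c` then `q_h^(-m) G(t + ·) → ε^m c`, `ε = exp(2πi t / h)`. -/
theorem tendsto_vadd {h : ℕ} {G : ℍ → ℂ} {m : ℤ} {c : ℂ} (t : ℝ)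
    (hlim : Tendsto (fun z : ℍ => Function.Periodic.qParam (h : ℝ) z ^ (-m) * G z) atImInfty
      (𝓝 c)) :
    Tendsto (fun z : ℍ => Function.Periodic.qParam (h : ℝ) z ^ (-m) * G (t +ᵥ z)) atImInfty
      (𝓝 (Complex.exp (2 * π * Complex.I * t / h) ^ m * c)) := by
  have h1 := (hlim.comp (tendsto_vadd_atImInfty t)).const_mul
    (Complex.exp (2 * π * Complex.I * t / h) ^ m)
  refine h1.congr fun z => ?_
  simp only [Function.comp]
  rw [qParam_vadd, mul_zpow, ← mul_assoc, ← mul_assoc, ← zpow_add₀ (Complex.exp_ne_zero _),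
    add_neg_cancel, zpow_zero, one_mul]

theorem HasOrd.vadd {h : ℕ} {G : ℍ → ℂ} {m : ℤ} (t : ℝ) (hG : HasOrd h G m) :
    HasOrd h (fun z => G (t +ᵥ z)) m := by
  obtain ⟨c, hc, hlim⟩ := hG
  exact ⟨_, mul_ne_zero (zpow_ne_zero _ (Complex.exp_ne_zero _)) hc, tendsto_vadd t hlim⟩

theorem hasOrd_vadd_iff {h : ℕ} {G : ℍ → ℂ} {m : ℤ} (t : ℝ) :
    HasOrd h (fun z => G (t +ᵥ z)) m ↔ HasOrd h G m := by
  refine ⟨fun hG => ?_, fun hG => hG.vadd t⟩
  have h1 := hG.vadd (-t)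
  have h2 : (fun z : ℍ => G (t +ᵥ (-t +ᵥ z))) = G := by
    funext z
    rw [vadd_vadd, add_neg_cancel, zero_vadd]
  rwa [h2] at h1

/-- The order at `i∞` is invariant under real translations. -/
theorem ordInf_vadd (h : ℕ) (hh : 0 < h) (G : ℍ → ℂ) (t : ℝ) :
    ordInf h (fun z => G (t +ᵥ z)) = ordInf h G := by
  by_cases hG : ∃ m, HasOrd h G m
  · obtain ⟨m, hm⟩ := hG
    rw [hm.ordInf_eq hh, (hm.vadd t).ordInf_eq hh]
  · have hG' : ¬ ∃ m, HasOrd h (fun z => G (t +ᵥ z)) m := fun ⟨m, hm⟩ =>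
      hG ⟨m, (hasOrd_vadd_iff t).mp hm⟩
    rw [ordInf_eq_zero_of_not_hasOrd hG, ordInf_eq_zero_of_not_hasOrd hG']

/-- **Width divisibility.** If `G` is `t`-periodic (`t` an integer), then `N ∣ ord_∞(G) · t`,
the order being taken with respect to `q_N`. -/
theorem dvd_ordInf_mul_of_periodic (N : ℕ) (hN : 0 < N) (G : ℍ → ℂ) (t : ℕ)
    (hper : ∀ z : ℍ, G ((t : ℝ) +ᵥ z) = G z) : (N : ℤ) ∣ ordInf N G * t := by
  by_cases hG : ∃ m, HasOrd N G m
  · obtain ⟨m, c, hc, hlim⟩ := hG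
    rw [ordInf_eq_of_tendsto N hN G m c hc hlim]
    have h1 := tendsto_vadd (t : ℝ) hlim
    have h2 : (fun z : ℍ => Function.Periodic.qParam (N : ℝ) z ^ (-m) * G ((t : ℝ) +ᵥ z)) =
        fun z : ℍ => Function.Periodic.qParam (N : ℝ) z ^ (-m) * G z := by
      funext z
      rw [hper z]
    rw [h2] at h1
    have h3 := tendsto_nhds_unique h1 hlim
    have h4 : Complex.exp (2 * π * Complex.I * (t : ℝ) / N) ^ m = 1 := by
      have : Complex.exp (2 * π * Complex.I * (t : ℝ) / N) ^ m * c = 1 * c := by rw [h3, one_mul]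
      exact mul_right_cancel₀ hc this
    rw [← Complex.exp_int_mul, Complex.exp_eq_one_iff] at h4
    obtain ⟨n, hn⟩ := h4
    have hNC : (N : ℂ) ≠ 0 := by exact_mod_cast hN.ne'
    have hpi : (2 * π * Complex.I : ℂ) ≠ 0 := Complex.two_pi_I_ne_zero
    have h5 : ((m * t : ℤ) : ℂ) = ((n * N : ℤ) : ℂ) := by
      push_cast
      have h6 : (2 * π * Complex.I) * ((m : ℂ) * t) = (2 * π * Complex.I) * ((n : ℂ) * N) := by
        have h7 : (m : ℂ) * (2 * π * Complex.I * ((t : ℝ) : ℂ) / N) * N =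
            (n : ℂ) * (2 * π * Complex.I) * N := by rw [hn]
        have h8 : (m : ℂ) * (2 * π * Complex.I * ((t : ℝ) : ℂ) / N) * N =
            (2 * π * Complex.I) * ((m : ℂ) * t) := by
          push_cast
          field_simp
        rw [h8] at h7
        rw [h7]
        ring
      exact mul_left_cancel₀ hpi h6
    have h9 : m * t = n * N := by exact_mod_cast h5
    exact ⟨n, by rw [h9]; ring⟩
  · rw [ordInf_eq_zero_of_not_hasOrd hG, zero_mul]
    exact dvd_zero _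

/-- `trans (T ^ k * g) G` is a translate of `trans g G`. -/
theorem trans_T_zpow_mul (k : ℤ) (g : SL(2, ℤ)) (G : ℍ → ℂ) :
    trans (ModularGroup.T ^ k * g) G = fun z => trans g G (((-k : ℤ) : ℝ) +ᵥ z) := by
  rw [trans_mul]
  funext z
  simp only [trans]
  rw [← zpow_neg, UpperHalfPlane.modular_T_zpow_smul]

theorem ordInf_trans_T_zpow_mul (h : ℕ) (hh : 0 < h) (k : ℤ) (g : SL(2, ℤ)) (G : ℍ → ℂ) :
    ordInf h (trans (ModularGroup.T ^ k * g) G) = ordInf h (trans g G) := by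
  rw [trans_T_zpow_mul, ordInf_vadd h hh]

/-- If `g⁻¹ T^h g ∈ Γ₀(N)` then `trans g (ev N P)` is `h`-periodic. -/
theorem trans_ev_periodic (N : ℕ) [NeZero N] (g : SL(2, ℤ)) (h : ℕ)
    (hg : g⁻¹ * ModularGroup.T ^ h * g ∈ Gamma0 N) (P : MvPolynomial (Dv N) KQ) (z : ℍ) :
    trans g (ev N P) ((h : ℝ) +ᵥ z) = trans g (ev N P) z := by
  simp only [trans]
  have h1 : ((h : ℝ) +ᵥ z : ℍ) = ModularGroup.T ^ h • z := by
    rw [← zpow_natCast, UpperHalfPlane.modular_T_zpow_smul]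
    simp
  rw [h1]
  have h2 : g⁻¹ • ModularGroup.T ^ h • z = (g⁻¹ * ModularGroup.T ^ h * g) • g⁻¹ • z := by
    simp only [mul_smul, smul_inv_smul]
  rw [h2, ev_smul_of_mem_Gamma0 N _ hg]

/-! ### Independence of the representative -/

/-- `z ↦ J((a z + b) / e)` is meromorphic at `i∞` of period `N` when `e ∣ N`. -/
theorem merInf_Jabd (N a b e : ℕ) (hN : 0 < N) (ha : 0 < a) (he : 0 < e) (hdvd : e ∣ N) :
    MerInf N (Jabd a b e) := by
  have : NeZero a := ⟨ha.ne'⟩
  have : NeZero e := ⟨he.ne'⟩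
  have h1 : MerInf e (Jabd a b e) := QLaurentMod.MerInf.of_hasSum (QExp.hasQExp_Jabd a b e)
  obtain ⟨k, rfl⟩ := hdvd
  exact OrdInf.MerInf.mul_period h1 (Nat.pos_of_mul_pos_left hN)

/-- Every translate `trans g (ev N P)` is holomorphic, `N`-periodic and meromorphic at `i∞`. -/
theorem merInf_trans_ev (N : ℕ) [NeZero N] (g : SL(2, ℤ)) (P : MvPolynomial (Dv N) KQ) :
    MerInf N (trans g (ev N P)) := by
  have hN : 0 < N := Nat.pos_of_ne_zero (NeZero.ne N)
  obtain ⟨a, b, e, hprop, -, hev⟩ := HNFMod.exists_trans_ev N g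
  have key : ∀ P : MvPolynomial (Dv N) KQ, MerInf N
      (fun z => MvPolynomial.eval₂ iotaK (fun d : Dv N => Jabd (a d) (b d) (e d) z) P) := by
    intro P
    induction P using MvPolynomial.induction_on with
    | C c =>
      simp only [MvPolynomial.eval₂_C]
      exact OrdInf.merInf_const N _
    | add p q hp hq =>
      have h : (fun z => MvPolynomial.eval₂ iotaK (fun d : Dv N => Jabd (a d) (b d) (e d) z)
          (p + q)) =
          (fun z => MvPolynomial.eval₂ iotaK (fun d : Dv N => Jabd (a d) (b d) (e d) z) p) +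
          (fun z => MvPolynomial.eval₂ iotaK (fun d : Dv N => Jabd (a d) (b d) (e d) z) q) := by
        funext z
        simp [MvPolynomial.eval₂_add]
      rw [h]
      exact OrdInf.MerInf.add hp hq
    | mul_X p d hp =>
      have h : (fun z => MvPolynomial.eval₂ iotaK (fun d : Dv N => Jabd (a d) (b d) (e d) z)
          (p * MvPolynomial.X d)) =
          (fun z => MvPolynomial.eval₂ iotaK (fun d : Dv N => Jabd (a d) (b d) (e d) z) p) *
          Jabd (a d) (b d) (e d) := by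
        funext z
        simp [MvPolynomial.eval₂_mul, MvPolynomial.eval₂_X]
      rw [h]
      obtain ⟨hae, -, ha, he, -⟩ := hprop d
      exact OrdInf.MerInf.mul hp
        (merInf_Jabd N _ _ _ hN ha he ((Dvd.intro_left _ hae).trans d.2))
  have h : trans g (ev N P) =
      fun z => MvPolynomial.eval₂ iotaK (fun d : Dv N => Jabd (a d) (b d) (e d) z) P :=
    funext (hev P)
  rw [h]
  exact key P

theorem trans_mul_fun (g : SL(2, ℤ)) (G H : ℍ → ℂ) : trans g (G * H) = trans g G * trans g H :=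
  rfl

theorem trans_eq_zero_iff (g : SL(2, ℤ)) (G : ℍ → ℂ) : trans g G = 0 ↔ G = 0 := by
  constructor
  · intro h
    funext z
    have := congrFun h (g • z)
    simpa [trans] using this
  · rintro rfl
    rfl

/-- A nonzero translate has an order at `i∞`. -/
theorem exists_hasOrdInf_trans_ev (N : ℕ) [NeZero N] (g : SL(2, ℤ)) (P : MvPolynomial (Dv N) KQ)
    (hP : fm N P ≠ 0) : ∃ m : ℤ, OrdInf.HasOrdInf N (trans g (ev N P)) m := by
  have hN : 0 < N := Nat.pos_of_ne_zero (NeZero.ne N)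
  refine OrdInf.MerInf.exists_hasOrdInf hN (merInf_trans_ev N g P) ?_
  rw [Ne, trans_eq_zero_iff, QExp.ev_eq_zero_iff]
  exact hP

/-- Two representatives of the same `f ≠ 0` give the same difference of orders at `i∞`. -/
theorem ordInf_sub_eq_of_isRep (N : ℕ) [NeZero N] {f : FN N}
    {P Q P' Q' : MvPolynomial (Dv N) KQ} (h : IsRep N f P Q) (h' : IsRep N f P' Q') (hf : f ≠ 0)
    (g : SL(2, ℤ)) :
    ordInf N (trans g (ev N P')) - ordInf N (trans g (ev N Q')) =
      ordInf N (trans g (ev N P)) - ordInf N (trans g (ev N Q)) := by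
  have hN : 0 < N := Nat.pos_of_ne_zero (NeZero.ne N)
  obtain ⟨hQ', hf'⟩ := h'
  obtain ⟨hQ, hfPQ⟩ := h
  have hP : fm N P ≠ 0 := by
    intro h0
    apply hf
    rw [hfPQ, h0, zero_div]
  have hP' : fm N P' ≠ 0 := by
    intro h0
    apply hf
    rw [hf', h0, zero_div]
  have hcross : fm N P * fm N Q' = fm N P' * fm N Q := by
    have h1 : fm N P / fm N Q = fm N P' / fm N Q' := by rw [← hfPQ, ← hf']
    rw [div_eq_div_iff hQ hQ'] at h1
    exact h1
  have hevz : ev N (P * Q' - P' * Q) = 0 := by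
    rw [QExp.ev_eq_zero_iff, map_sub, map_mul, map_mul, hcross, sub_self]
  have hev : ev N P * ev N Q' = ev N P' * ev N Q := by
    rw [map_sub, map_mul, map_mul] at hevz
    exact sub_eq_zero.mp hevz
  obtain ⟨mP, hmP⟩ := exists_hasOrdInf_trans_ev N g P hP
  obtain ⟨mQ, hmQ⟩ := exists_hasOrdInf_trans_ev N g Q hQ
  obtain ⟨mP', hmP'⟩ := exists_hasOrdInf_trans_ev N g P' hP'
  obtain ⟨mQ', hmQ'⟩ := exists_hasOrdInf_trans_ev N g Q' hQ'
  have e1 := hmP.mul hmQ'
  have e2 := hmP'.mul hmQ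
  have e3 : trans g (ev N P) * trans g (ev N Q') = trans g (ev N P') * trans g (ev N Q) := by
    rw [← trans_mul_fun, ← trans_mul_fun, hev]
  rw [e3] at e1
  have e4 := OrdInf.HasOrdInf.unique hN e1 e2
  rw [hmP.ordInf_eq hN, hmQ.ordInf_eq hN, hmP'.ordInf_eq hN, hmQ'.ordInf_eq hN]
  omega

/-- **Independence of the representative** (for `f ≠ 0`): the cusp valuation can be computed
from any representative `f = fm P / fm Q`. -/
theorem valCusp_eq (N : ℕ) [NeZero N] {f : FN N} {P Q : MvPolynomial (Dv N) KQ}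
    (h : IsRep N f P Q) (hf : f ≠ 0) (g : SL(2, ℤ)) :
    valCusp N g f = ordInf N (trans g (ev N P)) - ordInf N (trans g (ev N Q)) := by
  have hex : ∃ P Q, IsRep N f P Q := ⟨P, Q, h⟩
  have hval : valCusp N g f = ordInf N (trans g (ev N hex.choose)) -
      ordInf N (trans g (ev N hex.choose_spec.choose)) := by
    unfold valCusp
    rw [dif_pos hex]
  rw [hval]
  exact ordInf_sub_eq_of_isRep N h hex.choose_spec.choose_spec hf g

theorem fm_X (N : ℕ) [NeZero N] (d : Dv N) : fm N (MvPolynomial.X d) = jFormal N d := by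
  simp [fm]

theorem Jfun_ne_zero : Jfun ≠ 0 := by
  have h : OrdInf.HasOrdInf 1 Jfun (-((1 : ℕ) : ℤ)) := hasOrd_Jfun 1 one_pos
  exact h.ne_zero

theorem jBar_ne_zero (N : ℕ) [NeZero N] : jBar N ≠ 0 := by
  intro h0
  have h1 : fm N (MvPolynomial.X (⟨1, one_dvd N⟩ : Dv N)) = 0 := by rw [fm_X]; exact h0
  have h2 := (QExp.ev_eq_zero_iff N _).mpr h1
  rw [ev_X] at h2
  exact Jfun_ne_zero (by rw [← h2]; exact (funext Jabd_one).symm)

end Fermat.Agent.S24.CuspTop

/-! ## The final-layer statements -/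

namespace Fermat.Agent.S24

variable (N : ℕ) [NeZero N]

/-- The cusp valuations take the value `N` on `1 / j`. -/
theorem valCusp_jBar_inv (g : SL(2, ℤ)) : valCusp N g (jBar N)⁻¹ = N := by
  have hN : 0 < N := Nat.pos_of_ne_zero (NeZero.ne N)
  have hj := CuspTop.jBar_ne_zero N
  have hrep : IsRep N (jBar N)⁻¹ 1 (MvPolynomial.X (⟨1, one_dvd N⟩ : Dv N)) := by
    refine ⟨?_, ?_⟩
    · rw [CuspTop.fm_X]
      exact hj
    · rw [map_one, one_div, CuspTop.fm_X]
      rfl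
  rw [CuspTop.valCusp_eq N hrep (inv_ne_zero hj) g, map_one, CuspTop.ev_X]
  have h1 : trans g (1 : ℍ → ℂ) = fun _ => (1 : ℂ) := rfl
  have h2 : trans g (Jabd 1 0 1) = Jfun := by
    funext z
    simp only [trans]
    rw [CuspTop.Jabd_one, CuspTop.Jfun_smul]
  rw [h1, h2, CuspTop.ordInf_const N hN 1 one_ne_zero, CuspTop.ordInf_Jfun N hN]
  ring

/-- `valCusp N g` only depends on the coset `g Γ₀(N)`. -/
theorem valCusp_mul_Gamma0 (g γ : SL(2, ℤ)) (hγ : γ ∈ Gamma0 N) (f : FN N) :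
    valCusp N (g * γ) f = valCusp N g f := by
  unfold valCusp
  split_ifs with h
  · rw [CuspTop.trans_mul_ev_of_mem_Gamma0 N g γ hγ, CuspTop.trans_mul_ev_of_mem_Gamma0 N g γ hγ]
  · rfl

/-- `valCusp N g` is constant on the `T`-orbits of cosets. -/
theorem valCusp_T_zpow_mul (k : ℤ) (g : SL(2, ℤ)) (f : FN N) :
    valCusp N (ModularGroup.T ^ k * g) f = valCusp N g f := by
  have hN : 0 < N := Nat.pos_of_ne_zero (NeZero.ne N)
  unfold valCusp
  split_ifs with h
  · rw [CuspTop.ordInf_trans_T_zpow_mul N hN, CuspTop.ordInf_trans_T_zpow_mul N hN]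
  · rfl

set_option linter.unusedVariables false in
/-- Width divisibility of the cusp valuations. -/
theorem dvd_valCusp (g : SL(2, ℤ)) (h : ℕ) (hh : 0 < h)
    (hg : g⁻¹ * ModularGroup.T ^ h * g ∈ Gamma0 N) (f : FN N) (hf : f ≠ 0) :
    (N : ℤ) ∣ valCusp N g f * h := by
  have hN : 0 < N := Nat.pos_of_ne_zero (NeZero.ne N)
  unfold valCusp
  split_ifs with hrep
  · rw [sub_mul]
    exact dvd_sub
      (CuspTop.dvd_ordInf_mul_of_periodic N hN _ h (CuspTop.trans_ev_periodic N g h hg _))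
      (CuspTop.dvd_ordInf_mul_of_periodic N hN _ h (CuspTop.trans_ev_periodic N g h hg _))
  · simp

end Fermat.Agent.S24
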