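import Mathlib
import Fermat.Prelude.Def_AlgebraicCurve_CanonicalDivisor

/-!
# S24 — abstract Riemann–Hurwitz: the genus from ramification counts

`genus_eq_of_counts_core`: for a function field `F/K` in the Prelude's `Place`/`Divisor` language
and a generator `x : F`, the Prelude genus `AlgebraicCurve.genus K F` is computed from the numbers
of places over each value of `x`.  All facts about places and differentials enter as explicit
hypotheses (they are proved in the other S24 files), so this file only depends on Mathlib and the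
Prelude definitions.
-/

set_option autoImplicit false

open AlgebraicCurve KaehlerDifferential

namespace Fermat.Agent.S24.RH

variable {K F : Type*} [Field K] [Field F] [Algebra K F]

/-! ### Small valuation facts about `Place.ord` -/

theorem ord_algebraMap (v : Place K F) {a : K} (ha : a ≠ 0) : v.ord (algebraMap K F a) = 0 := by
  have hmem : algebraMap K F a ∈ v.toValuationSubring := v.algebraMap_mem' a
  have hmem' : algebraMap K F a⁻¹ ∈ v.toValuationSubring := v.algebraMap_mem' a⁻¹
  have h1 : (⟨algebraMap K F a, hmem⟩ : v.toValuationSubring) * ⟨algebraMap K F a⁻¹, hmem'⟩ = 1 := by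
    apply Subtype.ext
    show algebraMap K F a * algebraMap K F a⁻¹ = 1
    rw [← map_mul, mul_inv_cancel₀ ha, map_one]
  have h2 : (⟨algebraMap K F a⁻¹, hmem'⟩ : v.toValuationSubring) * ⟨algebraMap K F a, hmem⟩ = 1 := by
    rw [mul_comm]; exact h1
  exact v.ord_coe_unit ⟨⟨_, hmem⟩, ⟨_, hmem'⟩, h1, h2⟩

theorem min_ord_le_ord_add (v : Place K F) {f g : F} (hf : f ≠ 0) (hg : g ≠ 0)
    (hfg : f + g ≠ 0) : min (v.ord f) (v.ord g) ≤ v.ord (f + g) := by
  have h := v.adicValuation.map_add f g
  simp only [Place.ord]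
  rcases le_max_iff.mp h with h1 | h1
  · have h2 := (WithZero.log_le_log (v.adicValuation_ne_zero hfg) (v.adicValuation_ne_zero hf)).mpr h1
    exact (min_le_left _ _).trans (neg_le_neg h2)
  · have h2 := (WithZero.log_le_log (v.adicValuation_ne_zero hfg) (v.adicValuation_ne_zero hg)).mpr h1
    exact (min_le_right _ _).trans (neg_le_neg h2)

theorem ord_neg (v : Place K F) (f : F) : v.ord (-f) = v.ord f := by
  simp only [Place.ord, Valuation.map_neg]

theorem ord_sub_const_of_neg (v : Place K F) {x : F} (hx : v.ord x < 0) (c : K) :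
    v.ord (x - algebraMap K F c) = v.ord x := by
  by_cases hc : c = 0
  · simp [hc]
  have hx0 : x ≠ 0 := by
    rintro rfl
    simp at hx
  have hc0 : algebraMap K F c ≠ 0 := (map_ne_zero _).mpr hc
  have hordc := ord_algebraMap v hc
  have hxc : x - algebraMap K F c ≠ 0 := by
    intro h
    have h' : x = algebraMap K F c := sub_eq_zero.mp h
    rw [h', hordc] at hx
    exact lt_irrefl _ hx
  have h1 : min (v.ord x) (v.ord (-(algebraMap K F c))) ≤ v.ord (x + -(algebraMap K F c)) :=
    min_ord_le_ord_add v hx0 (neg_ne_zero.mpr hc0) (by rwa [← sub_eq_add_neg])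
  have h2 : min (v.ord (x - algebraMap K F c)) (v.ord (algebraMap K F c)) ≤
      v.ord ((x - algebraMap K F c) + algebraMap K F c) :=
    min_ord_le_ord_add v hxc hc0 (by simpa using hx0)
  rw [sub_add_cancel, hordc] at h2
  rw [← sub_eq_add_neg, ord_neg, hordc, min_eq_left hx.le] at h1
  rcases min_le_iff.mp h2 with h | h
  · omega
  · omega

theorem eq_of_pos_ord_sub (v : Place K F) {x : F} {c c' : K}
    (h : 0 < v.ord (x - algebraMap K F c)) (h' : 0 < v.ord (x - algebraMap K F c')) : c = c' := by
  by_contra hne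
  have hcc : c - c' ≠ 0 := sub_ne_zero.mpr hne
  have h0 : v.ord (algebraMap K F (c - c')) = 0 := ord_algebraMap v hcc
  have hf : x - algebraMap K F c' ≠ 0 := by
    rintro hz
    rw [hz] at h'
    simp at h'
  have hg : -(x - algebraMap K F c) ≠ 0 := by
    rintro hz
    rw [neg_eq_zero] at hz
    rw [hz] at h
    simp at h
  have hsum : (x - algebraMap K F c') + -(x - algebraMap K F c) = algebraMap K F (c - c') := by
    rw [map_sub]; ring
  have hne' : (x - algebraMap K F c') + -(x - algebraMap K F c) ≠ 0 := by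
    rw [hsum]
    exact (map_ne_zero _).mpr hcc
  have := min_ord_le_ord_add v hf hg hne'
  rw [hsum, h0, ord_neg] at this
  rcases min_le_iff.mp this with h1 | h1 <;> omega

/-! ### The genus from counts -/

theorem genus_eq_of_counts_core [HasCanonicalDivisor (K := K) (F := F)]
    (x : F) (n : ℕ)
    (h_val : ∀ v : Place K F, v.ord x < 0 ∨ ∃ c : K, 0 < v.ord (x - algebraMap K F c))
    (h_deg : ∀ v : Place K F, v.deg = 1)
    (h_zeros : ∀ c : K, ∃ hfin : {v : Place K F | 0 < v.ord (x - algebraMap K F c)}.Finite,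
      ∑ v ∈ hfin.toFinset, v.ord (x - algebraMap K F c) = n)
    (h_poles : ∃ hfin : {v : Place K F | v.ord x < 0}.Finite,
      ∑ v ∈ hfin.toFinset, (-v.ord x) = n)
    (h_principal : ∀ f : F, f ≠ 0 → ∀ S : Finset (Place K F),
      (∀ v : Place K F, v.ord f ≠ 0 → v ∈ S) → ∑ v ∈ S, v.ord f = 0)
    (h_span : Submodule.span F {D K F x} = ⊤) (hdx : D K F x ≠ 0)
    (h_dzero : ∀ (v : Place K F) (y : F), 0 < v.ord y →
      v.ordDifferential (D K F y) = v.ord y - 1)
    (h_dpole : ∀ (v : Place K F) (y : F), v.ord y < 0 →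
      v.ordDifferential (D K F y) = v.ord y - 1)
    (h_smul : ∀ (v : Place K F) (f : F), f ≠ 0 →
      v.ordDifferential (f • D K F x) = v.ord f + v.ordDifferential (D K F x))
    (C : Finset K)
    (hC : ∀ c ∉ C, Nat.card {v : Place K F | 0 < v.ord (x - algebraMap K F c)} = n)
    (g : ℕ)
    (hg : (2 * g : ℤ) - 2 =
      ∑ c ∈ C, ((n : ℤ) - Nat.card {v : Place K F | 0 < v.ord (x - algebraMap K F c)})
        - n - Nat.card {v : Place K F | v.ord x < 0}) :
    genus K F = g := by
  classical
  obtain ⟨hPfin, hPsum⟩ := h_poles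
  choose hZfin hZsum using h_zeros
  set P : Finset (Place K F) := hPfin.toFinset with hP
  set Z : K → Finset (Place K F) := fun c => (hZfin c).toFinset with hZ
  have memP : ∀ v, v ∈ P ↔ v.ord x < 0 := by
    intro v
    simp [hP]
  have memZ : ∀ c v, v ∈ Z c ↔ 0 < v.ord (x - algebraMap K F c) := by
    intro c v
    simp [hZ]
  set R : Place K F → ℤ := fun v => v.ordDifferential (D K F x) with hR
  have R_pole : ∀ v : Place K F, v.ord x < 0 → R v = v.ord x - 1 := fun v hv => h_dpole v x hv
  have R_zero : ∀ (v : Place K F) (c : K), 0 < v.ord (x - algebraMap K F c) →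
      R v = v.ord (x - algebraMap K F c) - 1 := by
    intro v c hv
    have h1 : D K F x = D K F (x - algebraMap K F c) := by
      rw [map_sub, Derivation.map_algebraMap, sub_zero]
    simp only [hR]
    rw [h1]
    exact h_dzero v _ hv
  -- unramified outside `C`
  have unram : ∀ c ∉ C, ∀ v : Place K F, 0 < v.ord (x - algebraMap K F c) →
      v.ord (x - algebraMap K F c) = 1 := by
    intro c hc v hv
    have hcard : (Z c).card = n := by
      rw [← hC c hc, Nat.card_coe_set_eq, Set.ncard_eq_toFinset_card _ (hZfin c)]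
    have h0 : ∑ w ∈ Z c, (w.ord (x - algebraMap K F c) - 1) = 0 := by
      rw [Finset.sum_sub_distrib, hZsum c]
      simp [hcard]
    have hnn : ∀ w ∈ Z c, 0 ≤ w.ord (x - algebraMap K F c) - 1 := by
      intro w hw
      have := (memZ c w).mp hw
      omega
    have := (Finset.sum_eq_zero_iff_of_nonneg hnn).mp h0 v ((memZ c v).mpr hv)
    omega
  set T : Finset (Place K F) := P ∪ C.biUnion Z with hT
  have R_outside : ∀ v : Place K F, v ∉ T → R v = 0 := by
    intro v hv
    rw [hT, Finset.mem_union, Finset.mem_biUnion, not_or] at hv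
    rcases h_val v with h | ⟨c, hc⟩
    · exact absurd ((memP v).mpr h) hv.1
    · have hcC : c ∉ C := fun hcC => hv.2 ⟨c, hcC, (memZ c v).mpr hc⟩
      rw [R_zero v c hc, unram c hcC v hc]
      simp
  -- the chosen differential
  have hex : ∃ ω : Ω[F⁄K], ω ≠ 0 := ⟨D K F x, hdx⟩
  obtain ⟨f, hf⟩ : ∃ f : F, f • D K F x = hex.choose := by
    have hmem : hex.choose ∈ Submodule.span F {D K F x} := h_span ▸ Submodule.mem_top
    exact Submodule.mem_span_singleton.mp hmem
  have hf0 : f ≠ 0 := by
    rintro rfl
    rw [zero_smul] at hf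
    exact hex.choose_spec hf.symm
  set D0 : Divisor K F := canonicalDivisorOf hex.choose_spec with hD0
  have hD0v : ∀ v : Place K F, D0 v = v.ord f + R v := by
    intro v
    rw [hD0, canonicalDivisorOf_apply, ← hf, h_smul v f hf0]
  have hdeg : Divisor.degree D0 = ∑ v ∈ D0.support ∪ T, D0 v := by
    have h1 : Divisor.degree D0 = ∑ v ∈ D0.support, D0 v := by
      simp only [Divisor.degree, Finsupp.liftAddHom_apply, Finsupp.sum, AddMonoidHom.coe_mulRight,
        h_deg, Nat.cast_one, mul_one]
    rw [h1]
    apply Finset.sum_subset Finset.subset_union_left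
    intro v _ hv
    exact Finsupp.notMem_support_iff.mp hv
  have hprin : ∑ v ∈ D0.support ∪ T, v.ord f = 0 := by
    apply h_principal f hf0
    intro v hv
    by_contra hvS
    rw [Finset.mem_union, not_or] at hvS
    have h1 : D0 v = 0 := Finsupp.notMem_support_iff.mp hvS.1
    have h2 : R v = 0 := R_outside v hvS.2
    rw [hD0v, h2, add_zero] at h1
    exact hv h1
  have hRsum : ∑ v ∈ D0.support ∪ T, R v = ∑ v ∈ T, R v := by
    apply (Finset.sum_subset Finset.subset_union_right _).symm
    intro v _ hv
    exact R_outside v hv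
  have hdisj1 : Disjoint P (C.biUnion Z) := by
    rw [Finset.disjoint_left]
    intro v hvP hvZ
    rw [Finset.mem_biUnion] at hvZ
    obtain ⟨c, _, hvc⟩ := hvZ
    have h1 := (memP v).mp hvP
    have h2 := (memZ c v).mp hvc
    rw [ord_sub_const_of_neg v h1 c] at h2
    omega
  have hdisj2 : (C : Set K).PairwiseDisjoint Z := by
    intro c _ c' _ hne
    show Disjoint (Z c) (Z c')
    rw [Finset.disjoint_left]
    intro v hv hv'
    exact hne (eq_of_pos_ord_sub v ((memZ c v).mp hv) ((memZ c' v).mp hv'))
  have hT_sum : ∑ v ∈ T, R v = ∑ v ∈ P, R v + ∑ c ∈ C, ∑ v ∈ Z c, R v := by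
    rw [hT, Finset.sum_union hdisj1, Finset.sum_biUnion hdisj2]
  have hPsum' : ∑ v ∈ P, R v = -(n : ℤ) - P.card := by
    rw [Finset.sum_congr rfl (fun v hv => R_pole v ((memP v).mp hv)), Finset.sum_sub_distrib]
    have h1 : ∑ v ∈ P, v.ord x = -(n : ℤ) := by
      have h2 := hPsum
      rw [Finset.sum_neg_distrib] at h2
      omega
    rw [h1]
    simp
  have hZsum' : ∀ c : K, ∑ v ∈ Z c, R v = (n : ℤ) - (Z c).card := by
    intro c
    rw [Finset.sum_congr rfl (fun v hv => R_zero v c ((memZ c v).mp hv)), Finset.sum_sub_distrib,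
      hZsum c]
    simp
  have hcardP : (P.card : ℤ) = Nat.card {v : Place K F | v.ord x < 0} := by
    rw [Nat.card_coe_set_eq, Set.ncard_eq_toFinset_card _ hPfin]
  have hcardZ : ∀ c : K, ((Z c).card : ℤ) =
      Nat.card {v : Place K F | 0 < v.ord (x - algebraMap K F c)} := by
    intro c
    rw [Nat.card_coe_set_eq, Set.ncard_eq_toFinset_card _ (hZfin c)]
  have hdegree : Divisor.degree D0 = 2 * (g : ℤ) - 2 := by
    rw [hdeg, Finset.sum_congr rfl (fun v _ => hD0v v), Finset.sum_add_distrib, hprin, zero_add,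
      hRsum, hT_sum, hPsum', Finset.sum_congr rfl (fun c _ => hZsum' c),
      Finset.sum_congr rfl (fun c _ => by rw [hcardZ c]), hcardP, hg]
    ring
  have hgen : genus K F = (Divisor.degree D0 + 2).toNat / 2 := by
    unfold genus
    rw [dif_pos hex]
  rw [hgen, hdegree]
  have : (2 * (g : ℤ) - 2 + 2).toNat = 2 * g := by omega
  rw [this]
  omega

end Fermat.Agent.S24.RH
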