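/-
S24, part A, final wrapper: the genus of a function field in one variable over an algebraically
closed field of characteristic zero from the numbers of places over the values of a generator
(abstract Riemann–Hurwitz), with all hypotheses of `RH.genus_eq_of_counts_core` discharged.
-/
import Mathlib
import Fermat.Agent.S24.RiemannHurwitz
import Fermat.Agent.S24.ARest
import Fermat.Agent.S24.Transfer
import Fermat.Agent.S24.ResidueTrivial
import Fermat.Agent.S24.DNeZero
import Fermat.Agent.S24.PlaceBasic

set_option autoImplicit false

noncomputable section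

open KaehlerDifferential IntermediateField AlgebraicCurve

namespace Fermat.Agent.S24

variable {K F : Type*} [Field K] [Field F] [Algebra K F]

/-- **Riemann–Hurwitz, counting form.**  `K` algebraically closed of characteristic zero,
`x : F` transcendental with `F` finite over `K(x)` of degree `n`.  If all values `c ∉ C` have
exactly `n` places above them and `2g - 2 = ∑_{c ∈ C} (n - #{places over c}) - n - #{poles}`,
then the genus of `F/K` (in the Prelude's sense) is `g`. -/
theorem genus_eq_of_counts [IsAlgClosed K] [CharZero K] [HasCanonicalDivisor (K := K) (F := F)]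
    (x : F) (hx : Transcendental K x) [FiniteDimensional K⟮x⟯ F]
    (C : Finset K)
    (hC : ∀ c ∉ C, Nat.card (placesOver (K := K) x c) = Module.finrank K⟮x⟯ F) (g : ℕ)
    (hg : (2 * g : ℤ) - 2 =
      ∑ c ∈ C, ((Module.finrank K⟮x⟯ F : ℤ) - Nat.card (placesOver (K := K) x c))
        - Module.finrank K⟮x⟯ F - Nat.card (polesOf K x)) :
    genus K F = g := by
  have hne : ∀ (v : Place K F) (y : F), v.ord y ≠ 0 → y ≠ 0 := by
    intro v y hy h0
    rw [h0, Place.ord_zero] at hy
    exact hy rfl
  refine RH.genus_eq_of_counts_core x (Module.finrank K⟮x⟯ F)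
    (ARest.exists_value x hx) (ARest.deg_eq_one x)
    (Transfer.placesOver_finite_sum x hx) (Transfer.polesOf_finite_sum x hx)
    (fun f _ S hS => ARest.sum_ord_eq_zero x f S hS)
    (Diff.span_D_eq_top x) (DNeZero.D_ne_zero x hx)
    (fun v y hy => Diff.ordDifferential_D_eq x v (hne v y hy.ne') hy.ne')
    (fun v y hy => Diff.ordDifferential_D_eq x v (hne v y hy.ne) hy.ne)
    ?_ C hC g hg
  intro v f hf
  -- `ord_v (f • dx) = ord_v f + ord_v (dx)`: split according to the centre of `v`
  rcases ARest.exists_value x hx v with hpole | ⟨c, hc⟩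
  · rw [Diff.ordDifferential_smul_D_eq x v (hne v x hpole.ne) hpole.ne hf,
      Diff.ordDifferential_D_eq x v (hne v x hpole.ne) hpole.ne]
  · rw [Diff.ordDifferential_smul_D_sub_eq x v c (hne v _ hc.ne') hc.ne' hf,
      Diff.ordDifferential_D_sub_eq x v c (hne v _ hc.ne') hc.ne']

end Fermat.Agent.S24
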