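import Mathlib
import Fermat.Prelude.Def_ModularCurve_GenusNumerics
import Fermat.Agent.S21.OrbitGenus

/-!
# S24-NUM: the genus formula of `X₀(N)` is a natural number

`exists_nat_genusFormula N : ∃ g : ℕ, (g : ℚ) = ModularCurve.genusFormula N`.

Self-contained proof (no modular forms): by `S21.two_mul_genusFormula_sub_two`,
`2 g - 2 = |X| - o_S - o_{ST} - o_T` where `X = SL(2, ℤ) ⧸ Γ₀(N)` and `o_g` is the number of
orbits of `⟨g⟩` on `X`; by `S21.genusFormula_nonneg`, `0 ≤ g`.  The parity of the right-hand
side comes from the sign of permutations: `sign σ = (-1) ^ (|X| + o_σ)` and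
`sign (S T) = sign S * sign T`.
-/

set_option autoImplicit false

open scoped MatrixGroups

namespace Fermat.Agent.S24

namespace Num

open Equiv Equiv.Perm

section Perm

variable {X : Type*} [Fintype X] [DecidableEq X]

/-- The classifying map of the `⟨σ⟩`-orbits: a fixed point is sent to itself, a moved point to
its cycle. -/
def orbKey (σ : Perm X) (x : X) : X ⊕ Perm X :=
  if σ x = x then Sum.inl x else Sum.inr (σ.cycleOf x)

theorem orbKey_eq_iff (σ : Perm X) (x y : X) :
    orbKey σ x = orbKey σ y ↔ ∃ k : ℤ, (σ ^ k) y = x := by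
  constructor
  · intro h
    unfold orbKey at h
    by_cases hx : σ x = x
    · by_cases hy : σ y = y
      · rw [if_pos hx, if_pos hy] at h
        exact ⟨0, by simpa using (Sum.inl.inj h).symm⟩
      · rw [if_pos hx, if_neg hy] at h
        exact absurd h (by simp)
    · by_cases hy : σ y = y
      · rw [if_neg hx, if_pos hy] at h
        exact absurd h (by simp)
      · rw [if_neg hx, if_neg hy] at h
        have hc : σ.cycleOf x = σ.cycleOf y := Sum.inr.inj h
        have hxs : x ∈ (σ.cycleOf x).support :=
          mem_support_cycleOf_iff.mpr ⟨SameCycle.refl σ x, mem_support.mpr hx⟩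
        rw [hc] at hxs
        exact (mem_support_cycleOf_iff.mp hxs).1
  · rintro ⟨k, rfl⟩
    have hsc : SameCycle σ y ((σ ^ k) y) := ⟨k, rfl⟩
    unfold orbKey
    by_cases hy : σ y = y
    · have hk : (σ ^ k) y = y := zpow_apply_eq_self_of_apply_eq_self hy k
      rw [hk]
    · have hcomm : σ ((σ ^ k) y) = (σ ^ k) (σ y) := by
        rw [← Perm.mul_apply, ← Perm.mul_apply, (Commute.zpow_right (Commute.refl σ) k).eq]
      have hx : σ ((σ ^ k) y) ≠ (σ ^ k) y := by
        intro h
        rw [hcomm] at h
        exact hy ((σ ^ k).injective h)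
      rw [if_neg hx, if_neg hy, hsc.cycleOf_eq]

theorem image_orbKey (σ : Perm X) :
    (Finset.univ.image (orbKey σ)) =
      (Finset.univ.filter (fun x => σ x = x)).disjSum σ.cycleFactorsFinset := by
  ext z
  rw [Finset.mem_image, Finset.mem_disjSum]
  constructor
  · rintro ⟨x, -, rfl⟩
    unfold orbKey
    by_cases hx : σ x = x
    · rw [if_pos hx]
      exact Or.inl ⟨x, by simp [hx], rfl⟩
    · rw [if_neg hx]
      exact Or.inr ⟨σ.cycleOf x, cycleOf_mem_cycleFactorsFinset_iff.mpr (mem_support.mpr hx), rfl⟩
  · rintro (⟨a, ha, rfl⟩ | ⟨c, hc, rfl⟩)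
    · refine ⟨a, Finset.mem_univ _, ?_⟩
      have ha' : σ a = a := by simpa using ha
      unfold orbKey
      rw [if_pos ha']
    · have hcyc := (mem_cycleFactorsFinset_iff.mp hc).1
      obtain ⟨a, ha⟩ := hcyc.nonempty_support
      have haσ : a ∈ σ.support := mem_cycleFactorsFinset_support_le hc ha
      refine ⟨a, Finset.mem_univ _, ?_⟩
      unfold orbKey
      rw [if_neg (mem_support.mp haσ), ← cycle_is_cycleOf ha hc]

/-- The orbit relation of the cyclic group generated by `g`. -/
theorem orbitRel_zpowers_iff' {G : Type*} [Group G] {α : Type*} [MulAction G α] (g : G)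
    (a b : α) : MulAction.orbitRel (Subgroup.zpowers g) α a b ↔ ∃ k : ℤ, g ^ k • b = a := by
  rw [MulAction.orbitRel_apply, MulAction.mem_orbit_iff]
  constructor
  · rintro ⟨⟨x, hx⟩, rfl⟩
    obtain ⟨k, rfl⟩ := Subgroup.mem_zpowers_iff.mp hx
    exact ⟨k, rfl⟩
  · rintro ⟨k, rfl⟩
    exact ⟨⟨g ^ k, Subgroup.zpow_mem_zpowers g k⟩, rfl⟩

/-- Number of orbits of `⟨σ⟩` = number of fixed points + number of cycles. -/
theorem card_orbits_perm (σ : Perm X) :
    Nat.card (MulAction.orbitRel.Quotient (Subgroup.zpowers σ) X) =
      (Finset.univ.filter (fun x => σ x = x)).card + σ.cycleFactorsFinset.card := by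
  classical
  rw [← Finset.card_disjSum, ← image_orbKey]
  let _ : Fintype (MulAction.orbitRel.Quotient (Subgroup.zpowers σ) X) := Fintype.ofFinite _
  have hwd : ∀ a b : X, MulAction.orbitRel (Subgroup.zpowers σ) X a b →
      orbKey σ a = orbKey σ b := by
    intro a b hab
    rw [orbitRel_zpowers_iff'] at hab
    obtain ⟨k, hk⟩ := hab
    exact (orbKey_eq_iff σ a b).mpr ⟨k, hk⟩
  let f : MulAction.orbitRel.Quotient (Subgroup.zpowers σ) X → X ⊕ Perm X :=
    Quotient.lift (orbKey σ) hwd
  have hf : Function.Injective f := by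
    intro p q
    induction p using Quotient.inductionOn with | _ a => ?_
    induction q using Quotient.inductionOn with | _ b => ?_
    intro h
    apply Quotient.sound
    show MulAction.orbitRel (Subgroup.zpowers σ) X a b
    rw [orbitRel_zpowers_iff']
    exact (orbKey_eq_iff σ a b).mp h
  have himg : Finset.univ.image f = Finset.univ.image (orbKey σ) := by
    ext z
    simp only [Finset.mem_image, Finset.mem_univ, true_and]
    constructor
    · rintro ⟨p, rfl⟩
      induction p using Quotient.inductionOn with | _ a => ?_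
      exact ⟨a, rfl⟩
    · rintro ⟨a, rfl⟩
      exact ⟨Quotient.mk _ a, rfl⟩
  rw [Nat.card_eq_fintype_card, ← himg, Finset.card_image_of_injective _ hf, Finset.card_univ]

/-- `sign σ = (-1) ^ (|X| + number of ⟨σ⟩-orbits)`. -/
theorem sign_eq_neg_one_pow_card_orbits (σ : Perm X) :
    Perm.sign σ = (-1) ^ (Fintype.card X +
      Nat.card (MulAction.orbitRel.Quotient (Subgroup.zpowers σ) X)) := by
  have hfix : (Finset.univ.filter (fun x => σ x = x)).card + σ.support.card = Fintype.card X := by
    have h := Finset.card_filter_add_card_filter_not (s := (Finset.univ : Finset X))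
      (p := fun x => σ x = x)
    have hs : (Finset.univ.filter (fun x => ¬ σ x = x)) = σ.support := by
      ext x; simp
    rw [hs, Finset.card_univ] at h
    exact h
  have hct : Multiset.card σ.cycleType = σ.cycleFactorsFinset.card := by
    rw [cycleType_def, Multiset.card_map]; rfl
  rw [sign_of_cycleType, sum_cycleType, card_orbits_perm, hct, ← hfix]
  have e : (Finset.univ.filter (fun x => σ x = x)).card + σ.support.card +
      ((Finset.univ.filter (fun x => σ x = x)).card + σ.cycleFactorsFinset.card) =
      (σ.support.card + σ.cycleFactorsFinset.card) +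
        2 * (Finset.univ.filter (fun x => σ x = x)).card := by ring
  rw [e, pow_add (-1 : ℤˣ) (σ.support.card + σ.cycleFactorsFinset.card), pow_mul]
  simp

end Perm

section Action

variable {G : Type*} [Group G] {X : Type*} [MulAction G X]

/-- The orbits of `⟨g⟩` on `X` are the orbits of the permutation induced by `g`. -/
theorem card_orbits_toPerm (g : G) :
    Nat.card (MulAction.orbitRel.Quotient (Subgroup.zpowers (MulAction.toPerm g : Perm X)) X) =
      Nat.card (MulAction.orbitRel.Quotient (Subgroup.zpowers g) X) := by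
  apply Nat.card_congr
  refine Quotient.congr (Equiv.refl X) ?_
  intro a b
  show MulAction.orbitRel (Subgroup.zpowers (MulAction.toPerm g : Perm X)) X a b ↔
    MulAction.orbitRel (Subgroup.zpowers g) X a b
  rw [orbitRel_zpowers_iff', orbitRel_zpowers_iff']
  have key : ∀ k : ℤ, (MulAction.toPerm g : Perm X) ^ k • b = g ^ k • b := by
    intro k
    have h := map_zpow (MulAction.toPermHom G X) g k
    rw [Perm.smul_def]
    show ((MulAction.toPermHom G X g) ^ k) b = g ^ k • b
    rw [← h]
    rfl
  constructor
  · rintro ⟨k, hk⟩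
    exact ⟨k, by rw [← key]; exact hk⟩
  · rintro ⟨k, hk⟩
    exact ⟨k, by rw [key]; exact hk⟩

variable [Fintype X] [DecidableEq X]

theorem sign_toPerm (g : G) :
    Perm.sign (MulAction.toPerm g : Perm X) = (-1) ^ (Fintype.card X +
      Nat.card (MulAction.orbitRel.Quotient (Subgroup.zpowers g) X)) := by
  rw [sign_eq_neg_one_pow_card_orbits, card_orbits_toPerm]

/-- Parity relation between the numbers of orbits of `g`, `h` and `g * h`. -/
theorem even_card_orbits (g h : G) :
    Even ((Fintype.card X + Nat.card (MulAction.orbitRel.Quotient (Subgroup.zpowers g) X)) +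
      (Fintype.card X + Nat.card (MulAction.orbitRel.Quotient (Subgroup.zpowers h) X)) +
      (Fintype.card X +
        Nat.card (MulAction.orbitRel.Quotient (Subgroup.zpowers (g * h)) X))) := by
  have hmul : (MulAction.toPerm (g * h) : Perm X) = MulAction.toPerm g * MulAction.toPerm h :=
    map_mul (MulAction.toPermHom G X) g h
  have hs : Perm.sign (MulAction.toPerm (g * h) : Perm X) =
      Perm.sign (MulAction.toPerm g : Perm X) * Perm.sign (MulAction.toPerm h : Perm X) := by
    rw [hmul, map_mul]
  rw [sign_toPerm, sign_toPerm, sign_toPerm] at hs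
  rw [← neg_one_pow_eq_one_iff_even (R := ℤˣ) (by decide), pow_add, pow_add, hs]
  exact Int.units_mul_self _

end Action

/-- **S24-NUM**: the genus formula of `X₀(N)` takes a natural number value. -/
theorem exists_nat_genusFormula_aux (N : ℕ) [NeZero N] :
    ∃ g : ℕ, (g : ℚ) = ModularCurve.genusFormula N := by
  classical
  let X := SL(2, ℤ) ⧸ CongruenceSubgroup.Gamma0 N
  have hfin : Finite X := inferInstance
  let _ : Fintype X := Fintype.ofFinite X
  have hev := even_card_orbits (X := X) ModularGroup.S ModularGroup.T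
  have h2 := Fermat.Agent.S21.two_mul_genusFormula_sub_two N
  have h0 := Fermat.Agent.S21.genusFormula_nonneg N
  obtain ⟨m, hm⟩ := hev
  rw [← Nat.card_eq_fintype_card] at hm
  have hmQ : ((Nat.card X : ℚ) + (Nat.card (MulAction.orbitRel.Quotient
      (Subgroup.zpowers ModularGroup.S) X) : ℚ)) + ((Nat.card X : ℚ) +
      (Nat.card (MulAction.orbitRel.Quotient (Subgroup.zpowers ModularGroup.T) X) : ℚ)) +
      ((Nat.card X : ℚ) + (Nat.card (MulAction.orbitRel.Quotient
        (Subgroup.zpowers (ModularGroup.S * ModularGroup.T)) X) : ℚ)) = (m : ℚ) + m := by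
    exact_mod_cast hm
  have hg : ModularCurve.genusFormula N = 2 * (Nat.card X : ℚ) + 1 - m := by
    linarith
  have hle : m ≤ 2 * Nat.card X + 1 := by
    have : (m : ℚ) ≤ 2 * (Nat.card X : ℚ) + 1 := by linarith
    exact_mod_cast this
  refine ⟨2 * Nat.card X + 1 - m, ?_⟩
  rw [hg, Nat.cast_sub hle]
  push_cast
  ring

end Num

/-- **S24-NUM**: the genus formula of `X₀(N)` takes a natural number value. -/
theorem exists_nat_genusFormula (N : ℕ) [NeZero N] :
    ∃ g : ℕ, (g : ℚ) = ModularCurve.genusFormula N :=
  Num.exists_nat_genusFormula_aux N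

end Fermat.Agent.S24
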