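import Mathlib
import Fermat.Agent.S24.ModDefs
import Fermat.Agent.S21.OrbitGenus

/-!
# S24 [ORBIT]: sizes of the orbits of `S`, `S * T`, `T` on `SL(2, ℤ) ⧸ Γ₀(N)`

General facts about the fibres of `X → X / ⟨g⟩` for a group element `g` acting on a finite
type, specialised to `X = XN N = SL(2, ℤ) ⧸ Γ₀(N)` and `g = S`, `S * T`, `T`.
-/

set_option autoImplicit false

open scoped MatrixGroups

namespace Fermat.Agent.S24

section General

variable {G X : Type*} [Group G] [MulAction G X]

/-- Two points have the same image in `X / ⟨g⟩` iff they differ by a power of `g`. -/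
theorem orbSize_mk_eq_iff (g : G) (x y : X) :
    (Quotient.mk'' x : MulAction.orbitRel.Quotient (Subgroup.zpowers g) X) = Quotient.mk'' y ↔
      ∃ k : ℤ, x = g ^ k • y := by
  rw [Quotient.eq'', MulAction.orbitRel_apply, MulAction.mem_orbit_iff]
  constructor
  · rintro ⟨⟨h, hh⟩, rfl⟩
    obtain ⟨k, rfl⟩ := Subgroup.mem_zpowers_iff.mp hh
    exact ⟨k, rfl⟩
  · rintro ⟨k, rfl⟩
    exact ⟨⟨g ^ k, Subgroup.zpow_mem_zpowers g k⟩, rfl⟩

/-- The fibre of `X → X / ⟨g⟩` through `x` has `minimalPeriod (g • ·) x` elements. -/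
theorem orbSize_card_fibre_eq_minimalPeriod [Finite X] (g : G) (x : X) :
    Nat.card {y : X // (Quotient.mk'' y : MulAction.orbitRel.Quotient (Subgroup.zpowers g) X) =
      Quotient.mk'' x} = Function.minimalPeriod (g • ·) x := by
  classical
  have hset : {y : X | (Quotient.mk'' y : MulAction.orbitRel.Quotient (Subgroup.zpowers g) X) =
      Quotient.mk'' x} = MulAction.orbit (Subgroup.zpowers g) x := by
    ext y
    change (Quotient.mk'' y : MulAction.orbitRel.Quotient (Subgroup.zpowers g) X) =
      Quotient.mk'' x ↔ _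
    rw [Quotient.eq'', MulAction.orbitRel_apply]
  have hcard : Nat.card {y : X // (Quotient.mk'' y :
      MulAction.orbitRel.Quotient (Subgroup.zpowers g) X) = Quotient.mk'' x} =
      Nat.card (MulAction.orbit (Subgroup.zpowers g) x) := by
    exact Nat.card_congr (Equiv.setCongr hset)
  rw [hcard]
  let _ : Fintype (MulAction.orbit (Subgroup.zpowers g) x) := Fintype.ofFinite _
  rw [MulAction.minimalPeriod_eq_card, Nat.card_eq_fintype_card]

/-- `(g • ·)^[n] x = g ^ n • x`. -/
theorem orbSize_iterate_smul (g : G) (n : ℕ) (x : X) : (g • ·)^[n] x = g ^ n • x := by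
  rw [smul_iterate]

/-- If `g ^ p` fixes `x` for a prime `p` and `g` does not, the fibre through `x` has `p`
elements. -/
theorem orbSize_card_fibre_of_prime [Finite X] (g : G) (x : X) (p : ℕ) (hp : p.Prime)
    (hpx : g ^ p • x = x) (hx : g • x ≠ x) :
    Nat.card {y : X // (Quotient.mk'' y : MulAction.orbitRel.Quotient (Subgroup.zpowers g) X) =
      Quotient.mk'' x} = p := by
  rw [orbSize_card_fibre_eq_minimalPeriod]
  have hper : Function.IsPeriodicPt (g • ·) p x := by
    unfold Function.IsPeriodicPt Function.IsFixedPt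
    rw [orbSize_iterate_smul]; exact hpx
  have hdvd : Function.minimalPeriod (g • ·) x ∣ p := hper.minimalPeriod_dvd
  rcases (Nat.dvd_prime hp).mp hdvd with h1 | h1
  · exfalso
    apply hx
    have := Function.minimalPeriod_eq_one_iff_isFixedPt.mp h1
    exact this
  · exact h1

/-- The fibre through `x` has `h > 0` elements with `g ^ h • x = x`. -/
theorem orbSize_card_fibre_exists [Finite X] (g : G) (x : X) :
    ∃ h : ℕ, 0 < h ∧ g ^ h • x = x ∧
      Nat.card {y : X // (Quotient.mk'' y : MulAction.orbitRel.Quotient (Subgroup.zpowers g) X) =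
        Quotient.mk'' x} = h := by
  refine ⟨Function.minimalPeriod (g • ·) x, ?_, ?_, orbSize_card_fibre_eq_minimalPeriod g x⟩
  · rw [orbSize_card_fibre_eq_minimalPeriod g x |>.symm]
    have : Nonempty {y : X // (Quotient.mk'' y :
        MulAction.orbitRel.Quotient (Subgroup.zpowers g) X) = Quotient.mk'' x} := ⟨⟨x, rfl⟩⟩
    exact Nat.card_pos
  · have := Function.isPeriodicPt_minimalPeriod (g • ·) x
    unfold Function.IsPeriodicPt Function.IsFixedPt at this
    rw [orbSize_iterate_smul] at this
    exact this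

end General

section XN

variable (N : ℕ) [NeZero N]

theorem orbSize_finite_XN : Finite (XN N) := inferInstance

theorem orb_eq_iff (g : SL(2, ℤ)) (x y : XN N) :
    (Quotient.mk'' x : MulAction.orbitRel.Quotient (Subgroup.zpowers g) (XN N)) = Quotient.mk'' y ↔
      ∃ k : ℤ, x = g ^ k • y :=
  orbSize_mk_eq_iff g x y

theorem card_fibre_S (x : XN N) (hx : ModularGroup.S • x ≠ x) :
    Nat.card {y : XN N // (Quotient.mk'' y :
      MulAction.orbitRel.Quotient (Subgroup.zpowers ModularGroup.S) (XN N)) = Quotient.mk'' x} = 2 := by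
  refine orbSize_card_fibre_of_prime ModularGroup.S x 2 Nat.prime_two ?_ hx
  rw [pow_two]
  exact Fermat.Agent.S21.S_mul_S_smul_coset N x

theorem card_fibre_ST (x : XN N) (hx : (ModularGroup.S * ModularGroup.T) • x ≠ x) :
    Nat.card {y : XN N // (Quotient.mk'' y :
      MulAction.orbitRel.Quotient (Subgroup.zpowers (ModularGroup.S * ModularGroup.T)) (XN N)) =
        Quotient.mk'' x} = 3 := by
  refine orbSize_card_fibre_of_prime (ModularGroup.S * ModularGroup.T) x 3 Nat.prime_three ?_ hx
  rw [pow_succ, pow_two]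
  exact Fermat.Agent.S21.ST_cube_smul_coset N x

theorem card_fibre_T (x : XN N) : ∃ h : ℕ, 0 < h ∧ ModularGroup.T ^ h • x = x ∧
    Nat.card {y : XN N // (Quotient.mk'' y :
      MulAction.orbitRel.Quotient (Subgroup.zpowers ModularGroup.T) (XN N)) = Quotient.mk'' x} = h :=
  orbSize_card_fibre_exists ModularGroup.T x

end XN

end Fermat.Agent.S24
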