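import Mathlib
import Fermat.Agent.S24.ModDefs
import Fermat.Agent.S24.Counting
import Fermat.Agent.S24.Genus
import Fermat.Agent.S24.Transfer
import Fermat.Agent.S24.OrbitSize
import Fermat.Agent.S24.PtTop
import Fermat.Agent.S24.PtInv
import Fermat.Agent.S24.ValPt
import Fermat.Agent.S24.CuspTop
import Fermat.Agent.S24.CuspHom
import Fermat.Agent.S24.DegTop
import Fermat.Agent.S24.Num
import Fermat.Agent.S21.OrbitGenus
import Fermat.Agent.S20.CountOrbits

/-!
# S24: final assembly

`K = ℚ̄`, `F = ℚ̄(j(q^d) : d ∣ N)`, `X = SL₂(ℤ) / Γ₀(N)`.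

* the places of `F` over `j = c` are counted by `Counting.card_zeros_eq_card_orbits`, with the
  raw valuations `valPt N (x.out⁻¹ • τ₀)` (`J τ₀ = c`), resp. `valCusp N x.out` over `j = ∞`;
  their number is the number of orbits on `X` of the stabiliser generator (`1`, `S`, `S T`, `T`);
* `Genus.genus_eq_of_counts` (Riemann–Hurwitz) then gives the genus.
-/

set_option autoImplicit false

open UpperHalfPlane ModularForm AlgebraicCurve CongruenceSubgroup
open scoped MatrixGroups Manifold IntermediateField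

noncomputable section

namespace Fermat.Agent.S24.Final

open Fermat.Agent.S24 Fermat.Agent.S24.Counting

theorem zeros_inv_finite_sum {K F : Type*} [Field K] [Field F] [Algebra K F] [IsAlgClosed K]
    [CharZero K] (x : F) (hx : Transcendental K x) [FiniteDimensional K⟮x⟯ F] :
    ∃ hfin : {v : Place K F | 0 < v.ord x⁻¹}.Finite,
      ∑ v ∈ hfin.toFinset, v.ord x⁻¹ = (Module.finrank K⟮x⟯ F : ℤ) := by
  haveI := Transfer.finiteDimensional_inv (K := K) x
  obtain ⟨hfin, hsum⟩ := zerosOf_finite_sum x⁻¹ (Transfer.transcendental_inv hx)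
  rw [Transfer.finrank_inv] at hsum
  exact ⟨hfin, hsum⟩

section Final
variable (N : ℕ) [NeZero N]

open ModularGroup

instance instFintypeXN : Fintype (XN N) := Subgroup.fintypeQuotientOfFiniteIndex

/-- `x.out` of a translate. -/
theorem out_smul (g : SL(2, ℤ)) (y : XN N) :
    ∃ γ ∈ Gamma0 N, (g • y).out = g * y.out * γ := by
  obtain ⟨h, hh⟩ := QuotientGroup.mk_out_eq_mul (Gamma0 N) (g * y.out)
  refine ⟨h, h.2, ?_⟩
  rw [← hh]
  congr 1
  conv_lhs => rw [← QuotientGroup.out_eq' y]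
  rfl

theorem smul_eq_self_iff (g : SL(2, ℤ)) (x : XN N) :
    g • x = x ↔ x.out⁻¹ * g * x.out ∈ Gamma0 N := by
  conv_lhs => rw [← QuotientGroup.out_eq' x]
  rw [MulAction.Quotient.smul_mk, QuotientGroup.eq, smul_eq_mul]
  constructor
  · intro h
    have := (Gamma0 N).inv_mem h
    simpa [mul_assoc] using this
  · intro h
    have := (Gamma0 N).inv_mem h
    simpa [mul_assoc] using this

theorem zpow_smul_fixed {δ : SL(2, ℤ)} {τ0 : ℍ} (hδ : δ • τ0 = τ0) (k : ℤ) : δ ^ k • τ0 = τ0 := by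
  have h1 : δ ∈ MulAction.stabilizer SL(2, ℤ) τ0 := hδ
  exact (MulAction.stabilizer SL(2, ℤ) τ0).zpow_mem h1 k

/-- from the coset representatives to all of `SL(2, ℤ)` (points) -/
theorem valPt_all_of_out (τ0 : ℍ) (f : FN N)
    (h : ∀ x : XN N, 0 ≤ valPt N (x.out⁻¹ • τ0) f) (g : SL(2, ℤ)) : 0 ≤ valPt N (g • τ0) f := by
  obtain ⟨γ, hγ⟩ := QuotientGroup.mk_out_eq_mul (Gamma0 N) g⁻¹
  have h1 := h (QuotientGroup.mk g⁻¹)
  rw [hγ, mul_inv_rev, inv_inv, mul_smul, PtInv.valPt_smul_Gamma0 N _ ((Gamma0 N).inv_mem γ.2)] at h1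
  exact h1

/-- from the coset representatives to all of `SL(2, ℤ)` (cusps) -/
theorem valCusp_all_of_out (f : FN N)
    (h : ∀ x : XN N, 0 ≤ valCusp N x.out f) (g : SL(2, ℤ)) : 0 ≤ valCusp N g f := by
  obtain ⟨γ, hγ⟩ := QuotientGroup.mk_out_eq_mul (Gamma0 N) g
  have h1 := h (QuotientGroup.mk g)
  rw [hγ, valCusp_mul_Gamma0 N _ _ γ.2] at h1
  exact h1

/-- Point fibres: the number of places over `c` is the number of orbits of the stabiliser. -/
theorem card_placesOver_pt (c : KQ) (τ0 : ℍ) (E : ℕ) (hE : 0 < E)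
    (hval : ∀ g : SL(2, ℤ), valPt N (g • τ0) (jBar N - algebraMap KQ (FN N) c) = E)
    (δ : SL(2, ℤ)) (hδ : δ • τ0 = τ0)
    (hdiv : ∀ (x : XN N) (f : FN N), f ≠ 0 → (E : ℤ) ∣ valPt N (x.out⁻¹ • τ0) f *
      (Nat.card {y : XN N // (Quotient.mk'' y :
        MulAction.orbitRel.Quotient (Subgroup.zpowers δ) (XN N)) = Quotient.mk'' x} : ℤ)) :
    Nat.card (placesOver (K := KQ) (jBar N) c) =
        Nat.card (MulAction.orbitRel.Quotient (Subgroup.zpowers δ) (XN N)) ∧
      Module.finrank KQ⟮jBar N⟯ (FN N) = Nat.card (XN N) := by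
  classical
  haveI := finiteDimensional_jBar N
  letI : Fintype (MulAction.orbitRel.Quotient (Subgroup.zpowers δ) (XN N)) := Fintype.ofFinite _
  have key := card_zeros_eq_card_orbits (K := KQ) (X := XN N)
    (O := MulAction.orbitRel.Quotient (Subgroup.zpowers δ) (XN N))
    (jBar N - algebraMap KQ (FN N) c) (Module.finrank KQ⟮jBar N⟯ (FN N))
    (Transfer.placesOver_finite_sum (jBar N) (transcendental_jBar N) c)
    (by rw [← Nat.card_eq_fintype_card]; exact card_XN_le_finrank N)
    (fun x => valPt N (x.out⁻¹ • τ0)) (fun x => ValPt.isRawVal_valPt N _)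
    (E : ℤ) (by exact_mod_cast hE) (fun x => hval _)
    (fun x => Quotient.mk'' x) Quotient.mk''_surjective
    (by
      intro i j hij
      obtain ⟨k, hk⟩ := (orb_eq_iff N δ i j).1 hij
      obtain ⟨γ, hγ, hout⟩ := out_smul N (δ ^ k) j
      funext f
      rw [hk, hout, mul_inv_rev, mul_inv_rev, mul_smul, mul_smul,
        PtInv.valPt_smul_Gamma0 N _ ((Gamma0 N).inv_mem hγ), ← zpow_neg, zpow_smul_fixed hδ])
    hdiv
    (by
      intro f hf hall
      obtain ⟨P, hmonic, hroot, hcoef, hpt, -⟩ := exists_charpoly N f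
      refine ⟨P, hmonic, hroot, fun k hk => ⟨?_, ?_⟩⟩
      · rw [Transfer.adjoin_sub_const]; exact hcoef k
      · refine ⟨QuotientGroup.mk 1, ?_⟩
        exact hpt τ0 (valPt_all_of_out N τ0 f hall) k hk _)
  exact ⟨key.1.trans Nat.card_eq_fintype_card.symm, key.2.trans Nat.card_eq_fintype_card.symm⟩

/-- Generic fibres. -/
theorem card_placesOver_generic (c : KQ) (hc0 : c ≠ 0) (hc1 : c ≠ 1728) :
    Nat.card (placesOver (K := KQ) (jBar N) c) = Nat.card (XN N) ∧
      Module.finrank KQ⟮jBar N⟯ (FN N) = Nat.card (XN N) := by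
  classical
  haveI := finiteDimensional_jBar N
  obtain ⟨τ0, hτ0⟩ := exists_Jfun_eq (iotaK c)
  have key := card_zeros_eq_card (K := KQ) (X := XN N)
    (jBar N - algebraMap KQ (FN N) c) (Module.finrank KQ⟮jBar N⟯ (FN N))
    (Transfer.placesOver_finite_sum (jBar N) (transcendental_jBar N) c)
    (by rw [← Nat.card_eq_fintype_card]; exact card_XN_le_finrank N)
    (fun x => valPt N (x.out⁻¹ • τ0)) (fun x => ValPt.isRawVal_valPt N _)
    (fun x => valPt_jBar_sub_generic N c hc0 hc1 _ (by rw [Jfun_smul, hτ0]))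
    (by
      intro f hf hall
      obtain ⟨P, hmonic, hroot, hcoef, hpt, -⟩ := exists_charpoly N f
      refine ⟨P, hmonic, hroot, fun k hk => ⟨?_, ?_⟩⟩
      · rw [Transfer.adjoin_sub_const]; exact hcoef k
      · refine ⟨QuotientGroup.mk 1, ?_⟩
        exact hpt τ0 (valPt_all_of_out N τ0 f hall) k hk _)
  exact ⟨key.1.trans Nat.card_eq_fintype_card.symm, key.2.trans Nat.card_eq_fintype_card.symm⟩

theorem S_sq : (S : SL(2, ℤ)) ^ 2 = -1 := Fermat.Agent.S20.Count.S_pow_two

theorem ST_ne_neg_one : (S * T : SL(2, ℤ)) ≠ -1 := by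
  intro h
  have h1 := congrArg (fun g : SL(2, ℤ) => (g : Matrix (Fin 2) (Fin 2) ℤ) 0 0) h
  simp [S, T] at h1

theorem ST_cube' : (S * T : SL(2, ℤ)) ^ 3 = -1 := Fermat.Agent.S20.Count.ST_pow_three

/-- The fibre over `1728`. -/
theorem card_placesOver_1728 :
    Nat.card (placesOver (K := KQ) (jBar N) 1728) =
      Nat.card (MulAction.orbitRel.Quotient (Subgroup.zpowers S) (XN N)) := by
  refine (card_placesOver_pt N 1728 UpperHalfPlane.I 2 two_pos
    (fun g => by
      rw [valPt_jBar_sub_1728 N _ (by rw [Jfun_smul, Jfun_I])]; rfl)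
    S S_smul_I ?_).1
  intro x f hf
  by_cases hx : S • x = x
  · have hmem := (smul_eq_self_iff N S x).1 hx
    have h2 : (x.out⁻¹ * S * x.out) ^ 2 = -1 := by
      have : (x.out⁻¹ * S * x.out) ^ 2 = x.out⁻¹ * S ^ 2 * x.out := by
        rw [pow_two, pow_two]; group
      rw [this, S_sq]; simp
    have hfix : (x.out⁻¹ * S * x.out) • (x.out⁻¹ • UpperHalfPlane.I) = x.out⁻¹ • UpperHalfPlane.I := by
      rw [← mul_smul, mul_assoc, mul_assoc, mul_inv_cancel, mul_one, mul_smul, S_smul_I]
    exact Dvd.dvd.mul_right (by exact_mod_cast PtInv.two_dvd_valPt N _ hmem h2 _ hfix f hf) _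
  · rw [card_fibre_S N x hx]
    exact Dvd.intro_left _ rfl

/-- The fibre over `0`. -/
theorem card_placesOver_zero :
    Nat.card (placesOver (K := KQ) (jBar N) 0) =
      Nat.card (MulAction.orbitRel.Quotient (Subgroup.zpowers (S * T)) (XN N)) := by
  obtain ⟨τ0, hfix0, hJ0⟩ : ∃ τ : ℍ, (S * T) • τ = τ ∧ Jfun τ = 0 :=
    exists_fixed_ST
  refine (card_placesOver_pt N 0 τ0 3 (by norm_num)
    (fun g => by
      rw [valPt_jBar_sub_zero N _ (by rw [Jfun_smul, hJ0])]; rfl)
    (S * T) hfix0 ?_).1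
  intro x f hf
  by_cases hx : (S * T) • x = x
  · have hmem := (smul_eq_self_iff N (S * T) x).1 hx
    have h3 : (x.out⁻¹ * (S * T) * x.out) ^ 3 = -1 := by
      have : (x.out⁻¹ * (S * T) * x.out) ^ 3 = x.out⁻¹ * (S * T) ^ 3 * x.out := by
        rw [pow_succ, pow_two, pow_succ, pow_two]; group
      rw [this, ST_cube']; simp
    have hne : x.out⁻¹ * (S * T) * x.out ≠ -1 := by
      intro h
      apply ST_ne_neg_one
      have : S * T = x.out * (x.out⁻¹ * (S * T) * x.out) * x.out⁻¹ := by group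
      rw [this, h]; simp
    have hfix : (x.out⁻¹ * (S * T) * x.out) • (x.out⁻¹ • τ0) = x.out⁻¹ • τ0 := by
      rw [← mul_smul, mul_assoc, mul_assoc, mul_inv_cancel, mul_one, mul_smul, hfix0]
    exact Dvd.dvd.mul_right (by exact_mod_cast PtInv.three_dvd_valPt N _ hmem h3 hne _ hfix f hf) _
  · rw [card_fibre_ST N x hx]
    exact Dvd.intro_left _ rfl

/-- The poles of `j` (the cusps). -/
theorem card_polesOf :
    Nat.card (polesOf KQ (jBar N)) =
      Nat.card (MulAction.orbitRel.Quotient (Subgroup.zpowers T) (XN N)) := by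
  classical
  haveI := finiteDimensional_jBar N
  letI : Fintype (MulAction.orbitRel.Quotient (Subgroup.zpowers T) (XN N)) := Fintype.ofFinite _
  have key := card_zeros_eq_card_orbits (K := KQ) (X := XN N)
    (O := MulAction.orbitRel.Quotient (Subgroup.zpowers T) (XN N))
    (jBar N)⁻¹ (Module.finrank KQ⟮jBar N⟯ (FN N))
    (zeros_inv_finite_sum (jBar N) (transcendental_jBar N))
    (by rw [← Nat.card_eq_fintype_card]; exact card_XN_le_finrank N)
    (fun x => valCusp N x.out) (fun x => QExp.isRawVal_valCusp N _)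
    (N : ℤ) (by exact_mod_cast Nat.pos_of_ne_zero (NeZero.ne N)) (fun x => valCusp_jBar_inv N _)
    (fun x => Quotient.mk'' x) Quotient.mk''_surjective
    (by
      intro i j hij
      obtain ⟨k, hk⟩ := (orb_eq_iff N T i j).1 hij
      obtain ⟨γ, hγ, hout⟩ := out_smul N (T ^ k) j
      funext f
      rw [hk, hout, valCusp_mul_Gamma0 N _ _ hγ, valCusp_T_zpow_mul])
    (by
      intro x f hf
      obtain ⟨h, hh, hfix, hcard⟩ := card_fibre_T N x
      rw [hcard]
      exact dvd_valCusp N x.out h hh ((smul_eq_self_iff N (T ^ h) x).1 hfix) f hf)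
    (by
      intro f hf hall
      obtain ⟨P, hmonic, hroot, hcoef, -, hcusp⟩ := exists_charpoly N f
      refine ⟨P, hmonic, hroot, fun k hk => ⟨?_, ?_⟩⟩
      · rw [Transfer.adjoin_inv]; exact hcoef k
      · refine ⟨QuotientGroup.mk 1, ?_⟩
        exact hcusp (valCusp_all_of_out N f hall) k hk _)
  have hset : polesOf KQ (jBar N) = {v : Place KQ (FN N) | 0 < v.ord (jBar N)⁻¹} := by
    ext v
    simp only [polesOf, Set.mem_ofPred_eq, Place.ord_inv]
    omega
  rw [hset]
  exact key.1.trans Nat.card_eq_fintype_card.symm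

theorem genus_eq (g : ℕ) (hg : (g : ℚ) = ModularCurve.genusFormula N)
    [HasCanonicalDivisor (K := KQ) (F := FN N)] : genus KQ (FN N) = g := by
  classical
  haveI := finiteDimensional_jBar N
  have hn : Module.finrank KQ⟮jBar N⟯ (FN N) = Nat.card (XN N) :=
    (card_placesOver_generic N 1 one_ne_zero (by norm_num)).2
  have h01 : (0 : KQ) ≠ 1728 := by norm_num
  refine genus_eq_of_counts (K := KQ) (jBar N) (transcendental_jBar N) {0, 1728} ?_ g ?_
  · intro c hc
    simp only [Finset.mem_insert, Finset.mem_singleton, not_or] at hc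
    rw [hn]
    exact (card_placesOver_generic N c hc.1 hc.2).1
  · rw [Finset.sum_pair h01, card_placesOver_zero, card_placesOver_1728, card_polesOf, hn]
    have h := Fermat.Agent.S21.two_mul_genusFormula_sub_two N
    rw [← hg] at h
    have h' : ((2 * (g : ℤ) - 2 : ℤ) : ℚ) = (((Nat.card (XN N) : ℤ) -
        Nat.card (MulAction.orbitRel.Quotient (Subgroup.zpowers (S * T)) (XN N)) +
        ((Nat.card (XN N) : ℤ) -
          Nat.card (MulAction.orbitRel.Quotient (Subgroup.zpowers S) (XN N))) -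
        Nat.card (XN N) -
        Nat.card (MulAction.orbitRel.Quotient (Subgroup.zpowers T) (XN N)) : ℤ) : ℚ) := by
      push_cast
      linarith
    exact_mod_cast h'

end Final

end Fermat.Agent.S24.Final
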