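import Mathlib
import Fermat.Agent.S24.CuspHom
import Fermat.Agent.S24.HNFMod

/-!
# The Fricke involution of the function field of `X₀(N)` over `ℚ̄`

`w_N : F → F` is the `ℚ̄`-algebra automorphism of `F = ℚ̄(j(q^d) : d ∣ N)` with
`w_N (j(q^d)) = j(q^(N/d))`.  Analytically it is `z ↦ -1/(N z)`:
`J(d · (-1/(N z))) = J(-1/((N/d) z)) = J((N/d) z)`.

* `codiv N d = N / d` on the divisors of `N`;
* `frickePt N z = -1/(N z)`, `Jabd_frickePt`, `ev_rename` (`ev (rename codiv P) = ev P ∘ frickePt`);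
* `fm_rename_eq_zero_iff`;
* `fricke N : FN N ≃ₐ[KQ] FN N`, `fricke_fm`, `fricke_jFormal`, `fricke_jBar`, `fricke_fricke`,
  `fricke_symm`;
* `ord_fricke` : `(fricke N • v).ord (fricke N f) = v.ord f` (Prelude action on places).
-/

set_option autoImplicit false

open UpperHalfPlane
open scoped MatrixGroups

noncomputable section

namespace Fermat.Agent.S24.Fricke

open Fermat.Agent.S24 Fermat.Agent.S24.QExp AlgebraicCurve

variable (N : ℕ) [NeZero N]

/-- The involution `d ↦ N / d` of the divisors of `N`. -/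
def codiv (d : Dv N) : Dv N := ⟨N / d.1, Nat.div_dvd_of_dvd d.2⟩

@[simp] theorem codiv_val (d : Dv N) : (codiv N d).1 = N / d.1 := rfl

theorem codiv_codiv (d : Dv N) : codiv N (codiv N d) = d :=
  Subtype.ext (Nat.div_div_self d.2 (NeZero.ne N))

theorem codiv_mul (d : Dv N) : (codiv N d).1 * d.1 = N := Nat.div_mul_cancel d.2

theorem codiv_pos (d : Dv N) : 0 < (codiv N d).1 :=
  Nat.pos_of_ne_zero (codiv N d).neZero.ne

theorem dv_pos (d : Dv N) : 0 < d.1 := Nat.pos_of_ne_zero d.neZero.ne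

/-- The Fricke point `-1/(N z)`. -/
def frickePt (z : ℍ) : ℍ :=
  ModularGroup.S • HNFMod.affPt N 0 1 (Nat.pos_of_ne_zero (NeZero.ne N)) one_pos z

theorem coe_frickePt (z : ℍ) : (frickePt N z : ℂ) = (-((N : ℂ) * z))⁻¹ := by
  unfold frickePt
  rw [UpperHalfPlane.modular_S_smul]
  show (-((HNFMod.affPt N 0 1 _ one_pos z : ℍ) : ℂ))⁻¹ = _
  rw [HNFMod.coe_affPt_scale]

/-- `J(d · (-1/(N z))) = J((N/d) z)`. -/
theorem Jabd_frickePt (d : Dv N) (z : ℍ) :
    Jabd d.1 0 1 (frickePt N z) = Jabd (codiv N d).1 0 1 z := by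
  rw [HNFMod.Jabd_eq d.1 0 1 (dv_pos N d) one_pos,
    HNFMod.Jabd_eq (codiv N d).1 0 1 (codiv_pos N d) one_pos,
    ← HNFMod.Jfun_smul ModularGroup.S (HNFMod.affPt (codiv N d).1 0 1 (codiv_pos N d) one_pos z)]
  congr 1
  apply UpperHalfPlane.ext
  rw [UpperHalfPlane.modular_S_smul]
  show ((HNFMod.affPt d.1 0 1 _ one_pos (frickePt N z) : ℍ) : ℂ)
    = (-((HNFMod.affPt (codiv N d).1 0 1 _ one_pos z : ℍ) : ℂ))⁻¹
  rw [HNFMod.coe_affPt_scale, HNFMod.coe_affPt_scale, coe_frickePt]
  have hN : ((N : ℂ)) = ((codiv N d).1 : ℂ) * (d.1 : ℂ) := by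
    rw [← Nat.cast_mul, codiv_mul]
  have hd : (d.1 : ℂ) ≠ 0 := Nat.cast_ne_zero.2 (dv_pos N d).ne'
  have hc : ((codiv N d).1 : ℂ) ≠ 0 := Nat.cast_ne_zero.2 (codiv_pos N d).ne'
  have hz : (z : ℂ) ≠ 0 := UpperHalfPlane.ne_zero z
  rw [hN]
  field_simp

/-- Renaming the generators by `d ↦ N/d` is composition with the Fricke point. -/
theorem ev_rename (P : MvPolynomial (Dv N) KQ) (z : ℍ) :
    ev N (MvPolynomial.rename (codiv N) P) z = ev N P (frickePt N z) := by
  rw [HNFMod.ev_apply, HNFMod.ev_apply, MvPolynomial.eval₂_rename]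
  congr 1
  funext d
  exact (Jabd_frickePt N d z).symm

theorem rename_rename (P : MvPolynomial (Dv N) KQ) :
    MvPolynomial.rename (codiv N) (MvPolynomial.rename (codiv N) P) = P := by
  rw [MvPolynomial.rename_rename]
  have : codiv N ∘ codiv N = id := funext (codiv_codiv N)
  rw [this, MvPolynomial.rename_id_apply]

theorem fm_rename_eq_zero (P : MvPolynomial (Dv N) KQ) (h : fm N P = 0) :
    fm N (MvPolynomial.rename (codiv N) P) = 0 := by
  rw [← ev_eq_zero_iff] at h ⊢
  funext z
  rw [ev_rename, h]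
  rfl

theorem fm_rename_eq_zero_iff (P : MvPolynomial (Dv N) KQ) :
    fm N (MvPolynomial.rename (codiv N) P) = 0 ↔ fm N P = 0 :=
  ⟨fun h => by
    have h2 := fm_rename_eq_zero N _ h
    rwa [rename_rename] at h2, fm_rename_eq_zero N P⟩

/-- The polynomial-level Fricke map `P ↦ fm (rename P)`. -/
def frickePoly : MvPolynomial (Dv N) KQ →+* FN N :=
  ((fm N : MvPolynomial (Dv N) KQ →ₐ[KQ] FN N) : MvPolynomial (Dv N) KQ →+* FN N).comp
    ((MvPolynomial.rename (codiv N) : MvPolynomial (Dv N) KQ →ₐ[KQ] MvPolynomial (Dv N) KQ) :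
      MvPolynomial (Dv N) KQ →+* MvPolynomial (Dv N) KQ)

theorem frickePoly_apply (P : MvPolynomial (Dv N) KQ) :
    frickePoly N P = fm N (MvPolynomial.rename (codiv N) P) := rfl

theorem ker_fm_le_frickePoly :
    RingHom.ker ((fm N).rangeRestrict : MvPolynomial (Dv N) KQ →+* (fm N).range)
      ≤ RingHom.ker (frickePoly N) := by
  intro P hP
  rw [RingHom.mem_ker] at hP ⊢
  have : fm N P = 0 := by
    have := congrArg Subtype.val hP
    simpa using this
  exact fm_rename_eq_zero N P this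

/-- The Fricke map on the subalgebra generated by the generators. -/
def frickeA : (fm N).range →+* FN N :=
  RingHom.liftOfSurjective ((fm N).rangeRestrict : MvPolynomial (Dv N) KQ →+* (fm N).range)
    (fm N).rangeRestrict_surjective ⟨frickePoly N, ker_fm_le_frickePoly N⟩

theorem frickeA_apply (P : MvPolynomial (Dv N) KQ) :
    frickeA N ((fm N).rangeRestrict P) = fm N (MvPolynomial.rename (codiv N) P) :=
  RingHom.liftOfSurjective_comp_apply _ _ _ P

theorem frickeA_injective : Function.Injective (frickeA N) := by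
  rw [injective_iff_map_eq_zero]
  intro a ha
  obtain ⟨P, rfl⟩ := (fm N).rangeRestrict_surjective a
  rw [frickeA_apply, fm_rename_eq_zero_iff] at ha
  exact Subtype.ext ha

/-- The Fricke map as a ring endomorphism of `F`. -/
def frickeHom : FN N →+* FN N :=
  IsFractionRing.lift (frickeA_injective N)

theorem frickeHom_fm (P : MvPolynomial (Dv N) KQ) :
    frickeHom N (fm N P) = fm N (MvPolynomial.rename (codiv N) P) := by
  have := IsFractionRing.lift_algebraMap (K := FN N) (frickeA_injective N)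
    ((fm N).rangeRestrict P)
  rw [frickeA_apply] at this
  exact this

theorem frickeHom_frickeHom (f : FN N) : frickeHom N (frickeHom N f) = f := by
  obtain ⟨P, Q, hQ, rfl⟩ := exists_isRep N f
  rw [map_div₀, map_div₀, frickeHom_fm, frickeHom_fm, frickeHom_fm, frickeHom_fm,
    rename_rename, rename_rename]

theorem frickeHom_algebraMap (a : KQ) :
    frickeHom N (algebraMap KQ (FN N) a) = algebraMap KQ (FN N) a := by
  have h1 : algebraMap KQ (FN N) a = fm N (MvPolynomial.C a) := by
    rw [fm, MvPolynomial.aeval_C]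
  rw [h1, frickeHom_fm, MvPolynomial.rename_C]

/-- **The Fricke involution** `w_N` of `F = ℚ̄(X₀(N))`. -/
def fricke : FN N ≃ₐ[KQ] FN N :=
  AlgEquiv.ofAlgHom
    ({ frickeHom N with commutes' := frickeHom_algebraMap N } : FN N →ₐ[KQ] FN N)
    ({ frickeHom N with commutes' := frickeHom_algebraMap N } : FN N →ₐ[KQ] FN N)
    (AlgHom.ext (frickeHom_frickeHom N)) (AlgHom.ext (frickeHom_frickeHom N))

theorem fricke_apply (f : FN N) : fricke N f = frickeHom N f := rfl

theorem fricke_fm (P : MvPolynomial (Dv N) KQ) :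
    fricke N (fm N P) = fm N (MvPolynomial.rename (codiv N) P) := frickeHom_fm N P

/-- `w_N (j(q^d)) = j(q^(N/d))`. -/
theorem fricke_jFormal (d : Dv N) : fricke N (jFormal N d) = jFormal N (codiv N d) := by
  have h1 : jFormal N d = fm N (MvPolynomial.X d) := by rw [fm, MvPolynomial.aeval_X]
  rw [h1, fricke_fm, MvPolynomial.rename_X, fm, MvPolynomial.aeval_X]

/-- `w_N (j) = j(q^N)`. -/
theorem fricke_jBar : fricke N (jBar N) = jFormal N ⟨N, dvd_rfl⟩ := by
  unfold jBar
  rw [fricke_jFormal]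
  congr 1
  exact Subtype.ext (Nat.div_one N)

theorem fricke_fricke (f : FN N) : fricke N (fricke N f) = f := frickeHom_frickeHom N f

theorem fricke_symm : (fricke N).symm = fricke N := by
  apply AlgEquiv.ext
  intro f
  rw [AlgEquiv.symm_apply_eq, fricke_fricke]

/-- Transport of orders along the Fricke involution (Prelude action of `F ≃ₐ[K] F` on places). -/
theorem ord_fricke (v : Place KQ (FN N)) (f : FN N) :
    (fricke N • v).ord (fricke N f) = v.ord f :=
  Place.ord_smul (fricke N) v f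

/-- `ord_{w v} (f) = ord_v (w f)`. -/
theorem ord_fricke_smul (v : Place KQ (FN N)) (f : FN N) :
    (fricke N • v).ord f = v.ord (fricke N f) := by
  have h := ord_fricke N v (fricke N f)
  rwa [fricke_fricke] at h

end Fermat.Agent.S24.Fricke
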