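/-
S24 / JAC-C: exact ramification from the fibre count (pure algebra; complements `Counting`).
Same hypotheses as `Counting.card_zeros_eq_card_orbits`; the conclusion records, for every raw
valuation `w i` of the family, its place `v` and the exact index `m` with `w i = m * v.ord` and
`m * (size of the orbit of i) = E`, and that every place over `y = 0` arises in this way.
-/
import Mathlib
import Fermat.Agent.S24.Counting

set_option autoImplicit false

noncomputable section

namespace Fermat.Agent.S24.CountExact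

open AlgebraicCurve Polynomial Fermat.Agent.S24.Counting

variable {K F : Type*} [Field K] [Field F] [Algebra K F]

/-- **Exact ramification.**  Hypotheses as in `Counting.card_zeros_eq_card_orbits`.  Then every
`w i` is `m` times the order function of a place `v` over `y = 0`, with
`m * (size of the orbit of i) = E`; and every place over `y = 0` is obtained in this way. -/
theorem exists_place_exact
    {X O : Type*} [Fintype X] [Fintype O]
    (y : F) (n : ℕ)
    (hA2 : ∃ hfin : {v : Place K F | 0 < v.ord y}.Finite,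
      ∑ v ∈ hfin.toFinset, v.ord y = (n : ℤ))
    (hcard : Fintype.card X ≤ n)
    (w : X → F → ℤ) (hw : ∀ i, IsRawVal K (w i))
    (E : ℤ) (hE : 0 < E) (hwy : ∀ i, w i y = E)
    (orb : X → O) (horb : Function.Surjective orb)
    (hO1 : ∀ i j, orb i = orb j → w i = w j)
    (hO2 : ∀ i (f : F), f ≠ 0 → E ∣ w i f * (Nat.card {j // orb j = orb i} : ℤ))
    (hS : ∀ f : F, f ≠ 0 → (∀ i, 0 ≤ w i f) →
      ∃ P : F[X], P.Monic ∧ P.eval f = 0 ∧
        ∀ k, P.coeff k ≠ 0 →
          P.coeff k ∈ IntermediateField.adjoin K {y} ∧ ∃ i, 0 ≤ w i (P.coeff k)) :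
    (∀ i, ∃ (v : Place K F) (m : ℤ), 0 < m ∧ 0 < v.ord y ∧
        m * (Nat.card {j // orb j = orb i} : ℤ) = E ∧ ∀ f : F, f ≠ 0 → w i f = m * v.ord f) ∧
    (∀ v : Place K F, 0 < v.ord y → ∃ (i : X) (m : ℤ), 0 < m ∧
        m * (Nat.card {j // orb j = orb i} : ℤ) = E ∧ ∀ f : F, f ≠ 0 → w i f = m * v.ord f) := by
  classical
  by_cases hy0 : y = 0
  · -- degenerate case: everything is empty
    subst hy0
    obtain ⟨hfin, hsum⟩ := hA2
    have hZ : hfin.toFinset = ∅ := by
      ext v
      simp
    rw [hZ, Finset.sum_empty] at hsum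
    have hn : n = 0 := by exact_mod_cast hsum.symm
    have hX : Fintype.card X = 0 := by omega
    have hXe : IsEmpty X := Fintype.card_eq_zero_iff.mp hX
    refine ⟨fun i => hXe.elim i, fun v hv => ?_⟩
    simp at hv
  have hnt : ∀ i, ∃ f : F, f ≠ 0 ∧ w i f ≠ 0 := fun i =>
    ⟨y, hy0, by rw [hwy i]; exact hE.ne'⟩
  set vp : X → Place K F := fun i => (hw i).place (hnt i) with hvp
  choose m hm_pos hm_pi hm using fun i => (hw i).exists_mul_ord (hnt i)
  have he : ∀ i, E = m i * (vp i).ord y := fun i => by
    rw [← hwy i]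
    exact hm i y hy0
  have he_pos : ∀ i, 0 < (vp i).ord y := fun i => by
    have h1 := he i
    have h2 := hm_pos i
    by_contra hcon
    push Not at hcon
    nlinarith
  -- orbit sizes
  set szO : O → ℕ := fun C => (Finset.univ.filter fun j => orb j = C).card with hszO
  have hszO_card : ∀ i, Nat.card {j // orb j = orb i} = szO (orb i) := fun i => by
    rw [Nat.card_eq_fintype_card, Fintype.card_subtype]
  have hszO_pos : ∀ C, 0 < szO C := fun C => by
    obtain ⟨i, hi⟩ := horb C
    exact Finset.card_pos.mpr ⟨i, by simp [hi]⟩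
  have hsum_sz : ∑ C : O, szO C = Fintype.card X := by
    have := Finset.card_eq_sum_card_fiberwise (s := (Finset.univ : Finset X))
      (t := (Finset.univ : Finset O)) (f := orb) (fun x _ => Finset.mem_univ _)
    rw [Finset.card_univ] at this
    exact this.symm
  -- `e ≤` orbit size
  have hle : ∀ i, (vp i).ord y ≤ szO (orb i) := by
    intro i
    obtain ⟨π, hπ0, hπ1, hπm⟩ := hm_pi i
    have hdvd := hO2 i π hπ0
    rw [hπm, hszO_card i] at hdvd
    have h1 : m i * (vp i).ord y ∣ m i * (szO (orb i) : ℤ) := by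
      rw [← he i]
      exact hdvd
    have h2 : (vp i).ord y ∣ (szO (orb i) : ℤ) :=
      (mul_dvd_mul_iff_left (hm_pos i).ne').mp h1
    exact Int.le_of_dvd (by exact_mod_cast hszO_pos (orb i)) h2
  -- the place only depends on the orbit
  have hvp_orb : ∀ i j, orb i = orb j → vp i = vp j := by
    intro i j hij
    apply Place.ext
    show (hw i).valSubring = (hw j).valSubring
    have h1 := hO1 i j hij
    ext f
    rw [IsRawVal.mem_valSubring, IsRawVal.mem_valSubring, h1]
  -- surjectivity
  have hsurj : ∀ v : Place K F, 0 < v.ord y → ∃ i, v = vp i := by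
    intro v hv
    refine exists_eq_of_forall_integral y vp he_pos ?_ v hv
    intro f hf hall
    have hwf : ∀ i, 0 ≤ w i f := fun i => by
      rw [hm i f hf]
      exact mul_nonneg (hm_pos i).le (hall i)
    obtain ⟨P, hPm, hPf, hPc⟩ := hS f hf hwf
    refine ⟨P, hPm, hPf, fun k hk => ?_⟩
    obtain ⟨hkK, i, hki⟩ := hPc k hk
    refine ⟨hkK, i, ?_⟩
    rw [hm i _ hk] at hki
    have h2 := hm_pos i
    by_contra hcon
    push Not at hcon
    nlinarith
  -- a section of `orb` and the induced map on orbits
  set sec : O → X := Function.surjInv horb with hsec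
  have hsec_orb : ∀ C, orb (sec C) = C := Function.surjInv_eq horb
  set vpO : O → Place K F := fun C => vp (sec C) with hvpO
  have hvpO_orb : ∀ i, vp i = vpO (orb i) := fun i =>
    hvp_orb i (sec (orb i)) (hsec_orb (orb i)).symm
  obtain ⟨-, hexact, -, -⟩ := card_zeros_of_places y n hA2 vpO szO (fun C => he_pos (sec C))
    (fun C => by
      have := hle (sec C)
      rwa [hsec_orb C] at this)
    (by rw [hsum_sz]; exact hcard)
    (fun v hv => by
      obtain ⟨i, hi⟩ := hsurj v hv
      exact ⟨orb i, by rw [hi, hvpO_orb i]⟩)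
  have hmain : ∀ i, m i * (Nat.card {j // orb j = orb i} : ℤ) = E := by
    intro i
    rw [hszO_card i, he i, hvpO_orb i, hexact (orb i)]
  refine ⟨fun i => ⟨vp i, m i, hm_pos i, he_pos i, hmain i, hm i⟩, fun v hv => ?_⟩
  obtain ⟨i, hi⟩ := hsurj v hv
  exact ⟨i, m i, hm_pos i, hmain i, by rw [hi]; exact hm i⟩

end Fermat.Agent.S24.CountExact
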