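import Mathlib
import Fermat.Agent.S24.Ramif
import Fermat.Agent.S24.Fricke
import Fermat.Agent.S24.FundCor

/-!
# Branch locus of `j` and of `J(q^N)` on `X₀(N)` over `ℚ̄`

* `ord_jBar_sub_eq_one` : `F / ℚ̄(j)` is unramified over every `c ∉ {0, 1728}`:
  a place `v` with `ord_v (j - c) > 0` has `ord_v (j - c) = 1`.
* `jN N = J(q^N)`, `fricke_jN`, `ord_jN_sub` : transport along the Fricke involution,
  `ord_v (J(q^N) - c) = ord_{w v} (j - c)`.
* `ord_jN_sub_eq_one` : `F / ℚ̄(J(q^N))` is unramified over every `c ∉ {0, 1728}`.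
* `frickePlace`, `card_zeros_jN_sub`, `card_poles_jN` : the fibres of `J(q^N)` and of `j`
  correspond bijectively.
-/

set_option autoImplicit false

open UpperHalfPlane
open scoped MatrixGroups

noncomputable section

namespace Fermat.Agent.S24.Fricke

open Fermat.Agent.S24 AlgebraicCurve

variable (N : ℕ) [NeZero N]

/-- `J(q^N) ∈ F`. -/
def jN : FN N := jFormal N ⟨N, dvd_rfl⟩

theorem fricke_jBar_eq_jN : fricke N (jBar N) = jN N := fricke_jBar N

theorem fricke_jN : fricke N (jN N) = jBar N := by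
  rw [← fricke_jBar_eq_jN, fricke_fricke]

/-- `F / ℚ̄(j)` is unramified over `c ∉ {0, 1728}`. -/
theorem ord_jBar_sub_eq_one (c : KQ) (hc0 : c ≠ 0) (hc1 : c ≠ 1728) (v : Place KQ (FN N))
    (hv : 0 < v.ord (jBar N - algebraMap KQ (FN N) c)) :
    v.ord (jBar N - algebraMap KQ (FN N) c) = 1 := by
  obtain ⟨τ0, hτ0⟩ := exists_Jfun_eq (iotaK c)
  obtain ⟨x, hx⟩ := (Ramif.exact_generic N c hc0 hc1 τ0 hτ0).2 v hv
  have hne : jBar N - algebraMap KQ (FN N) c ≠ 0 := by
    intro h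
    rw [h, Place.ord_zero] at hv
    exact lt_irrefl _ hv
  rw [← hx _ hne]
  exact valPt_jBar_sub_generic N c hc0 hc1 _ (by rw [HNFMod.Jfun_smul, hτ0])

/-- Transport along the Fricke involution: `ord_v (J(q^N) - c) = ord_{w v} (j - c)`. -/
theorem ord_jN_sub (c : KQ) (v : Place KQ (FN N)) :
    v.ord (jN N - algebraMap KQ (FN N) c)
      = (fricke N • v).ord (jBar N - algebraMap KQ (FN N) c) := by
  rw [ord_fricke_smul, map_sub, fricke_jBar_eq_jN, AlgEquiv.commutes]

theorem ord_jN (v : Place KQ (FN N)) : v.ord (jN N) = (fricke N • v).ord (jBar N) := by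
  rw [ord_fricke_smul, fricke_jBar_eq_jN]

/-- `F / ℚ̄(J(q^N))` is unramified over `c ∉ {0, 1728}`. -/
theorem ord_jN_sub_eq_one (c : KQ) (hc0 : c ≠ 0) (hc1 : c ≠ 1728) (v : Place KQ (FN N))
    (hv : 0 < v.ord (jN N - algebraMap KQ (FN N) c)) :
    v.ord (jN N - algebraMap KQ (FN N) c) = 1 := by
  rw [ord_jN_sub] at hv ⊢
  exact ord_jBar_sub_eq_one N c hc0 hc1 _ hv

/-- The Fricke involution as a permutation of the places of `F`. -/
def frickePlace : Place KQ (FN N) ≃ Place KQ (FN N) :=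
  MulAction.toPerm (fricke N)

theorem frickePlace_apply (v : Place KQ (FN N)) : frickePlace N v = fricke N • v := rfl

/-- The zeros of `J(q^N) - c` correspond to the zeros of `j - c`. -/
def zerosEquiv (c : KQ) :
    {v : Place KQ (FN N) // 0 < v.ord (jN N - algebraMap KQ (FN N) c)} ≃
      {v : Place KQ (FN N) // 0 < v.ord (jBar N - algebraMap KQ (FN N) c)} :=
  (frickePlace N).subtypeEquiv fun v => by rw [frickePlace_apply, ord_jN_sub]

theorem card_zeros_jN_sub (c : KQ) :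
    Nat.card {v : Place KQ (FN N) // 0 < v.ord (jN N - algebraMap KQ (FN N) c)}
      = Nat.card {v : Place KQ (FN N) // 0 < v.ord (jBar N - algebraMap KQ (FN N) c)} :=
  Nat.card_congr (zerosEquiv N c)

/-- The poles of `J(q^N)` correspond to the poles of `j`. -/
def polesEquiv :
    {v : Place KQ (FN N) // v.ord (jN N) < 0} ≃ {v : Place KQ (FN N) // v.ord (jBar N) < 0} :=
  (frickePlace N).subtypeEquiv fun v => by rw [frickePlace_apply, ord_jN]

theorem card_poles_jN :
    Nat.card {v : Place KQ (FN N) // v.ord (jN N) < 0}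
      = Nat.card {v : Place KQ (FN N) // v.ord (jBar N) < 0} :=
  Nat.card_congr (polesEquiv N)

/-- `J(q^N)` is transcendental over `ℚ̄`. -/
theorem transcendental_jN : Transcendental KQ (jN N) := by
  intro halg
  apply transcendental_jBar N
  rw [← fricke_jN]
  exact (isAlgebraic_algHom_iff (fricke N : FN N →ₐ[KQ] FN N) (fricke N).injective).2 halg

open IntermediateField in
theorem map_adjoin_jBar :
    (KQ⟮jBar N⟯).map (fricke N : FN N →ₐ[KQ] FN N) = KQ⟮jN N⟯ := by
  rw [IntermediateField.adjoin_map, Set.image_singleton]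
  congr 2
  exact fricke_jBar_eq_jN N

open IntermediateField in
/-- `[F : ℚ̄(J(q^N))] = [F : ℚ̄(j)]`. -/
theorem finrank_jN_eq : Module.finrank KQ⟮jN N⟯ (FN N) = Module.finrank KQ⟮jBar N⟯ (FN N) := by
  symm
  let e1 : KQ⟮jBar N⟯ ≃ₐ[KQ] (KQ⟮jBar N⟯).map (fricke N : FN N →ₐ[KQ] FN N) :=
    IntermediateField.equivMap _ _
  let e2 : (KQ⟮jBar N⟯).map (fricke N : FN N →ₐ[KQ] FN N) ≃ₐ[KQ] KQ⟮jN N⟯ :=
    IntermediateField.equivOfEq (map_adjoin_jBar N)
  refine Algebra.finrank_eq_of_equiv_equiv ((e1.trans e2 : _ ≃ₐ[KQ] _) : _ ≃+* _)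
    ((fricke N : FN N ≃ₐ[KQ] FN N) : FN N ≃+* FN N) ?_
  ext x
  rfl

open IntermediateField in
/-- `[F : ℚ̄(J(q^N))] = [SL₂(ℤ) : Γ₀(N)]`. -/
theorem finrank_jN : Module.finrank KQ⟮jN N⟯ (FN N) = Nat.card (XN N) := by
  rw [finrank_jN_eq, finrank_jBar]

open IntermediateField in
/-- `F / ℚ̄(J(q^N))` is finite. -/
theorem finiteDimensional_jN : FiniteDimensional KQ⟮jN N⟯ (FN N) :=
  haveI := finiteDimensional_jBar N
  finiteDimensional_of_transcendental (jBar N) (transcendental_jN N)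

end Fermat.Agent.S24.Fricke
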