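import Mathlib
import Fermat.Agent.S24.Final
import Fermat.Agent.S24.Ramif
import Fermat.Agent.S24.Fricke
import Fermat.Agent.S24.FrickeRamif

/-!
# RED-BRANCH: the fibres of `x = J_N = J(q^N) = w_N(j)` on `X₀(N)` over `ℚ̄` (characteristic `0`)

Transport of the S24 fibre data for `j` (`Final.card_placesOver_*`, `Final.card_polesOf`,
`Ramif.exact_pt_all`, `Ramif.exact_cusp_all`) along the Fricke involution `Fricke.fricke N`
(`fricke (jBar N) = jFormal N ⟨N, dvd_rfl⟩`).

* `finrank_JN` : `[F : ℚ̄(J_N)] = [SL₂(ℤ) : Γ₀(N)]`;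
* `card_placesOver_JN_generic`, `card_placesOver_JN_1728`, `card_placesOver_JN_zero`,
  `card_polesOf_JN` : the numbers of places of `F` over `J_N = c` (`c ≠ 0, 1728`), `1728`, `0`,
  `∞`, with the same right-hand sides as for `j`;
* exact local indices (tameness data): `ord_JN_sub_generic` (`= 1`), `ord_JN_sub_1728` (`1` or
  `2`), `ord_JN_sub_zero` (`1` or `3`), `neg_ord_JN_dvd` (the pole order of `J_N` divides `N`),
  and the same for `j` (`ord_jBar_sub_1728`, `ord_jBar_sub_zero`, `neg_ord_jBar_dvd`);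
* `placesOverEquiv`, `polesOfEquiv` : the bijections of fibres induced by the Fricke involution.
-/

set_option autoImplicit false

open UpperHalfPlane ModularForm AlgebraicCurve CongruenceSubgroup
open scoped MatrixGroups Manifold IntermediateField

noncomputable section

namespace Fermat.Agent.S24

open Fermat.Agent.S24.Counting Fermat.Agent.S24.Final ModularGroup

variable (N : ℕ) [NeZero N]

/-! ### Exact indices of `j` at `1728`, `0`, `∞` -/

/-- Over `j = 1728` the ramification index is `1` or `2`. -/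
theorem ord_jBar_sub_1728 (v : Place KQ (FN N))
    (hv : 0 < v.ord (jBar N - algebraMap KQ (FN N) 1728)) :
    v.ord (jBar N - algebraMap KQ (FN N) 1728) = 1 ∨
      v.ord (jBar N - algebraMap KQ (FN N) 1728) = 2 := by
  have hJ : Jfun UpperHalfPlane.I = iotaK 1728 := by
    rw [Jfun_I]
    exact (map_ofNat iotaK 1728).symm
  obtain ⟨x, e, -, hf⟩ := (Ramif.exact_pt_all N 1728 UpperHalfPlane.I hJ).2 v hv
  have hne : jBar N - algebraMap KQ (FN N) 1728 ≠ 0 := by
    intro h
    rw [h, Place.ord_zero] at hv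
    exact lt_irrefl _ hv
  have h2 := hf _ hne
  rw [valPt_jBar_sub_1728 N _ (by rw [Jfun_smul, Jfun_I])] at h2
  set m := v.ord (jBar N - algebraMap KQ (FN N) 1728) with hm
  have hm2 : m ≤ 2 := by
    by_contra hcon
    push Not at hcon
    have he : (1 : ℤ) ≤ e := by
      by_contra he
      push Not at he
      have : (e : ℤ) = 0 := by omega
      rw [this, zero_mul] at h2
      norm_num at h2
    nlinarith
  omega

/-- Over `j = 0` the ramification index is `1` or `3`. -/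
theorem ord_jBar_sub_zero (v : Place KQ (FN N))
    (hv : 0 < v.ord (jBar N - algebraMap KQ (FN N) 0)) :
    v.ord (jBar N - algebraMap KQ (FN N) 0) = 1 ∨
      v.ord (jBar N - algebraMap KQ (FN N) 0) = 3 := by
  obtain ⟨τ0, -, hJ0⟩ : ∃ τ : ℍ, (S * T) • τ = τ ∧ Jfun τ = 0 := exists_fixed_ST
  have hJ : Jfun τ0 = iotaK 0 := by
    rw [hJ0]
    exact (map_zero iotaK).symm
  obtain ⟨x, e, -, hf⟩ := (Ramif.exact_pt_all N 0 τ0 hJ).2 v hv
  have hne : jBar N - algebraMap KQ (FN N) 0 ≠ 0 := by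
    intro h
    rw [h, Place.ord_zero] at hv
    exact lt_irrefl _ hv
  have h2 := hf _ hne
  rw [valPt_jBar_sub_zero N _ (by rw [Jfun_smul, hJ0])] at h2
  set m := v.ord (jBar N - algebraMap KQ (FN N) 0) with hm
  have hdvd : m ∣ 3 := ⟨e, by rw [h2]; ring⟩
  have hm3 : m ≤ 3 := Int.le_of_dvd (by norm_num) hdvd
  have hm2 : m ≠ 2 := by
    rintro h
    rw [h] at hdvd
    norm_num at hdvd
  omega

/-- The pole order of `j` at a place divides `N` (it is the width of the cusp). -/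
theorem neg_ord_jBar_dvd (v : Place KQ (FN N)) (hv : v.ord (jBar N) < 0) :
    -v.ord (jBar N) ∣ (N : ℤ) := by
  have hv' : 0 < v.ord (jBar N)⁻¹ := by
    rw [Place.ord_inv]
    omega
  obtain ⟨x, e, w, hw, hew, -, hf⟩ := (Ramif.exact_cusp_all N).2 v hv'
  have hne : (jBar N)⁻¹ ≠ 0 := by
    intro h
    rw [h, Place.ord_zero] at hv'
    exact lt_irrefl _ hv'
  have h2 := hf _ hne
  rw [valCusp_jBar_inv, Place.ord_inv] at h2
  exact ⟨e, by rw [h2]; ring⟩

/-! ### The Fricke involution on fibres -/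

/-- The places over `J_N = c` correspond to the places over `j = c`. -/
def placesOverEquiv (c : KQ) :
    placesOver (K := KQ) (jFormal N ⟨N, dvd_rfl⟩) c ≃ placesOver (K := KQ) (jBar N) c :=
  Fricke.zerosEquiv N c

/-- The poles of `J_N` correspond to the poles of `j`. -/
def polesOfEquiv : polesOf KQ (jFormal N ⟨N, dvd_rfl⟩) ≃ polesOf KQ (jBar N) :=
  Fricke.polesEquiv N

theorem placesOverEquiv_apply (c : KQ) (v : placesOver (K := KQ) (jFormal N ⟨N, dvd_rfl⟩) c) :
    ((placesOverEquiv N c v : placesOver (K := KQ) (jBar N) c) : Place KQ (FN N)) =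
      Fricke.fricke N • (v : Place KQ (FN N)) := rfl

theorem polesOfEquiv_apply (v : polesOf KQ (jFormal N ⟨N, dvd_rfl⟩)) :
    ((polesOfEquiv N v : polesOf KQ (jBar N)) : Place KQ (FN N)) =
      Fricke.fricke N • (v : Place KQ (FN N)) := rfl

/-- Transport of orders along the Fricke involution, for the base function `J_N`. -/
theorem ord_JN_sub (c : KQ) (v : Place KQ (FN N)) :
    v.ord (jFormal N ⟨N, dvd_rfl⟩ - algebraMap KQ (FN N) c) =
      (Fricke.fricke N • v).ord (jBar N - algebraMap KQ (FN N) c) :=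
  Fricke.ord_jN_sub N c v

theorem ord_JN (v : Place KQ (FN N)) :
    v.ord (jFormal N ⟨N, dvd_rfl⟩) = (Fricke.fricke N • v).ord (jBar N) :=
  Fricke.ord_jN N v

/-! ### The fibres of `J_N` -/

/-- `[F : ℚ̄(J_N)] = [SL₂(ℤ) : Γ₀(N)]`. -/
theorem finrank_JN :
    Module.finrank KQ⟮jFormal N ⟨N, dvd_rfl⟩⟯ (FN N) = Nat.card (XN N) :=
  Fricke.finrank_jN N

/-- `J_N` is transcendental over `ℚ̄`. -/
theorem transcendental_JN : Transcendental KQ (jFormal N ⟨N, dvd_rfl⟩) :=
  Fricke.transcendental_jN N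

/-- `F / ℚ̄(J_N)` is finite. -/
theorem finiteDimensional_JN : FiniteDimensional KQ⟮jFormal N ⟨N, dvd_rfl⟩⟯ (FN N) :=
  Fricke.finiteDimensional_jN N

/-- The generic fibre of `J_N`. -/
theorem card_placesOver_JN_generic (c : KQ) (hc0 : c ≠ 0) (hc1 : c ≠ 1728) :
    Nat.card (placesOver (K := KQ) (jFormal N ⟨N, dvd_rfl⟩) c) = Nat.card (XN N) := by
  rw [Nat.card_congr (placesOverEquiv N c)]
  exact (card_placesOver_generic N c hc0 hc1).1

/-- The fibre of `J_N` over `1728`. -/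
theorem card_placesOver_JN_1728 :
    Nat.card (placesOver (K := KQ) (jFormal N ⟨N, dvd_rfl⟩) 1728) =
      Nat.card (MulAction.orbitRel.Quotient (Subgroup.zpowers S) (XN N)) := by
  rw [Nat.card_congr (placesOverEquiv N 1728)]
  exact card_placesOver_1728 N

/-- The fibre of `J_N` over `0`. -/
theorem card_placesOver_JN_zero :
    Nat.card (placesOver (K := KQ) (jFormal N ⟨N, dvd_rfl⟩) 0) =
      Nat.card (MulAction.orbitRel.Quotient (Subgroup.zpowers (S * T)) (XN N)) := by
  rw [Nat.card_congr (placesOverEquiv N 0)]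
  exact card_placesOver_zero N

/-- The poles of `J_N`. -/
theorem card_polesOf_JN :
    Nat.card (polesOf KQ (jFormal N ⟨N, dvd_rfl⟩)) =
      Nat.card (MulAction.orbitRel.Quotient (Subgroup.zpowers T) (XN N)) := by
  rw [Nat.card_congr (polesOfEquiv N)]
  exact card_polesOf N

/-! ### Exact indices of `J_N` (tameness data) -/

/-- `F / ℚ̄(J_N)` is unramified over every `c ∉ {0, 1728}`. -/
theorem ord_JN_sub_generic (c : KQ) (hc0 : c ≠ 0) (hc1 : c ≠ 1728) (v : Place KQ (FN N))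
    (hv : 0 < v.ord (jFormal N ⟨N, dvd_rfl⟩ - algebraMap KQ (FN N) c)) :
    v.ord (jFormal N ⟨N, dvd_rfl⟩ - algebraMap KQ (FN N) c) = 1 :=
  Fricke.ord_jN_sub_eq_one N c hc0 hc1 v hv

/-- The same in set form: every place over a generic value is unramified. -/
theorem ord_eq_one_of_mem_placesOver_JN (c : KQ) (hc0 : c ≠ 0) (hc1 : c ≠ 1728)
    (v : Place KQ (FN N)) (hv : v ∈ placesOver (K := KQ) (jFormal N ⟨N, dvd_rfl⟩) c) :
    v.ord (jFormal N ⟨N, dvd_rfl⟩ - algebraMap KQ (FN N) c) = 1 :=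
  ord_JN_sub_generic N c hc0 hc1 v hv

/-- Over `J_N = 1728` the ramification index is `1` or `2`. -/
theorem ord_JN_sub_1728 (v : Place KQ (FN N))
    (hv : 0 < v.ord (jFormal N ⟨N, dvd_rfl⟩ - algebraMap KQ (FN N) 1728)) :
    v.ord (jFormal N ⟨N, dvd_rfl⟩ - algebraMap KQ (FN N) 1728) = 1 ∨
      v.ord (jFormal N ⟨N, dvd_rfl⟩ - algebraMap KQ (FN N) 1728) = 2 := by
  rw [ord_JN_sub] at hv ⊢
  exact ord_jBar_sub_1728 N _ hv

/-- Over `J_N = 0` the ramification index is `1` or `3`. -/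
theorem ord_JN_sub_zero (v : Place KQ (FN N))
    (hv : 0 < v.ord (jFormal N ⟨N, dvd_rfl⟩ - algebraMap KQ (FN N) 0)) :
    v.ord (jFormal N ⟨N, dvd_rfl⟩ - algebraMap KQ (FN N) 0) = 1 ∨
      v.ord (jFormal N ⟨N, dvd_rfl⟩ - algebraMap KQ (FN N) 0) = 3 := by
  rw [ord_JN_sub] at hv ⊢
  exact ord_jBar_sub_zero N _ hv

/-- The pole order of `J_N` at a place divides `N`. -/
theorem neg_ord_JN_dvd (v : Place KQ (FN N)) (hv : v.ord (jFormal N ⟨N, dvd_rfl⟩) < 0) :
    -v.ord (jFormal N ⟨N, dvd_rfl⟩) ∣ (N : ℤ) := by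
  rw [ord_JN] at hv ⊢
  exact neg_ord_jBar_dvd N _ hv

end Fermat.Agent.S24
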