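import Mathlib
import Fermat.Agent.S24.FrickeBranch

/-!
# Branch locus of a Hauptmodul-type base function `x` with `J = R(x)`

Abstract part (any function field `F / K`, Prelude places):

* `ord_aeval_eq_zero` : if `ord_v (x - c) > 0` and `G(c) ≠ 0` then `G(x)` is a unit at `v`;
* `ord_sub_eq_mul` : if `J * Q(x) = P(x)`, `Q(c) ≠ 0`, `c' = P(c) / Q(c)` and `ord_v (x - c) > 0`
  then `ord_v (J - c') = m * ord_v (x - c)`, `m` the multiplicity of `c` as a root of
  `P - c' Q`.

Modular part (`F = F_N` over `ℚ̄`, `J = J_N = J(q^N)`):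

* `ord_sub_eq_one_of_rel` : the general criterion;
* `ord_sub_eq_one_two` : if `J_N * x ^ 2 = (x + 256) ^ 3` then `F / ℚ̄(x)` is unramified over
  every `c ∉ {0, -64}`;
* `ord_sub_eq_one_three` : if `J_N * x ^ 3 = (x + 27) * (x + 243) ^ 3` then `F / ℚ̄(x)` is
  unramified over every `c ∉ {0, -27}`.
-/

set_option autoImplicit false

open Polynomial AlgebraicCurve

noncomputable section

namespace Fermat.Agent.S24.HauptBranch

open Fermat.Agent.S24

section Abstract

variable {K F : Type*} [Field K] [Field F] [Algebra K F]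

/-- A polynomial in an element of the valuation ring of a place lies in the valuation ring. -/
theorem aeval_mem (v : Place K F) {x : F} (hx : x ∈ v.toValuationSubring) (G : K[X]) :
    aeval x G ∈ v.toValuationSubring := by
  rw [aeval_eq_sum_range]
  refine Subring.sum_mem _ fun i _ => ?_
  rw [Algebra.smul_def]
  exact v.toValuationSubring.mul_mem _ _ (v.algebraMap_mem' _) (pow_mem hx i)

/-- If `ord_v (x - c) > 0` and `G(c) ≠ 0`, then `G(x)` is a unit at `v`. -/
theorem ord_aeval_eq_zero (v : Place K F) {x : F} {c : K}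
    (hv : 0 < v.ord (x - algebraMap K F c)) (G : K[X]) (hG : G.eval c ≠ 0) :
    aeval x G ≠ 0 ∧ v.ord (aeval x G) = 0 := by
  set d : F := x - algebraMap K F c with hd
  have hd0 : d ≠ 0 := by
    intro h
    rw [h, Place.ord_zero] at hv
    exact lt_irrefl _ hv
  have hxmem : x ∈ v.toValuationSubring := by
    have h1 : d ∈ v.toValuationSubring := mem_of_ord_nonneg v hv.le
    have h2 : x = d + algebraMap K F c := by rw [hd]; ring
    rw [h2]
    exact v.toValuationSubring.add_mem _ _ h1 (v.algebraMap_mem' c)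
  -- `G = (X - c) * H + G(c)`
  set H : K[X] := (G - C (G.eval c)) /ₘ (X - C c) with hH
  have hroot : IsRoot (G - C (G.eval c)) c := by
    simp [IsRoot.def]
  have hdiv : (X - C c) * H = G - C (G.eval c) := mul_divByMonic_eq_iff_isRoot.mpr hroot
  have hG' : G = (X - C c) * H + C (G.eval c) := by rw [hdiv]; ring
  have heval : aeval x G = d * aeval x H + algebraMap K F (G.eval c) := by
    conv_lhs => rw [hG']
    simp only [map_add, map_mul, map_sub, aeval_X, aeval_C, hd]
  set u : F := algebraMap K F (G.eval c) with hu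
  have hu0 : u ≠ 0 := by
    rw [hu]
    exact (map_ne_zero (algebraMap K F)).mpr hG
  have hordu : v.ord u = 0 := ord_algebraMap v _
  by_cases hm : d * aeval x H = 0
  · rw [heval, hm, zero_add]
    exact ⟨hu0, hordu⟩
  have hH0 : aeval x H ≠ 0 := fun h => hm (by rw [h, mul_zero])
  have hordm : 0 < v.ord (d * aeval x H) := by
    rw [v.ord_mul hd0 hH0]
    have := ord_nonneg_of_mem v (aeval_mem v hxmem H)
    omega
  have hne : d * aeval x H + u ≠ 0 := by
    intro h
    have h1 : u = -(d * aeval x H) := by linear_combination h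
    have h2 : v.ord u = v.ord (d * aeval x H) := by
      rw [h1]
      have : -(d * aeval x H) = (-1 : F) * (d * aeval x H) := by ring
      rw [this, v.ord_mul (by simp) hm]
      have h3 : v.ord (-1 : F) = 0 := by
        have := ord_algebraMap v (-1 : K)
        simpa using this
      rw [h3, zero_add]
    omega
  refine ⟨by rw [heval]; exact hne, ?_⟩
  rw [heval]
  have h1 := ord_add_ge v hm hu0 hne
  have h2 : min (v.ord (d * aeval x H + u)) (v.ord (d * aeval x H)) ≤ v.ord u := by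
    have h3 : d * aeval x H + u - d * aeval x H ≠ 0 := by
      rw [add_sub_cancel_left]
      exact hu0
    have := ord_sub_ge v hne hm h3
    rwa [add_sub_cancel_left] at this
  rw [hordu] at h1 h2
  rcases le_total (v.ord (d * aeval x H + u)) (v.ord (d * aeval x H)) with h | h
  · rw [min_eq_left h] at h2
    rw [min_eq_right hordm.le] at h1
    omega
  · rw [min_eq_right h] at h2
    omega

/-- **Ramification through a rational function.**  If `J * Q(x) = P(x)`, `Q(c) ≠ 0`,
`c' = P(c) / Q(c)` and `v` is a zero of `x - c`, then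
`ord_v (J - c') = m * ord_v (x - c)`, with `m` the multiplicity of `c` as a root of
`P - c' Q`. -/
theorem ord_sub_eq_mul (v : Place K F) {x J : F} {P Q : K[X]}
    (hrel : J * aeval x Q = aeval x P) {c : K} (hQ : Q.eval c ≠ 0)
    (hne : P - C (P.eval c / Q.eval c) * Q ≠ 0)
    (hv : 0 < v.ord (x - algebraMap K F c)) :
    v.ord (J - algebraMap K F (P.eval c / Q.eval c)) =
      (rootMultiplicity c (P - C (P.eval c / Q.eval c) * Q) : ℤ) *
        v.ord (x - algebraMap K F c) := by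
  set c' : K := P.eval c / Q.eval c with hc'
  set m : ℕ := rootMultiplicity c (P - C c' * Q) with hm
  obtain ⟨G, hG, hGdvd⟩ := exists_eq_pow_rootMultiplicity_mul_and_not_dvd (P - C c' * Q) hne c
  have hGc : G.eval c ≠ 0 := fun h => hGdvd (dvd_iff_isRoot.mpr h)
  obtain ⟨hQx0, hQx⟩ := ord_aeval_eq_zero v hv Q hQ
  obtain ⟨hGx0, hGx⟩ := ord_aeval_eq_zero v hv G hGc
  set d : F := x - algebraMap K F c with hd
  have hd0 : d ≠ 0 := by
    intro h
    rw [h, Place.ord_zero] at hv
    exact lt_irrefl _ hv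
  have key : (J - algebraMap K F c') * aeval x Q = d ^ m * aeval x G := by
    have h1 : aeval x (P - C c' * Q) = d ^ m * aeval x G := by
      rw [hG]
      simp only [map_mul, map_pow, map_sub, aeval_X, aeval_C, hd, hm]
    rw [← h1, sub_mul, hrel]
    simp only [map_sub, map_mul, aeval_C]
  have hJ : J - algebraMap K F c' = d ^ m * aeval x G * (aeval x Q)⁻¹ := by
    rw [← key, mul_assoc, mul_inv_cancel₀ hQx0, mul_one]
  rw [hJ, v.ord_mul (mul_ne_zero (pow_ne_zero m hd0) hGx0) (inv_ne_zero hQx0),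
    v.ord_mul (pow_ne_zero m hd0) hGx0, v.ord_inv, hQx, hGx]
  have hpow : v.ord (d ^ m) = (m : ℤ) * v.ord d := by
    have := v.ord_zpow d (m : ℤ)
    rwa [zpow_natCast] at this
  rw [hpow]
  ring

end Abstract

/-! ### The modular function field with base function `J_N` -/

section Modular

variable (N : ℕ) [NeZero N]

/-- **Unramifiedness criterion**, for a base function `J` with the branch behaviour of `j`.
Let `x ∈ F_N` with `J * Q(x) = P(x)`.  If `Q(c) ≠ 0` and, for `c' = P(c) / Q(c)`, either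
`c' ∉ {0, 1728}` or `c` is a multiple root of `P - c' Q`, then every zero of `x - c` is simple. -/
theorem ord_sub_eq_one_of_rel_aux {J : FN N}
    (hgen : ∀ c' : KQ, c' ≠ 0 → c' ≠ 1728 → ∀ v : Place KQ (FN N),
      0 < v.ord (J - algebraMap KQ (FN N) c') → v.ord (J - algebraMap KQ (FN N) c') = 1)
    (h1728 : ∀ v : Place KQ (FN N), 0 < v.ord (J - algebraMap KQ (FN N) 1728) →
      v.ord (J - algebraMap KQ (FN N) 1728) = 1 ∨ v.ord (J - algebraMap KQ (FN N) 1728) = 2)
    (hzero : ∀ v : Place KQ (FN N), 0 < v.ord (J - algebraMap KQ (FN N) 0) →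
      v.ord (J - algebraMap KQ (FN N) 0) = 1 ∨ v.ord (J - algebraMap KQ (FN N) 0) = 3)
    {x : FN N} {P Q : KQ[X]}
    (hrel : J * aeval x Q = aeval x P) {c : KQ} (hQ : Q.eval c ≠ 0)
    (hne : P - C (P.eval c / Q.eval c) * Q ≠ 0)
    (hmult : (P.eval c / Q.eval c ≠ 0 ∧ P.eval c / Q.eval c ≠ 1728) ∨
      2 ≤ rootMultiplicity c (P - C (P.eval c / Q.eval c) * Q))
    (v : Place KQ (FN N)) (hv : 0 < v.ord (x - algebraMap KQ (FN N) c)) :
    v.ord (x - algebraMap KQ (FN N) c) = 1 := by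
  have key := ord_sub_eq_mul v hrel hQ hne hv
  set c' : KQ := P.eval c / Q.eval c with hc'
  set m : ℕ := rootMultiplicity c (P - C c' * Q) with hm
  have hmpos : 0 < m := by
    rw [hm, rootMultiplicity_pos hne, IsRoot.def, eval_sub, eval_mul, eval_C, hc',
      div_mul_cancel₀ _ hQ, sub_self]
  have hpos : 0 < v.ord (J - algebraMap KQ (FN N) c') := by
    rw [key]
    positivity
  by_cases h0 : c' = 0
  · rcases hmult with ⟨h, -⟩ | h2
    · exact absurd h0 h
    · have h3 := hzero v (by rw [← h0]; exact hpos)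
      rw [← h0, key] at h3
      have hm2 : (2 : ℤ) ≤ (m : ℤ) := by exact_mod_cast h2
      rcases h3 with h3 | h3 <;> nlinarith
  by_cases h1 : c' = 1728
  · rcases hmult with ⟨-, h⟩ | h2
    · exact absurd h1 h
    · have h3 := h1728 v (by rw [← h1]; exact hpos)
      rw [← h1, key] at h3
      have hm2 : (2 : ℤ) ≤ (m : ℤ) := by exact_mod_cast h2
      rcases h3 with h3 | h3 <;> nlinarith
  · have h3 := hgen c' h0 h1 v hpos
    rw [key] at h3
    have hm1 : (1 : ℤ) ≤ (m : ℤ) := by exact_mod_cast hmpos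
    nlinarith

/-- The criterion for the base function `J_N = J(q^N)`. -/
theorem ord_sub_eq_one_of_rel {x : FN N} {P Q : KQ[X]}
    (hrel : jFormal N ⟨N, dvd_rfl⟩ * aeval x Q = aeval x P) {c : KQ} (hQ : Q.eval c ≠ 0)
    (hne : P - C (P.eval c / Q.eval c) * Q ≠ 0)
    (hmult : (P.eval c / Q.eval c ≠ 0 ∧ P.eval c / Q.eval c ≠ 1728) ∨
      2 ≤ rootMultiplicity c (P - C (P.eval c / Q.eval c) * Q))
    (v : Place KQ (FN N)) (hv : 0 < v.ord (x - algebraMap KQ (FN N) c)) :
    v.ord (x - algebraMap KQ (FN N) c) = 1 :=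
  ord_sub_eq_one_of_rel_aux N (fun c' h0 h1 v hv => ord_JN_sub_generic N c' h0 h1 v hv)
    (ord_JN_sub_1728 N) (ord_JN_sub_zero N) hrel hQ hne hmult v hv

/-- The criterion for the base function `j = J(q)`. -/
theorem ord_sub_eq_one_of_rel_jBar {x : FN N} {P Q : KQ[X]}
    (hrel : jBar N * aeval x Q = aeval x P) {c : KQ} (hQ : Q.eval c ≠ 0)
    (hne : P - C (P.eval c / Q.eval c) * Q ≠ 0)
    (hmult : (P.eval c / Q.eval c ≠ 0 ∧ P.eval c / Q.eval c ≠ 1728) ∨
      2 ≤ rootMultiplicity c (P - C (P.eval c / Q.eval c) * Q))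
    (v : Place KQ (FN N)) (hv : 0 < v.ord (x - algebraMap KQ (FN N) c)) :
    v.ord (x - algebraMap KQ (FN N) c) = 1 :=
  ord_sub_eq_one_of_rel_aux N (fun c' h0 h1 v hv => Fricke.ord_jBar_sub_eq_one N c' h0 h1 v hv)
    (ord_jBar_sub_1728 N) (ord_jBar_sub_zero N) hrel hQ hne hmult v hv

/-! ### The two Hauptmodul relations -/

section Two

variable {J x : FN N}

/-- the relation of level `2` in polynomial form -/
theorem rel_two (hrel : J * x ^ 2 = (x + 256) ^ 3) :
    J * aeval x (X ^ 2 : KQ[X]) = aeval x ((X + 256) ^ 3 : KQ[X]) := by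
  simp only [map_pow, map_add, aeval_X, map_ofNat]
  exact hrel

theorem hne_two (a : KQ) : ((X + 256) ^ 3 : KQ[X]) - C a * X ^ 2 ≠ 0 := by
  intro h
  have h1 := congrArg (eval 0) h
  simp only [eval_sub, eval_pow, eval_add, eval_X, eval_ofNat, eval_mul, eval_C, eval_zero] at h1
  norm_num at h1

/-- multiplicity condition at level `2` -/
theorem hmult_two {c : KQ} (hc0 : c ≠ 0) (hc1 : c ≠ -64) :
    ((c + 256) ^ 3 / c ^ 2 ≠ 0 ∧ (c + 256) ^ 3 / c ^ 2 ≠ 1728) ∨
      2 ≤ rootMultiplicity c (((X + 256) ^ 3 : KQ[X]) - C ((c + 256) ^ 3 / c ^ 2) * X ^ 2) := by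
  have hc2 : c ^ 2 ≠ 0 := pow_ne_zero 2 hc0
  by_cases h0 : (c + 256) ^ 3 / c ^ 2 = 0
  · right
    rw [le_rootMultiplicity_iff (hne_two _), h0]
    have hc : c = -256 := by
      rw [div_eq_zero_iff] at h0
      rcases h0 with h0 | h0
      · have := pow_eq_zero_iff (n := 3) (by norm_num) |>.mp h0
        linear_combination this
      · exact absurd h0 hc2
    rw [hc]
    refine ⟨X + 256, ?_⟩
    simp only [map_neg, map_ofNat, map_zero]
    ring
  by_cases h1 : (c + 256) ^ 3 / c ^ 2 = 1728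
  · right
    rw [le_rootMultiplicity_iff (hne_two _), h1]
    have hc : c = 512 := by
      rw [div_eq_iff hc2] at h1
      have h2 : (c - 512) ^ 2 * (c + 64) = 0 := by linear_combination h1
      rcases mul_eq_zero.mp h2 with h2 | h2
      · have := pow_eq_zero_iff (n := 2) (by norm_num) |>.mp h2
        linear_combination this
      · exact absurd (by linear_combination h2 : c = -64) hc1
    rw [hc]
    refine ⟨X + 64, ?_⟩
    simp only [map_ofNat]
    ring
  · exact Or.inl ⟨h0, h1⟩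

/-- **Level 2.**  If `J * x ^ 2 = (x + 256) ^ 3` for a base function `J` with the branch
behaviour of `j`, then `F / ℚ̄(x)` is unramified over every `c ∉ {0, -64}`. -/
theorem ord_sub_eq_one_two_aux
    (hgen : ∀ c' : KQ, c' ≠ 0 → c' ≠ 1728 → ∀ v : Place KQ (FN N),
      0 < v.ord (J - algebraMap KQ (FN N) c') → v.ord (J - algebraMap KQ (FN N) c') = 1)
    (h1728 : ∀ v : Place KQ (FN N), 0 < v.ord (J - algebraMap KQ (FN N) 1728) →
      v.ord (J - algebraMap KQ (FN N) 1728) = 1 ∨ v.ord (J - algebraMap KQ (FN N) 1728) = 2)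
    (hzero : ∀ v : Place KQ (FN N), 0 < v.ord (J - algebraMap KQ (FN N) 0) →
      v.ord (J - algebraMap KQ (FN N) 0) = 1 ∨ v.ord (J - algebraMap KQ (FN N) 0) = 3)
    (hrel : J * x ^ 2 = (x + 256) ^ 3) (c : KQ) (hc0 : c ≠ 0) (hc1 : c ≠ -64)
    (v : Place KQ (FN N)) (hv : 0 < v.ord (x - algebraMap KQ (FN N) c)) :
    v.ord (x - algebraMap KQ (FN N) c) = 1 := by
  have hQ : (X ^ 2 : KQ[X]).eval c ≠ 0 := by
    simp only [eval_pow, eval_X]
    exact pow_ne_zero 2 hc0
  have hP : ((X + 256) ^ 3 : KQ[X]).eval c = (c + 256) ^ 3 := by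
    simp only [eval_pow, eval_add, eval_X, eval_ofNat]
  have hQ' : (X ^ 2 : KQ[X]).eval c = c ^ 2 := by simp only [eval_pow, eval_X]
  refine ord_sub_eq_one_of_rel_aux N hgen h1728 hzero (rel_two N hrel) hQ ?_ ?_ v hv
  · rw [hP, hQ']
    exact hne_two _
  · rw [hP, hQ']
    exact hmult_two hc0 hc1

end Two

section Three

variable {J x : FN N}

/-- the relation of level `3` in polynomial form -/
theorem rel_three (hrel : J * x ^ 3 = (x + 27) * (x + 243) ^ 3) :
    J * aeval x (X ^ 3 : KQ[X]) = aeval x ((X + 27) * (X + 243) ^ 3 : KQ[X]) := by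
  simp only [map_pow, map_add, map_mul, aeval_X, map_ofNat]
  exact hrel

theorem hne_three (a : KQ) : ((X + 27) * (X + 243) ^ 3 : KQ[X]) - C a * X ^ 3 ≠ 0 := by
  intro h
  have h1 := congrArg (eval 0) h
  simp only [eval_sub, eval_pow, eval_add, eval_X, eval_ofNat, eval_mul, eval_C, eval_zero] at h1
  norm_num at h1

/-- multiplicity condition at level `3` -/
theorem hmult_three {c : KQ} (hc0 : c ≠ 0) (hc1 : c ≠ -27) :
    ((c + 27) * (c + 243) ^ 3 / c ^ 3 ≠ 0 ∧ (c + 27) * (c + 243) ^ 3 / c ^ 3 ≠ 1728) ∨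
      2 ≤ rootMultiplicity c
        (((X + 27) * (X + 243) ^ 3 : KQ[X]) - C ((c + 27) * (c + 243) ^ 3 / c ^ 3) * X ^ 3) := by
  have hc3 : c ^ 3 ≠ 0 := pow_ne_zero 3 hc0
  by_cases h0 : (c + 27) * (c + 243) ^ 3 / c ^ 3 = 0
  · right
    rw [le_rootMultiplicity_iff (hne_three _), h0]
    have hc : c = -243 := by
      rw [div_eq_zero_iff] at h0
      rcases h0 with h0 | h0
      · rcases mul_eq_zero.mp h0 with h0 | h0
        · exact absurd (by linear_combination h0 : c = -27) hc1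
        · have := pow_eq_zero_iff (n := 3) (by norm_num) |>.mp h0
          linear_combination this
      · exact absurd h0 hc3
    rw [hc]
    refine ⟨(X + 27) * (X + 243), ?_⟩
    simp only [map_neg, map_ofNat, map_zero]
    ring
  by_cases h1 : (c + 27) * (c + 243) ^ 3 / c ^ 3 = 1728
  · right
    rw [le_rootMultiplicity_iff (hne_three _), h1]
    have hc : c ^ 2 - 486 * c - 19683 = 0 := by
      rw [div_eq_iff hc3] at h1
      have h2 : (c ^ 2 - 486 * c - 19683) ^ 2 = 0 := by linear_combination h1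
      exact pow_eq_zero_iff (n := 2) (by norm_num) |>.mp h2
    have hsq : ((X + 27) * (X + 243) ^ 3 : KQ[X]) - C 1728 * X ^ 3 =
        (X ^ 2 - 486 * X - 19683) ^ 2 := by
      simp only [map_ofNat]
      ring
    rw [hsq]
    apply pow_dvd_pow_of_dvd
    rw [dvd_iff_isRoot, IsRoot.def]
    simp only [eval_sub, eval_pow, eval_mul, eval_X, eval_ofNat]
    exact hc
  · exact Or.inl ⟨h0, h1⟩

/-- **Level 3.**  If `J * x ^ 3 = (x + 27) * (x + 243) ^ 3` for a base function `J` with the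
branch behaviour of `j`, then `F / ℚ̄(x)` is unramified over every `c ∉ {0, -27}`. -/
theorem ord_sub_eq_one_three_aux
    (hgen : ∀ c' : KQ, c' ≠ 0 → c' ≠ 1728 → ∀ v : Place KQ (FN N),
      0 < v.ord (J - algebraMap KQ (FN N) c') → v.ord (J - algebraMap KQ (FN N) c') = 1)
    (h1728 : ∀ v : Place KQ (FN N), 0 < v.ord (J - algebraMap KQ (FN N) 1728) →
      v.ord (J - algebraMap KQ (FN N) 1728) = 1 ∨ v.ord (J - algebraMap KQ (FN N) 1728) = 2)
    (hzero : ∀ v : Place KQ (FN N), 0 < v.ord (J - algebraMap KQ (FN N) 0) →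
      v.ord (J - algebraMap KQ (FN N) 0) = 1 ∨ v.ord (J - algebraMap KQ (FN N) 0) = 3)
    (hrel : J * x ^ 3 = (x + 27) * (x + 243) ^ 3) (c : KQ) (hc0 : c ≠ 0) (hc1 : c ≠ -27)
    (v : Place KQ (FN N)) (hv : 0 < v.ord (x - algebraMap KQ (FN N) c)) :
    v.ord (x - algebraMap KQ (FN N) c) = 1 := by
  have hQ : (X ^ 3 : KQ[X]).eval c ≠ 0 := by
    simp only [eval_pow, eval_X]
    exact pow_ne_zero 3 hc0
  have hP : ((X + 27) * (X + 243) ^ 3 : KQ[X]).eval c = (c + 27) * (c + 243) ^ 3 := by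
    simp only [eval_pow, eval_add, eval_mul, eval_X, eval_ofNat]
  have hQ' : (X ^ 3 : KQ[X]).eval c = c ^ 3 := by simp only [eval_pow, eval_X]
  refine ord_sub_eq_one_of_rel_aux N hgen h1728 hzero (rel_three N hrel) hQ ?_ ?_ v hv
  · rw [hP, hQ']
    exact hne_three _
  · rw [hP, hQ']
    exact hmult_three hc0 hc1

end Three

/-- **Level 2, base `J_N`.**  If `J_N * x ^ 2 = (x + 256) ^ 3` then `F / ℚ̄(x)` is unramified
over every `c ∉ {0, -64}`. -/
theorem ord_sub_eq_one_two {x : FN N}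
    (hrel : jFormal N ⟨N, dvd_rfl⟩ * x ^ 2 = (x + 256) ^ 3) (c : KQ) (hc0 : c ≠ 0)
    (hc1 : c ≠ -64) (v : Place KQ (FN N)) (hv : 0 < v.ord (x - algebraMap KQ (FN N) c)) :
    v.ord (x - algebraMap KQ (FN N) c) = 1 :=
  ord_sub_eq_one_two_aux N (fun c' h0 h1 v hv => ord_JN_sub_generic N c' h0 h1 v hv)
    (ord_JN_sub_1728 N) (ord_JN_sub_zero N) hrel c hc0 hc1 v hv

/-- **Level 3, base `J_N`.**  If `J_N * x ^ 3 = (x + 27) * (x + 243) ^ 3` then `F / ℚ̄(x)` is
unramified over every `c ∉ {0, -27}`. -/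
theorem ord_sub_eq_one_three {x : FN N}
    (hrel : jFormal N ⟨N, dvd_rfl⟩ * x ^ 3 = (x + 27) * (x + 243) ^ 3) (c : KQ) (hc0 : c ≠ 0)
    (hc1 : c ≠ -27) (v : Place KQ (FN N)) (hv : 0 < v.ord (x - algebraMap KQ (FN N) c)) :
    v.ord (x - algebraMap KQ (FN N) c) = 1 :=
  ord_sub_eq_one_three_aux N (fun c' h0 h1 v hv => ord_JN_sub_generic N c' h0 h1 v hv)
    (ord_JN_sub_1728 N) (ord_JN_sub_zero N) hrel c hc0 hc1 v hv

/-- **Level 2, base `j`.** -/
theorem ord_sub_eq_one_two_jBar {x : FN N}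
    (hrel : jBar N * x ^ 2 = (x + 256) ^ 3) (c : KQ) (hc0 : c ≠ 0)
    (hc1 : c ≠ -64) (v : Place KQ (FN N)) (hv : 0 < v.ord (x - algebraMap KQ (FN N) c)) :
    v.ord (x - algebraMap KQ (FN N) c) = 1 :=
  ord_sub_eq_one_two_aux N (fun c' h0 h1 v hv => Fricke.ord_jBar_sub_eq_one N c' h0 h1 v hv)
    (ord_jBar_sub_1728 N) (ord_jBar_sub_zero N) hrel c hc0 hc1 v hv

/-- **Level 3, base `j`.** -/
theorem ord_sub_eq_one_three_jBar {x : FN N}
    (hrel : jBar N * x ^ 3 = (x + 27) * (x + 243) ^ 3) (c : KQ) (hc0 : c ≠ 0)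
    (hc1 : c ≠ -27) (v : Place KQ (FN N)) (hv : 0 < v.ord (x - algebraMap KQ (FN N) c)) :
    v.ord (x - algebraMap KQ (FN N) c) = 1 :=
  ord_sub_eq_one_three_aux N (fun c' h0 h1 v hv => Fricke.ord_jBar_sub_eq_one N c' h0 h1 v hv)
    (ord_jBar_sub_1728 N) (ord_jBar_sub_zero N) hrel c hc0 hc1 v hv

end Modular

end Fermat.Agent.S24.HauptBranch

end
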