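import Mathlib
import Fermat.Agent.ESJ.Jac.Defs
import Fermat.Agent.S24.ValPt
import Fermat.Agent.S24.PtInv
import Fermat.Agent.S24.PtTop
import Fermat.Agent.S24.Rep

/-!
# JAC-DICT: the meromorphic function `merK iotaK N f` of an element `f ∈ F` on `U = {Im z > 0}`

`merK iotaK N f z = ev N P (ofComplex z) / ev N Q (ofComplex z)` for the chosen representative
`f = fm P / fm Q`.  It is meromorphic on `U`, its order at `τ` is `valPt N τ f`, it is
`Γ₀(N)`-invariant, and `f ↦ merK iotaK N f` is a ring homomorphism up to codiscrete sets.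
-/

set_option autoImplicit false
set_option linter.unusedSectionVars false

open UpperHalfPlane ModularForm CongruenceSubgroup Filter
open scoped MatrixGroups Manifold Topology

noncomputable section

namespace Fermat.Agent.S24.Mer

open Fermat.Agent.S24 Fermat.Agent.ESJ.Jac

/-! ### Generalities on `U` -/

theorem isOpen_U : IsOpen U := by
  have : U = Complex.im ⁻¹' Set.Ioi 0 := rfl
  rw [this]
  exact isOpen_Ioi.preimage Complex.continuous_im

theorem isConnected_U : IsConnected U :=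
  Complex.isConnected_of_upperHalfPlane (r := 0) subset_rfl (fun z (hz : 0 < z.im) => le_of_lt hz)

theorem coe_mem_U (τ : ℍ) : (τ : ℂ) ∈ U := τ.im_pos

/-- On `U`, `mob g` is the action of `g` on `ℍ`. -/
theorem ofComplex_mob (g : SL(2, ℤ)) {z : ℂ} (hz : z ∈ U) :
    ofComplex (mob g z) = g • ofComplex z := by
  have hz' : 0 < z.im := hz
  rw [ofComplex_apply_of_im_pos hz']
  have h : mob g z = ((g • (⟨z, hz'⟩ : ℍ) : ℍ) : ℂ) := by
    rw [UpperHalfPlane.coe_specialLinearGroup_apply]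
    simp [mob]
  rw [h, ofComplex_apply]

theorem mob_mem_U (g : SL(2, ℤ)) {z : ℂ} (hz : z ∈ U) : mob g z ∈ U := by
  have hz' : 0 < z.im := hz
  have h : mob g z = ((g • (⟨z, hz'⟩ : ℍ) : ℍ) : ℂ) := by
    rw [UpperHalfPlane.coe_specialLinearGroup_apply]
    simp [mob]
  rw [h]
  exact coe_mem_U _

/-- A holomorphic function on `ℍ` is analytic on `U` (through `ofComplex`). -/
theorem analyticAt_comp_ofComplex {G : ℍ → ℂ} (hG : MDiff G) {z : ℂ} (hz : z ∈ U) :
    AnalyticAt ℂ (G ∘ ofComplex) z := by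
  have := ValPt.analyticAt_of_mdiff hG (⟨z, hz⟩ : ℍ)
  exact this

/-- The zero set of a nonzero holomorphic function on `ℍ` is discrete in `U`. -/
theorem ne_zero_mem_codiscreteWithin {G : ℍ → ℂ} (hG : MDiff G) (h0 : G ≠ 0) :
    {z : ℂ | G (ofComplex z) ≠ 0} ∈ codiscreteWithin U := by
  obtain ⟨τ, hτ⟩ : ∃ τ, G τ ≠ 0 := by
    by_contra hcon
    push Not at hcon
    exact h0 (funext hcon)
  have h1 : AnalyticOnNhd ℂ (G ∘ ofComplex) U := fun z hz => analyticAt_comp_ofComplex hG hz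
  have h2 : (G ∘ ofComplex) (τ : ℂ) ≠ 0 := by
    simp only [Function.comp_apply, ofComplex_apply]
    exact hτ
  exact h1.preimage_zero_mem_codiscreteWithin h2 (coe_mem_U τ) isConnected_U

theorem codiscreteWithin_U_neBot : (codiscreteWithin U).NeBot := by
  rw [neBot_iff, Ne, codiscreteWithin_eq_bot_iff]
  intro h
  have hI : (Complex.I : ℂ) ∈ U := by simp [U]
  have h1 := (isDiscrete_iff_nhdsNE.mp h) Complex.I hI
  have h2 : 𝓝[≠] Complex.I ≤ 𝓟 U :=
    le_principal_iff.mpr (mem_nhdsWithin_of_mem_nhds (isOpen_U.mem_nhds hI))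
  rw [inf_of_le_left h2] at h1
  exact (NormedField.nhdsNE_neBot (Complex.I : ℂ)).ne h1

/-! ### The function `merK iotaK N f` -/

section Main

variable (N : ℕ) [NeZero N]

/-- `merK` is the quotient `ev P / ev Q` for some representative of `f`. -/
theorem merK_spec (f : FN N) : ∃ P Q, IsRep N f P Q ∧
    merK iotaK N f = fun z => ev N P (ofComplex z) / ev N Q (ofComplex z) := by
  have h : ∃ P Q, IsRepK N f P Q := Rep.exists_isRep N f
  refine ⟨h.choose, h.choose_spec.choose, h.choose_spec.choose_spec, ?_⟩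
  unfold merK
  rw [dif_pos h]
  rfl

theorem fm_num_ne_zero {f : FN N} (hf : f ≠ 0) {P Q : MvPolynomial (Dv N) KQ}
    (h : IsRep N f P Q) : fm N P ≠ 0 := by
  intro h0
  apply hf
  rw [h.2, h0, zero_div]

/-- Two representatives of the same element: cross-multiplication on the analytic side. -/
theorem ev_mul_eq_of_isRep {f : FN N} {P Q P' Q' : MvPolynomial (Dv N) KQ}
    (h : IsRep N f P Q) (h' : IsRep N f P' Q') (τ : ℍ) :
    ev N P τ * ev N Q' τ = ev N P' τ * ev N Q τ := by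
  have e : fm N P / fm N Q = fm N P' / fm N Q' := by rw [← h.2, ← h'.2]
  rw [div_eq_div_iff h.1 h'.1] at e
  have h0 : fm N (P * Q' - P' * Q) = 0 := by rw [map_sub, map_mul, map_mul, e, sub_self]
  have h1 := (ValPt.fm_eq_zero_iff N _).1 h0
  rw [map_sub, map_mul, map_mul, sub_eq_zero] at h1
  exact congrFun h1 τ

/-- Off a discrete subset of `U`, `merK` can be computed on any representative. -/
theorem merK_eq_div_ae (f : FN N) {P Q : MvPolynomial (Dv N) KQ} (h : IsRep N f P Q) :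
    merK iotaK N f =ᶠ[codiscreteWithin U]
      fun z => ev N P (ofComplex z) / ev N Q (ofComplex z) := by
  obtain ⟨P0, Q0, h0, e0⟩ := merK_spec N f
  have hQ := ne_zero_mem_codiscreteWithin (PtInv.mdiff_ev N Q) (PtInv.ev_ne_zero N h.1)
  have hQ0 := ne_zero_mem_codiscreteWithin (PtInv.mdiff_ev N Q0) (PtInv.ev_ne_zero N h0.1)
  filter_upwards [hQ, hQ0] with z hz hz0
  have hz' : ev N Q (ofComplex z) ≠ 0 := hz
  have hz0' : ev N Q0 (ofComplex z) ≠ 0 := hz0
  rw [e0]
  show ev N P0 (ofComplex z) / ev N Q0 (ofComplex z)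
    = ev N P (ofComplex z) / ev N Q (ofComplex z)
  rw [div_eq_div_iff hz0' hz']
  exact ev_mul_eq_of_isRep N h0 h (ofComplex z)

/-- `merK iotaK N f` is meromorphic on `U`. -/
theorem meromorphicOn_merK (f : FN N) : MeromorphicOn (merK iotaK N f) U := by
  obtain ⟨P, Q, h, e⟩ := merK_spec N f
  intro z hz
  rw [e]
  exact ((analyticAt_comp_ofComplex (PtInv.mdiff_ev N P) hz).meromorphicAt).div
    ((analyticAt_comp_ofComplex (PtInv.mdiff_ev N Q) hz).meromorphicAt)

/-- The order of `merK iotaK N f` at `τ` is the point valuation. -/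
theorem meromorphicOrderAt_merK (f : FN N) (hf : f ≠ 0) (τ : ℍ) :
    meromorphicOrderAt (merK iotaK N f) (τ : ℂ) = ((valPt N τ f : ℤ) : WithTop ℤ) := by
  obtain ⟨P, Q, h, e⟩ := merK_spec N f
  have hP : fm N P ≠ 0 := fm_num_ne_zero N hf h
  have hQ : fm N Q ≠ 0 := h.1
  have haP := analyticAt_comp_ofComplex (PtInv.mdiff_ev N P) (coe_mem_U τ)
  have haQ := analyticAt_comp_ofComplex (PtInv.mdiff_ev N Q) (coe_mem_U τ)
  have hnP := ValPt.analyticOrderAt_ne_top_of_mdiff (PtInv.mdiff_ev N P) (PtInv.ev_ne_zero N hP) τ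
  have hnQ := ValPt.analyticOrderAt_ne_top_of_mdiff (PtInv.mdiff_ev N Q) (PtInv.ev_ne_zero N hQ) τ
  have e' : merK iotaK N f = (ev N P ∘ ofComplex) / (ev N Q ∘ ofComplex) := by
    rw [e]
    rfl
  rw [e', meromorphicOrderAt_div haP.meromorphicAt haQ.meromorphicAt, haP.meromorphicOrderAt_eq,
    haQ.meromorphicOrderAt_eq, PtTop.valPt_eq_of_isRep N τ h hf]
  unfold ordAt
  obtain ⟨a, ha⟩ := ENat.ne_top_iff_exists.mp hnP
  obtain ⟨b, hb⟩ := ENat.ne_top_iff_exists.mp hnQ
  rw [← ha, ← hb]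
  simp

/-- `merK iotaK N f` is `Γ₀(N)`-invariant on `U`. -/
theorem merK_mob (f : FN N) (γ : SL(2, ℤ)) (hγ : γ ∈ Gamma0 N) {z : ℂ} (hz : z ∈ U) :
    merK iotaK N f (mob γ z) = merK iotaK N f z := by
  obtain ⟨P, Q, h, e⟩ := merK_spec N f
  rw [e]
  show ev N P (ofComplex (mob γ z)) / ev N Q (ofComplex (mob γ z))
    = ev N P (ofComplex z) / ev N Q (ofComplex z)
  rw [ofComplex_mob γ hz, PtInv.ev_smul_Gamma0 N P γ hγ, PtInv.ev_smul_Gamma0 N Q γ hγ]

theorem merK_mul (f g : FN N) : merK iotaK N (f * g) =ᶠ[codiscreteWithin U]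
    fun z => merK iotaK N f z * merK iotaK N g z := by
  obtain ⟨P1, Q1, h1, e1⟩ := merK_spec N f
  obtain ⟨P2, Q2, h2, e2⟩ := merK_spec N g
  have h3 : IsRep N (f * g) (P1 * P2) (Q1 * Q2) := by
    refine ⟨?_, ?_⟩
    · rw [map_mul]
      exact mul_ne_zero h1.1 h2.1
    · rw [map_mul, map_mul]
      conv_lhs => rw [h1.2, h2.2]
      rw [div_mul_div_comm]
  filter_upwards [merK_eq_div_ae N (f * g) h3] with z hz
  rw [hz, e1, e2]
  simp only [map_mul, Pi.mul_apply]
  rw [mul_div_mul_comm]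

theorem merK_add (f g : FN N) : merK iotaK N (f + g) =ᶠ[codiscreteWithin U]
    fun z => merK iotaK N f z + merK iotaK N g z := by
  obtain ⟨P1, Q1, h1, e1⟩ := merK_spec N f
  obtain ⟨P2, Q2, h2, e2⟩ := merK_spec N g
  have h3 : IsRep N (f + g) (P1 * Q2 + Q1 * P2) (Q1 * Q2) := by
    refine ⟨?_, ?_⟩
    · rw [map_mul]
      exact mul_ne_zero h1.1 h2.1
    · have hadd : fm N (P1 * Q2 + Q1 * P2) = fm N P1 * fm N Q2 + fm N Q1 * fm N P2 := by
        rw [← map_mul, ← map_mul]
        exact (fm N).toRingHom.map_add _ _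
      rw [hadd, map_mul]
      conv_lhs => rw [h1.2, h2.2]
      rw [div_add_div _ _ h1.1 h2.1]
  have hQ1 := ne_zero_mem_codiscreteWithin (PtInv.mdiff_ev N Q1) (PtInv.ev_ne_zero N h1.1)
  have hQ2 := ne_zero_mem_codiscreteWithin (PtInv.mdiff_ev N Q2) (PtInv.ev_ne_zero N h2.1)
  filter_upwards [merK_eq_div_ae N (f + g) h3, hQ1, hQ2] with z hz hz1 hz2
  have hz1' : ev N Q1 (ofComplex z) ≠ 0 := hz1
  have hz2' : ev N Q2 (ofComplex z) ≠ 0 := hz2
  rw [hz, e1, e2]
  simp only [map_add, map_mul, Pi.add_apply, Pi.mul_apply]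
  rw [div_add_div _ _ hz1' hz2']

theorem merK_algebraMap (c : KQ) : merK iotaK N (algebraMap KQ (FN N) c)
    =ᶠ[codiscreteWithin U] fun _ => iotaK c := by
  have h : IsRep N (algebraMap KQ (FN N) c) (MvPolynomial.C c) 1 := by
    refine ⟨by rw [map_one]; exact one_ne_zero, ?_⟩
    rw [map_one, div_one, ← MvPolynomial.algebraMap_eq, AlgHom.commutes]
  filter_upwards [merK_eq_div_ae N _ h] with z hz
  rw [hz, ValPt.ev_C N c, map_one]
  simp

theorem merK_eq_zero_iff (f : FN N) :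
    merK iotaK N f =ᶠ[codiscreteWithin U] (fun _ => (0 : ℂ)) ↔ f = 0 := by
  obtain ⟨P, Q, h, e⟩ := merK_spec N f
  constructor
  · intro hz
    by_contra hf
    have hP : fm N P ≠ 0 := fm_num_ne_zero N hf h
    have hP' := ne_zero_mem_codiscreteWithin (PtInv.mdiff_ev N P) (PtInv.ev_ne_zero N hP)
    have hQ' := ne_zero_mem_codiscreteWithin (PtInv.mdiff_ev N Q) (PtInv.ev_ne_zero N h.1)
    have hfalse : ∀ᶠ _ in codiscreteWithin U, False := by
      filter_upwards [hz, hP', hQ'] with z hz0 hzP hzQ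
      have hzP' : ev N P (ofComplex z) ≠ 0 := hzP
      have hzQ' : ev N Q (ofComplex z) ≠ 0 := hzQ
      rw [e] at hz0
      exact div_ne_zero hzP' hzQ' hz0
    have := codiscreteWithin_U_neBot
    obtain ⟨_, hx⟩ := hfalse.exists
    exact hx
  · intro hf
    have hP : fm N P = 0 := by
      have h2 := h.2
      rw [hf] at h2
      rcases div_eq_zero_iff.mp h2.symm with h0 | h0
      · exact h0
      · exact absurd h0 h.1
    have hev : ev N P = 0 := (ValPt.fm_eq_zero_iff N P).1 hP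
    rw [e, hev]
    exact Eventually.of_forall fun z => by simp

end Main

end Fermat.Agent.S24.Mer
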