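import Mathlib
import Fermat.Agent.ESJ.Jac.Defs
import Fermat.Agent.S24.CuspHom

/-!
# The meromorphic function of an element of the function field at the cusps

For `f` in the function field of `X₀(N)` and `g ∈ SL(2, ℤ)`, the meromorphic function
`merK f ∘ g⁻¹` is, on the whole upper half plane, of the shape `q_N ^ v * ψ (q_N)` with
`v = valCusp N g f` and `ψ` analytic and nonvanishing at `q_N = 0`.  In particular `merK f` is
meromorphic at all cusps.

* `hasQExp_shape`: a function with a nonzero global `q_h`-expansion `L` is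
  `q_h ^ L.order * ψ (q_h)` with `ψ` analytic and nonvanishing at `0`;
* `merK_cusp_shape`: the local shape of `merK f` at the cusp `g⁻¹ ∞`;
* `merAtCusps_merK`: `merK f` is meromorphic at all cusps.

Only the names `KQ`, `iotaK`, `FN`, `fm`, `ev`, `valCusp` of the coefficient field are used
(no property of the coefficient field itself).
-/

set_option autoImplicit false

open Filter Topology UpperHalfPlane
open scoped MatrixGroups

noncomputable section

namespace Fermat.Agent.S24.MerCusp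

open Fermat.Agent.S24 Fermat.Agent.ESJ.Jac

/-! ### Functions with a global `q`-expansion near `i∞` -/

/-- A power series summable on the punctured open unit disc defines an analytic function on the
open unit disc. -/
theorem hasFPowerSeriesOnBall_of_summable (b : ℕ → ℂ)
    (hsum : ∀ q : ℂ, ‖q‖ < 1 → Summable (fun m : ℕ => b m * q ^ m)) :
    HasFPowerSeriesOnBall (fun q : ℂ => ∑' m : ℕ, b m * q ^ m)
      (FormalMultilinearSeries.ofScalars ℂ b) 0 1 := by
  refine ⟨?_, one_pos, ?_⟩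
  · refine ENNReal.le_of_forall_nnreal_lt (fun r hr => ?_)
    refine FormalMultilinearSeries.le_radius_of_summable_norm _ ?_
    have hr1 : ‖((r : ℝ) : ℂ)‖ < 1 := by
      rw [Complex.norm_real, Real.norm_eq_abs, abs_of_nonneg r.coe_nonneg]
      exact_mod_cast hr
    have := (hsum ((r : ℝ) : ℂ) hr1).norm
    refine this.congr (fun n => ?_)
    rw [FormalMultilinearSeries.ofScalars_norm, norm_mul, norm_pow, Complex.norm_real,
      Real.norm_eq_abs, abs_of_nonneg r.coe_nonneg]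
  · intro y hy
    have hy1 : ‖y‖ < 1 := by
      rw [Metric.mem_eball, edist_zero_right, ← ofReal_norm,
        ENNReal.ofReal_lt_one] at hy
      exact hy
    rw [zero_add]
    have := (hsum y hy1).hasSum
    have heq : (fun n => (FormalMultilinearSeries.ofScalars ℂ b n) fun _ => y)
        = fun m => b m * y ^ m := by
      funext n
      rw [FormalMultilinearSeries.ofScalars_apply_eq, smul_eq_mul]
    rw [heq]
    exact this

/-- **Local shape at `i∞`.** A function with a nonzero global `q_h`-expansion `L` is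
`q_h ^ L.order * ψ (q_h)` with `ψ` analytic and nonvanishing at `0`. -/
theorem hasQExp_shape {h : ℕ} [NeZero h] {G : ℍ → ℂ} {L : LaurentSeries ℂ}
    (hG : QExp.HasQExp h G L) (hL : L ≠ 0) :
    ∃ ψ : ℂ → ℂ, AnalyticAt ℂ ψ 0 ∧ ψ 0 ≠ 0 ∧
      ∀ τ : ℍ, G τ = Function.Periodic.qParam (h : ℝ) (τ : ℂ) ^ L.order *
        ψ (Function.Periodic.qParam (h : ℝ) (τ : ℂ)) := by
  set k := L.order with hk
  have hak : L.coeff k ≠ 0 := fun h0 => hL (HahnSeries.coeff_order_eq_zero.mp h0)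
  have hlt : ∀ n < k, L.coeff n = 0 := fun n hn => HahnSeries.coeff_eq_zero_of_lt_order hn
  set b : ℕ → ℂ := fun m => L.coeff (k + m) with hb
  have key : ∀ τ : ℍ, HasSum (fun m : ℕ => b m * Function.Periodic.qParam (h : ℝ) (τ : ℂ) ^ m)
      (Function.Periodic.qParam (h : ℝ) (τ : ℂ) ^ (-k) * G τ) := fun τ =>
    (QExp.hasSum_shift L k hlt (QExp.qParam_ne_zero' h τ) _).mp (hG τ)
  have key0 : HasSum (fun m : ℕ => b m * (0 : ℂ) ^ m) (b 0) := by
    have := hasSum_single (f := fun m : ℕ => b m * (0 : ℂ) ^ m) 0 (fun m hm => by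
      simp [hm])
    simpa using this
  have hsum : ∀ q : ℂ, ‖q‖ < 1 → Summable (fun m : ℕ => b m * q ^ m) := by
    intro q hq
    rcases eq_or_ne q 0 with rfl | hq0
    · exact key0.summable
    · obtain ⟨τ, rfl⟩ := QExp.exists_qParam_eq h hq0 hq
      exact (key τ).summable
  refine ⟨fun q : ℂ => ∑' m : ℕ, b m * q ^ m,
    (hasFPowerSeriesOnBall_of_summable b hsum).analyticAt, ?_, fun τ => ?_⟩
  · show ∑' m : ℕ, b m * (0 : ℂ) ^ m ≠ 0
    rw [key0.tsum_eq]
    simpa [hb] using hak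
  · show G τ = Function.Periodic.qParam (h : ℝ) (τ : ℂ) ^ k *
      ∑' m : ℕ, b m * Function.Periodic.qParam (h : ℝ) (τ : ℂ) ^ m
    rw [(key τ).tsum_eq, ← mul_assoc, ← zpow_add₀ (QExp.qParam_ne_zero' h τ), add_neg_cancel,
      zpow_zero, one_mul]

/-! ### The Möbius maps on `U` -/

theorem mob_coe_aux (g : SL(2, ℤ)) (τ : ℍ) : mob g (τ : ℂ) = ((g • τ : ℍ) : ℂ) := by
  rw [UpperHalfPlane.coe_specialLinearGroup_apply]
  simp [mob]

theorem isOpen_U_aux : IsOpen U := isOpen_lt continuous_const Complex.continuous_im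

/-! ### The function `merK f` -/

variable (N : ℕ) [NeZero N]

/-- `merK f` is the quotient `ev P / ev Q` for the chosen representative of `f`. -/
theorem exists_merK_eq (f : FN N) :
    ∃ P Q : MvPolynomial (Dv N) KQ, IsRep N f P Q ∧
      merK iotaK N f = fun z : ℂ => ev N P (ofComplex z) / ev N Q (ofComplex z) := by
  have hex : ∃ P Q, IsRep N f P Q := QExp.exists_isRep N f
  refine ⟨hex.choose, hex.choose_spec.choose, hex.choose_spec.choose_spec, ?_⟩
  unfold merK
  exact dif_pos hex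

/-- `merK f ∘ g⁻¹` on `U` as a quotient of translates. -/
theorem merK_mob_inv (f : FN N) {P Q : MvPolynomial (Dv N) KQ}
    (hmer : merK iotaK N f = fun z : ℂ => ev N P (ofComplex z) / ev N Q (ofComplex z))
    (g : SL(2, ℤ)) {z : ℂ} (hz : z ∈ U) :
    merK iotaK N f (mob g⁻¹ z) = trans g (ev N P) ⟨z, hz⟩ / trans g (ev N Q) ⟨z, hz⟩ := by
  have h1 : mob g⁻¹ z = ((g⁻¹ • (⟨z, hz⟩ : ℍ) : ℍ) : ℂ) := mob_coe_aux g⁻¹ ⟨z, hz⟩
  rw [hmer]
  show ev N P (ofComplex (mob g⁻¹ z)) / ev N Q (ofComplex (mob g⁻¹ z))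
    = ev N P (g⁻¹ • (⟨z, hz⟩ : ℍ)) / ev N Q (g⁻¹ • (⟨z, hz⟩ : ℍ))
  rw [h1, UpperHalfPlane.ofComplex_apply]

/-- **Local shape of `merK f` at the cusp `g⁻¹ ∞`.** -/
theorem merK_cusp_shape (f : FN N) (hf : f ≠ 0) (g : SL(2, ℤ)) :
    ∃ ψ : ℂ → ℂ, AnalyticAt ℂ ψ 0 ∧ ψ 0 ≠ 0 ∧ ∀ z : ℂ, z ∈ U →
      merK iotaK N f (mob g⁻¹ z) = Function.Periodic.qParam (N : ℝ) z ^ (valCusp N g f) *
        ψ (Function.Periodic.qParam (N : ℝ) z) := by
  obtain ⟨P, Q, hrep, hmer⟩ := exists_merK_eq N f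
  have hQ : fm N Q ≠ 0 := hrep.1
  have hP : fm N P ≠ 0 := by
    intro h0
    apply hf
    rw [hrep.2, h0, zero_div]
  have hLP := QExp.hasQExp_trans_ev' N g P
  have hLQ := QExp.hasQExp_trans_ev' N g Q
  have hLP0 : ModularCurve.coeffMap iotaK (QExp.cuspPoly N g P) ≠ 0 := fun h =>
    QExp.cuspPoly_ne_zero N g hP (QExp.coeffMap_injective' iotaK (by rw [h, map_zero]))
  have hLQ0 : ModularCurve.coeffMap iotaK (QExp.cuspPoly N g Q) ≠ 0 := fun h =>
    QExp.cuspPoly_ne_zero N g hQ (QExp.coeffMap_injective' iotaK (by rw [h, map_zero]))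
  obtain ⟨ψP, hPa, hP0, hPe⟩ := hasQExp_shape hLP hLP0
  obtain ⟨ψQ, hQa, hQ0, hQe⟩ := hasQExp_shape hLQ hLQ0
  have hval : valCusp N g f = (ModularCurve.coeffMap iotaK (QExp.cuspPoly N g P)).order
      - (ModularCurve.coeffMap iotaK (QExp.cuspPoly N g Q)).order := by
    rw [QExp.valCusp_eq_of_isRep N g hf hrep, hLP.ordInf_eq hLP0, hLQ.ordInf_eq hLQ0]
  refine ⟨fun q => ψP q / ψQ q, hPa.div hQa hQ0, div_ne_zero hP0 hQ0, fun z hz => ?_⟩
  have hq0 : Function.Periodic.qParam (N : ℝ) z ≠ 0 := Complex.exp_ne_zero _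
  rw [merK_mob_inv N f hmer g hz, hPe ⟨z, hz⟩, hQe ⟨z, hz⟩, hval]
  show Function.Periodic.qParam (N : ℝ) z ^ _ * ψP (Function.Periodic.qParam (N : ℝ) z)
      / (Function.Periodic.qParam (N : ℝ) z ^ _ * ψQ (Function.Periodic.qParam (N : ℝ) z))
    = Function.Periodic.qParam (N : ℝ) z ^ _ *
      (ψP (Function.Periodic.qParam (N : ℝ) z) / ψQ (Function.Periodic.qParam (N : ℝ) z))
  rw [zpow_sub₀ hq0, mul_div_mul_comm]

/-! ### Meromorphy at the cusps -/

theorem exp_zpow_aux (x : ℝ) (n : ℤ) : Real.exp x ^ n = Real.exp (n * x) := by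
  rw [← Real.rpow_intCast, ← Real.exp_mul, mul_comm]

/-- A function which on `U` is of the shape `q_N ^ v * ψ (q_N)` after composition with `mob g`,
with `ψ` analytic at `0`, is analytic and of at most exponential growth high up. -/
theorem exists_bound_of_shape (F : ℂ → ℂ) (g : SL(2, ℤ)) (v : ℤ) (ψ : ℂ → ℂ)
    (hψ : AnalyticAt ℂ ψ 0)
    (hsh : ∀ z : ℂ, z ∈ U → F (mob g z) = Function.Periodic.qParam (N : ℝ) z ^ v *
      ψ (Function.Periodic.qParam (N : ℝ) z)) :
    ∃ Y M : ℝ, ∀ z : ℂ, Y < z.im →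
      AnalyticAt ℂ (fun w => F (mob g w)) z ∧ ‖F (mob g z)‖ ≤ Real.exp (M * z.im) := by
  have hN : (0 : ℝ) < N := by exact_mod_cast Nat.pos_of_ne_zero (NeZero.ne N)
  set C : ℝ := ‖ψ 0‖ + 1 with hC
  have hC0 : 0 ≤ C := by positivity
  have h1 : ∀ᶠ q in 𝓝 (0 : ℂ), AnalyticAt ℂ ψ q := hψ.eventually_analyticAt
  have h2 : ∀ᶠ q in 𝓝 (0 : ℂ), ‖ψ q‖ < C :=
    hψ.continuousAt.norm.eventually (gt_mem_nhds (lt_add_one _))
  have h3 : ∀ᶠ z in comap Complex.im atTop,
      AnalyticAt ℂ ψ (Function.Periodic.qParam (N : ℝ) z) ∧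
        ‖ψ (Function.Periodic.qParam (N : ℝ) z)‖ < C :=
    ((Function.Periodic.qParam_tendsto hN).mono_right nhdsWithin_le_nhds).eventually (h1.and h2)
  rw [eventually_comap, eventually_atTop] at h3
  obtain ⟨Y₀, hY₀⟩ := h3
  refine ⟨max Y₀ 1, C + v * (-2 * Real.pi / N), fun z hz => ?_⟩
  have hzY : Y₀ ≤ z.im := (le_max_left _ _).trans hz.le
  have hz1 : 1 ≤ z.im := (le_max_right _ _).trans hz.le
  have hzU : z ∈ U := lt_of_lt_of_le one_pos hz1
  obtain ⟨hψq, hψC⟩ := hY₀ z.im hzY z rfl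
  have hq0 : Function.Periodic.qParam (N : ℝ) z ≠ 0 := Complex.exp_ne_zero _
  have hqa : AnalyticAt ℂ (Function.Periodic.qParam (N : ℝ)) z :=
    Function.Periodic.differentiable_qParam.analyticAt z
  constructor
  · have han : AnalyticAt ℂ (fun w => Function.Periodic.qParam (N : ℝ) w ^ v *
        ψ (Function.Periodic.qParam (N : ℝ) w)) z :=
      (hqa.fun_zpow hq0).mul (hψq.fun_comp hqa)
    refine han.congr ?_
    filter_upwards [isOpen_U_aux.mem_nhds hzU] with w hw
    exact (hsh w hw).symm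
  · rw [hsh z hzU, norm_mul, norm_zpow, Function.Periodic.norm_qParam, exp_zpow_aux]
    have h4 : Real.exp ((C + v * (-2 * Real.pi / N)) * z.im)
        = Real.exp (v * (-2 * Real.pi * z.im / N)) * Real.exp (C * z.im) := by
      rw [← Real.exp_add]
      congr 1
      ring
    rw [h4]
    refine mul_le_mul_of_nonneg_left ?_ (Real.exp_pos _).le
    have h5 : C ≤ Real.exp C := by linarith [Real.add_one_le_exp C]
    have h6 : Real.exp C ≤ Real.exp (C * z.im) :=
      Real.exp_le_exp.mpr (le_mul_of_one_le_right hC0 hz1)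
    linarith

/-- `merK 0 = 0`. -/
theorem merK_zero : merK iotaK N (0 : FN N) = 0 := by
  obtain ⟨P, Q, hrep, hmer⟩ := exists_merK_eq N (0 : FN N)
  have hP : fm N P = 0 := by
    have h := hrep.2
    rcases div_eq_zero_iff.mp h.symm with h0 | h0
    · exact h0
    · exact absurd h0 hrep.1
  have hev : ev N P = 0 := (QExp.ev_eq_zero_iff N P).mpr hP
  rw [hmer, hev]
  funext z
  simp

/-- **`merK f` is meromorphic at all cusps.** -/
theorem merAtCusps_merK (f : FN N) : MerAtCusps (merK iotaK N f) := by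
  intro g
  by_cases hf : f = 0
  · subst hf
    rw [merK_zero]
    exact ⟨0, 0, fun z _ => ⟨analyticAt_const, by simp⟩⟩
  · obtain ⟨ψ, hψ, -, hsh⟩ := merK_cusp_shape N f hf g⁻¹
    simp only [inv_inv] at hsh
    exact exists_bound_of_shape N (merK iotaK N f) g (valCusp N g⁻¹ f) ψ hψ hsh

end Fermat.Agent.S24.MerCusp
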