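import Mathlib
import Fermat.Agent.S24.DictInst
import Fermat.Agent.S24.MerCusp

/-!
# JAC-DICT: the dictionary structure `IsDict iotaK N`, unconditionally

(Written on the S24 names only, so that the same file ports to the coefficient field `ℂ`.)
-/

set_option autoImplicit false

noncomputable section

namespace Fermat.Agent.S24.DictInst

open Fermat.Agent.S24 Fermat.Agent.ESJ.Jac Fermat.Agent.ESJ.Dict

/-- The dictionary for the coefficient field of this namespace. -/
theorem isDict (N : ℕ) [NeZero N] : IsDict iotaK N :=
  isDict_of N (MerCusp.merK_cusp_shape N) (MerCusp.merAtCusps_merK N)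

end Fermat.Agent.S24.DictInst

end
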