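import Mathlib
import Fermat.Agent.S24.Counting

/-!
# S24 → ESJ dictionary, abstract part

Refinement of `Counting.card_zeros_eq_card_orbits`: under the same hypotheses, the places with
`0 < v.ord y` are exactly the places of the raw valuations `w i`, two of them coincide iff the
indices lie in the same orbit, the ramification index `v.ord y` is the size of the orbit, and
the raw valuation is `E / (orbit size)` times the normalised order.
-/

set_option autoImplicit false

noncomputable section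

namespace Fermat.Agent.S24.PlaceDict

open AlgebraicCurve Polynomial Fermat.Agent.S24.Counting

variable {K F : Type*} [Field K] [Field F] [Algebra K F]

/-- Raw valuations which agree on nonzero elements have the same place. -/
theorem place_congr {w w' : F → ℤ} (hw : IsRawVal K w) (hw' : IsRawVal K w')
    (hnt : ∃ f : F, f ≠ 0 ∧ w f ≠ 0) (hnt' : ∃ f : F, f ≠ 0 ∧ w' f ≠ 0)
    (h : ∀ f : F, f ≠ 0 → w f = w' f) : hw.place hnt = hw'.place hnt' := by
  apply Place.ext
  ext f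
  rw [IsRawVal.place_toValuationSubring, IsRawVal.place_toValuationSubring,
    IsRawVal.mem_valSubring, IsRawVal.mem_valSubring]
  by_cases hf : f = 0
  · simp [hf]
  · rw [h f hf]

/-- The multiplier of a nontrivial raw valuation, as a natural number. -/
theorem exists_mult {w : F → ℤ} (hw : IsRawVal K w) (hnt : ∃ f : F, f ≠ 0 ∧ w f ≠ 0) :
    ∃ m : ℕ, 0 < m ∧ (∃ π : F, π ≠ 0 ∧ (hw.place hnt).ord π = 1 ∧ w π = m) ∧
      ∀ f : F, f ≠ 0 → w f = m * (hw.place hnt).ord f := by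
  obtain ⟨m, hm, ⟨π, hπ0, hπ1, hπm⟩, h⟩ := hw.exists_mul_ord hnt
  refine ⟨m.toNat, by omega, ⟨π, hπ0, hπ1, ?_⟩, fun f hf => ?_⟩
  · rw [Int.toNat_of_nonneg hm.le]; exact hπm
  · rw [Int.toNat_of_nonneg hm.le]; exact h f hf

/-- The multiplier `m` with `w = m * ord`. -/
def mult {w : F → ℤ} (hw : IsRawVal K w) (hnt : ∃ f : F, f ≠ 0 ∧ w f ≠ 0) : ℕ :=
  (exists_mult hw hnt).choose

theorem mult_pos {w : F → ℤ} (hw : IsRawVal K w) (hnt : ∃ f : F, f ≠ 0 ∧ w f ≠ 0) :
    0 < mult hw hnt :=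
  (exists_mult hw hnt).choose_spec.1

theorem exists_uniformizer {w : F → ℤ} (hw : IsRawVal K w) (hnt : ∃ f : F, f ≠ 0 ∧ w f ≠ 0) :
    ∃ π : F, π ≠ 0 ∧ (hw.place hnt).ord π = 1 ∧ w π = mult hw hnt :=
  (exists_mult hw hnt).choose_spec.2.1

theorem eq_mult_mul_ord {w : F → ℤ} (hw : IsRawVal K w) (hnt : ∃ f : F, f ≠ 0 ∧ w f ≠ 0)
    {f : F} (hf : f ≠ 0) : w f = mult hw hnt * (hw.place hnt).ord f :=
  (exists_mult hw hnt).choose_spec.2.2 f hf

theorem ord_nonneg_iff_raw {w : F → ℤ} (hw : IsRawVal K w) (hnt : ∃ f : F, f ≠ 0 ∧ w f ≠ 0)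
    {f : F} (hf : f ≠ 0) : 0 ≤ (hw.place hnt).ord f ↔ 0 ≤ w f := by
  have hm : (0 : ℤ) < mult hw hnt := by exact_mod_cast mult_pos hw hnt
  rw [eq_mult_mul_ord hw hnt hf]
  constructor
  · intro h; exact mul_nonneg hm.le h
  · intro h; by_contra hcon; push Not at hcon; nlinarith

theorem ord_pos_iff_raw {w : F → ℤ} (hw : IsRawVal K w) (hnt : ∃ f : F, f ≠ 0 ∧ w f ≠ 0)
    {f : F} (hf : f ≠ 0) : 0 < (hw.place hnt).ord f ↔ 0 < w f := by
  have hm : (0 : ℤ) < mult hw hnt := by exact_mod_cast mult_pos hw hnt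
  rw [eq_mult_mul_ord hw hnt hf]
  constructor
  · intro h; exact mul_pos hm h
  · intro h; by_contra hcon; push Not at hcon; nlinarith

theorem ord_eq_zero_iff_raw {w : F → ℤ} (hw : IsRawVal K w) (hnt : ∃ f : F, f ≠ 0 ∧ w f ≠ 0)
    {f : F} (hf : f ≠ 0) : (hw.place hnt).ord f = 0 ↔ w f = 0 := by
  have hm : (0 : ℤ) < mult hw hnt := by exact_mod_cast mult_pos hw hnt
  rw [eq_mult_mul_ord hw hnt hf]
  constructor
  · intro h; rw [h, mul_zero]
  · intro h
    rcases mul_eq_zero.mp h with h | h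
    · omega
    · exact h

/-- **Fibre dictionary** (same hypotheses as `Counting.card_zeros_eq_card_orbits`, plus
`y ≠ 0`). -/
theorem fibre_dict {X O : Type*} [Fintype X] [Fintype O] (y : F) (hy0 : y ≠ 0) (n : ℕ)
    (hA2 : ∃ hfin : {v : Place K F | 0 < v.ord y}.Finite,
      ∑ v ∈ hfin.toFinset, v.ord y = (n : ℤ))
    (hcard : Fintype.card X ≤ n)
    (w : X → F → ℤ) (hw : ∀ i, IsRawVal K (w i))
    (E : ℤ) (hE : 0 < E) (hwy : ∀ i, w i y = E)
    (orb : X → O) (horb : Function.Surjective orb)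
    (hO1 : ∀ i j, orb i = orb j → w i = w j)
    (hO2 : ∀ i (f : F), f ≠ 0 → E ∣ w i f * (Nat.card {j // orb j = orb i} : ℤ))
    (hS : ∀ f : F, f ≠ 0 → (∀ i, 0 ≤ w i f) →
      ∃ P : F[X], P.Monic ∧ P.eval f = 0 ∧
        ∀ k, P.coeff k ≠ 0 →
          P.coeff k ∈ IntermediateField.adjoin K {y} ∧ ∃ i, 0 ≤ w i (P.coeff k))
    (hnt : ∀ i, ∃ f : F, f ≠ 0 ∧ w i f ≠ 0) :
    (∀ v : Place K F, 0 < v.ord y → ∃ i, v = (hw i).place (hnt i)) ∧
    (∀ i j, (hw i).place (hnt i) = (hw j).place (hnt j) → orb i = orb j) ∧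
    (∀ i, ((hw i).place (hnt i)).ord y = (Nat.card {j // orb j = orb i} : ℤ)) ∧
    (∀ i (f : F), f ≠ 0 →
      w i f * (Nat.card {j // orb j = orb i} : ℤ) = E * ((hw i).place (hnt i)).ord f) ∧
    n = Fintype.card X := by
  classical
  set v : X → Place K F := fun i => (hw i).place (hnt i) with hv
  have hmpos : ∀ i, (0 : ℤ) < mult (hw i) (hnt i) := fun i => by
    exact_mod_cast mult_pos (hw i) (hnt i)
  have hmf : ∀ i (f : F), f ≠ 0 → w i f = mult (hw i) (hnt i) * (v i).ord f := fun i f hf =>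
    eq_mult_mul_ord (hw i) (hnt i) hf
  have hvy : ∀ i, 0 < (v i).ord y := by
    intro i
    rw [hv]
    rw [ord_pos_iff_raw (hw i) (hnt i) hy0, hwy]
    exact hE
  have hnn : ∀ i (f : F), f ≠ 0 → (0 ≤ (v i).ord f ↔ 0 ≤ w i f) := fun i f hf =>
    ord_nonneg_iff_raw (hw i) (hnt i) hf
  -- surjectivity onto the fibre
  have hsurj : ∀ u : Place K F, 0 < u.ord y → ∃ i, u = v i := by
    intro u hu
    refine exists_eq_of_forall_integral y v hvy ?_ u hu
    intro f hf hall
    obtain ⟨P, hPm, hPf, hPc⟩ := hS f hf (fun i => (hnn i f hf).mp (hall i))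
    refine ⟨P, hPm, hPf, fun k hk => ?_⟩
    obtain ⟨h1, i, hi⟩ := hPc k hk
    exact ⟨h1, i, (hnn i _ hk).mpr hi⟩
  -- the orbit version
  let s : O → X := Function.surjInv horb
  have hs : ∀ o, orb (s o) = o := Function.surjInv_eq horb
  have hvs : ∀ i, v i = v (s (orb i)) := by
    intro i
    exact place_congr (hw i) (hw _) (hnt i) (hnt _)
      (fun f _ => by rw [hO1 i (s (orb i)) (hs (orb i)).symm])
  let bound : O → ℕ := fun o => Nat.card {j // orb j = o}
  have hbound_pos : ∀ i, 0 < bound (orb i) := fun i =>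
    Nat.card_pos_iff.mpr ⟨⟨⟨i, rfl⟩⟩, inferInstance⟩
  have hle : ∀ o, (v (s o)).ord y ≤ bound o := by
    intro o
    obtain ⟨π, hπ0, hπ1, hπm⟩ := exists_uniformizer (hw (s o)) (hnt (s o))
    have h1 := hO2 (s o) π hπ0
    rw [hπm, hs o] at h1
    have h2 := hmf (s o) y hy0
    rw [hwy] at h2
    rw [h2] at h1
    have h3 : (v (s o)).ord y ∣ (bound o : ℤ) :=
      (mul_dvd_mul_iff_left (hmpos (s o)).ne').mp h1
    have hb : 0 < (bound o : ℤ) := by
      have := hbound_pos (s o)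
      rw [hs o] at this
      exact_mod_cast this
    exact Int.le_of_dvd hb h3
  have hsumX : ∑ o, bound o = Fintype.card X := by
    have h1 : ∀ o, Nat.card {j // orb j = o} = (Finset.univ.filter (fun j => orb j = o)).card := by
      intro o
      rw [Nat.card_eq_fintype_card, Fintype.card_subtype]
    simp only [bound, h1]
    rw [← Finset.card_univ (α := X)]
    exact (Finset.card_eq_sum_card_fiberwise (fun x _ => Finset.mem_univ (orb x))).symm
  have hsum : ∑ o, bound o ≤ n := by omega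
  obtain ⟨hinj, hatt, -, hbn⟩ := card_zeros_of_places y n hA2 (fun o => v (s o)) bound
    (fun o => hvy _) hle hsum (fun u hu => by
      obtain ⟨i, hi⟩ := hsurj u hu
      exact ⟨orb i, hi.trans (hvs i)⟩)
  refine ⟨hsurj, ?_, ?_, ?_, ?_⟩
  · intro i j hij
    exact hinj (show v (s (orb i)) = v (s (orb j)) by rw [← hvs, ← hvs]; exact hij)
  · intro i
    rw [show (hw i).place (hnt i) = v (s (orb i)) from hvs i]
    exact hatt (orb i)
  · intro i f hf
    have h1 := hmf i f hf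
    have h2 := hmf i y hy0
    rw [hwy] at h2
    have h3 : (v i).ord y = bound (orb i) := by
      rw [hvs i]
      exact hatt (orb i)
    rw [h1, h2, h3]
    ring
  · omega

end Fermat.Agent.S24.PlaceDict
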