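import Mathlib
import Fermat.Agent.S24.PlaceDictCore
import Fermat.Agent.S24.ModDefs
import Fermat.Agent.S24.PtVal
import Fermat.Agent.S24.CuspHom
import Fermat.Agent.S24.PtTop
import Fermat.Agent.S24.PtInv
import Fermat.Agent.S24.CuspTop
import Fermat.Agent.S24.ARest
import Fermat.Agent.S24.OrbitSize
import Fermat.Agent.S24.Transfer
import Fermat.Agent.S20.EllCount
import Fermat.Agent.S20.CountOrbits
import Fermat.Agent.S24.DegTop

/-!
# S24 → ESJ dictionary: places of `F = ℚ̄(X₀(N))` ↔ points and cusps of `Γ₀(N)\ℍ*`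

* `placePt N τ h` : the place of `F` at a point `τ : ℍ` with `J(τ) ∈ ι(ℚ̄)` (`IsAlgPt τ`);
  `valPt N τ f = mulPt N τ h * (placePt N τ h).ord f`.
* `placeCusp N g` : the place at the cusp `g⁻¹∞`;
  `valCusp N g f = mulCusp N g * (placeCusp N g).ord f`.
* every place is one of these (`exists_placePt_or_placeCusp`), a point place is never a cusp
  place, `placePt N τ = placePt N τ'` iff `τ' ∈ Γ₀(N) τ`, `placeCusp N g = placeCusp N g'` iff
  `g' ∈ ⟨T⟩ g Γ₀(N)`;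
* the multipliers: `mulPt ∈ {1, 2, 3}` is the order of the stabiliser of `τ` in `Γ₀(N)/±1`,
  `mulCusp N g * (width of the cusp) = N`;
* at a point which is not algebraic, `valPt N τ` is trivial.
-/

set_option autoImplicit false

open UpperHalfPlane ModularForm AlgebraicCurve CongruenceSubgroup ModularGroup
open scoped MatrixGroups Manifold IntermediateField

noncomputable section

namespace Fermat.Agent.S24.PlaceDict

open Fermat.Agent.S24 Fermat.Agent.S24.Counting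
open Fermat.Agent.S20 (rhoPt)

variable (N : ℕ) [NeZero N]

/-! ### The raw valuations -/

theorem rawPt (τ : ℍ) : IsRawVal KQ (valPt N τ) :=
  PtVal.isRawVal_valPt (fun P => (QExp.ev_eq_zero_iff N P).symm) τ

theorem rawCusp (g : SL(2, ℤ)) : IsRawVal KQ (valCusp N g) := QExp.isRawVal_valCusp N g

/-- The point `τ` is algebraic: `J(τ)` lies in the image of `ℚ̄`. -/
def IsAlgPt (τ : ℍ) : Prop := ∃ c : KQ, Jfun τ = iotaK c

theorem IsAlgPt.smul {τ : ℍ} (h : IsAlgPt τ) (g : SL(2, ℤ)) : IsAlgPt (g • τ) := by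
  obtain ⟨c, hc⟩ := h
  exact ⟨c, by rw [JPt.Jfun_smul, hc]⟩

theorem isAlgPt_smul_iff (g : SL(2, ℤ)) (τ : ℍ) : IsAlgPt (g • τ) ↔ IsAlgPt τ := by
  refine ⟨fun h => ?_, fun h => h.smul g⟩
  have := h.smul g⁻¹
  rwa [inv_smul_smul] at this

theorem ntPt {τ : ℍ} (h : IsAlgPt τ) : ∃ f : FN N, f ≠ 0 ∧ valPt N τ f ≠ 0 := by
  obtain ⟨c, hc⟩ := h
  exact ⟨jBar N - algebraMap KQ (FN N) c, PtTop.jBar_sub_ne_zero N c,
    ((PtTop.valPt_jBar_sub_pos_iff N τ c).mpr hc).ne'⟩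

theorem jBar_ne_zero : jBar N ≠ 0 := by
  have := PtTop.jBar_sub_ne_zero N 0
  rwa [map_zero, sub_zero] at this

theorem ntCusp (g : SL(2, ℤ)) : ∃ f : FN N, f ≠ 0 ∧ valCusp N g f ≠ 0 :=
  ⟨(jBar N)⁻¹, inv_ne_zero (jBar_ne_zero N), by
    rw [valCusp_jBar_inv]
    exact_mod_cast NeZero.ne N⟩

/-- The place of `F` at an algebraic point of `ℍ`. -/
def placePt (τ : ℍ) (h : IsAlgPt τ) : Place KQ (FN N) := (rawPt N τ).place (ntPt N h)

/-- The multiplier at an algebraic point: `valPt = mulPt * ord`. -/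
def mulPt (τ : ℍ) (h : IsAlgPt τ) : ℕ := mult (rawPt N τ) (ntPt N h)

/-- The place of `F` at the cusp `g⁻¹ ∞`. -/
def placeCusp (g : SL(2, ℤ)) : Place KQ (FN N) := (rawCusp N g).place (ntCusp N g)

/-- The multiplier at a cusp: `valCusp = mulCusp * ord`. -/
def mulCusp (g : SL(2, ℤ)) : ℕ := mult (rawCusp N g) (ntCusp N g)

theorem mulPt_pos (τ : ℍ) (h : IsAlgPt τ) : 0 < mulPt N τ h := mult_pos _ _

theorem mulCusp_pos (g : SL(2, ℤ)) : 0 < mulCusp N g := mult_pos _ _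

theorem valPt_eq_mul_ord (τ : ℍ) (h : IsAlgPt τ) {f : FN N} (hf : f ≠ 0) :
    valPt N τ f = mulPt N τ h * (placePt N τ h).ord f :=
  eq_mult_mul_ord (rawPt N τ) (ntPt N h) hf

theorem valCusp_eq_mul_ord (g : SL(2, ℤ)) {f : FN N} (hf : f ≠ 0) :
    valCusp N g f = mulCusp N g * (placeCusp N g).ord f :=
  eq_mult_mul_ord (rawCusp N g) (ntCusp N g) hf

theorem exists_uniformizer_pt (τ : ℍ) (h : IsAlgPt τ) :
    ∃ π : FN N, π ≠ 0 ∧ (placePt N τ h).ord π = 1 ∧ valPt N τ π = mulPt N τ h :=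
  exists_uniformizer (rawPt N τ) (ntPt N h)

theorem exists_uniformizer_cusp (g : SL(2, ℤ)) :
    ∃ π : FN N, π ≠ 0 ∧ (placeCusp N g).ord π = 1 ∧ valCusp N g π = mulCusp N g :=
  exists_uniformizer (rawCusp N g) (ntCusp N g)

theorem ord_placePt_nonneg_iff (τ : ℍ) (h : IsAlgPt τ) {f : FN N} (hf : f ≠ 0) :
    0 ≤ (placePt N τ h).ord f ↔ 0 ≤ valPt N τ f :=
  ord_nonneg_iff_raw (rawPt N τ) (ntPt N h) hf

theorem ord_placePt_pos_iff (τ : ℍ) (h : IsAlgPt τ) {f : FN N} (hf : f ≠ 0) :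
    0 < (placePt N τ h).ord f ↔ 0 < valPt N τ f :=
  ord_pos_iff_raw (rawPt N τ) (ntPt N h) hf

theorem ord_placeCusp_nonneg_iff (g : SL(2, ℤ)) {f : FN N} (hf : f ≠ 0) :
    0 ≤ (placeCusp N g).ord f ↔ 0 ≤ valCusp N g f :=
  ord_nonneg_iff_raw (rawCusp N g) (ntCusp N g) hf

theorem ord_placeCusp_pos_iff (g : SL(2, ℤ)) {f : FN N} (hf : f ≠ 0) :
    0 < (placeCusp N g).ord f ↔ 0 < valCusp N g f :=
  ord_pos_iff_raw (rawCusp N g) (ntCusp N g) hf

/-! ### Invariance -/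

theorem placePt_congr {τ τ' : ℍ} (h : IsAlgPt τ) (h' : IsAlgPt τ')
    (heq : ∀ f : FN N, f ≠ 0 → valPt N τ f = valPt N τ' f) :
    placePt N τ h = placePt N τ' h' :=
  place_congr _ _ _ _ heq

theorem placePt_smul_Gamma0 (γ : SL(2, ℤ)) (hγ : γ ∈ Gamma0 N) (τ : ℍ) (h : IsAlgPt τ) :
    placePt N (γ • τ) (h.smul γ) = placePt N τ h :=
  placePt_congr N _ _ (fun f _ => PtInv.valPt_smul_Gamma0 N γ hγ τ f)

theorem mulPt_congr {τ τ' : ℍ} (h : IsAlgPt τ) (h' : IsAlgPt τ')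
    (heq : ∀ f : FN N, f ≠ 0 → valPt N τ f = valPt N τ' f) :
    mulPt N τ h = mulPt N τ' h' := by
  obtain ⟨π, hπ0, hπ1, hπm⟩ := exists_uniformizer_pt N τ h
  have h1 := valPt_eq_mul_ord N τ' h' hπ0
  rw [← heq π hπ0, hπm, ← placePt_congr N h h' heq, hπ1, mul_one] at h1
  exact_mod_cast h1

theorem mulPt_smul_Gamma0 (γ : SL(2, ℤ)) (hγ : γ ∈ Gamma0 N) (τ : ℍ) (h : IsAlgPt τ) :
    mulPt N (γ • τ) (h.smul γ) = mulPt N τ h :=
  mulPt_congr N _ _ (fun f _ => PtInv.valPt_smul_Gamma0 N γ hγ τ f)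

theorem placeCusp_congr {g g' : SL(2, ℤ)}
    (heq : ∀ f : FN N, f ≠ 0 → valCusp N g f = valCusp N g' f) :
    placeCusp N g = placeCusp N g' :=
  place_congr _ _ _ _ heq

theorem mulCusp_congr {g g' : SL(2, ℤ)}
    (heq : ∀ f : FN N, f ≠ 0 → valCusp N g f = valCusp N g' f) :
    mulCusp N g = mulCusp N g' := by
  obtain ⟨π, hπ0, hπ1, hπm⟩ := exists_uniformizer_cusp N g
  have h1 := valCusp_eq_mul_ord N g' hπ0
  rw [← heq π hπ0, hπm, ← placeCusp_congr N heq, hπ1, mul_one] at h1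
  exact_mod_cast h1

theorem placeCusp_mul_Gamma0 (g γ : SL(2, ℤ)) (hγ : γ ∈ Gamma0 N) :
    placeCusp N (g * γ) = placeCusp N g :=
  placeCusp_congr N (fun f _ => valCusp_mul_Gamma0 N g γ hγ f)

theorem placeCusp_T_zpow_mul (k : ℤ) (g : SL(2, ℤ)) :
    placeCusp N (T ^ k * g) = placeCusp N g :=
  placeCusp_congr N (fun f _ => valCusp_T_zpow_mul N k g f)

theorem mulCusp_mul_Gamma0 (g γ : SL(2, ℤ)) (hγ : γ ∈ Gamma0 N) :
    mulCusp N (g * γ) = mulCusp N g :=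
  mulCusp_congr N (fun f _ => valCusp_mul_Gamma0 N g γ hγ f)

theorem mulCusp_T_zpow_mul (k : ℤ) (g : SL(2, ℤ)) :
    mulCusp N (T ^ k * g) = mulCusp N g :=
  mulCusp_congr N (fun f _ => valCusp_T_zpow_mul N k g f)

/-! ### Coset glue -/

theorem out_smul (g : SL(2, ℤ)) (y : XN N) :
    ∃ γ ∈ Gamma0 N, (g • y).out = g * y.out * γ := by
  obtain ⟨h, hh⟩ := QuotientGroup.mk_out_eq_mul (Gamma0 N) (g * y.out)
  refine ⟨h, h.2, ?_⟩
  rw [← hh]
  congr 1
  conv_lhs => rw [← QuotientGroup.out_eq' y]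
  rfl

theorem smul_eq_self_iff (g : SL(2, ℤ)) (x : XN N) :
    g • x = x ↔ x.out⁻¹ * g * x.out ∈ Gamma0 N := by
  conv_lhs => rw [← QuotientGroup.out_eq' x]
  rw [MulAction.Quotient.smul_mk, QuotientGroup.eq, smul_eq_mul]
  constructor
  · intro h
    have := (Gamma0 N).inv_mem h
    simpa [mul_assoc] using this
  · intro h
    have := (Gamma0 N).inv_mem h
    simpa [mul_assoc] using this

theorem zpow_smul_fixed {δ : SL(2, ℤ)} {τ0 : ℍ} (hδ : δ • τ0 = τ0) (k : ℤ) : δ ^ k • τ0 = τ0 := by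
  have h1 : δ ∈ MulAction.stabilizer SL(2, ℤ) τ0 := hδ
  exact (MulAction.stabilizer SL(2, ℤ) τ0).zpow_mem h1 k

/-- `x.out⁻¹ • τ0` for the coset `x` of `a⁻¹` is a `Γ₀(N)`-translate of `a • τ0`. -/
theorem exists_out_inv_smul (a : SL(2, ℤ)) (τ0 : ℍ) :
    ∃ γ ∈ Gamma0 N, ((QuotientGroup.mk a⁻¹ : XN N).out)⁻¹ • τ0 = γ • (a • τ0) := by
  obtain ⟨h, hh⟩ := QuotientGroup.mk_out_eq_mul (Gamma0 N) a⁻¹
  refine ⟨(h : SL(2, ℤ))⁻¹, (Gamma0 N).inv_mem h.2, ?_⟩
  rw [hh, mul_inv_rev, inv_inv, mul_smul]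

/-- from the coset representatives to all of `SL(2, ℤ)` (points) -/
theorem valPt_all_of_out (τ0 : ℍ) (f : FN N)
    (h : ∀ x : XN N, 0 ≤ valPt N (x.out⁻¹ • τ0) f) (g : SL(2, ℤ)) : 0 ≤ valPt N (g • τ0) f := by
  obtain ⟨γ, hγ⟩ := QuotientGroup.mk_out_eq_mul (Gamma0 N) g⁻¹
  have h1 := h (QuotientGroup.mk g⁻¹)
  rw [hγ, mul_inv_rev, inv_inv, mul_smul,
    PtInv.valPt_smul_Gamma0 N _ ((Gamma0 N).inv_mem γ.2)] at h1
  exact h1

/-- from the coset representatives to all of `SL(2, ℤ)` (cusps) -/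
theorem valCusp_all_of_out (f : FN N)
    (h : ∀ x : XN N, 0 ≤ valCusp N x.out f) (g : SL(2, ℤ)) : 0 ≤ valCusp N g f := by
  obtain ⟨γ, hγ⟩ := QuotientGroup.mk_out_eq_mul (Gamma0 N) g
  have h1 := h (QuotientGroup.mk g)
  rw [hγ, valCusp_mul_Gamma0 N _ _ γ.2] at h1
  exact h1

/-! ### Every place is a point place or a cusp place -/

theorem ord_jBar_sub_pos_iff (τ : ℍ) (h : IsAlgPt τ) (c : KQ) :
    0 < (placePt N τ h).ord (jBar N - algebraMap KQ (FN N) c) ↔ Jfun τ = iotaK c := by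
  rw [ord_placePt_pos_iff N _ _ (PtTop.jBar_sub_ne_zero N c), PtTop.valPt_jBar_sub_pos_iff]

theorem ord_jBar_placeCusp_neg (g : SL(2, ℤ)) : (placeCusp N g).ord (jBar N) < 0 := by
  have h1 : 0 < (placeCusp N g).ord (jBar N)⁻¹ := by
    rw [ord_placeCusp_pos_iff N _ (inv_ne_zero (jBar_ne_zero N)), valCusp_jBar_inv]
    exact_mod_cast Nat.pos_of_ne_zero (NeZero.ne N)
  rw [Place.ord_inv] at h1
  omega

/-- The places over `j = c` are the point places of the translates of any `τ0` with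
`J(τ0) = c`. -/
theorem exists_placePt_of_ord_pos (c : KQ) (τ0 : ℍ) (hτ0 : Jfun τ0 = iotaK c)
    (v : Place KQ (FN N)) (hv : 0 < v.ord (jBar N - algebraMap KQ (FN N) c)) :
    ∃ x : XN N, v = placePt N (x.out⁻¹ • τ0) (IsAlgPt.smul ⟨c, hτ0⟩ _) := by
  haveI : Finite (XN N) := inferInstance
  refine exists_eq_of_forall_integral (jBar N - algebraMap KQ (FN N) c)
    (fun x : XN N => placePt N (x.out⁻¹ • τ0) (IsAlgPt.smul ⟨c, hτ0⟩ _)) ?_ ?_ v hv
  · intro x
    rw [ord_jBar_sub_pos_iff, JPt.Jfun_smul, hτ0]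
  · intro f hf hall
    obtain ⟨P, hmonic, hroot, hcoef, hpt, -⟩ := exists_charpoly N f
    refine ⟨P, hmonic, hroot, fun k hk => ⟨?_, ?_⟩⟩
    · rw [Transfer.adjoin_sub_const]; exact hcoef k
    · refine ⟨QuotientGroup.mk 1, ?_⟩
      rw [ord_placePt_nonneg_iff N _ _ hk]
      exact hpt τ0 (valPt_all_of_out N τ0 f
        (fun x => (ord_placePt_nonneg_iff N _ _ hf).mp (hall x))) k hk _

/-- The poles of `j` are the cusp places. -/
theorem exists_placeCusp_of_ord_neg (v : Place KQ (FN N)) (hv : v.ord (jBar N) < 0) :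
    ∃ x : XN N, v = placeCusp N x.out := by
  haveI : Finite (XN N) := inferInstance
  have hv' : 0 < v.ord (jBar N)⁻¹ := by
    rw [Place.ord_inv]
    omega
  refine exists_eq_of_forall_integral (jBar N)⁻¹
    (fun x : XN N => placeCusp N x.out) ?_ ?_ v hv'
  · intro x
    have := ord_jBar_placeCusp_neg N x.out
    rw [Place.ord_inv]
    omega
  · intro f hf hall
    obtain ⟨P, hmonic, hroot, hcoef, -, hcusp⟩ := exists_charpoly N f
    refine ⟨P, hmonic, hroot, fun k hk => ⟨?_, ?_⟩⟩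
    · rw [Transfer.adjoin_inv]; exact hcoef k
    · refine ⟨QuotientGroup.mk 1, ?_⟩
      rw [ord_placeCusp_nonneg_iff N _ hk]
      exact hcusp (valCusp_all_of_out N f
        (fun x => (ord_placeCusp_nonneg_iff N _ hf).mp (hall x))) k hk _

/-- **Every place of `F` is a point place or a cusp place.** -/
theorem exists_placePt_or_placeCusp (v : Place KQ (FN N)) :
    (∃ (τ : ℍ) (h : IsAlgPt τ), v = placePt N τ h) ∨ ∃ g : SL(2, ℤ), v = placeCusp N g := by
  haveI := finiteDimensional_jBar N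
  rcases ARest.exists_value (jBar N) (transcendental_jBar N) v with h | ⟨c, hc⟩
  · right
    obtain ⟨x, hx⟩ := exists_placeCusp_of_ord_neg N v h
    exact ⟨_, hx⟩
  · left
    obtain ⟨τ0, hτ0⟩ := JPt.exists_Jfun_eq (iotaK c)
    obtain ⟨x, hx⟩ := exists_placePt_of_ord_pos N c τ0 hτ0 v hc
    exact ⟨_, _, hx⟩

/-- A point place is never a cusp place. -/
theorem placePt_ne_placeCusp (τ : ℍ) (h : IsAlgPt τ) (g : SL(2, ℤ)) :
    placePt N τ h ≠ placeCusp N g := by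
  intro heq
  have h1 := ord_jBar_placeCusp_neg N g
  rw [← heq] at h1
  have h2 : 0 ≤ (placePt N τ h).ord (jBar N) := by
    rw [ord_placePt_nonneg_iff N _ _ (jBar_ne_zero N)]
    have h3 := PtTop.valPt_jBar_sub N τ 0
    rw [map_zero, sub_zero] at h3
    rw [h3]
    split_ifs
    · exact Int.natCast_nonneg _
    · exact le_rfl
  omega

/-- At a point which is not algebraic the valuation `valPt` is trivial. -/
theorem valPt_eq_zero_of_not_isAlgPt (τ : ℍ) (h : ¬ IsAlgPt τ) (f : FN N) (hf : f ≠ 0) :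
    valPt N τ f = 0 := by
  by_contra hne
  haveI := finiteDimensional_jBar N
  have hnt : ∃ f : FN N, f ≠ 0 ∧ valPt N τ f ≠ 0 := ⟨f, hf, hne⟩
  set v := (rawPt N τ).place hnt with hv
  rcases ARest.exists_value (jBar N) (transcendental_jBar N) v with h1 | ⟨c, hc⟩
  · have h2 : 0 ≤ v.ord (jBar N) := by
      rw [hv, ord_nonneg_iff_raw (rawPt N τ) hnt (jBar_ne_zero N)]
      have h3 := PtTop.valPt_jBar_sub N τ 0
      rw [map_zero, sub_zero] at h3
      rw [h3]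
      split_ifs
      · exact Int.natCast_nonneg _
      · exact le_rfl
    omega
  · rw [hv, ord_pos_iff_raw (rawPt N τ) hnt (PtTop.jBar_sub_ne_zero N c),
      PtTop.valPt_jBar_sub_pos_iff] at hc
    exact h ⟨c, hc⟩

/-! ### The fibres over `j = c` -/

/-- **Fibre structure at points.**  Same hypotheses as the architect's `card_placesOver_pt`;
the conclusion describes the places over `j = c` completely. -/
theorem fibre_pt (c : KQ) (τ0 : ℍ) (hτ0 : Jfun τ0 = iotaK c) (E : ℕ) (hE : 0 < E)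
    (hval : ∀ g : SL(2, ℤ), valPt N (g • τ0) (jBar N - algebraMap KQ (FN N) c) = E)
    (δ : SL(2, ℤ)) (hδ : δ • τ0 = τ0)
    (hdiv : ∀ (x : XN N) (f : FN N), f ≠ 0 → (E : ℤ) ∣ valPt N (x.out⁻¹ • τ0) f *
      (Nat.card {y : XN N // (Quotient.mk'' y :
        MulAction.orbitRel.Quotient (Subgroup.zpowers δ) (XN N)) = Quotient.mk'' x} : ℤ)) :
    (∀ x y : XN N, placePt N (x.out⁻¹ • τ0) (IsAlgPt.smul ⟨c, hτ0⟩ _) =
        placePt N (y.out⁻¹ • τ0) (IsAlgPt.smul ⟨c, hτ0⟩ _) → ∃ k : ℤ, x = δ ^ k • y) ∧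
    (∀ x : XN N, mulPt N (x.out⁻¹ • τ0) (IsAlgPt.smul ⟨c, hτ0⟩ _) *
        Nat.card {y : XN N // (Quotient.mk'' y :
          MulAction.orbitRel.Quotient (Subgroup.zpowers δ) (XN N)) = Quotient.mk'' x} = E) ∧
    (∀ x : XN N, (placePt N (x.out⁻¹ • τ0) (IsAlgPt.smul ⟨c, hτ0⟩ _)).ord
        (jBar N - algebraMap KQ (FN N) c) =
        (Nat.card {y : XN N // (Quotient.mk'' y :
          MulAction.orbitRel.Quotient (Subgroup.zpowers δ) (XN N)) = Quotient.mk'' x} : ℤ)) ∧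
    Module.finrank KQ⟮jBar N⟯ (FN N) = Nat.card (XN N) := by
  classical
  haveI := finiteDimensional_jBar N
  letI : Fintype (XN N) := Fintype.ofFinite _
  letI : Fintype (MulAction.orbitRel.Quotient (Subgroup.zpowers δ) (XN N)) := Fintype.ofFinite _
  have halg : ∀ x : XN N, IsAlgPt (x.out⁻¹ • τ0) := fun x => IsAlgPt.smul ⟨c, hτ0⟩ _
  obtain ⟨-, h2, h3, h4, h5⟩ := fibre_dict (K := KQ) (X := XN N)
    (O := MulAction.orbitRel.Quotient (Subgroup.zpowers δ) (XN N))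
    (jBar N - algebraMap KQ (FN N) c) (PtTop.jBar_sub_ne_zero N c)
    (Module.finrank KQ⟮jBar N⟯ (FN N))
    (Transfer.placesOver_finite_sum (jBar N) (transcendental_jBar N) c)
    (by rw [← Nat.card_eq_fintype_card]; exact card_XN_le_finrank N)
    (fun x => valPt N (x.out⁻¹ • τ0)) (fun x => rawPt N _)
    (E : ℤ) (by exact_mod_cast hE) (fun x => hval _)
    (fun x => Quotient.mk'' x) Quotient.mk''_surjective
    (by
      intro i j hij
      obtain ⟨k, hk⟩ := (orb_eq_iff N δ i j).1 hij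
      obtain ⟨γ, hγ, hout⟩ := out_smul N (δ ^ k) j
      funext f
      rw [hk, hout, mul_inv_rev, mul_inv_rev, mul_smul, mul_smul,
        PtInv.valPt_smul_Gamma0 N _ ((Gamma0 N).inv_mem hγ), ← zpow_neg, zpow_smul_fixed hδ])
    hdiv
    (by
      intro f hf hall
      obtain ⟨P, hmonic, hroot, hcoef, hpt, -⟩ := exists_charpoly N f
      refine ⟨P, hmonic, hroot, fun k hk => ⟨?_, ?_⟩⟩
      · rw [Transfer.adjoin_sub_const]; exact hcoef k
      · refine ⟨QuotientGroup.mk 1, ?_⟩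
        exact hpt τ0 (valPt_all_of_out N τ0 f hall) k hk _)
    (fun x => ntPt N (halg x))
  refine ⟨fun x y hxy => (orb_eq_iff N δ x y).1 (h2 x y hxy), fun x => ?_, fun x => h3 x, ?_⟩
  · obtain ⟨π, hπ0, hπ1, hπm⟩ := exists_uniformizer_pt N (x.out⁻¹ • τ0) (halg x)
    have h6 := h4 x π hπ0
    have h7 : ((rawPt N (x.out⁻¹ • τ0)).place (ntPt N (halg x))).ord π = 1 := hπ1
    rw [h7, hπm, mul_one] at h6
    exact_mod_cast h6
  · rw [h5, Nat.card_eq_fintype_card]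

/-- Generic fibres: the point places of the translates are pairwise distinct and unramified. -/
theorem fibre_pt_generic (c : KQ) (hc0 : c ≠ 0) (hc1 : c ≠ 1728) (τ0 : ℍ)
    (hτ0 : Jfun τ0 = iotaK c) :
    (∀ x y : XN N, placePt N (x.out⁻¹ • τ0) (IsAlgPt.smul ⟨c, hτ0⟩ _) =
        placePt N (y.out⁻¹ • τ0) (IsAlgPt.smul ⟨c, hτ0⟩ _) → x = y) ∧
    (∀ x : XN N, mulPt N (x.out⁻¹ • τ0) (IsAlgPt.smul ⟨c, hτ0⟩ _) = 1) := by
  obtain ⟨h1, h2, -, -⟩ := fibre_pt N c τ0 hτ0 1 one_pos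
    (fun g => by
      rw [valPt_jBar_sub_generic N c hc0 hc1 _ (by rw [JPt.Jfun_smul, hτ0])]; rfl)
    1 (one_smul _ _) (fun x f hf => by simp)
  refine ⟨fun x y hxy => ?_, fun x => ?_⟩
  · obtain ⟨k, hk⟩ := h1 x y hxy
    rw [hk, one_zpow, one_smul]
  · exact Nat.eq_one_of_mul_eq_one_right (h2 x)

theorem S_sq : (S : SL(2, ℤ)) ^ 2 = -1 := Fermat.Agent.S20.Count.S_pow_two

theorem ST_cube : (S * T : SL(2, ℤ)) ^ 3 = -1 := Fermat.Agent.S20.Count.ST_pow_three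

theorem ST_ne_neg_one : (S * T : SL(2, ℤ)) ≠ -1 := by
  intro h
  have h1 := congrArg (fun g : SL(2, ℤ) => (g : Matrix (Fin 2) (Fin 2) ℤ) 0 0) h
  simp [S, T] at h1

theorem Jfun_I_eq : Jfun UpperHalfPlane.I = iotaK 1728 := by
  rw [JPt.Jfun_I]
  exact (map_ofNat iotaK 1728).symm

theorem Jfun_rhoPt_eq : Jfun rhoPt = iotaK 0 := by
  rw [JPt.Jfun_rhoPt, map_zero]

/-- The fibre over `1728` (base point `i`, stabiliser generated by `S`). -/
theorem fibre_pt_1728 :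
    (∀ x y : XN N, placePt N (x.out⁻¹ • UpperHalfPlane.I) (IsAlgPt.smul ⟨1728, Jfun_I_eq⟩ _) =
        placePt N (y.out⁻¹ • UpperHalfPlane.I) (IsAlgPt.smul ⟨1728, Jfun_I_eq⟩ _) →
          ∃ k : ℤ, x = S ^ k • y) ∧
    (∀ x : XN N, mulPt N (x.out⁻¹ • UpperHalfPlane.I) (IsAlgPt.smul ⟨1728, Jfun_I_eq⟩ _) *
        Nat.card {y : XN N // (Quotient.mk'' y :
          MulAction.orbitRel.Quotient (Subgroup.zpowers S) (XN N)) = Quotient.mk'' x} = 2) := by
  obtain ⟨h1, h2, -, -⟩ := fibre_pt N 1728 UpperHalfPlane.I Jfun_I_eq 2 two_pos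
    (fun g => by
      rw [valPt_jBar_sub_1728 N _ (by rw [JPt.Jfun_smul, JPt.Jfun_I])]; rfl)
    S Fermat.Agent.S20.EllCount.S_smul_I
    (by
      intro x f hf
      by_cases hx : S • x = x
      · have hmem := (smul_eq_self_iff N S x).1 hx
        have h2 : (x.out⁻¹ * S * x.out) ^ 2 = -1 := by
          have : (x.out⁻¹ * S * x.out) ^ 2 = x.out⁻¹ * S ^ 2 * x.out := by
            rw [pow_two, pow_two]; group
          rw [this, S_sq]; simp
        have hfix : (x.out⁻¹ * S * x.out) • (x.out⁻¹ • UpperHalfPlane.I) =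
            x.out⁻¹ • UpperHalfPlane.I := by
          rw [← mul_smul, mul_assoc, mul_assoc, mul_inv_cancel, mul_one, mul_smul,
            Fermat.Agent.S20.EllCount.S_smul_I]
        exact Dvd.dvd.mul_right
          (by exact_mod_cast PtInv.two_dvd_valPt N _ hmem h2 _ hfix f hf) _
      · rw [card_fibre_S N x hx]
        exact Dvd.intro_left _ rfl)
  exact ⟨h1, h2⟩

/-- The fibre over `0` (base point `ρ`, stabiliser generated by `S * T`). -/
theorem fibre_pt_zero :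
    (∀ x y : XN N, placePt N (x.out⁻¹ • rhoPt) (IsAlgPt.smul ⟨0, Jfun_rhoPt_eq⟩ _) =
        placePt N (y.out⁻¹ • rhoPt) (IsAlgPt.smul ⟨0, Jfun_rhoPt_eq⟩ _) →
          ∃ k : ℤ, x = (S * T) ^ k • y) ∧
    (∀ x : XN N, mulPt N (x.out⁻¹ • rhoPt) (IsAlgPt.smul ⟨0, Jfun_rhoPt_eq⟩ _) *
        Nat.card {y : XN N // (Quotient.mk'' y :
          MulAction.orbitRel.Quotient (Subgroup.zpowers (S * T)) (XN N)) = Quotient.mk'' x} = 3) := by
  have hfix0 : (S * T) • rhoPt = rhoPt := Fermat.Agent.S20.EllCount.ST_smul_rhoPt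
  obtain ⟨h1, h2, -, -⟩ := fibre_pt N 0 rhoPt Jfun_rhoPt_eq 3 (by norm_num)
    (fun g => by
      rw [valPt_jBar_sub_zero N _ (by rw [JPt.Jfun_smul, JPt.Jfun_rhoPt])]; rfl)
    (S * T) hfix0
    (by
      intro x f hf
      by_cases hx : (S * T) • x = x
      · have hmem := (smul_eq_self_iff N (S * T) x).1 hx
        have h3 : (x.out⁻¹ * (S * T) * x.out) ^ 3 = -1 := by
          have : (x.out⁻¹ * (S * T) * x.out) ^ 3 = x.out⁻¹ * (S * T) ^ 3 * x.out := by
            rw [pow_succ, pow_two, pow_succ, pow_two]; group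
          rw [this, ST_cube]; simp
        have hne : x.out⁻¹ * (S * T) * x.out ≠ -1 := by
          intro h
          apply ST_ne_neg_one
          have : S * T = x.out * (x.out⁻¹ * (S * T) * x.out) * x.out⁻¹ := by group
          rw [this, h]; simp
        have hfix : (x.out⁻¹ * (S * T) * x.out) • (x.out⁻¹ • rhoPt) = x.out⁻¹ • rhoPt := by
          rw [← mul_smul, mul_assoc, mul_assoc, mul_inv_cancel, mul_one, mul_smul, hfix0]
        exact Dvd.dvd.mul_right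
          (by exact_mod_cast PtInv.three_dvd_valPt N _ hmem h3 hne _ hfix f hf) _
      · rw [card_fibre_ST N x hx]
        exact Dvd.intro_left _ rfl)
  exact ⟨h1, h2⟩

/-! ### Equality of point places -/

theorem ellOrder_mem (τ : ℍ) :
    JOrd.ellOrder τ = 1 ∨ JOrd.ellOrder τ = 2 ∨ JOrd.ellOrder τ = 3 := by
  unfold JOrd.ellOrder
  split_ifs <;> simp

theorem mulPt_dvd_ellOrder (τ : ℍ) (h : IsAlgPt τ) : mulPt N τ h ∣ JOrd.ellOrder τ := by
  obtain ⟨c, hc⟩ := h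
  have h1 := valPt_eq_mul_ord N τ ⟨c, hc⟩ (PtTop.jBar_sub_ne_zero N c)
  rw [PtTop.valPt_jBar_sub N τ c, if_pos hc] at h1
  exact Int.natCast_dvd_natCast.mp ⟨_, h1⟩

/-- The value of `j` at a place is unique. -/
theorem value_unique (v : Place KQ (FN N)) (c c' : KQ)
    (h : 0 < v.ord (jBar N - algebraMap KQ (FN N) c))
    (h' : 0 < v.ord (jBar N - algebraMap KQ (FN N) c')) : c = c' := by
  by_contra hne
  have hcc : c' - c ≠ 0 := sub_ne_zero.mpr (Ne.symm hne)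
  have h1 := (isRawVal_ord v).map_algebraMap (c' - c) hcc
  have h2 : algebraMap KQ (FN N) (c' - c) =
      (jBar N - algebraMap KQ (FN N) c) + -(jBar N - algebraMap KQ (FN N) c') := by
    rw [map_sub]; ring
  have h0 : algebraMap KQ (FN N) (c' - c) ≠ 0 := (map_ne_zero _).mpr hcc
  have h3 := (isRawVal_ord v).map_add _ _ (PtTop.jBar_sub_ne_zero N c)
    (neg_ne_zero.mpr (PtTop.jBar_sub_ne_zero N c')) (by rw [← h2]; exact h0)
  rw [← h2, h1, (isRawVal_ord v).map_neg (PtTop.jBar_sub_ne_zero N c')] at h3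
  rcases min_le_iff.mp h3 with h4 | h4 <;> omega

/-- Transport of injectivity on cosets to arbitrary translates of the base point. -/
theorem exists_Gamma0_of_base (c : KQ) (τ0 : ℍ) (hτ0 : Jfun τ0 = iotaK c) (δ : SL(2, ℤ))
    (hδ : δ • τ0 = τ0)
    (hinj : ∀ x y : XN N, placePt N (x.out⁻¹ • τ0) (IsAlgPt.smul ⟨c, hτ0⟩ _) =
        placePt N (y.out⁻¹ • τ0) (IsAlgPt.smul ⟨c, hτ0⟩ _) → ∃ k : ℤ, x = δ ^ k • y)
    (a b : SL(2, ℤ))
    (hab : placePt N (a • τ0) (IsAlgPt.smul ⟨c, hτ0⟩ _) =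
      placePt N (b • τ0) (IsAlgPt.smul ⟨c, hτ0⟩ _)) :
    ∃ γ ∈ Gamma0 N, γ • (a • τ0) = b • τ0 := by
  have halg : IsAlgPt τ0 := ⟨c, hτ0⟩
  have key : ∀ a : SL(2, ℤ),
      placePt N ((QuotientGroup.mk a⁻¹ : XN N).out⁻¹ • τ0) (halg.smul _) =
        placePt N (a • τ0) (halg.smul _) := by
    intro a
    obtain ⟨γa, hγa, ha⟩ := exists_out_inv_smul N a τ0
    rw [← placePt_smul_Gamma0 N γa hγa (a • τ0) (halg.smul _)]
    exact placePt_congr N _ _ (fun f _ => by rw [ha])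
  obtain ⟨k, hk⟩ := hinj _ _ ((key a).trans (hab.trans (key b).symm))
  have hmem : a * δ ^ k * b⁻¹ ∈ Gamma0 N := by
    have h1 : (QuotientGroup.mk a⁻¹ : XN N) = QuotientGroup.mk (δ ^ k * b⁻¹) := hk
    rw [QuotientGroup.eq] at h1
    simpa [mul_assoc] using h1
  refine ⟨(a * δ ^ k * b⁻¹)⁻¹, (Gamma0 N).inv_mem hmem, ?_⟩
  rw [mul_inv_rev, mul_inv_rev, inv_inv, mul_smul, mul_smul, inv_smul_smul, ← zpow_neg,
    zpow_smul_fixed hδ]

/-- **Two algebraic points define the same place iff they are `Γ₀(N)`-equivalent.** -/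
theorem placePt_eq_iff (τ τ' : ℍ) (h : IsAlgPt τ) (h' : IsAlgPt τ') :
    placePt N τ h = placePt N τ' h' ↔ ∃ γ ∈ Gamma0 N, γ • τ = τ' := by
  constructor
  · intro heq
    obtain ⟨c, hc⟩ := h
    obtain ⟨c', hc'⟩ := h'
    have hcc : c = c' := by
      apply value_unique N (placePt N τ ⟨c, hc⟩)
      · exact (ord_jBar_sub_pos_iff N τ _ c).mpr hc
      · rw [heq]; exact (ord_jBar_sub_pos_iff N τ' _ c').mpr hc'
    subst hcc
    by_cases hc0 : c = 0
    · subst hc0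
      obtain ⟨a, rfl⟩ : ∃ a : SL(2, ℤ), τ = a • rhoPt :=
        (JPt.Jfun_eq_zero_iff τ).mp (by rw [hc, map_zero])
      obtain ⟨b, rfl⟩ : ∃ b : SL(2, ℤ), τ' = b • rhoPt :=
        (JPt.Jfun_eq_zero_iff τ').mp (by rw [hc', map_zero])
      exact exists_Gamma0_of_base N 0 rhoPt Jfun_rhoPt_eq (S * T)
        Fermat.Agent.S20.EllCount.ST_smul_rhoPt (fibre_pt_zero N).1 a b heq
    · by_cases hc1 : c = 1728
      · subst hc1
        obtain ⟨a, rfl⟩ : ∃ a : SL(2, ℤ), a • UpperHalfPlane.I = τ :=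
          (JOrd.Jf_eq_iff τ UpperHalfPlane.I).mp (hc.trans Jfun_I_eq.symm)
        obtain ⟨b, rfl⟩ : ∃ b : SL(2, ℤ), b • UpperHalfPlane.I = τ' :=
          (JOrd.Jf_eq_iff τ' UpperHalfPlane.I).mp (hc'.trans Jfun_I_eq.symm)
        exact exists_Gamma0_of_base N 1728 UpperHalfPlane.I Jfun_I_eq S
          Fermat.Agent.S20.EllCount.S_smul_I (fibre_pt_1728 N).1 a b heq
      · obtain ⟨b, rfl⟩ : ∃ b : SL(2, ℤ), b • τ = τ' :=
          (JOrd.Jf_eq_iff τ' τ).mp (hc'.trans hc.symm)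
        have h1 : placePt N ((1 : SL(2, ℤ)) • τ) (IsAlgPt.smul ⟨c, hc⟩ _) =
            placePt N τ ⟨c, hc⟩ :=
          placePt_congr N _ _ (fun f _ => by rw [one_smul])
        obtain ⟨γ, hγ, hγ'⟩ := exists_Gamma0_of_base N c τ hc 1 (one_smul _ _)
          (fun x y hxy => ⟨0, by
            rw [(fibre_pt_generic N c hc0 hc1 τ hc).1 x y hxy]; simp⟩) 1 b (h1.trans heq)
        rw [one_smul] at hγ'
        exact ⟨γ, hγ, hγ'⟩
  · rintro ⟨γ, hγ, rfl⟩
    exact (placePt_smul_Gamma0 N γ hγ τ h).symm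

/-! ### The multiplier at a point -/

theorem mulPt_eq_two_of_fixed (τ : ℍ) (h : IsAlgPt τ) (δ : SL(2, ℤ)) (hδN : δ ∈ Gamma0 N)
    (hδ : δ ^ 2 = -1) (hfix : δ • τ = τ) : mulPt N τ h = 2 := by
  obtain ⟨π, hπ0, hπ1, hπm⟩ := exists_uniformizer_pt N τ h
  have h1 := PtInv.two_dvd_valPt N δ hδN hδ τ hfix π hπ0
  rw [hπm] at h1
  have h2 : 2 ∣ mulPt N τ h := by exact_mod_cast h1
  have h3 := mulPt_dvd_ellOrder N τ h
  have h4 := mulPt_pos N τ h
  obtain ⟨k, hk⟩ := h2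
  rcases ellOrder_mem τ with e | e | e <;> rw [e] at h3
  · have := Nat.le_of_dvd one_pos h3
    omega
  · have := Nat.le_of_dvd two_pos h3
    omega
  · rcases (Nat.dvd_prime Nat.prime_three).mp h3 with h5 | h5 <;> omega

theorem mulPt_eq_three_of_fixed (τ : ℍ) (h : IsAlgPt τ) (δ : SL(2, ℤ)) (hδN : δ ∈ Gamma0 N)
    (hδ : δ ^ 3 = -1) (hne : δ ≠ -1) (hfix : δ • τ = τ) : mulPt N τ h = 3 := by
  obtain ⟨π, hπ0, hπ1, hπm⟩ := exists_uniformizer_pt N τ h
  have h1 := PtInv.three_dvd_valPt N δ hδN hδ hne τ hfix π hπ0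
  rw [hπm] at h1
  have h2 : 3 ∣ mulPt N τ h := by exact_mod_cast h1
  have h3 := mulPt_dvd_ellOrder N τ h
  have h4 := mulPt_pos N τ h
  obtain ⟨k, hk⟩ := h2
  rcases ellOrder_mem τ with e | e | e <;> rw [e] at h3
  · have := Nat.le_of_dvd one_pos h3
    omega
  · have := Nat.le_of_dvd two_pos h3
    omega
  · have := Nat.le_of_dvd (by norm_num) h3
    omega

theorem smul_mk_inv_eq_iff (σ a : SL(2, ℤ)) :
    σ • (QuotientGroup.mk a⁻¹ : XN N) = QuotientGroup.mk a⁻¹ ↔ a * σ * a⁻¹ ∈ Gamma0 N := by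
  rw [MulAction.Quotient.smul_mk, QuotientGroup.eq, smul_eq_mul]
  constructor
  · intro h
    have := (Gamma0 N).inv_mem h
    simpa [mul_assoc] using this
  · intro h
    have := (Gamma0 N).inv_mem h
    simpa [mul_assoc] using this

theorem mulPt_out_eq (τ0 : ℍ) (halg : IsAlgPt τ0) (a : SL(2, ℤ)) :
    mulPt N ((QuotientGroup.mk a⁻¹ : XN N).out⁻¹ • τ0) (halg.smul _) =
      mulPt N (a • τ0) (halg.smul _) := by
  obtain ⟨γa, hγa, ha⟩ := exists_out_inv_smul N a τ0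
  rw [← mulPt_smul_Gamma0 N γa hγa (a • τ0) (halg.smul _)]
  exact mulPt_congr N _ _ (fun f _ => by rw [ha])

/-- **The multiplier at a point is the order of its stabiliser in `Γ₀(N)/±1`.** -/
theorem mulPt_cases (τ : ℍ) (h : IsAlgPt τ) :
    mulPt N τ h = 1 ∨
    (mulPt N τ h = 2 ∧ ∃ δ ∈ Gamma0 N, δ ^ 2 = -1 ∧ δ • τ = τ) ∨
    (mulPt N τ h = 3 ∧ ∃ δ ∈ Gamma0 N, δ ^ 3 = -1 ∧ δ ≠ -1 ∧ δ • τ = τ) := by
  by_cases h0 : Jfun τ = 0
  · obtain ⟨a, rfl⟩ : ∃ a : SL(2, ℤ), τ = a • rhoPt := (JPt.Jfun_eq_zero_iff τ).mp h0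
    by_cases hx : (S * T) • (QuotientGroup.mk a⁻¹ : XN N) = QuotientGroup.mk a⁻¹
    · right; right
      have hmem := (smul_mk_inv_eq_iff N (S * T) a).mp hx
      have h3 : (a * (S * T) * a⁻¹) ^ 3 = -1 := by
        have : (a * (S * T) * a⁻¹) ^ 3 = a * (S * T) ^ 3 * a⁻¹ := by
          rw [pow_succ, pow_two, pow_succ, pow_two]; group
        rw [this, ST_cube]; simp
      have hne : a * (S * T) * a⁻¹ ≠ -1 := by
        intro h'
        apply ST_ne_neg_one
        have : S * T = a⁻¹ * (a * (S * T) * a⁻¹) * a := by group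
        rw [this, h']; simp
      have hfix : (a * (S * T) * a⁻¹) • (a • rhoPt) = a • rhoPt := by
        rw [← mul_smul, mul_assoc, mul_assoc, inv_mul_cancel, mul_one, mul_smul,
          Fermat.Agent.S20.EllCount.ST_smul_rhoPt]
      exact ⟨mulPt_eq_three_of_fixed N _ h _ hmem h3 hne hfix, _, hmem, h3, hne, hfix⟩
    · left
      have h1 := (fibre_pt_zero N).2 (QuotientGroup.mk a⁻¹)
      rw [card_fibre_ST N _ hx, mulPt_out_eq N rhoPt ⟨0, Jfun_rhoPt_eq⟩ a] at h1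
      omega
  · by_cases h1 : Jfun τ = 1728
    · obtain ⟨a, rfl⟩ : ∃ a : SL(2, ℤ), a • UpperHalfPlane.I = τ :=
        (JOrd.Jf_eq_iff τ UpperHalfPlane.I).mp (h1.trans JPt.Jfun_I.symm)
      by_cases hx : S • (QuotientGroup.mk a⁻¹ : XN N) = QuotientGroup.mk a⁻¹
      · right; left
        have hmem := (smul_mk_inv_eq_iff N S a).mp hx
        have h2 : (a * S * a⁻¹) ^ 2 = -1 := by
          have : (a * S * a⁻¹) ^ 2 = a * S ^ 2 * a⁻¹ := by
            rw [pow_two, pow_two]; group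
          rw [this, S_sq]; simp
        have hfix : (a * S * a⁻¹) • (a • UpperHalfPlane.I) = a • UpperHalfPlane.I := by
          rw [← mul_smul, mul_assoc, inv_mul_cancel, mul_one, mul_smul,
            Fermat.Agent.S20.EllCount.S_smul_I]
        exact ⟨mulPt_eq_two_of_fixed N _ h _ hmem h2 hfix, _, hmem, h2, hfix⟩
      · left
        have h2 := (fibre_pt_1728 N).2 (QuotientGroup.mk a⁻¹)
        rw [card_fibre_S N _ hx, mulPt_out_eq N UpperHalfPlane.I ⟨1728, Jfun_I_eq⟩ a] at h2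
        omega
    · left
      have h2 := mulPt_dvd_ellOrder N τ h
      rw [JPt.ellOrder_of_generic τ h0 h1] at h2
      exact Nat.eq_one_of_dvd_one h2

/-! ### The cusps -/

/-- **Fibre structure over `j = ∞`.** -/
theorem fibre_cusp :
    (∀ x y : XN N, placeCusp N x.out = placeCusp N y.out → ∃ k : ℤ, x = T ^ k • y) ∧
    (∀ x : XN N, mulCusp N x.out *
        Nat.card {y : XN N // (Quotient.mk'' y :
          MulAction.orbitRel.Quotient (Subgroup.zpowers T) (XN N)) = Quotient.mk'' x} = N) ∧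
    (∀ x : XN N, (placeCusp N x.out).ord (jBar N)⁻¹ =
        (Nat.card {y : XN N // (Quotient.mk'' y :
          MulAction.orbitRel.Quotient (Subgroup.zpowers T) (XN N)) = Quotient.mk'' x} : ℤ)) ∧
    Module.finrank KQ⟮jBar N⟯ (FN N) = Nat.card (XN N) := by
  classical
  haveI := finiteDimensional_jBar N
  letI : Fintype (XN N) := Fintype.ofFinite _
  letI : Fintype (MulAction.orbitRel.Quotient (Subgroup.zpowers T) (XN N)) := Fintype.ofFinite _
  have hA2 : ∃ hfin : {v : Place KQ (FN N) | 0 < v.ord (jBar N)⁻¹}.Finite,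
      ∑ v ∈ hfin.toFinset, v.ord (jBar N)⁻¹ = (Module.finrank KQ⟮jBar N⟯ (FN N) : ℤ) := by
    haveI := Transfer.finiteDimensional_inv (K := KQ) (jBar N)
    obtain ⟨hfin, hsum⟩ := zerosOf_finite_sum (jBar N)⁻¹
      (Transfer.transcendental_inv (transcendental_jBar N))
    rw [Transfer.finrank_inv] at hsum
    exact ⟨hfin, hsum⟩
  obtain ⟨-, h2, h3, h4, h5⟩ := fibre_dict (K := KQ) (X := XN N)
    (O := MulAction.orbitRel.Quotient (Subgroup.zpowers T) (XN N))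
    (jBar N)⁻¹ (inv_ne_zero (jBar_ne_zero N))
    (Module.finrank KQ⟮jBar N⟯ (FN N)) hA2
    (by rw [← Nat.card_eq_fintype_card]; exact card_XN_le_finrank N)
    (fun x => valCusp N x.out) (fun x => rawCusp N _)
    (N : ℤ) (by exact_mod_cast Nat.pos_of_ne_zero (NeZero.ne N)) (fun x => valCusp_jBar_inv N _)
    (fun x => Quotient.mk'' x) Quotient.mk''_surjective
    (by
      intro i j hij
      obtain ⟨k, hk⟩ := (orb_eq_iff N T i j).1 hij
      obtain ⟨γ, hγ, hout⟩ := out_smul N (T ^ k) j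
      funext f
      rw [hk, hout, valCusp_mul_Gamma0 N _ _ hγ, valCusp_T_zpow_mul])
    (by
      intro x f hf
      obtain ⟨h, hh, hfix, hcard⟩ := card_fibre_T N x
      rw [hcard]
      exact dvd_valCusp N x.out h hh ((smul_eq_self_iff N (T ^ h) x).1 hfix) f hf)
    (by
      intro f hf hall
      obtain ⟨P, hmonic, hroot, hcoef, -, hcusp⟩ := exists_charpoly N f
      refine ⟨P, hmonic, hroot, fun k hk => ⟨?_, ?_⟩⟩
      · rw [Transfer.adjoin_inv]; exact hcoef k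
      · refine ⟨QuotientGroup.mk 1, ?_⟩
        exact hcusp (valCusp_all_of_out N f hall) k hk _)
    (fun x => ntCusp N x.out)
  refine ⟨fun x y hxy => (orb_eq_iff N T x y).1 (h2 x y hxy), fun x => ?_, fun x => h3 x, ?_⟩
  · obtain ⟨π, hπ0, hπ1, hπm⟩ := exists_uniformizer_cusp N x.out
    have h6 := h4 x π hπ0
    have h7 : ((rawCusp N x.out).place (ntCusp N x.out)).ord π = 1 := hπ1
    rw [h7, hπm, mul_one] at h6
    exact_mod_cast h6
  · rw [h5, Nat.card_eq_fintype_card]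

/-- **Two cusp places coincide iff the cusps are `Γ₀(N)`-equivalent**, i.e. iff the matrices lie
in the same double coset `⟨T⟩ g Γ₀(N)`. -/
theorem placeCusp_eq_iff (g g' : SL(2, ℤ)) :
    placeCusp N g = placeCusp N g' ↔ ∃ (k : ℤ) (γ : SL(2, ℤ)), γ ∈ Gamma0 N ∧ g' = T ^ k * g * γ := by
  constructor
  · intro heq
    have key : ∀ a : SL(2, ℤ), placeCusp N (QuotientGroup.mk a : XN N).out = placeCusp N a := by
      intro a
      obtain ⟨γ, hγ⟩ := QuotientGroup.mk_out_eq_mul (Gamma0 N) a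
      rw [hγ, placeCusp_mul_Gamma0 N a _ γ.2]
    obtain ⟨k, hk⟩ := (fibre_cusp N).1 _ _ ((key g').trans (heq.symm.trans (key g).symm))
    have h1 : (QuotientGroup.mk g' : XN N) = QuotientGroup.mk (T ^ k * g) := hk
    rw [QuotientGroup.eq] at h1
    refine ⟨k, (g'⁻¹ * (T ^ k * g))⁻¹, (Gamma0 N).inv_mem h1, ?_⟩
    group
  · rintro ⟨k, γ, hγ, rfl⟩
    rw [placeCusp_mul_Gamma0 N _ γ hγ, placeCusp_T_zpow_mul]

/-- The width of the cusp `g⁻¹∞` of `Γ₀(N)`: the least `h > 0` with `g⁻¹ T^h g ∈ Γ₀(N)`. -/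
def cuspWidth (g : SL(2, ℤ)) : ℕ :=
  Function.minimalPeriod ((T : SL(2, ℤ)) • · : XN N → XN N) (QuotientGroup.mk g)

theorem mulCusp_out_eq (g : SL(2, ℤ)) :
    mulCusp N (QuotientGroup.mk g : XN N).out = mulCusp N g := by
  obtain ⟨γ, hγ⟩ := QuotientGroup.mk_out_eq_mul (Gamma0 N) g
  rw [hγ, mulCusp_mul_Gamma0 N g _ γ.2]

/-- **The multiplier at a cusp times the width of the cusp is `N`.** -/
theorem mulCusp_mul_cuspWidth (g : SL(2, ℤ)) : mulCusp N g * cuspWidth N g = N := by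
  have h1 := (fibre_cusp N).2.1 (QuotientGroup.mk g)
  have h2 : Nat.card {y : XN N // (Quotient.mk'' y :
      MulAction.orbitRel.Quotient (Subgroup.zpowers T) (XN N)) =
        Quotient.mk'' (QuotientGroup.mk g : XN N)} = cuspWidth N g :=
    orbSize_card_fibre_eq_minimalPeriod T (QuotientGroup.mk g : XN N)
  rw [mulCusp_out_eq, h2] at h1
  exact h1

theorem cuspWidth_pos (g : SL(2, ℤ)) : 0 < cuspWidth N g := by
  have h1 := mulCusp_mul_cuspWidth N g
  have h2 : 0 < N := Nat.pos_of_ne_zero (NeZero.ne N)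
  rcases Nat.eq_zero_or_pos (cuspWidth N g) with h | h
  · rw [h, mul_zero] at h1; omega
  · exact h

theorem cuspWidth_dvd_iff (g : SL(2, ℤ)) (h : ℕ) :
    cuspWidth N g ∣ h ↔ g⁻¹ * T ^ h * g ∈ Gamma0 N := by
  unfold cuspWidth
  rw [← Function.isPeriodicPt_iff_minimalPeriod_dvd]
  unfold Function.IsPeriodicPt Function.IsFixedPt
  rw [orbSize_iterate_smul, MulAction.Quotient.smul_mk, QuotientGroup.eq, smul_eq_mul]
  constructor
  · intro h'
    have := (Gamma0 N).inv_mem h'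
    simpa [mul_assoc] using this
  · intro h'
    have := (Gamma0 N).inv_mem h'
    simpa [mul_assoc] using this

/-- The ramification index of `j` at a cusp is the width. -/
theorem ord_jBar_inv_placeCusp (g : SL(2, ℤ)) :
    (placeCusp N g).ord (jBar N)⁻¹ = cuspWidth N g := by
  have h1 := valCusp_eq_mul_ord N g (inv_ne_zero (jBar_ne_zero N))
  rw [valCusp_jBar_inv] at h1
  have h2 := mulCusp_mul_cuspWidth N g
  have h3 : (0 : ℤ) < mulCusp N g := by exact_mod_cast mulCusp_pos N g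
  have h4 : (mulCusp N g : ℤ) * (cuspWidth N g : ℤ) = N := by exact_mod_cast h2
  rw [← h4] at h1
  exact (mul_left_cancel₀ h3.ne' h1).symm

/-! ### Degrees -/

/-- Every place of `F` has degree one. -/
theorem deg_eq_one (v : Place KQ (FN N)) : v.deg = 1 := by
  haveI := finiteDimensional_jBar N
  exact ARest.deg_eq_one (jBar N) v

/-- The degree of `F` over `ℚ̄(j)` is the index of `Γ₀(N)`. -/
theorem finrank_eq_card : Module.finrank KQ⟮jBar N⟯ (FN N) = Nat.card (XN N) :=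
  (fibre_cusp N).2.2.2

end Fermat.Agent.S24.PlaceDict
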