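import Mathlib
import Fermat.Agent.S24.ModDefs
import Fermat.Agent.Lib.UHP.Multiplier
import Fermat.Agent.ESJ.Jac.Defs

/-!
# JAC-TORS / Kummer theory on `ℍ`: the Kummer relation in PAIR FORM (definitions only)

Written in S24 vocabulary only (`KQ`, `iotaK`, `FN`, `IsRep`, `ev`), so that the S24 → S24C port
script produces the same definition over `ℂ` (`Fermat.Agent.S24C.Kum.KumRel`).

`KumRel N n f χ`: `f = fm P / fm Q ≠ 0` and there is a holomorphic `a ≠ 0` on `ℍ` with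
`(a / ev Q) ^ n = ev P / ev Q`  (written `ev P * ev Q ^ n = ev Q * a ^ n`) and
`(a / ev Q) ∘ γ = χ γ • (a / ev Q)` for all `γ ∈ Γ₀(N)`  (`Lib.UHP.HasMult`).
I.e. `χ` is the multiplier of an `n`-th root on `ℍ` of the modular function of `f`.

The K-independent predicate "parabolic-elliptic character of exponent `n`" is
`Fermat.Agent.ESJ.Jac.IsPEChar (Gamma0 N) n χ` (Jac/Defs).
-/

set_option autoImplicit false

open UpperHalfPlane CongruenceSubgroup
open scoped MatrixGroups Manifold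

noncomputable section

namespace Fermat.Agent.S24.Kum

open Fermat.Agent.S24 Fermat.Agent.Lib.UHP

/-- `χ` is the Kummer character of exponent `n` of `f ∈ F_N` (pair form). -/
def KumRel (N n : ℕ) [NeZero N] (f : FN N) (χ : Gamma0 N →* ℂˣ) : Prop :=
  ∃ (P Q : MvPolynomial (Dv N) KQ) (a : ℍ → ℂ), IsRep N f P Q ∧ f ≠ 0 ∧ MDiff a ∧ a ≠ 0 ∧
    (∀ z : ℍ, ev N P z * ev N Q z ^ n = ev N Q z * a z ^ n) ∧
    ∀ γ : Gamma0 N, HasMult a (ev N Q) (γ : SL(2, ℤ)) ((χ γ : ℂˣ) : ℂ)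

end Fermat.Agent.S24.Kum
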