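import Mathlib
import Fermat.Agent.S24.KumDefs
import Fermat.Agent.S24.ValPt
import Fermat.Agent.S24.Rep
import Fermat.Agent.S24.PtInv
import Fermat.Agent.Lib.UHP.Multiplier
import Fermat.Agent.Lib.UHP.NthRoot

/-!
# JAC-KUM-ALG: calculus of the pair-form Kummer relation `KumRel`

Written in S24 vocabulary only (`KQ`, `iotaK`, `FN`, `fm`, `ev`, `IsRep`), so that the
S24 → S24C port produces the version over `ℂ` verbatim.

Everything is "the `n`-th root `a / ev Q` of the meromorphic function `ev P / ev Q` is unique up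
to `μ_n`, and its multiplier is a character":

* `KumRel.ne_zero`, `KumRel.of_isRep` (independence of the representative),
  `KumRel.hasMult_of_root` (every root datum on every representative has multiplier `χ`),
  `KumRel.dvd_ordFrac`;
* `KumRel.unique`, `KumRel.pow_eq_one`;
* `KumRel.mul`, `KumRel.inv`, `kumRel_pow`, `kumRel_algebraMap`;
* `KumRel.pow_level`, `KumRel.of_mul_level` (change of the exponent).
-/

set_option autoImplicit false
set_option linter.unusedVariables false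

open UpperHalfPlane CongruenceSubgroup
open scoped MatrixGroups Manifold

noncomputable section

namespace Fermat.Agent.S24.Kum

open Fermat.Agent.S24 Fermat.Agent.Lib.UHP

/-! ### Two general facts about holomorphic functions on `ℍ` -/

/-- Cancellation of a holomorphic factor which is not identically zero. -/
theorem eq_of_mul_eq_mul_hol {A B G : ℍ → ℂ} (hA : MDiff A) (hB : MDiff B) (hG : MDiff G)
    (hG0 : G ≠ 0) (h : ∀ z, A z * G z = B z * G z) (z : ℍ) : A z = B z := by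
  have h0 : (A - B) * G = 0 := by
    funext w
    simp only [Pi.mul_apply, Pi.sub_apply, Pi.zero_apply]
    linear_combination h w
  have h1 := (OrdH.eq_zero_or_eq_zero_of_mul_eq_zero (hA.sub hB) hG h0).resolve_right hG0
  have h2 := congrFun h1 z
  simp only [Pi.sub_apply, Pi.zero_apply] at h2
  exact sub_eq_zero.mp h2

/-- The orders of an `n`-th root `a / G` of `F / G`. -/
theorem ordFrac_of_root {F G a : ℍ → ℂ} (hF : MDiff F) (hG : MDiff G) (ha : MDiff a)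
    (hF0 : F ≠ 0) (hG0 : G ≠ 0) (ha0 : a ≠ 0) {n : ℕ}
    (hroot : ∀ z, F z * G z ^ n = G z * a z ^ n) (τ : ℍ) :
    OrdH.ordFrac F G τ = (n : ℤ) * OrdH.ordFrac a G τ := by
  have hfun : F * G ^ n = G * a ^ n := funext hroot
  have h1 := OrdH.ordAt_mul hF (hG.pow n) hF0 (OrdH.pow_ne_zero' hG hG0 n) τ
  have h2 := OrdH.ordAt_mul hG (ha.pow n) hG0 (OrdH.pow_ne_zero' ha ha0 n) τ
  rw [hfun, h2, OrdH.ordAt_pow hG hG0, OrdH.ordAt_pow ha ha0] at h1
  unfold OrdH.ordFrac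
  have h3 : ((OrdH.ordAt G τ + n * OrdH.ordAt a τ : ℕ) : ℤ) =
      ((OrdH.ordAt F τ + n * OrdH.ordAt G τ : ℕ) : ℤ) := by rw [h1]
  push_cast at h3
  linarith

variable {N : ℕ} [NeZero N]

/-! ### Representatives -/

theorem fm_num_ne_zero_of_isRep {f : FN N} (hf : f ≠ 0) {P Q : MvPolynomial (Dv N) KQ}
    (h : IsRep N f P Q) : fm N P ≠ 0 := by
  intro h0
  apply hf
  rw [h.2, h0, zero_div]

theorem ev_num_ne_zero_of_isRep {f : FN N} (hf : f ≠ 0) {P Q : MvPolynomial (Dv N) KQ}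
    (h : IsRep N f P Q) : ev N P ≠ 0 :=
  (ValPt.ev_ne_zero_iff N P).2 (fm_num_ne_zero_of_isRep hf h)

theorem ev_den_ne_zero_of_isRep {f : FN N} {P Q : MvPolynomial (Dv N) KQ}
    (h : IsRep N f P Q) : ev N Q ≠ 0 :=
  (ValPt.ev_ne_zero_iff N Q).2 h.1

/-- Two representatives of the same element: cross-multiplication on the analytic side. -/
theorem ev_cross_of_isRep {f : FN N} {P Q P' Q' : MvPolynomial (Dv N) KQ}
    (h : IsRep N f P Q) (h' : IsRep N f P' Q') (z : ℍ) :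
    ev N P z * ev N Q' z = ev N P' z * ev N Q z := by
  have e : fm N P / fm N Q = fm N P' / fm N Q' := by rw [← h.2, ← h'.2]
  rw [div_eq_div_iff h.1 h'.1] at e
  have h0 : fm N (P * Q' - P' * Q) = 0 := by rw [map_sub, map_mul, map_mul, e, sub_self]
  have h1 := (ValPt.fm_eq_zero_iff N _).1 h0
  rw [map_sub, map_mul, map_mul, sub_eq_zero] at h1
  exact congrFun h1 z

/-! ### Independence of the representative -/

theorem KumRel.ne_zero {n : ℕ} {f : FN N} {χ : Gamma0 N →* ℂˣ} (h : KumRel N n f χ) : f ≠ 0 := by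
  obtain ⟨P, Q, a, -, hf, -⟩ := h
  exact hf

/-- **Every** root datum on **every** representative of `f` has the multiplier `χ`. -/
theorem KumRel.hasMult_of_root {n : ℕ} (hn : 0 < n) {f : FN N} {χ : Gamma0 N →* ℂˣ}
    (h : KumRel N n f χ) {P Q : MvPolynomial (Dv N) KQ} (hPQ : IsRep N f P Q) {a : ℍ → ℂ}
    (ha : MDiff a) (hroot : ∀ z : ℍ, ev N P z * ev N Q z ^ n = ev N Q z * a z ^ n)
    (γ : Gamma0 N) : HasMult a (ev N Q) (γ : SL(2, ℤ)) ((χ γ : ℂˣ) : ℂ) := by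
  obtain ⟨P₀, Q₀, a₀, hrep₀, hf, ha₀, ha₀0, hroot₀, hmult₀⟩ := h
  have hQ₀ : ev N Q₀ ≠ 0 := ev_den_ne_zero_of_isRep hrep₀
  have hQ : ev N Q ≠ 0 := ev_den_ne_zero_of_isRep hPQ
  have hroot' : ∀ z, ev N P₀ z * ev N Q z ^ n = ev N Q₀ z * a z ^ n := by
    apply eq_of_mul_eq_mul_hol (A := fun z => ev N P₀ z * ev N Q z ^ n)
      (B := fun z => ev N Q₀ z * a z ^ n) (G := ev N Q)
      ((PtInv.mdiff_ev N P₀).mul ((PtInv.mdiff_ev N Q).pow n))
      ((PtInv.mdiff_ev N Q₀).mul (ha.pow n)) (PtInv.mdiff_ev N Q) hQ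
    intro z
    have e1 := ev_cross_of_isRep hrep₀ hPQ z
    have e2 := hroot z
    linear_combination (ev N Q z ^ n) * e1 + (ev N Q₀ z) * e2
  exact (hmult₀ γ).of_same_pow (PtInv.mdiff_ev N Q₀) ha₀ (PtInv.mdiff_ev N Q₀) ha
    (PtInv.mdiff_ev N Q) hQ₀ hQ₀ hn hroot₀ hroot'

/-- All orders of the meromorphic function of `f` on `ℍ` are divisible by `n`. -/
theorem KumRel.dvd_ordFrac {n : ℕ} {f : FN N} {χ : Gamma0 N →* ℂˣ} (h : KumRel N n f χ)
    {P Q : MvPolynomial (Dv N) KQ} (hPQ : IsRep N f P Q) (τ : ℍ) :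
    (n : ℤ) ∣ OrdH.ordFrac (ev N P) (ev N Q) τ := by
  obtain ⟨P₀, Q₀, a₀, hrep₀, hf, ha₀, ha₀0, hroot₀, -⟩ := h
  have e := OrdH.ordFrac_congr (PtInv.mdiff_ev N P) (PtInv.mdiff_ev N Q) (PtInv.mdiff_ev N P₀)
    (PtInv.mdiff_ev N Q₀) (ev_num_ne_zero_of_isRep hf hPQ) (ev_den_ne_zero_of_isRep hPQ)
    (ev_num_ne_zero_of_isRep hf hrep₀) (ev_den_ne_zero_of_isRep hrep₀)
    (funext (ev_cross_of_isRep hPQ hrep₀)) τ
  rw [e, ordFrac_of_root (PtInv.mdiff_ev N P₀) (PtInv.mdiff_ev N Q₀) ha₀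
    (ev_num_ne_zero_of_isRep hf hrep₀) (ev_den_ne_zero_of_isRep hrep₀) ha₀0 hroot₀ τ]
  exact dvd_mul_right _ _

/-- **Independence of the representative.** -/
theorem KumRel.of_isRep {n : ℕ} (hn : 0 < n) {f : FN N} {χ : Gamma0 N →* ℂˣ}
    (h : KumRel N n f χ) {P Q : MvPolynomial (Dv N) KQ} (hPQ : IsRep N f P Q) :
    ∃ a : ℍ → ℂ, MDiff a ∧ a ≠ 0 ∧
      (∀ z : ℍ, ev N P z * ev N Q z ^ n = ev N Q z * a z ^ n) ∧
      ∀ γ : Gamma0 N, HasMult a (ev N Q) (γ : SL(2, ℤ)) ((χ γ : ℂˣ) : ℂ) := by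
  obtain ⟨a, ha, ha0, hroot, -⟩ := exists_nth_root_frac (PtInv.mdiff_ev N P)
    (PtInv.mdiff_ev N Q) (ev_num_ne_zero_of_isRep h.ne_zero hPQ) (ev_den_ne_zero_of_isRep hPQ) hn
    (h.dvd_ordFrac hPQ)
  exact ⟨a, ha, ha0, hroot, fun γ => h.hasMult_of_root hn hPQ ha hroot γ⟩

/-! ### Uniqueness and exponent -/

/-- The Kummer character of `f` is unique. -/
theorem KumRel.unique {n : ℕ} (hn : 0 < n) {f : FN N} {χ χ' : Gamma0 N →* ℂˣ}
    (h : KumRel N n f χ) (h' : KumRel N n f χ') : χ = χ' := by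
  obtain ⟨P, Q, a, hrep, hf, ha, ha0, hroot, hmult⟩ := h'
  refine MonoidHom.ext fun γ => Units.ext ?_
  exact (h.hasMult_of_root hn hrep ha hroot γ).unique ha (PtInv.mdiff_ev N Q) ha0
    (ev_den_ne_zero_of_isRep hrep) (hmult γ)

/-- The Kummer character has exponent `n`. -/
theorem KumRel.pow_eq_one {n : ℕ} (hn : 0 < n) {f : FN N} {χ : Gamma0 N →* ℂˣ}
    (h : KumRel N n f χ) (γ : Gamma0 N) : χ γ ^ n = 1 := by
  obtain ⟨P, Q, a, hrep, hf, ha, ha0, hroot, hmult⟩ := h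
  have hQ := ev_den_ne_zero_of_isRep hrep
  obtain ⟨c, hc, hm⟩ := exists_hasMult_of_root (PtInv.mdiff_ev N Q) ha (PtInv.mdiff_ev N Q) hQ hn
    hroot (γ : SL(2, ℤ)) (fun z => by
      rw [PtInv.ev_smul_Gamma0 N P γ γ.2 z, PtInv.ev_smul_Gamma0 N Q γ γ.2 z])
  have hχ := (hmult γ).unique ha (PtInv.mdiff_ev N Q) ha0 hQ hm
  apply Units.ext
  rw [Units.val_pow_eq_pow_val, hχ, hc]
  rfl

/-! ### Multiplicativity -/

theorem KumRel.mul {n : ℕ} (hn : 0 < n) {f f' : FN N} {χ χ' : Gamma0 N →* ℂˣ}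
    (h : KumRel N n f χ) (h' : KumRel N n f' χ') : KumRel N n (f * f') (χ * χ') := by
  obtain ⟨P, Q, a, hrep, hf, ha, ha0, hroot, hmult⟩ := h
  obtain ⟨P', Q', a', hrep', hf', ha', ha0', hroot', hmult'⟩ := h'
  refine ⟨P * P', Q * Q', a * a', ⟨?_, ?_⟩, mul_ne_zero hf hf', ha.mul ha',
    OrdH.mul_ne_zero' ha ha' ha0 ha0', ?_, ?_⟩
  · rw [map_mul]
    exact mul_ne_zero hrep.1 hrep'.1
  · rw [map_mul, map_mul, ← div_mul_div_comm, ← hrep.2, ← hrep'.2]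
  · intro z
    rw [map_mul, map_mul]
    simp only [Pi.mul_apply]
    linear_combination (ev N P' z * ev N Q' z ^ n) * hroot z + (ev N Q z * a z ^ n) * hroot' z
  · intro γ
    rw [map_mul, MonoidHom.mul_apply, Units.val_mul]
    exact (hmult γ).mul_frac (hmult' γ)

theorem KumRel.inv {n : ℕ} (hn : 0 < n) {f : FN N} {χ : Gamma0 N →* ℂˣ}
    (h : KumRel N n f χ) : KumRel N n f⁻¹ χ⁻¹ := by
  obtain ⟨P, Q, a, hrep, hf, ha, ha0, hroot, hmult⟩ := h
  have hP := ev_num_ne_zero_of_isRep hf hrep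
  have hQ := ev_den_ne_zero_of_isRep hrep
  have hrep' : IsRep N f⁻¹ Q P := ⟨fm_num_ne_zero_of_isRep hf hrep, by rw [hrep.2, inv_div]⟩
  have hdiv : ∀ τ, (n : ℤ) ∣ OrdH.ordFrac (ev N Q) (ev N P) τ := by
    intro τ
    rw [OrdH.ordFrac_inv, ordFrac_of_root (PtInv.mdiff_ev N P) (PtInv.mdiff_ev N Q) ha hP hQ ha0
      hroot τ]
    exact (dvd_neg).2 (dvd_mul_right _ _)
  obtain ⟨a', ha', ha0', hroot', -⟩ := exists_nth_root_frac (PtInv.mdiff_ev N Q)
    (PtInv.mdiff_ev N P) hQ hP hn hdiv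
  refine ⟨Q, P, a', hrep', inv_ne_zero hf, ha', ha0', hroot', fun γ => ?_⟩
  rw [MonoidHom.inv_apply, Units.val_inv_eq_inv_val]
  have h1 : HasMult (ev N Q) a (γ : SL(2, ℤ)) ((χ γ : ℂˣ) : ℂ)⁻¹ :=
    (hmult γ).inv_frac (Units.ne_zero _)
  exact h1.of_same_pow (f := ev N Q) (g := ev N P) (PtInv.mdiff_ev N P) (PtInv.mdiff_ev N Q) ha
    ha' (PtInv.mdiff_ev N P) hP ha0 hn (fun z => (hroot z).symm) hroot'

/-- `n`-th powers have trivial Kummer character. -/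
theorem kumRel_pow {n : ℕ} (hn : 0 < n) {g : FN N} (hg : g ≠ 0) : KumRel N n (g ^ n) 1 := by
  obtain ⟨P, Q, hrep⟩ := Rep.exists_isRep N g
  have hP := ev_num_ne_zero_of_isRep hg hrep
  have hQ := ev_den_ne_zero_of_isRep hrep
  obtain ⟨m, rfl⟩ : ∃ m, n = m + 1 := ⟨n - 1, by omega⟩
  refine ⟨P ^ (m + 1), Q ^ (m + 1), ev N P * ev N Q ^ m, ⟨?_, ?_⟩, pow_ne_zero _ hg,
    (PtInv.mdiff_ev N P).mul ((PtInv.mdiff_ev N Q).pow m),
    OrdH.mul_ne_zero' (PtInv.mdiff_ev N P) ((PtInv.mdiff_ev N Q).pow m) hP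
      (OrdH.pow_ne_zero' (PtInv.mdiff_ev N Q) hQ m), ?_, ?_⟩
  · rw [map_pow]
    exact pow_ne_zero _ hrep.1
  · rw [map_pow, map_pow, ← div_pow, ← hrep.2]
  · intro z
    rw [map_pow, map_pow]
    simp only [Pi.mul_apply, Pi.pow_apply]
    ring
  · intro γ z
    rw [map_pow, MonoidHom.one_apply, Units.val_one, one_mul]
    simp only [Pi.mul_apply, Pi.pow_apply]
    rw [PtInv.ev_smul_Gamma0 N P γ γ.2 z, PtInv.ev_smul_Gamma0 N Q γ γ.2 z]

/-- Nonzero constants have trivial Kummer character. -/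
theorem kumRel_algebraMap {n : ℕ} (hn : 0 < n) {c : KQ} (hc : c ≠ 0) :
    KumRel N n (algebraMap KQ (FN N) c) 1 := by
  obtain ⟨r, hr⟩ : ∃ r : ℂ, r ^ n = iotaK c := IsAlgClosed.exists_pow_nat_eq (iotaK c) hn
  have hιc : iotaK c ≠ 0 := (map_ne_zero iotaK).2 hc
  have hr0 : r ≠ 0 := by
    rintro rfl
    rw [zero_pow hn.ne'] at hr
    exact hιc hr.symm
  refine ⟨MvPolynomial.C c, 1, fun _ => r, ⟨?_, ?_⟩, ?_, mdifferentiable_const, ?_, ?_, ?_⟩
  · rw [map_one]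
    exact one_ne_zero
  · rw [map_one, div_one]
    exact (AlgHom.commutes (fm N) c).symm
  · exact (map_ne_zero (algebraMap KQ (FN N))).2 hc
  · intro h
    exact hr0 (congrFun h UpperHalfPlane.I)
  · intro z
    rw [ValPt.ev_C, map_one, hr]
    simp only [Pi.one_apply, one_pow, mul_one, one_mul]
  · intro γ z
    rw [map_one, MonoidHom.one_apply, Units.val_one, one_mul]
    simp only [Pi.one_apply, mul_one]

/-! ### Change of the exponent -/

theorem KumRel.pow_level {n m : ℕ} (hn : 0 < n) (hm : 0 < m) {f : FN N} {χ : Gamma0 N →* ℂˣ}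
    (h : KumRel N n f χ) : KumRel N (n * m) (f ^ m) χ := by
  obtain ⟨P, Q, a, hrep, hf, ha, ha0, hroot, hmult⟩ := h
  have hQ := ev_den_ne_zero_of_isRep hrep
  obtain ⟨k, rfl⟩ : ∃ k, m = k + 1 := ⟨m - 1, by omega⟩
  refine ⟨P ^ (k + 1), Q ^ (k + 1), a * ev N Q ^ k, ⟨?_, ?_⟩, pow_ne_zero _ hf,
    ha.mul ((PtInv.mdiff_ev N Q).pow k),
    OrdH.mul_ne_zero' ha ((PtInv.mdiff_ev N Q).pow k) ha0
      (OrdH.pow_ne_zero' (PtInv.mdiff_ev N Q) hQ k), ?_, ?_⟩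
  · rw [map_pow]
    exact pow_ne_zero _ hrep.1
  · rw [map_pow, map_pow, ← div_pow, ← hrep.2]
  · intro z
    rw [map_pow, map_pow]
    simp only [Pi.mul_apply, Pi.pow_apply]
    have e2 : (ev N P z * ev N Q z ^ n) ^ (k + 1) = (ev N Q z * a z ^ n) ^ (k + 1) := by
      rw [hroot z]
    linear_combination (ev N Q z ^ (k * n * (k + 1))) * e2
  · intro γ
    refine (hmult γ).congr (ha.mul ((PtInv.mdiff_ev N Q).pow k)) (PtInv.mdiff_ev N Q)
      (PtInv.mdiff_ev N (Q ^ (k + 1))) hQ (κ := 1) (fun z => ?_)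
    rw [map_pow]
    simp only [Pi.mul_apply, Pi.pow_apply]
    ring

theorem KumRel.of_mul_level {n m : ℕ} (hn : 0 < n) (hm : 0 < m) {f : FN N}
    {χ : Gamma0 N →* ℂˣ} (h : KumRel N (n * m) f χ) : KumRel N n f (χ ^ m) := by
  obtain ⟨P, Q, a, hrep, hf, ha, ha0, hroot, hmult⟩ := h
  have hP := ev_num_ne_zero_of_isRep hf hrep
  have hQ := ev_den_ne_zero_of_isRep hrep
  have hdiv : ∀ τ, (n : ℤ) ∣ OrdH.ordFrac (ev N P) (ev N Q) τ := by
    intro τ
    rw [ordFrac_of_root (PtInv.mdiff_ev N P) (PtInv.mdiff_ev N Q) ha hP hQ ha0 hroot τ]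
    push_cast
    rw [mul_assoc]
    exact dvd_mul_right _ _
  obtain ⟨a', ha', ha0', hroot', -⟩ := exists_nth_root_frac (PtInv.mdiff_ev N P)
    (PtInv.mdiff_ev N Q) hP hQ hn hdiv
  refine ⟨P, Q, a', hrep, hf, ha', ha0', hroot', fun γ => ?_⟩
  rw [MonoidHom.pow_apply, Units.val_pow_eq_pow_val]
  have h1 : HasMult (a ^ m) (ev N Q ^ m) (γ : SL(2, ℤ)) (((χ γ : ℂˣ) : ℂ) ^ m) :=
    (hmult γ).pow_frac m
  refine h1.of_same_pow (f := ev N P) (g := ev N Q) (PtInv.mdiff_ev N Q) (ha.pow m)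
    ((PtInv.mdiff_ev N Q).pow m) ha' (PtInv.mdiff_ev N Q) hQ
    (OrdH.pow_ne_zero' (PtInv.mdiff_ev N Q) hQ m) hn (fun z => ?_) hroot'
  simp only [Pi.pow_apply]
  rw [← pow_mul, ← pow_mul, mul_comm m n]
  exact hroot z

end Fermat.Agent.S24.Kum
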