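import Fermat.Agent.S24.PtVal
import Fermat.Agent.S24.QExpJ
import Fermat.Agent.S24.CuspHom

/-!
# S24 — B-top interface `[VAL]` and `[VAL-pt]` (exact names of the architect's skeleton)

Top-level wrappers, in the namespace `Fermat.Agent.S24`, of
* `QExp.ev_eq_zero_iff` (helper37, q-expansion principle),
* `PtVal.valPt_eq_of_isRep`, `PtVal.isRawVal_valPt` (point valuations),
* `QExp.isRawVal_valCusp` (helper37, cusp valuations).
-/

set_option autoImplicit false

open UpperHalfPlane
open scoped MatrixGroups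

namespace Fermat.Agent.S24

variable (N : ℕ) [NeZero N]

/-- **B-BRIDGE**: a polynomial in the generators vanishes in `F` iff it vanishes as a function. -/
theorem fm_eq_zero_iff (P : MvPolynomial (Dv N) KQ) : fm N P = 0 ↔ ev N P = 0 :=
  (QExp.ev_eq_zero_iff N P).symm

/-- `valPt` on a nonzero element, computed on any representative. -/
theorem valPt_eq (τ : ℍ) (f : FN N) (hf : f ≠ 0) (P Q : MvPolynomial (Dv N) KQ)
    (h : IsRep N f P Q) : valPt N τ f = ordAt (ev N P) τ - ordAt (ev N Q) τ :=
  PtVal.valPt_eq_of_isRep (fm_eq_zero_iff N) τ hf h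

/-- **[VAL], point half**: `valPt N τ` is a raw valuation of `F` trivial on `ℚ̄`. -/
theorem isRawVal_valPt (τ : ℍ) : Counting.IsRawVal KQ (valPt N τ) :=
  PtVal.isRawVal_valPt (fm_eq_zero_iff N) τ

/-- **[VAL], cusp half** (helper37's `QExp.isRawVal_valCusp`). -/
theorem isRawVal_valCusp (g : SL(2, ℤ)) : Counting.IsRawVal KQ (valCusp N g) :=
  QExp.isRawVal_valCusp N g

end Fermat.Agent.S24
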