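import Fermat.Agent.S24.ModDefs
import Fermat.Agent.S24.PtInv
import Fermat.Agent.S20.PeriodicGrowth
import Fermat.Agent.S20.RegSeq
import Fermat.Agent.S20.Translates

/-!
# S24 — B-CUSP: orders at `i∞` and the cusp valuations

Everything is stated for `ordInf` / `trans` / `valCusp` of `ModDefs.lean`.

* `HasOrdInf h G m`: `q_h ^ (-m) * G` tends to a nonzero limit at `i∞`;
  uniqueness of `m`, `ordInf h G = m`, product / inverse / power rules.
* `hasOrdInf_Jfun`: `J` has order `-N` in `q_N`, also after any translation `trans g`.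
* `ordInf_trans_T_zpow_mul`: `ordInf N (trans (T ^ k * g) G) = ordInf N (trans g G)` (unconditional).
* `dvd_ordInf_mul_of_periodic`: if `G` is `w`-periodic then `N ∣ ordInf N G * w` (unconditional).
* `valCusp_eq_of_orbit`, `dvd_valCusp_mul_card`: the two cusp hypotheses `hO1`, `hO2` of
  `Counting.card_zeros_eq_card_orbits` for `w q f := valCusp N q.out f`.
-/

set_option autoImplicit false

open UpperHalfPlane ModularForm Filter Function
open scoped MatrixGroups Manifold Topology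

namespace Fermat.Agent.S24.CuspVal

open Fermat.Agent.S24 Fermat.Agent.S20

local notation "𝕢" => Function.Periodic.qParam

noncomputable section

/-! ### Orders at `i∞` -/

/-- `G` has order `m` at `i∞` with respect to `q_h = exp(2πiz/h)`. -/
def HasOrdInf (h : ℕ) (G : ℍ → ℂ) (m : ℤ) : Prop :=
  ∃ c : ℂ, c ≠ 0 ∧ Tendsto (fun z : ℍ => 𝕢 (h : ℝ) z ^ (-m) * G z) atImInfty (𝓝 c)

theorem tendsto_qParam_zpow_zero {h : ℕ} (hh : 0 < h) {k : ℤ} (hk : 0 < k) :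
    Tendsto (fun z : ℍ => 𝕢 (h : ℝ) z ^ k) atImInfty (𝓝 0) := by
  obtain ⟨n, rfl⟩ : ∃ n : ℕ, k = n := ⟨k.toNat, by omega⟩
  have hn : n ≠ 0 := by omega
  have := (UpperHalfPlane.qParam_tendsto_atImInfty (h := (h : ℝ)) (by exact_mod_cast hh)).pow n
  simpa [zero_pow hn] using this

theorem HasOrdInf.not_lt_of {h : ℕ} (hh : 0 < h) {G : ℍ → ℂ} {m m' : ℤ} (hm : HasOrdInf h G m)
    (hm' : HasOrdInf h G m') : ¬ m < m' := by
  intro hlt
  obtain ⟨c, hc, hcl⟩ := hm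
  obtain ⟨c', -, hcl'⟩ := hm'
  have h0 := (tendsto_qParam_zpow_zero hh (sub_pos.mpr hlt)).mul hcl'
  rw [zero_mul] at h0
  have e : (fun z : ℍ => 𝕢 (h : ℝ) z ^ (m' - m) * (𝕢 (h : ℝ) z ^ (-m') * G z)) =
      fun z : ℍ => 𝕢 (h : ℝ) z ^ (-m) * G z := by
    funext z
    rw [← mul_assoc, ← zpow_add₀ (Function.Periodic.qParam_ne_zero _)]
    congr 2
    ring
  rw [e] at h0
  exact hc (tendsto_nhds_unique hcl h0)

/-- The order at `i∞` is unique. -/
theorem HasOrdInf.unique {h : ℕ} (hh : 0 < h) {G : ℍ → ℂ} {m m' : ℤ} (hm : HasOrdInf h G m)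
    (hm' : HasOrdInf h G m') : m = m' :=
  le_antisymm (_root_.not_lt.mp (hm'.not_lt_of hh hm)) (_root_.not_lt.mp (hm.not_lt_of hh hm'))

/-- `ordInf` computes the order. -/
theorem HasOrdInf.ordInf_eq {h : ℕ} (hh : 0 < h) {G : ℍ → ℂ} {m : ℤ} (hm : HasOrdInf h G m) :
    ordInf h G = m := by
  have hex : ∃ m : ℤ, ∃ c : ℂ, c ≠ 0 ∧
      Tendsto (fun z : ℍ => 𝕢 (h : ℝ) z ^ (-m) * G z) atImInfty (𝓝 c) := ⟨m, hm⟩
  unfold ordInf
  rw [dif_pos hex]
  exact HasOrdInf.unique hh hex.choose_spec hm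

theorem ordInf_eq_zero_of_not {h : ℕ} {G : ℍ → ℂ} (hno : ¬ ∃ m : ℤ, HasOrdInf h G m) :
    ordInf h G = 0 := by
  have hno' : ¬ ∃ m : ℤ, ∃ c : ℂ, c ≠ 0 ∧
      Tendsto (fun z : ℍ => 𝕢 (h : ℝ) z ^ (-m) * G z) atImInfty (𝓝 c) := hno
  unfold ordInf
  rw [dif_neg hno']

theorem hasOrdInf_ordInf {h : ℕ} {G : ℍ → ℂ} (hex : ∃ m : ℤ, HasOrdInf h G m) :
    HasOrdInf h G (ordInf h G) := by
  have hex' : ∃ m : ℤ, ∃ c : ℂ, c ≠ 0 ∧
      Tendsto (fun z : ℍ => 𝕢 (h : ℝ) z ^ (-m) * G z) atImInfty (𝓝 c) := hex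
  unfold ordInf
  rw [dif_pos hex']
  exact hex'.choose_spec

theorem HasOrdInf.mul {h : ℕ} {G G' : ℍ → ℂ} {m m' : ℤ} (hm : HasOrdInf h G m)
    (hm' : HasOrdInf h G' m') : HasOrdInf h (G * G') (m + m') := by
  obtain ⟨c, hc, hcl⟩ := hm
  obtain ⟨c', hc', hcl'⟩ := hm'
  refine ⟨c * c', mul_ne_zero hc hc', (hcl.mul hcl').congr fun z => ?_⟩
  rw [Pi.mul_apply, neg_add, zpow_add₀ (Function.Periodic.qParam_ne_zero _)]
  ring

theorem HasOrdInf.const (h : ℕ) {c : ℂ} (hc : c ≠ 0) : HasOrdInf h (fun _ => c) 0 :=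
  ⟨c, hc, by simp⟩

theorem HasOrdInf.one (h : ℕ) : HasOrdInf h (1 : ℍ → ℂ) 0 :=
  HasOrdInf.const h one_ne_zero

theorem HasOrdInf.inv {h : ℕ} {G : ℍ → ℂ} {m : ℤ} (hm : HasOrdInf h G m) :
    HasOrdInf h (fun z => (G z)⁻¹) (-m) := by
  obtain ⟨c, hc, hcl⟩ := hm
  refine ⟨c⁻¹, inv_ne_zero hc, (hcl.inv₀ hc).congr fun z => ?_⟩
  rw [mul_inv, ← zpow_neg]

theorem HasOrdInf.pow {h : ℕ} {G : ℍ → ℂ} {m : ℤ} (hm : HasOrdInf h G m) (n : ℕ) :
    HasOrdInf h (G ^ n) (n * m) := by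
  induction n with
  | zero => simpa using HasOrdInf.one h
  | succ n ih =>
    have := ih.mul hm
    rw [pow_succ]
    convert this using 1
    push_cast
    ring

theorem HasOrdInf.congr {h : ℕ} {G G' : ℍ → ℂ} {m : ℤ} (hm : HasOrdInf h G m)
    (hGG' : ∀ z, G z = G' z) : HasOrdInf h G' m := by
  have : G = G' := funext hGG'
  rwa [← this]

/-- A function with an order at `i∞` is eventually nonzero. -/
theorem HasOrdInf.eventually_ne {h : ℕ} {G : ℍ → ℂ} {m : ℤ} (hm : HasOrdInf h G m) :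
    ∀ᶠ z in atImInfty, G z ≠ 0 := by
  obtain ⟨c, hc, hcl⟩ := hm
  filter_upwards [hcl.eventually_ne hc] with z hz hG
  exact hz (by rw [hG, mul_zero])

/-! ### Translations `z ↦ x + z` -/

theorem tendsto_vadd_atImInfty (x : ℝ) :
    Tendsto (fun z : ℍ => x +ᵥ z) atImInfty atImInfty := by
  rw [atImInfty, tendsto_comap_iff]
  have : (UpperHalfPlane.im ∘ fun z : ℍ => x +ᵥ z) = UpperHalfPlane.im := by
    funext z
    simp [UpperHalfPlane.vadd_im]
  rw [this]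
  exact tendsto_comap

theorem qParam_vadd (h : ℕ) (x : ℝ) (z : ℍ) :
    𝕢 (h : ℝ) ((x +ᵥ z : ℍ) : ℂ) = Complex.exp (2 * Real.pi * Complex.I * x / h) * 𝕢 (h : ℝ) z := by
  rw [UpperHalfPlane.coe_vadd, Function.Periodic.qParam, Function.Periodic.qParam,
    ← Complex.exp_add]
  congr 1
  push_cast
  ring

/-- Behaviour of the leading coefficient under a translation. -/
theorem HasOrdInf.tendsto_vadd {h : ℕ} {G : ℍ → ℂ} {m : ℤ} {c : ℂ} (x : ℝ)
    (hcl : Tendsto (fun z : ℍ => 𝕢 (h : ℝ) z ^ (-m) * G z) atImInfty (𝓝 c)) :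
    Tendsto (fun z : ℍ => 𝕢 (h : ℝ) z ^ (-m) * G (x +ᵥ z)) atImInfty
      (𝓝 (Complex.exp (2 * Real.pi * Complex.I * x / h) ^ m * c)) := by
  have h1 := hcl.comp (tendsto_vadd_atImInfty x)
  have h2 := h1.const_mul (Complex.exp (2 * Real.pi * Complex.I * x / h) ^ m)
  refine h2.congr fun z => ?_
  simp only [Function.comp_apply]
  rw [qParam_vadd, mul_zpow, ← mul_assoc, ← mul_assoc, ← zpow_add₀ (Complex.exp_ne_zero _)]
  simp

theorem HasOrdInf.vadd {h : ℕ} {G : ℍ → ℂ} {m : ℤ} (x : ℝ) (hm : HasOrdInf h G m) :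
    HasOrdInf h (fun z => G (x +ᵥ z)) m := by
  obtain ⟨c, hc, hcl⟩ := hm
  exact ⟨_, mul_ne_zero (zpow_ne_zero _ (Complex.exp_ne_zero _)) hc, HasOrdInf.tendsto_vadd x hcl⟩

theorem hasOrdInf_vadd_iff {h : ℕ} {G : ℍ → ℂ} {m : ℤ} (x : ℝ) :
    HasOrdInf h (fun z => G (x +ᵥ z)) m ↔ HasOrdInf h G m := by
  refine ⟨fun hm => ?_, fun hm => hm.vadd x⟩
  have := hm.vadd (-x)
  refine this.congr fun z => ?_
  show G (x +ᵥ (-x +ᵥ z)) = G z
  rw [vadd_vadd, add_neg_cancel, zero_vadd]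

/-- `ordInf` is invariant under real translations (unconditional in `G`). -/
theorem ordInf_vadd {h : ℕ} (hh : 0 < h) (G : ℍ → ℂ) (x : ℝ) :
    ordInf h (fun z => G (x +ᵥ z)) = ordInf h G := by
  by_cases hex : ∃ m : ℤ, HasOrdInf h G m
  · obtain ⟨m, hm⟩ := hex
    rw [hm.ordInf_eq hh, (hm.vadd x).ordInf_eq hh]
  · rw [ordInf_eq_zero_of_not hex, ordInf_eq_zero_of_not]
    rintro ⟨m, hm⟩
    exact hex ⟨m, (hasOrdInf_vadd_iff x).mp hm⟩

/-! ### The order of `J` -/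

theorem E4f_smul (γ : SL(2, ℤ)) (z : ℍ) : E4f (γ • z) = E4f z * denom γ z ^ (4 : ℕ) := by
  have h := congrFun (isMF_E4f.2.1 γ (Subgroup.mem_top γ)) z
  rw [SL_slash_apply] at h
  have hd : denom γ z ≠ 0 := denom_ne_zero γ z
  rw [← h, mul_assoc, ← zpow_natCast, ← zpow_add₀ hd]
  simp

theorem Δf_smul' (γ : SL(2, ℤ)) (z : ℍ) : Δf (γ • z) = Δf z * denom γ z ^ (12 : ℕ) := by
  have h := congrFun (Δf_slash γ) z
  rw [SL_slash_apply] at h
  have hd : denom γ z ≠ 0 := denom_ne_zero γ z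
  rw [← h, mul_assoc, ← zpow_natCast, ← zpow_add₀ hd]
  simp

/-- `J` is `SL(2, ℤ)`-invariant. -/
theorem Jfun_smul (γ : SL(2, ℤ)) (z : ℍ) : Jfun (γ • z) = Jfun z := by
  have h4 := E4f_smul γ z
  have h12 := Δf_smul' γ z
  have hd : denom γ z ≠ 0 := denom_ne_zero γ z
  have hΔ := Δf_ne_zero z
  unfold Jfun
  change E4f (γ • z) ^ 3 / Δf (γ • z) = E4f z ^ 3 / Δf z
  rw [h4, h12]
  field_simp

theorem trans_Jfun (g : SL(2, ℤ)) : trans g Jfun = Jfun := by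
  funext z
  exact Jfun_smul g⁻¹ z

theorem qParam_pow_self {N : ℕ} (hN : 0 < N) (z : ℂ) :
    𝕢 (N : ℝ) z ^ N = Complex.exp (2 * Real.pi * Complex.I * z) := by
  rw [Function.Periodic.qParam, ← Complex.exp_nat_mul]
  congr 1
  have : (N : ℂ) ≠ 0 := by exact_mod_cast hN.ne'
  push_cast
  field_simp

/-- `J` has a pole of order `N` in `q_N` at `i∞`. -/
theorem hasOrdInf_Jfun {N : ℕ} (hN : 0 < N) : HasOrdInf N Jfun (-(N : ℤ)) := by
  refine ⟨1, one_ne_zero, ?_⟩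
  have h4 : Tendsto (fun z : ℍ => E4f z ^ 3) atImInfty (𝓝 1) := by
    simpa using tendsto_E4f.pow 3
  have h := h4.div tendsto_Δf_div_q one_ne_zero
  rw [div_one] at h
  refine h.congr fun z => ?_
  have hΔ := Δf_ne_zero z
  have he : Complex.exp (2 * Real.pi * Complex.I * z) ≠ 0 := Complex.exp_ne_zero _
  rw [neg_neg, zpow_natCast, qParam_pow_self hN]
  simp only [Pi.div_apply]
  change _ = _ * (E4f z ^ 3 / Δf z)
  field_simp

theorem ordInf_Jfun {N : ℕ} (hN : 0 < N) : ordInf N Jfun = -(N : ℤ) :=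
  (hasOrdInf_Jfun hN).ordInf_eq hN

theorem ordInf_trans_Jfun {N : ℕ} (hN : 0 < N) (g : SL(2, ℤ)) :
    ordInf N (trans g Jfun) = -(N : ℤ) := by
  rw [trans_Jfun, ordInf_Jfun hN]

/-! ### `T`-invariance and coset independence -/

theorem trans_T_zpow_mul (k : ℤ) (g : SL(2, ℤ)) (G : ℍ → ℂ) :
    trans (ModularGroup.T ^ k * g) G = fun z => trans g G (((-k : ℤ) : ℝ) +ᵥ z) := by
  funext z
  unfold trans
  rw [mul_inv_rev, mul_smul, ← zpow_neg, UpperHalfPlane.modular_T_zpow_smul]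

/-- **`T`-invariance** of the order at the cusp (unconditional in `G`). -/
theorem ordInf_trans_T_zpow_mul {N : ℕ} (hN : 0 < N) (k : ℤ) (g : SL(2, ℤ)) (G : ℍ → ℂ) :
    ordInf N (trans (ModularGroup.T ^ k * g) G) = ordInf N (trans g G) := by
  rw [trans_T_zpow_mul, ordInf_vadd hN]

theorem trans_mul_of_invariant {Γ : Subgroup SL(2, ℤ)} {G : ℍ → ℂ}
    (hinv : ∀ γ ∈ Γ, ∀ z, G (γ • z) = G z) (g : SL(2, ℤ)) {γ : SL(2, ℤ)} (hγ : γ ∈ Γ) :
    trans (g * γ) G = trans g G := by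
  funext z
  unfold trans
  rw [mul_inv_rev, mul_smul, hinv _ (Γ.inv_mem hγ)]

/-- If `T ^ w` fixes the coset of `g`, then `trans g G` is `w`-periodic (for `Γ`-invariant `G`). -/
theorem trans_periodic {Γ : Subgroup SL(2, ℤ)} {G : ℍ → ℂ}
    (hinv : ∀ γ ∈ Γ, ∀ z, G (γ • z) = G z) (g : SL(2, ℤ)) (w : ℕ)
    (hw : ModularGroup.T ^ w • (g : SL(2, ℤ) ⧸ Γ) = (g : SL(2, ℤ) ⧸ Γ)) (z : ℍ) :
    trans g G ((w : ℝ) +ᵥ z) = trans g G z := by
  have hmem : g⁻¹ * ModularGroup.T ^ (-(w : ℤ)) * g ∈ Γ := by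
    have h1 : ((ModularGroup.T ^ w * g : SL(2, ℤ)) : SL(2, ℤ) ⧸ Γ) = (g : SL(2, ℤ) ⧸ Γ) := hw
    have h2 := QuotientGroup.eq.mp h1
    have h3 : (ModularGroup.T ^ w * g)⁻¹ * g = g⁻¹ * ModularGroup.T ^ (-(w : ℤ)) * g := by
      rw [mul_inv_rev, zpow_neg, zpow_natCast]
    rw [← h3]
    exact h2
  have hmem' := Γ.inv_mem hmem
  unfold trans
  have e : g⁻¹ • ((w : ℝ) +ᵥ z) = (g⁻¹ * ModularGroup.T ^ (-(w : ℤ)) * g)⁻¹ • (g⁻¹ • z) := by
    rw [← mul_smul]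
    have : (g⁻¹ * ModularGroup.T ^ (-(w : ℤ)) * g)⁻¹ * g⁻¹ = g⁻¹ * ModularGroup.T ^ (w : ℤ) := by
      group
    rw [this, mul_smul, UpperHalfPlane.modular_T_zpow_smul]
    simp
  rw [e, hinv _ hmem']

/-! ### Width divisibility -/

/-- **Width divisibility** (unconditional in `G`): if `G` is `w`-periodic, then
`N ∣ ordInf N G * w`. -/
theorem dvd_ordInf_mul_of_periodic {N : ℕ} (hN : 0 < N) {w : ℕ} (G : ℍ → ℂ)
    (hper : ∀ z : ℍ, G ((w : ℝ) +ᵥ z) = G z) : (N : ℤ) ∣ ordInf N G * w := by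
  by_cases hex : ∃ m : ℤ, HasOrdInf N G m
  · obtain ⟨m, hm⟩ := hex
    rw [hm.ordInf_eq hN]
    obtain ⟨c, hc, hcl⟩ := hm
    have h1 := HasOrdInf.tendsto_vadd (w : ℝ) hcl
    have h2 : Tendsto (fun z : ℍ => 𝕢 (N : ℝ) z ^ (-m) * G z) atImInfty
        (𝓝 (Complex.exp (2 * Real.pi * Complex.I * (w : ℝ) / N) ^ m * c)) :=
      h1.congr fun z => by rw [hper z]
    have h3 := tendsto_nhds_unique h2 hcl
    have h4 : Complex.exp (2 * Real.pi * Complex.I * (w : ℝ) / N) ^ m = 1 := by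
      have := mul_right_cancel₀ hc (h3.trans (one_mul c).symm)
      exact this
    rw [← Complex.exp_int_mul, Complex.exp_eq_one_iff] at h4
    obtain ⟨n, hn⟩ := h4
    have hNC : (N : ℂ) ≠ 0 := by exact_mod_cast hN.ne'
    have hpi : (2 * Real.pi * Complex.I : ℂ) ≠ 0 := Complex.two_pi_I_ne_zero
    have h5 : (m : ℂ) * w = n * N := by
      have h6 : (m : ℂ) * (2 * Real.pi * Complex.I * (w : ℝ) / N) * N =
          n * (2 * Real.pi * Complex.I) * N := by rw [hn]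
      have h7 : (m : ℂ) * (2 * Real.pi * Complex.I * (w : ℝ) / N) * N =
          (2 * Real.pi * Complex.I) * ((m : ℂ) * w) := by
        push_cast
        field_simp
      rw [h7] at h6
      apply mul_left_cancel₀ hpi
      rw [h6]
      ring
    have h8 : m * (w : ℤ) = n * (N : ℤ) := by exact_mod_cast h5
    exact ⟨n, by rw [h8]; ring⟩
  · rw [ordInf_eq_zero_of_not hex, zero_mul]
    exact dvd_zero _

/-! ### The analytic evaluation `ev` -/

theorem ev_apply (N : ℕ) (P : MvPolynomial (Dv N) KQ) (z : ℍ) :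
    ev N P z = MvPolynomial.eval₂ iotaK (fun d : Dv N => Jabd d.1 0 1 z) P := by
  have h := MvPolynomial.eval₂_comp_left (Pi.evalRingHom (fun _ : ℍ => ℂ) z)
    ((Pi.constRingHom ℍ ℂ).comp iotaK) (fun d : Dv N => Jabd d.1 0 1) P
  exact h

/-- If the generators `z ↦ J(d z)` are `Γ`-invariant, so is every `ev N P`. -/
theorem ev_invariant (N : ℕ) {Γ : Subgroup SL(2, ℤ)}
    (hgen : ∀ d : Dv N, ∀ γ ∈ Γ, ∀ z : ℍ, Jabd d.1 0 1 (γ • z) = Jabd d.1 0 1 z)
    (P : MvPolynomial (Dv N) KQ) {γ : SL(2, ℤ)} (hγ : γ ∈ Γ) (z : ℍ) :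
    ev N P (γ • z) = ev N P z := by
  have e : (fun d : Dv N => Jabd d.1 0 1 (γ • z)) = fun d : Dv N => Jabd d.1 0 1 z :=
    funext fun d => hgen d γ hγ z
  rw [ev_apply, ev_apply, e]

/-! ### Orbits of `⟨T⟩` -/

/-- The size of the `⟨g⟩`-orbit of `x` is a period of `x`. -/
theorem pow_card_smul_of_orb {G X O : Type*} [Group G] [MulAction G X] [Finite X] (g : G)
    (orb : X → O) (horb : ∀ i j : X, orb i = orb j ↔ ∃ k : ℤ, g ^ k • i = j) (x : X) :
    g ^ (Nat.card {j : X // orb j = orb x}) • x = x := by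
  classical
  have e : {j : X // orb j = orb x} ≃ MulAction.orbit (Subgroup.zpowers g) x := by
    refine Equiv.subtypeEquivRight fun j => ?_
    rw [horb, MulAction.mem_orbit_iff]
    constructor
    · rintro ⟨k, hk⟩
      refine ⟨⟨g ^ (-k), Subgroup.zpow_mem_zpowers g _⟩, ?_⟩
      rw [← hk]
      show g ^ (-k) • g ^ k • j = j
      rw [← mul_smul, ← zpow_add]
      simp
    · rintro ⟨⟨h, hh⟩, rfl⟩
      obtain ⟨k, rfl⟩ := Subgroup.mem_zpowers_iff.mp hh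
      refine ⟨-k, ?_⟩
      show g ^ (-k) • g ^ k • x = x
      rw [← mul_smul, ← zpow_add]
      simp
  letI : Fintype (MulAction.orbit (Subgroup.zpowers g) x) := Fintype.ofFinite _
  rw [Nat.card_congr e, Nat.card_eq_fintype_card, ← MulAction.minimalPeriod_eq_card]
  exact MulAction.pow_period_smul g x

/-! ### The cusp valuations -/

/-- **`T`-invariance** of the cusp valuation. -/
theorem valCusp_T_zpow_mul (N : ℕ) [NeZero N] (k : ℤ) (g : SL(2, ℤ)) (f : FN N) :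
    valCusp N (ModularGroup.T ^ k * g) f = valCusp N g f := by
  have hN : 0 < N := Nat.pos_of_ne_zero (NeZero.ne N)
  unfold valCusp
  split_ifs with h
  · rw [ordInf_trans_T_zpow_mul hN, ordInf_trans_T_zpow_mul hN]
  · rfl

/-- Independence of the representative of the coset `g Γ₀(N)`. -/
theorem valCusp_mul_of_mem (N : ℕ) [NeZero N]
    (hev : ∀ (P : MvPolynomial (Dv N) KQ), ∀ γ ∈ CongruenceSubgroup.Gamma0 N, ∀ z : ℍ,
      ev N P (γ • z) = ev N P z)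
    (g : SL(2, ℤ)) {γ : SL(2, ℤ)} (hγ : γ ∈ CongruenceSubgroup.Gamma0 N) (f : FN N) :
    valCusp N (g * γ) f = valCusp N g f := by
  unfold valCusp
  split_ifs with h
  · rw [trans_mul_of_invariant (hev _) g hγ, trans_mul_of_invariant (hev _) g hγ]
  · rfl

/-- **`hO1`**: cosets in the same `⟨T⟩`-orbit have the same cusp valuation. -/
theorem valCusp_out_eq_of_zpow_smul (N : ℕ) [NeZero N]
    (hev : ∀ (P : MvPolynomial (Dv N) KQ), ∀ γ ∈ CongruenceSubgroup.Gamma0 N, ∀ z : ℍ,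
      ev N P (γ • z) = ev N P z)
    (q q' : XN N) (k : ℤ) (hk : ModularGroup.T ^ k • q = q') (f : FN N) :
    valCusp N q'.out f = valCusp N q.out f := by
  have h1 : ((ModularGroup.T ^ k * q.out : SL(2, ℤ)) : XN N) = (q'.out : XN N) := by
    rw [QuotientGroup.out_eq', ← hk]
    conv_rhs => rw [← QuotientGroup.out_eq' q]
    rfl
  have hmem := QuotientGroup.eq.mp h1
  have e : q'.out = ModularGroup.T ^ k * q.out * ((ModularGroup.T ^ k * q.out)⁻¹ * q'.out) := by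
    group
  rw [e, valCusp_mul_of_mem N hev _ hmem, valCusp_T_zpow_mul]

/-- Width divisibility for a coset fixed by `T ^ w`. -/
theorem dvd_valCusp_mul_of_fixed (N : ℕ) [NeZero N]
    (hev : ∀ (P : MvPolynomial (Dv N) KQ), ∀ γ ∈ CongruenceSubgroup.Gamma0 N, ∀ z : ℍ,
      ev N P (γ • z) = ev N P z)
    (q : XN N) (w : ℕ) (hw : ModularGroup.T ^ w • q = q) (f : FN N) :
    (N : ℤ) ∣ valCusp N q.out f * w := by
  have hN : 0 < N := Nat.pos_of_ne_zero (NeZero.ne N)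
  have hw' : ModularGroup.T ^ w • ((q.out : SL(2, ℤ)) : XN N) = ((q.out : SL(2, ℤ)) : XN N) := by
    rw [QuotientGroup.out_eq']
    exact hw
  unfold valCusp
  split_ifs with h
  · rw [sub_mul]
    exact dvd_sub
      (dvd_ordInf_mul_of_periodic hN _ (trans_periodic (hev _) q.out w hw'))
      (dvd_ordInf_mul_of_periodic hN _ (trans_periodic (hev _) q.out w hw'))
  · simp

/-- **`hO2`**: `N ∣ valCusp q f * (size of the ⟨T⟩-orbit of q)`, for any orbit map `orb`. -/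
theorem dvd_valCusp_mul_card (N : ℕ) [NeZero N]
    (hev : ∀ (P : MvPolynomial (Dv N) KQ), ∀ γ ∈ CongruenceSubgroup.Gamma0 N, ∀ z : ℍ,
      ev N P (γ • z) = ev N P z)
    {O : Type*} (orb : XN N → O)
    (horb : ∀ i j : XN N, orb i = orb j ↔ ∃ k : ℤ, ModularGroup.T ^ k • i = j)
    (q : XN N) (f : FN N) :
    (N : ℤ) ∣ valCusp N q.out f * (Nat.card {j : XN N // orb j = orb q} : ℤ) :=
  dvd_valCusp_mul_of_fixed N hev q _ (pow_card_smul_of_orb ModularGroup.T orb horb q) f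

/-- **`hO1`** for any orbit map `orb`. -/
theorem valCusp_out_eq_of_orb (N : ℕ) [NeZero N]
    (hev : ∀ (P : MvPolynomial (Dv N) KQ), ∀ γ ∈ CongruenceSubgroup.Gamma0 N, ∀ z : ℍ,
      ev N P (γ • z) = ev N P z)
    {O : Type*} (orb : XN N → O)
    (horb : ∀ i j : XN N, orb i = orb j ↔ ∃ k : ℤ, ModularGroup.T ^ k • i = j)
    (i j : XN N) (hij : orb i = orb j) :
    (fun f : FN N => valCusp N i.out f) = fun f => valCusp N j.out f := by
  obtain ⟨k, hk⟩ := (horb i j).mp hij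
  funext f
  exact (valCusp_out_eq_of_zpow_smul N hev i j k hk f).symm

/-- The canonical orbit map `XN N → XN N / ⟨T⟩` satisfies the hypothesis `horb`. -/
theorem orbitRel_mk_eq_iff (N : ℕ) (i j : XN N) :
    (Quotient.mk'' i : MulAction.orbitRel.Quotient (Subgroup.zpowers ModularGroup.T) (XN N)) =
      Quotient.mk'' j ↔ ∃ k : ℤ, ModularGroup.T ^ k • i = j := by
  rw [Quotient.eq'']
  change i ∈ MulAction.orbit (Subgroup.zpowers ModularGroup.T) j ↔ _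
  rw [MulAction.mem_orbit_iff]
  constructor
  · rintro ⟨⟨h, hh⟩, rfl⟩
    obtain ⟨k, rfl⟩ := Subgroup.mem_zpowers_iff.mp hh
    refine ⟨-k, ?_⟩
    show ModularGroup.T ^ (-k) • ModularGroup.T ^ k • j = j
    rw [← mul_smul, ← zpow_add]
    simp
  · rintro ⟨k, rfl⟩
    refine ⟨⟨ModularGroup.T ^ (-k), Subgroup.zpow_mem_zpowers _ _⟩, ?_⟩
    show ModularGroup.T ^ (-k) • ModularGroup.T ^ k • i = i
    rw [← mul_smul, ← zpow_add]
    simp

/-! ### The `[CUSP]` interface shapes (unconditional) -/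

/-- `ev N P` is `Γ₀(N)`-invariant (`PtInv.ev_smul_Gamma0`), in the shape of the hypothesis `hev`
used above. -/
theorem ev_invariant_Gamma0 (N : ℕ) [NeZero N] (P : MvPolynomial (Dv N) KQ) :
    ∀ γ ∈ CongruenceSubgroup.Gamma0 N, ∀ z : ℍ, ev N P (γ • z) = ev N P z :=
  fun γ hγ z => PtInv.ev_smul_Gamma0 N P γ hγ z

/-- **[CUSP] 2**: independence of the representative of the coset `g Γ₀(N)`. -/
theorem valCusp_mul_Gamma0 (N : ℕ) [NeZero N] (g γ : SL(2, ℤ))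
    (hγ : γ ∈ CongruenceSubgroup.Gamma0 N) (f : FN N) :
    valCusp N (g * γ) f = valCusp N g f :=
  valCusp_mul_of_mem N (ev_invariant_Gamma0 N) g hγ f

/-- If `g⁻¹ T^w g ∈ Γ`, then `trans g G` is `w`-periodic (for `Γ`-invariant `G`). -/
theorem trans_periodic_of_mem {Γ : Subgroup SL(2, ℤ)} {G : ℍ → ℂ}
    (hinv : ∀ γ ∈ Γ, ∀ z, G (γ • z) = G z) (g : SL(2, ℤ)) (w : ℕ)
    (hmem : g⁻¹ * ModularGroup.T ^ w * g ∈ Γ) (z : ℍ) :
    trans g G ((w : ℝ) +ᵥ z) = trans g G z := by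
  unfold trans
  have e : g⁻¹ • ((w : ℝ) +ᵥ z) = (g⁻¹ * ModularGroup.T ^ w * g) • (g⁻¹ • z) := by
    rw [← mul_smul]
    have : g⁻¹ * ModularGroup.T ^ w * g * g⁻¹ = g⁻¹ * ModularGroup.T ^ (w : ℤ) := by
      rw [zpow_natCast]
      group
    rw [this, mul_smul, UpperHalfPlane.modular_T_zpow_smul]
    simp
  rw [e, hinv _ hmem]

/-- **[CUSP] 4**: width divisibility. -/
theorem dvd_valCusp (N : ℕ) [NeZero N] (g : SL(2, ℤ)) (h : ℕ) (_hh : 0 < h)
    (hg : g⁻¹ * ModularGroup.T ^ h * g ∈ CongruenceSubgroup.Gamma0 N) (f : FN N) (_hf : f ≠ 0) :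
    (N : ℤ) ∣ valCusp N g f * h := by
  have hN : 0 < N := Nat.pos_of_ne_zero (NeZero.ne N)
  unfold valCusp
  split_ifs with hrep
  · rw [sub_mul]
    exact dvd_sub
      (dvd_ordInf_mul_of_periodic hN _
        (trans_periodic_of_mem (ev_invariant_Gamma0 N _) g h hg))
      (dvd_ordInf_mul_of_periodic hN _
        (trans_periodic_of_mem (ev_invariant_Gamma0 N _) g h hg))
  · simp

/-- `g⁻¹ T^N g ∈ Γ₀(N)` for every `g`. -/
theorem conj_T_pow_mem_Gamma0 (N : ℕ) (g : SL(2, ℤ)) :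
    g⁻¹ * ModularGroup.T ^ N * g ∈ CongruenceSubgroup.Gamma0 N := by
  rw [CongruenceSubgroup.Gamma0_mem]
  have hT : (ModularGroup.T ^ N : SL(2, ℤ)) = ModularGroup.T ^ (N : ℤ) := (zpow_natCast _ _).symm
  have key : ((g⁻¹ * ModularGroup.T ^ N * g : SL(2, ℤ)) : Matrix (Fin 2) (Fin 2) ℤ) 1 0
      = (N : ℤ) * (- (g 1 0) * g 1 0) := by
    rw [hT, Matrix.SpecialLinearGroup.coe_mul, Matrix.SpecialLinearGroup.coe_mul,
      ModularGroup.coe_T_zpow, Matrix.SpecialLinearGroup.coe_inv, Matrix.adjugate_fin_two]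
    simp only [Matrix.mul_apply, Fin.sum_univ_two, Matrix.of_apply,
      Matrix.cons_val_zero, Matrix.cons_val_one, Matrix.cons_val', Matrix.cons_val_fin_one]
    ring
  rw [key]
  push_cast
  simp

/-- Every `trans g (ev N P)` is `N`-periodic. -/
theorem trans_ev_periodic (N : ℕ) [NeZero N] (g : SL(2, ℤ)) (P : MvPolynomial (Dv N) KQ)
    (z : ℍ) : trans g (ev N P) ((N : ℝ) +ᵥ z) = trans g (ev N P) z :=
  trans_periodic_of_mem (ev_invariant_Gamma0 N P) g N (conj_T_pow_mem_Gamma0 N g) z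

end

end Fermat.Agent.S24.CuspVal
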