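import Mathlib
import Fermat.Agent.S24.KumDefs
import Fermat.Agent.S24.Ramif
import Fermat.Agent.Lib.UHP.Multiplier

/-!
# JAC-KUM-PT: the Kummer relation and the orders at the points of `ℍ`

S24 vocabulary only (`KQ`, `iotaK`, `FN`, `IsRep`, `ev`, `valPt`, `Ramif.EllType`).

* `Pt.fixed_cases` : an element of `SL(2, ℤ)` with a fixed point in `ℍ` is `±1`, or of order `4`
  (`γ² = -1`), or of order `6` (`γ³ = -1`, `γ ≠ -1`), or of order `3` (`γ³ = 1`, `γ ≠ 1`).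
* `exists_kumRel_of_dvd_valPt` : if `n * e` divides the order of `f` at every point of elliptic
  type `e`, then `f` has a Kummer character of exponent `n`, trivial on every element of
  `Γ₀(N)` with a fixed point.
* `KumRel.dvd_valPt` : conversely.
-/

set_option autoImplicit false

open UpperHalfPlane CongruenceSubgroup
open scoped MatrixGroups Manifold

noncomputable section

namespace Fermat.Agent.S24.Kum

open Fermat.Agent.S24 Fermat.Agent.Lib.UHP Fermat.Agent.S24.Ramif Fermat.Agent.S24.OrdH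

/-! ### Elements of `SL(2, ℤ)` with a fixed point -/

namespace Pt

theorem det_entries (γ : SL(2, ℤ)) : γ 0 0 * γ 1 1 - γ 0 1 * γ 1 0 = 1 := by
  have := γ.det_coe
  rw [Matrix.det_fin_two] at this
  exact this

/-- Cayley–Hamilton in `SL(2, ℤ)`. -/
theorem coe_mul_self (γ : SL(2, ℤ)) :
    (γ : Matrix (Fin 2) (Fin 2) ℤ) * (γ : Matrix (Fin 2) (Fin 2) ℤ)
      = (γ 0 0 + γ 1 1) • (γ : Matrix (Fin 2) (Fin 2) ℤ) - 1 := by
  have hdet := det_entries γ
  ext i j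
  fin_cases i <;> fin_cases j
  · simp only [Fin.zero_eta, Fin.isValue, Matrix.mul_apply, Fin.sum_univ_two,
      Matrix.sub_apply, Matrix.smul_apply, Matrix.one_apply_eq, smul_eq_mul]
    linear_combination (-1 : ℤ) * hdet
  · simp only [Fin.zero_eta, Fin.mk_one, Fin.isValue, Matrix.mul_apply, Fin.sum_univ_two,
      Matrix.sub_apply, Matrix.smul_apply, smul_eq_mul]
    rw [Matrix.one_apply_ne (by decide)]
    ring
  · simp only [Fin.zero_eta, Fin.mk_one, Fin.isValue, Matrix.mul_apply, Fin.sum_univ_two,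
      Matrix.sub_apply, Matrix.smul_apply, smul_eq_mul]
    rw [Matrix.one_apply_ne (by decide)]
    ring
  · simp only [Fin.mk_one, Fin.isValue, Matrix.mul_apply, Fin.sum_univ_two,
      Matrix.sub_apply, Matrix.smul_apply, Matrix.one_apply_eq, smul_eq_mul]
    linear_combination (-1 : ℤ) * hdet

/-- An element of `SL(2, ℤ)` with a fixed point in `ℍ` is diagonal scalar or has `tr² < 4`. -/
theorem entries_of_fixed (γ : SL(2, ℤ)) (τ : ℍ) (h : γ • τ = τ) :
    (γ 1 0 = 0 ∧ γ 0 1 = 0 ∧ γ 0 0 = γ 1 1) ∨ (γ 0 0 + γ 1 1) ^ 2 < 4 := by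
  have hdet := det_entries γ
  have h' := congrArg (fun z : ℍ => (z : ℂ)) h
  simp only [coe_specialLinearGroup_apply] at h'
  have hτ0 : (τ : ℂ) ≠ 0 := UpperHalfPlane.ne_zero τ
  have hden : (algebraMap ℤ ℝ (γ 1 0) : ℂ) * τ + (algebraMap ℤ ℝ (γ 1 1) : ℂ) ≠ 0 := by
    intro h0
    rw [h0, div_zero] at h'
    exact hτ0 h'.symm
  rw [div_eq_iff hden] at h'
  have hy : 0 < τ.im := τ.im_pos
  have him := congrArg Complex.im h'
  have hre := congrArg Complex.re h'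
  simp only [eq_intCast, Complex.add_im, Complex.mul_im, Complex.ofReal_im, Complex.ofReal_re,
    Complex.add_re, Complex.mul_re, UpperHalfPlane.coe_im, UpperHalfPlane.coe_re,
    Complex.ofReal_intCast, Complex.intCast_re, Complex.intCast_im, zero_mul, add_zero,
    sub_zero, mul_zero] at him hre
  set a : ℝ := ((γ 0 0 : ℤ) : ℝ) with ha
  set b : ℝ := ((γ 0 1 : ℤ) : ℝ) with hb
  set c : ℝ := ((γ 1 0 : ℤ) : ℝ) with hc
  set d : ℝ := ((γ 1 1 : ℤ) : ℝ) with hd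
  set x : ℝ := τ.re with hx
  set y : ℝ := τ.im with hyy
  have hdetR : a * d - b * c = 1 := by
    rw [ha, hb, hc, hd]
    exact_mod_cast hdet
  -- `him : a * y = x * (c * y) + y * (c * x + d)`-like, `hre` similarly
  have h1 : a - d = 2 * c * x := by
    have : y * (a - d - 2 * c * x) = 0 := by linear_combination him
    rcases mul_eq_zero.1 this with h0 | h0
    · exact absurd h0 hy.ne'
    · linarith
  have h2 : b = -c * (x ^ 2 + y ^ 2) := by
    linear_combination hre - x * h1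
  have h3 : (a + d) ^ 2 = 4 - 4 * c ^ 2 * y ^ 2 := by
    have e1 : (a + d) ^ 2 = (a - d) ^ 2 + 4 * (1 + b * c) := by
      linear_combination 4 * hdetR
    rw [e1, h1, h2]
    ring
  by_cases hc0 : γ 1 0 = 0
  · left
    have hcR : c = 0 := by rw [hc, hc0]; simp
    have hbR : b = 0 := by rw [h2, hcR]; ring
    have hadR : a = d := by
      have := h1
      rw [hcR] at this
      linarith
    refine ⟨hc0, ?_, ?_⟩
    · have : ((γ 0 1 : ℤ) : ℝ) = 0 := hbR
      exact_mod_cast this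
    · have : ((γ 0 0 : ℤ) : ℝ) = ((γ 1 1 : ℤ) : ℝ) := hadR
      exact_mod_cast this
  · right
    have hcR : c ≠ 0 := by
      rw [hc]
      exact_mod_cast hc0
    have hlt : (a + d) ^ 2 < 4 := by
      rw [h3]
      have : 0 < c ^ 2 * y ^ 2 := by positivity
      linarith
    have : (((γ 0 0 + γ 1 1) ^ 2 : ℤ) : ℝ) < ((4 : ℤ) : ℝ) := by
      push_cast
      exact hlt
    exact_mod_cast this

/-- **Elements with a fixed point**: `±1`, order `4`, order `6` or order `3`. -/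
theorem fixed_cases (γ : SL(2, ℤ)) (τ : ℍ) (h : γ • τ = τ) :
    γ = 1 ∨ γ = -1 ∨ γ ^ 2 = -1 ∨ (γ ^ 3 = -1 ∧ γ ≠ -1) ∨ (γ ^ 3 = 1 ∧ γ ≠ 1) := by
  have hdet := det_entries γ
  have hCH := coe_mul_self γ
  rcases entries_of_fixed γ τ h with ⟨hc, hb, had⟩ | hlt
  · -- scalar
    rw [hc, hb, ← had] at hdet
    have hsq : γ 0 0 * γ 0 0 = 1 := by linarith
    have ha : γ 0 0 = 1 ∨ γ 0 0 = -1 := by
      have : (γ 0 0 - 1) * (γ 0 0 + 1) = 0 := by linear_combination hsq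
      rcases mul_eq_zero.1 this with h0 | h0
      · left; linarith
      · right; linarith
    rcases ha with ha | ha
    · left
      ext i j
      fin_cases i <;> fin_cases j <;> simp [ha, hb, hc, ← had]
    · right; left
      ext i j
      fin_cases i <;> fin_cases j <;> simp [ha, hb, hc, ← had]
  · -- `tr ∈ {-1, 0, 1}`
    set t : ℤ := γ 0 0 + γ 1 1 with ht
    have ht3 : t = 0 ∨ t = 1 ∨ t = -1 := by
      have h1 : -2 < t := by nlinarith
      have h2 : t < 2 := by nlinarith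
      omega
    have hne1 : ∀ s : ℤ, t = s → s ≠ 2 → γ ≠ 1 := by
      intro s hs hs2 h1
      apply hs2
      rw [← hs, ht, h1]
      simp
    have hnem1 : ∀ s : ℤ, t = s → s ≠ -2 → γ ≠ -1 := by
      intro s hs hs2 h1
      apply hs2
      rw [← hs, ht, h1]
      simp
    have hcube : ((γ ^ 3 : SL(2, ℤ)) : Matrix (Fin 2) (Fin 2) ℤ)
        = (t ^ 2 - 1) • (γ : Matrix (Fin 2) (Fin 2) ℤ) - t • (1 : Matrix (Fin 2) (Fin 2) ℤ) := by
      rw [Matrix.SpecialLinearGroup.coe_pow, pow_succ, pow_two, hCH, sub_mul, one_mul,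
        smul_mul_assoc, hCH]
      module
    rcases ht3 with h0 | h1 | h1
    · right; right; left
      apply Subtype.ext
      rw [Matrix.SpecialLinearGroup.coe_pow, pow_two, hCH, h0]
      simp
    · right; right; right; left
      refine ⟨?_, hnem1 1 h1 (by norm_num)⟩
      apply Subtype.ext
      rw [hcube, h1]
      simp
    · right; right; right; right
      refine ⟨?_, hne1 (-1) h1 (by norm_num)⟩
      apply Subtype.ext
      rw [hcube, h1]
      simp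

theorem neg_mem_Gamma0 {N : ℕ} {γ : SL(2, ℤ)} (hγ : γ ∈ Gamma0 N) : -γ ∈ Gamma0 N := by
  rw [Gamma0_mem] at hγ ⊢
  simpa using hγ

end Pt

/-! ### The Kummer relation at the points of `ℍ` -/

open Pt

variable {N : ℕ} [NeZero N]

/-- If `n * e` divides the order of `f` at every point of elliptic type `e`, then `f` has a
Kummer character of exponent `n` which is trivial on the elements with a fixed point. -/
theorem exists_kumRel_of_dvd_valPt {n : ℕ} (hn : 0 < n) {f : FN N} (hf : f ≠ 0)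
    (hpt : ∀ (τ : ℍ) (e : ℕ), EllType N τ e → ((n * e : ℕ) : ℤ) ∣ valPt N τ f) :
    ∃ χ : Gamma0 N →* ℂˣ, KumRel N n f χ ∧ (∀ γ, χ γ ^ n = 1) ∧
      ∀ γ : Gamma0 N, (∃ τ : ℍ, (γ : SL(2, ℤ)) • τ = τ) → χ γ = 1 := by
  obtain ⟨P, Q, hrep⟩ := QExp.exists_isRep N f
  have hQ : fm N Q ≠ 0 := hrep.1
  have hP : fm N P ≠ 0 := by
    intro h0
    apply hf
    rw [hrep.2, h0, zero_div]
  have hval : ∀ τ, valPt N τ f = ordFrac (ev N P) (ev N Q) τ :=
    fun τ => Ramif.valPt_eq_ordFrac N τ hrep hf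
  have hdvd : ∀ (τ : ℍ) (e : ℕ), EllType N τ e →
      ((n : ℤ) * (e : ℤ)) ∣ ordFrac (ev N P) (ev N Q) τ := by
    intro τ e he
    rw [← hval, ← Nat.cast_mul]
    exact hpt τ e he
  have hdiv : ∀ τ : ℍ, (n : ℤ) ∣ ordFrac (ev N P) (ev N Q) τ := by
    intro τ
    have := hdvd τ 1 (Or.inl rfl)
    simpa using this
  obtain ⟨a, χ, ha, ha0, hroot, -, hχn, hmult, hell⟩ :=
    exists_kummer_character (PtInv.mdiff_ev N P) (PtInv.mdiff_ev N Q) (PtInv.ev_ne_zero N hP)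
      (PtInv.ev_ne_zero N hQ) hn hdiv (Gamma0 N)
      (fun γ hγ z => by
        rw [PtInv.ev_smul_Gamma0 N P γ hγ, PtInv.ev_smul_Gamma0 N Q γ hγ])
  refine ⟨χ, ⟨P, Q, a, hrep, hf, ha, ha0, hroot, hmult⟩, hχn, ?_⟩
  rintro γ ⟨τ, hτ⟩
  rcases fixed_cases (γ : SL(2, ℤ)) τ hτ with h1 | h1 | h1 | ⟨h3, hne⟩ | ⟨h3, hne⟩
  · have : γ = 1 := Subtype.ext h1
    rw [this, map_one]
  · exact hell γ τ 1 hτ (Or.inr (by rw [pow_one, h1])) (hdvd τ 1 (Or.inl rfl))
  · exact hell γ τ 2 hτ (Or.inr h1)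
      (hdvd τ 2 (Or.inr (Or.inl ⟨rfl, γ, γ.2, h1, hτ⟩)))
  · exact hell γ τ 3 hτ (Or.inr h3)
      (hdvd τ 3 (Or.inr (Or.inr ⟨rfl, γ, γ.2, h3, hne, hτ⟩)))
  · have hδ3 : (-(γ : SL(2, ℤ))) ^ 3 = -1 := by
      rw [Odd.neg_pow (by decide), h3]
    have hδne : -(γ : SL(2, ℤ)) ≠ -1 := fun h => hne (neg_injective h)
    have hδfix : (-(γ : SL(2, ℤ))) • τ = τ := by
      rw [ModularGroup.SL_neg_smul, hτ]
    exact hell γ τ 3 hτ (Or.inl h3)
      (hdvd τ 3 (Or.inr (Or.inr ⟨rfl, -γ, neg_mem_Gamma0 γ.2, hδ3, hδne, hδfix⟩)))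

/-- Conversely: if the Kummer character of `f` is trivial on the elements with a fixed point,
then `n * e` divides the order of `f` at every point of elliptic type `e`. -/
theorem KumRel.dvd_valPt {n : ℕ} (hn : 0 < n) {f : FN N} {χ : Gamma0 N →* ℂˣ}
    (h : KumRel N n f χ)
    (hχ : ∀ γ : Gamma0 N, (∃ τ : ℍ, (γ : SL(2, ℤ)) • τ = τ) → χ γ = 1) (τ : ℍ) (e : ℕ)
    (he : EllType N τ e) : ((n * e : ℕ) : ℤ) ∣ valPt N τ f := by
  obtain ⟨P, Q, a, hrep, hf, ha, ha0, hroot, hmult⟩ := h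
  have hQ : fm N Q ≠ 0 := hrep.1
  have hP : fm N P ≠ 0 := by
    intro h0
    apply hf
    rw [hrep.2, h0, zero_div]
  have hPd := PtInv.mdiff_ev N P
  have hQd := PtInv.mdiff_ev N Q
  have hP0 := PtInv.ev_ne_zero N hP
  have hQ0 := PtInv.ev_ne_zero N hQ
  rw [Ramif.valPt_eq_ordFrac N τ hrep hf]
  have hrel : ordFrac (ev N P) (ev N Q) τ = (n : ℤ) * ordFrac a (ev N Q) τ := by
    have h1 : ev N P * ev N Q ^ n = ev N Q * a ^ n := funext hroot
    have h2 : OrdH.ordAt (ev N P * ev N Q ^ n) τ = OrdH.ordAt (ev N Q * a ^ n) τ := by rw [h1]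
    rw [ordAt_mul hPd (hQd.pow n) hP0 (pow_ne_zero' hQd hQ0 n) τ, ordAt_pow hQd hQ0 n τ,
      ordAt_mul hQd (ha.pow n) hQ0 (pow_ne_zero' ha ha0 n) τ, ordAt_pow ha ha0 n τ] at h2
    have h3 : ((OrdH.ordAt (ev N P) τ : ℕ) : ℤ) + (n : ℤ) * (OrdH.ordAt (ev N Q) τ : ℕ)
        = (OrdH.ordAt (ev N Q) τ : ℕ) + (n : ℤ) * (OrdH.ordAt a τ : ℕ) := by
      exact_mod_cast h2
    unfold ordFrac
    linear_combination h3
  have hinv : ∀ δ : SL(2, ℤ), δ ∈ Gamma0 N → δ • τ = τ →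
      ∀ z : ℍ, a (δ • z) * ev N Q z = a z * ev N Q (δ • z) := by
    intro δ hδ hfix z
    have h1 := hmult ⟨δ, hδ⟩ z
    rw [hχ ⟨δ, hδ⟩ ⟨τ, hfix⟩] at h1
    simpa using h1
  have hdiv : (e : ℤ) ∣ ordFrac a (ev N Q) τ := by
    rcases he with rfl | ⟨rfl, δ, hδ, hδ2, hfix⟩ | ⟨rfl, δ, hδ, hδ3, hδne, hfix⟩
    · simp
    · exact_mod_cast two_dvd_ordFrac_of_fixed ha hQd ha0 hQ0 δ τ hfix hδ2 (hinv δ hδ hfix)
    · exact_mod_cast three_dvd_ordFrac_of_fixed ha hQd ha0 hQ0 δ τ hfix hδ3 hδne (hinv δ hδ hfix)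
  rw [hrel, Nat.cast_mul]
  exact mul_dvd_mul_left _ hdiv

end Fermat.Agent.S24.Kum
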