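import Fermat.Agent.S24.CuspVal
import Fermat.Agent.S24.CuspHom
import Fermat.Agent.S24.PtTop

/-!
# S24 — `[CUSP]` item 1: the cusp valuation of `1 / j` is `N` at every cusp

`valCusp_jBar_inv`, from `QExp.valCusp_eq_of_isRep` (helper37's `CuspHom.lean`) and
`CuspVal.ordInf_trans_Jfun`.
-/

set_option autoImplicit false

open UpperHalfPlane ModularForm Filter Function
open scoped MatrixGroups Manifold Topology

namespace Fermat.Agent.S24.CuspJ

open Fermat.Agent.S24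

noncomputable section

theorem fm_X_d1 (N : ℕ) [NeZero N] :
    fm N (MvPolynomial.X (⟨1, one_dvd N⟩ : Dv N)) = jBar N := by
  unfold fm jBar
  rw [MvPolynomial.aeval_X]

theorem jBar_ne_zero (N : ℕ) [NeZero N] : jBar N ≠ 0 := by
  have h := PtTop.jBar_sub_ne_zero N 0
  rwa [map_zero, sub_zero] at h

theorem isRep_jBar_inv (N : ℕ) [NeZero N] :
    IsRep N (jBar N)⁻¹ 1 (MvPolynomial.X (⟨1, one_dvd N⟩ : Dv N)) := by
  refine ⟨?_, ?_⟩
  · rw [fm_X_d1]
    exact jBar_ne_zero N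
  · rw [fm_X_d1, map_one, one_div]

theorem ev_X_d1' (N : ℕ) : ev N (MvPolynomial.X (⟨1, one_dvd N⟩ : Dv N)) = Jfun :=
  JPt.ev_X_d1 N

/-- **[CUSP] 1**: `1 / j` has valuation `N` at every cusp (in the uniformiser `q_N`). -/
theorem valCusp_jBar_inv (N : ℕ) [NeZero N] (g : SL(2, ℤ)) :
    valCusp N g (jBar N)⁻¹ = N := by
  have hN : 0 < N := Nat.pos_of_ne_zero (NeZero.ne N)
  have hne : (jBar N)⁻¹ ≠ 0 := inv_ne_zero (jBar_ne_zero N)
  rw [QExp.valCusp_eq_of_isRep N g hne (isRep_jBar_inv N), ev_X_d1', map_one,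
    CuspVal.ordInf_trans_Jfun hN g]
  have h1 : trans g (1 : ℍ → ℂ) = 1 := rfl
  rw [h1, (CuspVal.HasOrdInf.one N).ordInf_eq hN]
  ring

end

end Fermat.Agent.S24.CuspJ
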