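/-
S24: the algebraic half of `exists_charpoly`.

* `exists_mul_eq_aeval`, `exists_mul_aeval_eq_fm`: every `f : FN N` is `r / s` with `r` a polynomial
  in the generators `j(q^d)` and `s` a nonzero polynomial in `j`.
* `map_scaleRoots_eq_prod`: from a monic polynomial `P` for `r` with `P.map Φ = ∏ (T - σ_x r)`
  to the monic polynomial for `r / s` (`s` invariant).
* `eval_eq_zero_of_map_eq_prod`, `coeff_mem_of_scaleRoots`, `coeff_regular_of_map_eq_prod`:
  root, coefficient field and regularity of the coefficients.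
* `exists_charpoly_abstract`: the combined statement.
-/
import Mathlib
import Fermat.Agent.S24.ModDefs
import Fermat.Agent.S24.Counting

set_option autoImplicit false

noncomputable section

namespace Fermat.Agent.S24.CharpolyAlg

open Polynomial

/-! ### Denominators in `K[j]` -/

section Denominators

variable {K F : Type*} [Field K] [Field F] [Algebra K F]

/-- A nonzero element `q` of `F` which is algebraic over `K(j)` divides, inside the ring
`K[j][q]`, a nonzero element of `K[j]`: `q * A = p(j) ≠ 0` with `A` in any subalgebra containing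
`j` and `q`. -/
theorem exists_mul_eq_aeval (j : F) (S : Subalgebra K F) (hj : j ∈ S) {q : F} (hqS : q ∈ S)
    (hq0 : q ≠ 0) (hq : IsAlgebraic (IntermediateField.adjoin K {j}) q) :
    ∃ A ∈ S, ∃ p : K[X], aeval j p ≠ 0 ∧ q * A = aeval j p := by
  classical
  have hint : IsIntegral (IntermediateField.adjoin K {j}) q := hq.isIntegral
  set m := minpoly (IntermediateField.adjoin K {j}) q with hm
  set d := m.natDegree with hd
  have hm0 : m.coeff 0 ≠ 0 := minpoly.coeff_zero_ne_zero hint hq0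
  -- numerators and denominators of the coefficients
  have hcoef : ∀ i : ℕ, ∃ a b : K[X], aeval j b ≠ 0 ∧
      ((m.coeff i : IntermediateField.adjoin K {j}) : F) * aeval j b = aeval j a := by
    intro i
    obtain ⟨a, b, hab⟩ := (IntermediateField.mem_adjoin_simple_iff K _).mp (m.coeff i).2
    by_cases hb : aeval j b = 0
    · refine ⟨0, 1, by simp, ?_⟩
      rw [hab, hb]
      simp
    · refine ⟨a, b, hb, ?_⟩
      rw [hab]
      field_simp
  choose a b hb hab using hcoef
  set B : K[X] := ∏ i ∈ Finset.range (d + 1), b i with hB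
  have hB0 : aeval j B ≠ 0 := by
    rw [hB, map_prod]
    exact Finset.prod_ne_zero_iff.mpr fun i _ => hb i
  set ν : ℕ → K[X] := fun i => a i * ∏ l ∈ (Finset.range (d + 1)).erase i, b l with hν
  have hνi : ∀ i ∈ Finset.range (d + 1),
      ((m.coeff i : IntermediateField.adjoin K {j}) : F) * aeval j B = aeval j (ν i) := by
    intro i hi
    have h1 : B = b i * ∏ l ∈ (Finset.range (d + 1)).erase i, b l :=
      (Finset.mul_prod_erase _ _ hi).symm
    rw [hν, h1, map_mul, map_mul, ← mul_assoc, hab i]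
  -- the relation
  have hrel : ∑ i ∈ Finset.range (d + 1), aeval j (ν i) * q ^ i = 0 := by
    have h0 : aeval q m = 0 := minpoly.aeval _ q
    rw [aeval_eq_sum_range] at h0
    have h1 : ∑ i ∈ Finset.range (d + 1),
        ((m.coeff i : IntermediateField.adjoin K {j}) : F) * q ^ i = 0 := by
      rw [← h0]
      refine Finset.sum_congr rfl fun i _ => ?_
      rw [Algebra.smul_def]
      rfl
    calc ∑ i ∈ Finset.range (d + 1), aeval j (ν i) * q ^ i
        = ∑ i ∈ Finset.range (d + 1),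
            (((m.coeff i : IntermediateField.adjoin K {j}) : F) * q ^ i) * aeval j B := by
          refine Finset.sum_congr rfl fun i hi => ?_
          rw [← hνi i hi]
          ring
      _ = 0 := by rw [← Finset.sum_mul, h1, zero_mul]
  rw [Finset.sum_range_succ', pow_zero, mul_one] at hrel
  have hS : ∀ p : K[X], aeval j p ∈ S := fun p =>
    (Algebra.adjoin_le (Set.singleton_subset_iff.mpr hj)) (aeval_mem_adjoin_singleton K j)
  refine ⟨-∑ i ∈ Finset.range d, aeval j (ν (i + 1)) * q ^ i, ?_, ν 0, ?_, ?_⟩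
  · exact neg_mem (sum_mem fun i _ => mul_mem (hS _) (pow_mem hqS i))
  · rw [← hνi 0 (Finset.mem_range.mpr (Nat.succ_pos d))]
    refine mul_ne_zero ?_ hB0
    exact_mod_cast hm0
  · have h2 : ∑ i ∈ Finset.range d, aeval j (ν (i + 1)) * q ^ (i + 1)
        = q * ∑ i ∈ Finset.range d, aeval j (ν (i + 1)) * q ^ i := by
      rw [Finset.mul_sum]
      refine Finset.sum_congr rfl fun i _ => ?_
      ring
    rw [h2] at hrel
    linear_combination -hrel

end Denominators

/-- Every `f : FN N` is of the form `fm P / s(j)` with `s(j) ≠ 0`. -/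
theorem exists_mul_aeval_eq_fm (N : ℕ) [NeZero N]
    (hrep : ∀ f : FN N, ∃ P Q, IsRep N f P Q)
    [Algebra.IsAlgebraic (IntermediateField.adjoin KQ {jBar N}) (FN N)]
    (f : FN N) :
    ∃ (P : MvPolynomial (Dv N) KQ) (p : Polynomial KQ),
      Polynomial.aeval (jBar N) p ≠ 0 ∧ f * Polynomial.aeval (jBar N) p = fm N P := by
  obtain ⟨P0, Q0, hQ0, hf⟩ := hrep f
  have hj : jBar N ∈ (fm N).range :=
    ⟨MvPolynomial.X ⟨1, one_dvd N⟩, by simp [fm, jBar]⟩
  obtain ⟨A, ⟨A0, hA0⟩, p, hp, hqA⟩ :=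
    exists_mul_eq_aeval (jBar N) (fm N).range hj ⟨Q0, rfl⟩ hQ0
      (Algebra.IsAlgebraic.isAlgebraic _)
  refine ⟨P0 * A0, p, hp, ?_⟩
  have hA0' : fm N A0 = A := hA0
  have hqA' : fm N Q0 * A = Polynomial.aeval (jBar N) p := hqA
  rw [map_mul, ← hqA', hf, hA0']
  field_simp

/-! ### Scaling the roots -/

section Scale

variable {F L : Type*} [Field F] [Field L] {X : Type*} [Fintype X]

theorem scaleRoots_prod_X_sub_C (a : X → L) (c : L) :
    (∏ x, (Polynomial.X - C (a x))).scaleRoots c = ∏ x, (Polynomial.X - C (a x * c)) := by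
  classical
  have key : ∀ s : Finset X, (∏ x ∈ s, (Polynomial.X - C (a x))).scaleRoots c
      = ∏ x ∈ s, (Polynomial.X - C (a x * c)) := by
    intro s
    induction s using Finset.induction_on with
    | empty => simp
    | insert x s hx ih =>
      rw [Finset.prod_insert hx, Finset.prod_insert hx, mul_scaleRoots_of_noZeroDivisors, ih,
        X_sub_C_scaleRoots]
  exact key Finset.univ

/-- From a monic `P` with `P.map Φ = ∏ (T - σ_x r)` to the monic polynomial for `r / s`, when
all `σ_x` agree with `Φ` at `s`. -/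
theorem map_scaleRoots_eq_prod (Φ : F →+* L) (σ : X → F →+* L) (r s : F)
    (hσs : ∀ x, σ x s = Φ s) (P : F[X]) (hP : P.Monic)
    (hmap : P.map Φ = ∏ x, (Polynomial.X - C (σ x r))) :
    (P.scaleRoots s⁻¹).Monic ∧
      (P.scaleRoots s⁻¹).map Φ = ∏ x, (Polynomial.X - C (σ x (r / s))) := by
  refine ⟨(monic_scaleRoots_iff _).mpr hP, ?_⟩
  rw [map_scaleRoots P s⁻¹ Φ (by rw [hP.leadingCoeff, map_one]; exact one_ne_zero), hmap,
    scaleRoots_prod_X_sub_C]
  refine Finset.prod_congr rfl fun x _ => ?_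
  rw [map_div₀, hσs x, map_inv₀, div_eq_mul_inv]

/-- Coefficients of `P.scaleRoots s⁻¹` stay in a subfield containing `s` and the coefficients
of `P`. -/
theorem coeff_mem_of_scaleRoots {K : Type*} [Field K] [Algebra K F] (k : IntermediateField K F)
    (P : F[X]) (hP : ∀ i, P.coeff i ∈ k) {s : F} (hs : s ∈ k) (i : ℕ) :
    (P.scaleRoots s⁻¹).coeff i ∈ k := by
  rw [coeff_scaleRoots]
  exact mul_mem (hP i) (pow_mem (inv_mem hs) _)

/-- If `P.map Φ = ∏ (T - σ_x f)` and one of the `σ_x f` is `Φ f`, then `P f = 0`. -/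
theorem eval_eq_zero_of_map_eq_prod (Φ : F →+* L) (a : X → L) (f : F) (x0 : X)
    (hx0 : a x0 = Φ f) (P : F[X]) (hmap : P.map Φ = ∏ x, (Polynomial.X - C (a x))) :
    P.eval f = 0 := by
  apply Φ.injective
  rw [map_zero, ← Polynomial.eval₂_at_apply, ← Polynomial.eval_map, hmap, Polynomial.eval_prod]
  refine Finset.prod_eq_zero (Finset.mem_univ x0) ?_
  rw [eval_sub, eval_X, eval_C, hx0, sub_self]

/-- Regularity of the coefficients: if all the roots `a x` are regular for a raw valuation of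
`L`, so are the coefficients of `P`. -/
theorem coeff_regular_of_map_eq_prod {K : Type*} [Field K] [Algebra K L] (ordL : L → ℤ)
    (hordL : Counting.IsRawVal K ordL) (Φ : F →+* L) (P : F[X]) (a : X → L)
    (hmap : P.map Φ = ∏ x, (Polynomial.X - C (a x)))
    (ha : ∀ x, a x = 0 ∨ 0 ≤ ordL (a x)) (i : ℕ) :
    Φ (P.coeff i) = 0 ∨ 0 ≤ ordL (Φ (P.coeff i)) := by
  rw [← coeff_map, hmap]
  set a' : X → hordL.valSubring := fun x => ⟨a x, ha x⟩ with ha'
  have h1 : (∏ x, (Polynomial.X - C (a' x))).map hordL.valSubring.subtype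
      = ∏ x, (Polynomial.X - C (a x)) := by
    rw [Polynomial.map_prod]
    refine Finset.prod_congr rfl fun x _ => ?_
    rw [Polynomial.map_sub, map_X, map_C]
    rfl
  rw [← h1, coeff_map]
  exact ((∏ x, (Polynomial.X - C (a' x))).coeff i).2

end Scale

/-! ### The combined statements -/

/-- **Abstract `exists_charpoly`.**  `Φ : F → L` an embedding, `σ x : F → L` its conjugates
(`σ x0 = Φ`), `k ⊆ F` a subfield, `R0 ⊆ F` a set of "integral" elements and `Sden ⊆ k` a set of
`σ`-invariant denominators.  If every `r ∈ R0` has a monic polynomial over `k` which `Φ` maps to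
`∏ (T - σ_x r)`, and every `f : F` is `r / s` with `r ∈ R0`, `s ∈ Sden`, `s ≠ 0`, then every
`f : F` has such a polynomial. -/
theorem exists_charpoly_abstract {K F L : Type*} [Field K] [Field F] [Field L] [Algebra K F]
    {X : Type*} [Fintype X] (Φ : F →+* L) (σ : X → F →+* L) (x0 : X)
    (hx0 : ∀ f, σ x0 f = Φ f) (k : IntermediateField K F) (R0 Sden : Set F)
    (hden : ∀ s ∈ Sden, s ∈ k ∧ ∀ x, σ x s = Φ s)
    (h1 : ∀ r ∈ R0, ∃ P : F[X], P.Monic ∧ (∀ i, P.coeff i ∈ k) ∧
      P.map Φ = ∏ x, (Polynomial.X - C (σ x r)))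
    (h2 : ∀ f : F, ∃ r ∈ R0, ∃ s ∈ Sden, s ≠ 0 ∧ f * s = r) (f : F) :
    ∃ P : F[X], P.Monic ∧ P.eval f = 0 ∧ (∀ i, P.coeff i ∈ k) ∧
      P.map Φ = ∏ x, (Polynomial.X - C (σ x f)) := by
  obtain ⟨r, hr, s, hs, hs0, hfs⟩ := h2 f
  obtain ⟨P, hPm, hPk, hPmap⟩ := h1 r hr
  obtain ⟨hsk, hsσ⟩ := hden s hs
  have hf : f = r / s := by
    rw [← hfs]
    field_simp
  obtain ⟨hm, hmap⟩ := map_scaleRoots_eq_prod Φ σ r s hsσ P hPm hPmap
  rw [← hf] at hmap
  exact ⟨P.scaleRoots s⁻¹, hm,
    eval_eq_zero_of_map_eq_prod Φ (fun x => σ x f) f x0 (hx0 f) _ hmap,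
    fun i => coeff_mem_of_scaleRoots k P hPk hsk i, hmap⟩

/-- **`exists_charpoly` for `FN N`, algebraic half.**  Inputs: representatives (`hrep`),
algebraicity of `FN N` over `K(j)`, an embedding `Φ` with conjugates `σ x` fixing the polynomials
in `j`, and for every polynomial expression `fm P0` in the generators a monic polynomial over
`K(j)` mapped by `Φ` to `∏ (T - σ_x (fm P0))`.  Output: the same for every `f : FN N`, together
with `P f = 0`. -/
theorem exists_charpoly_FN (N : ℕ) [NeZero N]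
    (hrep : ∀ f : FN N, ∃ P Q, IsRep N f P Q)
    [Algebra.IsAlgebraic (IntermediateField.adjoin KQ {jBar N}) (FN N)]
    {L : Type*} [Field L] {X : Type*} [Fintype X]
    (Φ : FN N →+* L) (σ : X → FN N →+* L) (x0 : X) (hx0 : ∀ f, σ x0 f = Φ f)
    (hσj : ∀ (p : Polynomial KQ) (x : X),
      σ x (Polynomial.aeval (jBar N) p) = Φ (Polynomial.aeval (jBar N) p))
    (h1 : ∀ P0 : MvPolynomial (Dv N) KQ, ∃ P : (FN N)[X], P.Monic ∧
      (∀ i, P.coeff i ∈ IntermediateField.adjoin KQ {jBar N}) ∧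
      P.map Φ = ∏ x, (Polynomial.X - C (σ x (fm N P0))))
    (f : FN N) :
    ∃ P : (FN N)[X], P.Monic ∧ P.eval f = 0 ∧
      (∀ i, P.coeff i ∈ IntermediateField.adjoin KQ {jBar N}) ∧
      P.map Φ = ∏ x, (Polynomial.X - C (σ x f)) := by
  refine exists_charpoly_abstract Φ σ x0 hx0 (IntermediateField.adjoin KQ {jBar N})
    (Set.range (fm N)) (Set.range fun p : Polynomial KQ => Polynomial.aeval (jBar N) p)
    ?_ ?_ ?_ f
  · rintro s ⟨p, rfl⟩
    refine ⟨?_, fun x => hσj p x⟩
    exact (IntermediateField.algebra_adjoin_le_adjoin KQ {jBar N})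
      (aeval_mem_adjoin_singleton KQ (jBar N))
  · rintro r ⟨P0, rfl⟩
    exact h1 P0
  · intro g
    obtain ⟨P, p, hp, hgp⟩ := exists_mul_aeval_eq_fm N hrep g
    exact ⟨fm N P, ⟨P, rfl⟩, Polynomial.aeval (jBar N) p, ⟨p, rfl⟩, hp, hgp⟩

end Fermat.Agent.S24.CharpolyAlg
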