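import Mathlib
import Fermat.Agent.S24.DegNormCore

/-!
# S24 — B-DEG, abstract core (pure algebra)

An abstract "analytic dictionary": `F` is a field over `K`, every element of `F` is a quotient
`fm P / fm Q` of polynomial expressions in generators, `ev` evaluates the same polynomials in a
domain `R` (holomorphic functions), with `fm P = 0 ↔ ev P = 0`.  A finite family of injective
ring endomorphisms `T q` of `R` (the translates by coset representatives) is given such that the
coefficients of `∏ q, (T q (ev Q) * X - T q (ev P))` are `ev` of polynomials in one distinguished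
generator `X d1` ("`j`").

Outputs:
* `transcendental_j`;
* `exists_monic_root_val`: every `f` is a root of a monic polynomial of degree `|I|` over `K(j)`,
  whose coefficients are regular for every raw valuation for which all conjugates of `f` are
  regular;
* `finiteDimensional_and_finrank_le`, `card_le_finrank`, `finrank_eq_card`.
-/

set_option autoImplicit false
set_option linter.unusedSectionVars false

open Polynomial IntermediateField Module

namespace Fermat.Agent.S24.DegCore

noncomputable section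

/-! ### Raw valuations on a domain -/

section RawVal

variable {R : Type*} [CommRing R] [IsDomain R] (val : R → ℤ)

/-- `c = 0` or `b ≤ val c`. -/
def GE (b : ℤ) (c : R) : Prop := c = 0 ∨ b ≤ val c

variable {val}

theorem val_one (hmul : ∀ a b : R, a ≠ 0 → b ≠ 0 → val (a * b) = val a + val b) :
    val 1 = 0 := by
  have h := hmul 1 1 one_ne_zero one_ne_zero
  rw [mul_one] at h
  omega

theorem val_neg_one (hmul : ∀ a b : R, a ≠ 0 → b ≠ 0 → val (a * b) = val a + val b) :
    val (-1) = 0 := by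
  have h := hmul (-1) (-1) (neg_ne_zero.2 one_ne_zero) (neg_ne_zero.2 one_ne_zero)
  rw [neg_one_mul, neg_neg, val_one hmul] at h
  omega

theorem val_neg (hmul : ∀ a b : R, a ≠ 0 → b ≠ 0 → val (a * b) = val a + val b) {a : R}
    (ha : a ≠ 0) : val (-a) = val a := by
  have h := hmul (-1) a (neg_ne_zero.2 one_ne_zero) ha
  rw [neg_one_mul, val_neg_one hmul] at h
  omega

theorem GE.zero (b : ℤ) : GE val b (0 : R) := Or.inl rfl

theorem GE.neg (hmul : ∀ a b : R, a ≠ 0 → b ≠ 0 → val (a * b) = val a + val b) {b : ℤ} {c : R}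
    (h : GE val b c) : GE val b (-c) := by
  rcases h with rfl | h
  · left; simp
  · by_cases hc : c = 0
    · left; simp [hc]
    · right; rwa [val_neg hmul hc]

theorem GE.add (hadd : ∀ a b : R, a ≠ 0 → b ≠ 0 → a + b ≠ 0 → min (val a) (val b) ≤ val (a + b))
    {b : ℤ} {c c' : R} (h : GE val b c) (h' : GE val b c') : GE val b (c + c') := by
  by_cases h0 : c + c' = 0
  · exact Or.inl h0
  rcases h with rfl | h
  · rw [zero_add]; exact h'
  rcases h' with rfl | h'
  · rw [add_zero]; exact Or.inr h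
  by_cases hc : c = 0
  · subst hc; rw [zero_add]; exact Or.inr h'
  by_cases hc' : c' = 0
  · subst hc'; rw [add_zero]; exact Or.inr h
  right
  exact (le_min h h').trans (hadd c c' hc hc' h0)

theorem GE.sub (hmul : ∀ a b : R, a ≠ 0 → b ≠ 0 → val (a * b) = val a + val b)
    (hadd : ∀ a b : R, a ≠ 0 → b ≠ 0 → a + b ≠ 0 → min (val a) (val b) ≤ val (a + b))
    {b : ℤ} {c c' : R} (h : GE val b c) (h' : GE val b c') : GE val b (c - c') := by
  rw [sub_eq_add_neg]
  exact h.add hadd (h'.neg hmul)

theorem GE.mul (hmul : ∀ a b : R, a ≠ 0 → b ≠ 0 → val (a * b) = val a + val b)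
    {b e : ℤ} {u c : R} (hu : u ≠ 0) (he : e ≤ val u) (h : GE val b c) :
    GE val (e + b) (u * c) := by
  rcases h with rfl | h
  · left; simp
  · by_cases hc : c = 0
    · left; simp [hc]
    · right
      rw [hmul u c hu hc]
      omega

theorem val_prod (hmul : ∀ a b : R, a ≠ 0 → b ≠ 0 → val (a * b) = val a + val b)
    {I : Type*} (s : Finset I) (u : I → R) (hu : ∀ q ∈ s, u q ≠ 0) :
    val (∏ q ∈ s, u q) = ∑ q ∈ s, val (u q) := by
  classical
  induction s using Finset.induction_on with
  | empty => simp [val_one hmul]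
  | insert a s ha ih =>
    rw [Finset.prod_insert ha, Finset.sum_insert ha,
      hmul _ _ (hu a (Finset.mem_insert_self a s))
        (Finset.prod_ne_zero_iff.2 fun q hq => hu q (Finset.mem_insert_of_mem hq)),
      ih fun q hq => hu q (Finset.mem_insert_of_mem hq)]

/-- Coefficients of a product of linear forms `u q * X - v q` with `val (u q) ≤ val (v q)`
are divisible by `∏ u q` in the sense of valuations. -/
theorem GE_coeff_prod (hmul : ∀ a b : R, a ≠ 0 → b ≠ 0 → val (a * b) = val a + val b)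
    (hadd : ∀ a b : R, a ≠ 0 → b ≠ 0 → a + b ≠ 0 → min (val a) (val b) ≤ val (a + b))
    {I : Type*} (s : Finset I) (u v : I → R) (hu : ∀ q ∈ s, u q ≠ 0)
    (hv : ∀ q ∈ s, v q ≠ 0) (huv : ∀ q ∈ s, val (u q) ≤ val (v q)) (k : ℕ) :
    GE val (∑ q ∈ s, val (u q)) ((∏ q ∈ s, (C (u q) * X - C (v q))).coeff k) := by
  classical
  induction s using Finset.induction_on generalizing k with
  | empty =>
    simp only [Finset.sum_empty, Finset.prod_empty, coeff_one]
    split_ifs
    · right; rw [val_one hmul]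
    · exact GE.zero _
  | insert a s ha ih =>
    have ih' := ih (fun q hq => hu q (Finset.mem_insert_of_mem hq))
      (fun q hq => hv q (Finset.mem_insert_of_mem hq))
      (fun q hq => huv q (Finset.mem_insert_of_mem hq))
    rw [Finset.prod_insert ha, Finset.sum_insert ha]
    set A := ∏ q ∈ s, (C (u q) * X - C (v q)) with hA
    have e : (C (u a) * X - C (v a)) * A = C (u a) * (X * A) - C (v a) * A := by ring
    rw [e, coeff_sub, coeff_C_mul, coeff_C_mul]
    have hua := hu a (Finset.mem_insert_self a s)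
    have hva := hv a (Finset.mem_insert_self a s)
    have huva := huv a (Finset.mem_insert_self a s)
    refine GE.sub hmul hadd ?_ ?_
    · cases k with
      | zero => rw [coeff_X_mul_zero, mul_zero]; exact GE.zero _
      | succ k => rw [coeff_X_mul]; exact GE.mul hmul hua le_rfl (ih' k)
    · exact GE.mul hmul hva huva (ih' k)

end RawVal

theorem aux_field {L : Type*} [Field L] (a p q : L) (hq : q ≠ 0) (n k : ℕ) (hk : k ≤ n) :
    a * p ^ k * q ^ (n - k) = a * (p / q) ^ k * q ^ n := by
  have e : q ^ n = q ^ (n - k) * q ^ k := by rw [← pow_add, Nat.sub_add_cancel hk]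
  rw [e, div_pow]
  field_simp

/-! ### Products of linear forms -/

section Linear

variable {R : Type*} [CommRing R] [IsDomain R]

theorem natDegree_prod_linear {I : Type*} (s : Finset I) (u v : I → R) (hu : ∀ q ∈ s, u q ≠ 0) :
    (∏ q ∈ s, (C (u q) * X - C (v q))).natDegree = s.card ∧
      (∏ q ∈ s, (C (u q) * X - C (v q))).leadingCoeff = ∏ q ∈ s, u q := by
  have h1 : ∀ q ∈ s, (C (u q) * X - C (v q)).natDegree = 1 ∧
      (C (u q) * X - C (v q)).leadingCoeff = u q := by
    intro q hq
    have e : C (u q) * X - C (v q) = C (u q) * X + C (-v q) := by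
      rw [C_neg, sub_eq_add_neg]
    rw [e]
    exact ⟨natDegree_linear (hu q hq), leadingCoeff_linear (hu q hq)⟩
  constructor
  · rw [natDegree_prod _ _ (fun q hq => ?_), Finset.sum_congr rfl (fun q hq => (h1 q hq).1)]
    · simp
    · intro h0
      have := (h1 q hq).1
      rw [h0] at this
      simp at this
  · rw [leadingCoeff_prod]
    exact Finset.prod_congr rfl fun q hq => (h1 q hq).2

end Linear

/-! ### The dictionary -/

section Dict

variable {K F R D I : Type*} [Field K] [Field F] [Algebra K F] [CommRing R] [IsDomain R]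
  [Fintype I]
  (fm : MvPolynomial D K →ₐ[K] F) (ev : MvPolynomial D K →+* R) (T : I → R →+* R) (d1 : D)

/-- Polynomials in the distinguished generator. -/
abbrev toMv (d1 : D) : K[X] →ₐ[K] MvPolynomial D K := Polynomial.aeval (MvPolynomial.X d1)

theorem fm_toMv (a : K[X]) :
    fm (toMv d1 a) = Polynomial.aeval (fm (MvPolynomial.X d1)) a :=
  (Polynomial.aeval_algHom_apply fm (MvPolynomial.X d1) a).symm

theorem fm_toMv_mem (a : K[X]) :
    fm (toMv d1 a) ∈ K⟮fm (MvPolynomial.X d1)⟯ := by
  rw [fm_toMv]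
  have h : Polynomial.aeval (fm (MvPolynomial.X d1)) a ∈
      Algebra.adjoin K {fm (MvPolynomial.X d1)} := by
    rw [Algebra.adjoin_singleton_eq_range_aeval]
    exact ⟨a, rfl⟩
  exact IntermediateField.algebra_adjoin_le_adjoin K _ h

/-- `j` is transcendental. -/
theorem transcendental_j (hbridge : ∀ P, fm P = 0 ↔ ev P = 0)
    (htr : ∀ a : K[X], ev (toMv d1 a) = 0 → a = 0) :
    Transcendental K (fm (MvPolynomial.X d1)) := by
  rw [transcendental_iff]
  intro p hp
  rw [← fm_toMv] at hp
  exact htr p ((hbridge _).1 hp)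

variable {fm ev T d1}

/-- The basic relation: `f = fm P / fm Q` is a root of `∑ k, fm (a k) * X ^ k`, where `ev (a k)`
are the coefficients of `∏ q, (T q (ev Q) * X - T q (ev P))`. -/
theorem exists_relation (hbridge : ∀ P, fm P = 0 ↔ ev P = 0)
    (hTinj : ∀ q, Function.Injective (T q)) (q0 : I) (hT0 : ∀ P, T q0 (ev P) = ev P)
    (hsym : ∀ P Q (k : ℕ), ∃ a : K[X],
      (∏ q, (C (T q (ev Q)) * X - C (T q (ev P)))).coeff k = ev (toMv d1 a))
    (P Q : MvPolynomial D K) (hQ : fm Q ≠ 0) :
    ∃ a : ℕ → K[X],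
      (∀ k, (∏ q, (C (T q (ev Q)) * X - C (T q (ev P)))).coeff k = ev (toMv d1 (a k))) ∧
      ev (toMv d1 (a (Fintype.card I))) = ∏ q, T q (ev Q) ∧
      fm (toMv d1 (a (Fintype.card I))) ≠ 0 ∧
      ∑ k ∈ Finset.range (Fintype.card I + 1), fm (toMv d1 (a k)) * (fm P / fm Q) ^ k = 0 := by
  classical
  choose a ha using fun k => hsym P Q k
  set n := Fintype.card I with hn
  set A : R[X] := ∏ q, (C (T q (ev Q)) * X - C (T q (ev P))) with hA
  have hevQ : ev Q ≠ 0 := fun h => hQ ((hbridge Q).2 h)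
  have hu : ∀ q ∈ (Finset.univ : Finset I), T q (ev Q) ≠ 0 := fun q _ h =>
    hevQ ((hTinj q) (h.trans (map_zero _).symm))
  obtain ⟨hdeg, hlead⟩ := natDegree_prod_linear Finset.univ (fun q => T q (ev Q))
    (fun q => T q (ev P)) hu
  rw [← hA] at hdeg hlead
  have hdeg' : A.natDegree = n := by rw [hdeg, Finset.card_univ]
  have htop : ev (toMv d1 (a n)) = ∏ q, T q (ev Q) := by
    rw [← ha n, ← hlead, Polynomial.leadingCoeff, hdeg']
  have htop_ne : ev (toMv d1 (a n)) ≠ 0 := by
    rw [htop]
    exact Finset.prod_ne_zero_iff.2 hu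
  refine ⟨a, ha, htop, fun h => htop_ne ((hbridge _).1 h), ?_⟩
  -- the relation in `R`
  have hrel : ∑ k ∈ Finset.range (n + 1), ev (toMv d1 (a k)) * ev P ^ k * ev Q ^ (n - k) = 0 := by
    let L := FractionRing R
    have hinj : Function.Injective (algebraMap R L) := IsFractionRing.injective R L
    apply hinj
    rw [map_zero, map_sum]
    have hQL : algebraMap R L (ev Q) ≠ 0 := fun h => hevQ (hinj (h.trans (map_zero _).symm))
    set x : L := algebraMap R L (ev P) / algebraMap R L (ev Q) with hx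
    have heval : (A.map (algebraMap R L)).eval x = 0 := by
      rw [hA, Polynomial.map_prod, Polynomial.eval_prod]
      refine Finset.prod_eq_zero (Finset.mem_univ q0) ?_
      simp only [Polynomial.map_sub, Polynomial.map_mul, Polynomial.map_C, Polynomial.map_X,
        Polynomial.eval_sub, Polynomial.eval_mul, Polynomial.eval_C, Polynomial.eval_X]
      rw [hT0, hT0, hx, mul_div_cancel₀ _ hQL, sub_self]
    rw [Polynomial.eval_eq_sum_range' (n := n + 1)
      (by rw [Polynomial.natDegree_map_eq_of_injective hinj, hdeg']; exact Nat.lt_succ_self n)]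
      at heval
    have h2 : ∀ k ∈ Finset.range (n + 1),
        algebraMap R L (ev (toMv d1 (a k)) * ev P ^ k * ev Q ^ (n - k)) =
          (A.map (algebraMap R L)).coeff k * x ^ k * algebraMap R L (ev Q) ^ n := by
      intro k hk
      have hk' : k ≤ n := Nat.lt_succ_iff.mp (Finset.mem_range.mp hk)
      rw [Polynomial.coeff_map, ha k, map_mul, map_mul, map_pow, map_pow, hx]
      exact aux_field _ _ _ hQL n k hk'
    rw [Finset.sum_congr rfl h2, ← Finset.sum_mul, heval, zero_mul]
  -- transfer to `F`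
  have hrelF : ∑ k ∈ Finset.range (n + 1),
      fm (toMv d1 (a k)) * fm P ^ k * fm Q ^ (n - k) = 0 := by
    have : fm (∑ k ∈ Finset.range (n + 1), toMv d1 (a k) * P ^ k * Q ^ (n - k)) = 0 := by
      rw [hbridge, map_sum]
      simpa only [map_mul, map_pow] using hrel
    simpa only [map_sum, map_mul, map_pow] using this
  have h3 : ∀ k ∈ Finset.range (n + 1),
      fm (toMv d1 (a k)) * (fm P / fm Q) ^ k =
        fm (toMv d1 (a k)) * fm P ^ k * fm Q ^ (n - k) / fm Q ^ n := by
    intro k hk
    have hk' : k ≤ n := Nat.lt_succ_iff.mp (Finset.mem_range.mp hk)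
    rw [aux_field _ _ _ hQ n k hk', mul_div_assoc, div_self (pow_ne_zero n hQ), mul_one]
  rw [Finset.sum_congr rfl h3, ← Finset.sum_div, hrelF, zero_div]

end Dict

/-! ### Monic polynomials with prescribed lower coefficients -/

section MonicOf

variable {A : Type*} [CommRing A]

/-- `X ^ n + ∑ k < n, c k * X ^ k`. -/
def monicOf (n : ℕ) (c : ℕ → A) : A[X] := X ^ n + ∑ k ∈ Finset.range n, C (c k) * X ^ k

theorem coeff_lowSum (n : ℕ) (c : ℕ → A) (m : ℕ) :
    (∑ k ∈ Finset.range n, C (c k) * X ^ k).coeff m = if m < n then c m else 0 := by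
  rw [finsetSum_coeff]
  simp only [coeff_C_mul_X_pow]
  rw [Finset.sum_ite_eq]
  simp only [Finset.mem_range]

theorem degree_lowSum_lt (n : ℕ) (c : ℕ → A) :
    (∑ k ∈ Finset.range n, C (c k) * X ^ k).degree < (n : WithBot ℕ) := by
  rw [degree_lt_iff_coeff_zero]
  intro m hm
  rw [coeff_lowSum, if_neg (not_lt.2 hm)]

theorem monicOf_monic [Nontrivial A] (n : ℕ) (c : ℕ → A) : (monicOf n c).Monic :=
  monic_X_pow_add (degree_lowSum_lt n c)

theorem monicOf_natDegree [Nontrivial A] (n : ℕ) (c : ℕ → A) : (monicOf n c).natDegree = n := by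
  have h : (∑ k ∈ Finset.range n, C (c k) * X ^ k).degree < (X ^ n : A[X]).degree := by
    rw [degree_X_pow]
    exact degree_lowSum_lt n c
  rw [monicOf, natDegree_add_eq_left_of_degree_lt h, natDegree_X_pow]

theorem monicOf_coeff (n : ℕ) (c : ℕ → A) (m : ℕ) :
    (monicOf n c).coeff m = if m = n then 1 else if m < n then c m else 0 := by
  rw [monicOf, coeff_add, coeff_X_pow, coeff_lowSum]
  split_ifs with h1 h2
  · omega
  · simp
  · simp
  · simp

theorem monicOf_eval (n : ℕ) (c : ℕ → A) (x : A) :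
    (monicOf n c).eval x = x ^ n + ∑ k ∈ Finset.range n, c k * x ^ k := by
  simp [monicOf, eval_finsetSum]

theorem monicOf_aeval {B : Type*} [CommRing B] [Algebra A B] (n : ℕ) (c : ℕ → A) (x : B) :
    Polynomial.aeval x (monicOf n c) =
      x ^ n + ∑ k ∈ Finset.range n, algebraMap A B (c k) * x ^ k := by
  simp [monicOf, map_sum]

end MonicOf

/-! ### Degree statements -/

section Degree

variable {K F R D I : Type*} [Field K] [Field F] [Algebra K F] [CommRing R] [IsDomain R]
  [Fintype I]
  {fm : MvPolynomial D K →ₐ[K] F} {ev : MvPolynomial D K →+* R} {T : I → R →+* R} {d1 : D}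

/-- Every `fm P / fm Q` is a root of a monic polynomial of degree `|I|` over `K(j)`. -/
theorem exists_monic_aeval (hbridge : ∀ P, fm P = 0 ↔ ev P = 0)
    (hTinj : ∀ q, Function.Injective (T q)) (q0 : I) (hT0 : ∀ P, T q0 (ev P) = ev P)
    (hsym : ∀ P Q (k : ℕ), ∃ a : K[X],
      (∏ q, (C (T q (ev Q)) * X - C (T q (ev P)))).coeff k = ev (toMv d1 a))
    (P Q : MvPolynomial D K) (hQ : fm Q ≠ 0) :
    ∃ p : Polynomial K⟮fm (MvPolynomial.X d1)⟯, p.Monic ∧ p.natDegree = Fintype.card I ∧
      Polynomial.aeval (fm P / fm Q) p = 0 := by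
  obtain ⟨a, -, -, hne, hrel⟩ := exists_relation hbridge hTinj q0 hT0 hsym P Q hQ
  set n := Fintype.card I with hn
  let c : ℕ → K⟮fm (MvPolynomial.X d1)⟯ := fun k =>
    ⟨fm (toMv d1 (a k)) / fm (toMv d1 (a n)),
      div_mem (fm_toMv_mem fm d1 (a k)) (fm_toMv_mem fm d1 (a n))⟩
  refine ⟨monicOf n c, monicOf_monic n c, monicOf_natDegree n c, ?_⟩
  rw [monicOf_aeval]
  rw [Finset.sum_range_succ] at hrel
  have hc : ∀ k, algebraMap K⟮fm (MvPolynomial.X d1)⟯ F (c k) =
      fm (toMv d1 (a k)) / fm (toMv d1 (a n)) := fun k => rfl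
  simp only [hc]
  have h1 : (fm P / fm Q) ^ n + ∑ k ∈ Finset.range n,
      fm (toMv d1 (a k)) / fm (toMv d1 (a n)) * (fm P / fm Q) ^ k =
      (∑ k ∈ Finset.range n, fm (toMv d1 (a k)) * (fm P / fm Q) ^ k +
        fm (toMv d1 (a n)) * (fm P / fm Q) ^ n) / fm (toMv d1 (a n)) := by
    rw [add_div, Finset.sum_div, mul_div_cancel_left₀ _ hne, add_comm]
    congr 1
    refine Finset.sum_congr rfl fun k _ => ?_
    rw [div_mul_eq_mul_div]
  rw [h1, hrel, zero_div]

/-- Valuation form: the monic polynomial has coefficients `fm A / fm B` with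
`val (ev B) ≤ val (ev A)` for every raw valuation `val` on `R` for which all conjugates
`T q (ev P) / T q (ev Q)` are regular. -/
theorem exists_monic_root_val (hbridge : ∀ P, fm P = 0 ↔ ev P = 0)
    (hTinj : ∀ q, Function.Injective (T q)) (q0 : I) (hT0 : ∀ P, T q0 (ev P) = ev P)
    (hsym : ∀ P Q (k : ℕ), ∃ a : K[X],
      (∏ q, (C (T q (ev Q)) * X - C (T q (ev P)))).coeff k = ev (toMv d1 a))
    (P Q : MvPolynomial D K) (hP : fm P ≠ 0) (hQ : fm Q ≠ 0) :
    ∃ p : F[X], p.Monic ∧ p.natDegree = Fintype.card I ∧ p.eval (fm P / fm Q) = 0 ∧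
      ∀ k, ∃ A B : K[X], fm (toMv d1 B) ≠ 0 ∧ p.coeff k = fm (toMv d1 A) / fm (toMv d1 B) ∧
        ∀ val : R → ℤ, (∀ a b : R, a ≠ 0 → b ≠ 0 → val (a * b) = val a + val b) →
          (∀ a b : R, a ≠ 0 → b ≠ 0 → a + b ≠ 0 → min (val a) (val b) ≤ val (a + b)) →
          (∀ q, val (T q (ev Q)) ≤ val (T q (ev P))) →
          GE val (val (ev (toMv d1 B))) (ev (toMv d1 A)) := by
  classical
  obtain ⟨a, ha, htop, hne, hrel⟩ := exists_relation hbridge hTinj q0 hT0 hsym P Q hQ
  set n := Fintype.card I with hn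
  let c : ℕ → F := fun k => fm (toMv d1 (a k)) / fm (toMv d1 (a n))
  have hevP : ev P ≠ 0 := fun h => hP ((hbridge P).2 h)
  have hevQ : ev Q ≠ 0 := fun h => hQ ((hbridge Q).2 h)
  have hu : ∀ q ∈ (Finset.univ : Finset I), T q (ev Q) ≠ 0 := fun q _ h =>
    hevQ ((hTinj q) (h.trans (map_zero _).symm))
  have hv : ∀ q ∈ (Finset.univ : Finset I), T q (ev P) ≠ 0 := fun q _ h =>
    hevP ((hTinj q) (h.trans (map_zero _).symm))
  have hGE : ∀ k, ∀ val : R → ℤ, (∀ a b : R, a ≠ 0 → b ≠ 0 → val (a * b) = val a + val b) →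
      (∀ a b : R, a ≠ 0 → b ≠ 0 → a + b ≠ 0 → min (val a) (val b) ≤ val (a + b)) →
      (∀ q, val (T q (ev Q)) ≤ val (T q (ev P))) →
      GE val (val (ev (toMv d1 (a n)))) (ev (toMv d1 (a k))) := by
    intro k val hmul hadd hle
    have h := GE_coeff_prod hmul hadd Finset.univ (fun q => T q (ev Q)) (fun q => T q (ev P))
      hu hv (fun q _ => hle q) k
    rw [ha k, ← val_prod hmul Finset.univ (fun q => T q (ev Q)) hu, ← htop] at h
    exact h
  refine ⟨monicOf n c, monicOf_monic n c, monicOf_natDegree n c, ?_, fun k => ?_⟩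
  · rw [monicOf_eval]
    rw [Finset.sum_range_succ] at hrel
    have h1 : (fm P / fm Q) ^ n + ∑ k ∈ Finset.range n, c k * (fm P / fm Q) ^ k =
        (∑ k ∈ Finset.range n, fm (toMv d1 (a k)) * (fm P / fm Q) ^ k +
          fm (toMv d1 (a n)) * (fm P / fm Q) ^ n) / fm (toMv d1 (a n)) := by
      rw [add_div, Finset.sum_div, mul_div_cancel_left₀ _ hne, add_comm]
      congr 1
      refine Finset.sum_congr rfl fun k _ => ?_
      simp only [c]
      rw [div_mul_eq_mul_div]
    rw [h1, hrel, zero_div]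
  · rw [monicOf_coeff]
    by_cases h1 : k = n
    · refine ⟨a n, a n, hne, ?_, fun val hmul hadd hle => ?_⟩
      · rw [if_pos h1, div_self hne]
      · have := hGE n val hmul hadd hle
        exact this
    · by_cases h2 : k < n
      · refine ⟨a k, a n, hne, ?_, fun val hmul hadd hle => hGE k val hmul hadd hle⟩
        rw [if_neg h1, if_pos h2]
      · refine ⟨0, a n, hne, ?_, fun val hmul hadd hle => ?_⟩
        · rw [if_neg h1, if_neg h2, map_zero, map_zero, zero_div]
        · left; rw [map_zero, map_zero]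

/-- `F / K(j)` is finite of degree at most `|I|`. -/
theorem finiteDimensional_and_finrank_le [CharZero K] (hbridge : ∀ P, fm P = 0 ↔ ev P = 0)
    (hTinj : ∀ q, Function.Injective (T q)) (q0 : I) (hT0 : ∀ P, T q0 (ev P) = ev P)
    (hsym : ∀ P Q (k : ℕ), ∃ a : K[X],
      (∏ q, (C (T q (ev Q)) * X - C (T q (ev P)))).coeff k = ev (toMv d1 a))
    (hrep : ∀ f : F, ∃ P Q, fm Q ≠ 0 ∧ f = fm P / fm Q) :
    FiniteDimensional K⟮fm (MvPolynomial.X d1)⟯ F ∧
      finrank K⟮fm (MvPolynomial.X d1)⟯ F ≤ Fintype.card I := by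
  set n := Fintype.card I with hn
  have : CharZero K⟮fm (MvPolynomial.X d1)⟯ :=
    charZero_of_injective_algebraMap (algebraMap K K⟮fm (MvPolynomial.X d1)⟯).injective
  have hroot : ∀ f : F, ∃ p : Polynomial K⟮fm (MvPolynomial.X d1)⟯, p.Monic ∧
      p.natDegree = n ∧ Polynomial.aeval f p = 0 := by
    intro f
    obtain ⟨P, Q, hQ, rfl⟩ := hrep f
    exact exists_monic_aeval hbridge hTinj q0 hT0 hsym P Q hQ
  have halg : Algebra.IsAlgebraic K⟮fm (MvPolynomial.X d1)⟯ F :=
    ⟨fun f => by
      obtain ⟨p, hm, -, h0⟩ := hroot f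
      exact ⟨p, hm.ne_zero, h0⟩⟩
  have hfd : FiniteDimensional K⟮fm (MvPolynomial.X d1)⟯ F := by
    by_contra hnfd
    obtain ⟨L, hL, hlt⟩ := IntermediateField.exists_lt_finrank_of_infinite_dimensional hnfd n
    have := hL
    have hle : finrank K⟮fm (MvPolynomial.X d1)⟯ L ≤ n :=
      DegNorm.finrank_le_of_forall_aeval n (fun θ => by
        obtain ⟨p, hm, hd, h0⟩ := hroot (θ : F)
        refine ⟨p, hm, hd, ?_⟩
        have h1 := Polynomial.aeval_algHom_apply L.val θ p
        rw [IntermediateField.val_mk] at h1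
        have h2 : L.val (Polynomial.aeval θ p) = 0 := by rw [← h1]; exact h0
        exact Subtype.ext h2)
    omega
  exact ⟨hfd, DegNorm.finrank_le_of_forall_aeval n hroot⟩

/-- Lower bound for the degree from pairwise distinct conjugates of one element. -/
theorem card_le_finrank (hbridge : ∀ P, fm P = 0 ↔ ev P = 0)
    (hinv : ∀ (a : K[X]) (q : I), T q (ev (toMv d1 a)) = ev (toMv d1 a))
    (P0 : MvPolynomial D K) (hdist : Function.Injective fun q => T q (ev P0))
    [FiniteDimensional K⟮fm (MvPolynomial.X d1)⟯ F] :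
    Fintype.card I ≤ finrank K⟮fm (MvPolynomial.X d1)⟯ F := by
  classical
  set j := fm (MvPolynomial.X d1) with hj
  set y := fm P0 with hy
  have hint : IsIntegral K⟮j⟯ y := Algebra.IsIntegral.isIntegral y
  set μ := minpoly K⟮j⟯ y with hμ
  have hμm : μ.Monic := minpoly.monic hint
  set m := μ.natDegree with hm
  have hm_le : m ≤ finrank K⟮j⟯ F := minpoly.natDegree_le y
  have hcoef : ∀ i, ∃ r s : K[X], Polynomial.aeval j s ≠ 0 ∧
      ((μ.coeff i : K⟮j⟯) : F) = Polynomial.aeval j r / Polynomial.aeval j s := by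
    intro i
    obtain ⟨r, s, h⟩ := (IntermediateField.mem_adjoin_simple_iff K _).1 (μ.coeff i).2
    by_cases hs : Polynomial.aeval j s = 0
    · exact ⟨0, 1, by simp, by rw [h, hs]; simp⟩
    · exact ⟨r, s, hs, h⟩
  choose r s hs hrs using hcoef
  set b : K[X] := ∏ i ∈ Finset.range (m + 1), s i with hb_def
  let a : ℕ → K[X] := fun i => r i * ∏ l ∈ (Finset.range (m + 1)).erase i, s l
  have hb : Polynomial.aeval j b ≠ 0 := by
    rw [hb_def, map_prod]
    exact Finset.prod_ne_zero_iff.2 fun i _ => hs i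
  have ha : ∀ i ∈ Finset.range (m + 1),
      Polynomial.aeval j (a i) = ((μ.coeff i : K⟮j⟯) : F) * Polynomial.aeval j b := by
    intro i hi
    have e : b = s i * ∏ l ∈ (Finset.range (m + 1)).erase i, s l := by
      rw [hb_def, Finset.mul_prod_erase _ _ hi]
    rw [e, map_mul, map_mul, hrs i]
    field_simp [hs i]
  have hrelF : ∑ i ∈ Finset.range (m + 1), Polynomial.aeval j (a i) * y ^ i = 0 := by
    have h0 : Polynomial.aeval y μ = 0 := minpoly.aeval _ _
    rw [Polynomial.aeval_eq_sum_range] at h0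
    calc ∑ i ∈ Finset.range (m + 1), Polynomial.aeval j (a i) * y ^ i
        = Polynomial.aeval j b * ∑ i ∈ Finset.range (m + 1), μ.coeff i • y ^ i := by
          rw [Finset.mul_sum]
          refine Finset.sum_congr rfl fun i hi => ?_
          rw [ha i hi, Algebra.smul_def]
          have : algebraMap K⟮j⟯ F (μ.coeff i) = ((μ.coeff i : K⟮j⟯) : F) := rfl
          rw [this]
          ring
      _ = 0 := by rw [h0, mul_zero]
  have hrelR : ∑ i ∈ Finset.range (m + 1), ev (toMv d1 (a i)) * ev P0 ^ i = 0 := by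
    have h1 : fm (∑ i ∈ Finset.range (m + 1), toMv d1 (a i) * P0 ^ i) = 0 := by
      rw [map_sum]
      simp only [map_mul, map_pow, fm_toMv]
      exact hrelF
    have h2 := (hbridge _).1 h1
    simpa only [map_sum, map_mul, map_pow] using h2
  set π : R[X] := ∑ i ∈ Finset.range (m + 1), C (ev (toMv d1 (a i))) * X ^ i with hπ
  have hπroot : ∀ q, π.eval (T q (ev P0)) = 0 := by
    intro q
    have h3 := congrArg (T q) hrelR
    rw [map_sum, map_zero] at h3
    rw [hπ, eval_finsetSum, ← h3]
    refine Finset.sum_congr rfl fun i _ => ?_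
    rw [eval_mul, eval_C, eval_pow, eval_X, (T q).map_mul, (T q).map_pow, hinv]
  have hπcoeff : π.coeff m = ev (toMv d1 (a m)) := by
    rw [hπ, coeff_lowSum, if_pos (Nat.lt_succ_self m)]
  have hπne : π ≠ 0 := by
    intro h0
    have h1 : ev (toMv d1 (a m)) = 0 := by rw [← hπcoeff, h0, coeff_zero]
    have h2 : fm (toMv d1 (a m)) = 0 := (hbridge _).2 h1
    rw [fm_toMv, ha m (Finset.mem_range.2 (Nat.lt_succ_self m))] at h2
    have h3 : μ.coeff m = 1 := hμm.coeff_natDegree
    rw [h3] at h2
    simp only [OneMemClass.coe_one, one_mul] at h2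
    exact hb h2
  have hπdeg : π.natDegree ≤ m := by
    rw [natDegree_le_iff_coeff_eq_zero]
    intro N hN
    rw [hπ, coeff_lowSum, if_neg (by omega)]
  let Z : Finset R := Finset.univ.image (fun q => T q (ev P0))
  have hZcard : Z.card = Fintype.card I := by
    rw [Finset.card_image_of_injective _ hdist, Finset.card_univ]
  have hZ : Z.val ⊆ π.roots := by
    intro z hz
    rw [Finset.mem_val, Finset.mem_image] at hz
    obtain ⟨q, -, rfl⟩ := hz
    rw [mem_roots hπne]
    exact hπroot q
  have := Polynomial.card_le_degree_of_subset_roots hZ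
  omega

/-- The degree of `F / K(j)` is `|I|`. -/
theorem finrank_eq_card [CharZero K] (hbridge : ∀ P, fm P = 0 ↔ ev P = 0)
    (hTinj : ∀ q, Function.Injective (T q)) (q0 : I) (hT0 : ∀ P, T q0 (ev P) = ev P)
    (hsym : ∀ P Q (k : ℕ), ∃ a : K[X],
      (∏ q, (C (T q (ev Q)) * X - C (T q (ev P)))).coeff k = ev (toMv d1 a))
    (hrep : ∀ f : F, ∃ P Q, fm Q ≠ 0 ∧ f = fm P / fm Q)
    (hinv : ∀ (a : K[X]) (q : I), T q (ev (toMv d1 a)) = ev (toMv d1 a))
    (P0 : MvPolynomial D K) (hdist : Function.Injective fun q => T q (ev P0)) :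
    FiniteDimensional K⟮fm (MvPolynomial.X d1)⟯ F ∧
      finrank K⟮fm (MvPolynomial.X d1)⟯ F = Fintype.card I := by
  obtain ⟨hfd, hle⟩ := finiteDimensional_and_finrank_le hbridge hTinj q0 hT0 hsym hrep
  have := hfd
  exact ⟨hfd, le_antisymm hle (card_le_finrank hbridge hinv P0 hdist)⟩

end Degree

end

end Fermat.Agent.S24.DegCore
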