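import Fermat.Agent.S24.LevelOneInv
import Fermat.Agent.S24.QExpJ
import Fermat.Agent.S24.QLaurent
import Fermat.Agent.S24.ModDefs
import Fermat.Prelude.Thm_ModularCurve_coeffMap_qExpand

/-!
# S24 — glue: level-one invariants with a `K`-rational `q_N`-expansion are `K`-polynomials in `J`

* `exists_coeffMap_eq`: a Laurent series over `ℂ` all of whose coefficients lie in the range of
  `ι : K →+* ℂ` is `coeffMap ι S`.
* `hasQExp_polynomial`: polynomial rule for `QExp.HasQExp`.
* `exists_poly_of_invariant_hasQExp`: an `SL(2, ℤ)`-invariant function `G` on `ℍ` which is the sum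
  of a Laurent series in `q_N` with coefficients in `ι(K)` equals `(a.map ι).eval ∘ J` for a
  polynomial `a` over `K`, and the series is `a(j(q))` with `q ↦ q^N` substituted.
* `exists_poly_of_invariant_rational`: the same for `K = ℚ̄`, `ι = iotaK`.
-/

set_option autoImplicit false

open UpperHalfPlane ModularForm Filter
open scoped MatrixGroups Manifold Topology

namespace Fermat.Agent.S24.LevelOneGlue

open Fermat.Agent.S24 Fermat.Agent.S20 ModularCurve
open Fermat.Agent.S24.LevelOneInv Fermat.Agent.S24.QExp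

noncomputable section

/-- A Laurent series over `ℂ` with all coefficients in the range of `ι` comes from `K`. -/
theorem exists_coeffMap_eq {K : Type*} [Field K] (ι : K →+* ℂ) (M : LaurentSeries ℂ)
    (h : ∀ k : ℤ, ∃ c : K, ι c = M.coeff k) : ∃ S : LaurentSeries K, coeffMap ι S = M := by
  choose c hc using h
  refine ⟨⟨c, M.isPWO_support.mono ?_⟩, ?_⟩
  · intro k hk
    simp only [Function.mem_support, ne_eq] at hk
    rw [HahnSeries.mem_support, ← hc k]
    intro h0
    exact hk ((map_eq_zero ι).mp h0)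
  · ext k
    rw [coeffMap_coeff]
    exact hc k

/-- **Polynomial rule** for `q`-expansions. -/
theorem hasQExp_polynomial {h : ℕ} {f : ℍ → ℂ} {L : LaurentSeries ℂ} (hf : HasQExp h f L)
    (P : Polynomial ℂ) : HasQExp h (fun z => P.eval (f z)) (Polynomial.aeval L P) := by
  induction P using Polynomial.induction_on' with
  | add p q hp hq =>
    rw [map_add]
    exact (hp.add hq).congr_fun' (fun z => by simp)
  | monomial n a =>
    rw [Polynomial.aeval_monomial, algebraMap_laurentSeries_eq_single]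
    have h1 := (hf.pow n).const_mul a
    rw [HahnSeries.C_apply] at h1
    exact h1.congr_fun' (fun z => by simp [Polynomial.eval_monomial])

/-- Level change `q_1 → q_N` for `HasQExp`. -/
theorem hasQExp_level {f : ℍ → ℂ} {L : LaurentSeries ℂ} (hf : HasQExp 1 f L) (N : ℕ) [NeZero N] :
    HasQExp N f (qExpand ℂ N L) := by
  intro τ
  have h1 := (QLaurent.hasSum_qExpand_iff (h := 1) (k := N) L τ (f τ)).mpr (by simpa using hf τ)
  simpa only [one_mul] using h1

/-- A function with a `q_N`-expansion has a pole of finite order at `i∞` (in terms of `Δ`). -/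
theorem exists_bdd_of_hasQExp {N : ℕ} [NeZero N] {G : ℍ → ℂ} {L : LaurentSeries ℂ}
    (hL : HasQExp N G L) :
    MDifferentiable 𝓘(ℂ) 𝓘(ℂ) G ∧ ∃ m : ℕ, IsBoundedAtImInfty (Δf ^ m * G) := by
  have hmem : G ∈ QLaurent.MerInf N := QLaurent.mem_MerInf_of_hasSum hL
  obtain ⟨hmd, -, m, hm⟩ := QLaurent.mem_MerInf_iff_discriminant.mp hmem
  exact ⟨hmd, m, hm⟩

/-- **Glue, general coefficient field.** An `SL(2, ℤ)`-invariant function which is the sum of a
Laurent series in `q_N` with coefficients in `ι(K)` is a `K`-polynomial in `J`. -/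
theorem exists_poly_of_invariant_hasQExp {K : Type*} [Field K] [Algebra ℚ K] (ι : K →+* ℂ)
    (G : ℍ → ℂ) (hinv : ∀ (γ : SL(2, ℤ)) (z : ℍ), G (γ • z) = G z) (N : ℕ) [NeZero N]
    (L : LaurentSeries K) (hL : HasQExp N G (coeffMap ι L)) :
    ∃ a : Polynomial K, (∀ z, G z = (a.map ι).eval (Jfun z)) ∧
      L = qExpand K N (Polynomial.aeval (coeffEmb K jq) a) := by
  obtain ⟨hmd, m, hm⟩ := exists_bdd_of_hasQExp hL
  obtain ⟨P, -, hP⟩ := exists_poly_of_invariant G hmd hinv m hm
  have hPJ : ∀ z, G z = P.eval (Jfun z) := hP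
  -- the expansion of `P ∘ J` at level `N`
  have h1 : HasQExp 1 (fun z => P.eval (Jfun z)) (Polynomial.aeval jqC P) :=
    hasQExp_polynomial hasQExp_Jfun P
  have h2 : HasQExp N G (qExpand ℂ N (Polynomial.aeval jqC P)) :=
    (hasQExp_level h1 N).congr_fun' (fun z => (hPJ z).symm)
  have h3 : qExpand ℂ N (Polynomial.aeval jqC P) = coeffMap ι L := h2.unique hL
  -- descend
  obtain ⟨S, hS⟩ := exists_coeffMap_eq ι (Polynomial.aeval jqC P) (fun k => by
    refine ⟨L.coeff ((N : ℤ) * k), ?_⟩
    rw [← qExpand_coeff_mul N (Polynomial.aeval jqC P) k, h3, coeffMap_coeff])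
  obtain ⟨a, haP, haS⟩ := exists_poly_descent ι P S hS.symm
  refine ⟨a, fun z => by rw [haP]; exact hPJ z, ?_⟩
  apply QExp.coeffMap_injective' ι
  rw [← h3, coeffMap_qExpand, haS, hS]

/-- **Glue for `K = ℚ̄`** (the shape consumed by `[DEG]`). -/
theorem exists_poly_of_invariant_rational (G : ℍ → ℂ) (_hG : MDifferentiable 𝓘(ℂ) 𝓘(ℂ) G)
    (hinv : ∀ (γ : SL(2, ℤ)) (z : ℍ), G (γ • z) = G z) (N : ℕ) [NeZero N]
    (L : LaurentSeries KQ) (hL : HasQExp N G (coeffMap iotaK L)) :
    ∃ a : Polynomial KQ, ∀ z, G z = (a.map iotaK).eval (Jfun z) := by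
  obtain ⟨a, ha, -⟩ := exists_poly_of_invariant_hasQExp iotaK G hinv N L hL
  exact ⟨a, ha⟩

/-- The raw `HasSum` shape. -/
theorem exists_poly_of_invariant_hasSum {K : Type*} [Field K] [Algebra ℚ K] (ι : K →+* ℂ)
    (G : ℍ → ℂ) (hinv : ∀ (γ : SL(2, ℤ)) (z : ℍ), G (γ • z) = G z) (N : ℕ) [NeZero N]
    (L : LaurentSeries K)
    (hL : ∀ τ : ℍ, HasSum (fun n : ℤ => ι (L.coeff n) *
      Function.Periodic.qParam (N : ℝ) (τ : ℂ) ^ n) (G τ)) :
    ∃ a : Polynomial K, (∀ z, G z = (a.map ι).eval (Jfun z)) ∧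
      L = qExpand K N (Polynomial.aeval (coeffEmb K jq) a) :=
  exists_poly_of_invariant_hasQExp ι G hinv N L hL

/-- Polynomials in `J` are determined by their values. -/
theorem poly_map_eq_of_forall_eval_Jfun {K : Type*} [Field K] (ι : K →+* ℂ) (a b : Polynomial K)
    (h : ∀ z : ℍ, (a.map ι).eval (Jfun z) = (b.map ι).eval (Jfun z)) : a = b := by
  have := poly_eq_of_forall_eval_J_eq (a.map ι) (b.map ι) h
  exact Polynomial.map_injective ι ι.injective this

end

end Fermat.Agent.S24.LevelOneGlue
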