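import Mathlib
import Fermat.Agent.S24.ModDefs
import Fermat.Agent.S24.DegCore
import Fermat.Agent.S24.QExpCusp
import Fermat.Agent.S24.CuspHom
import Fermat.Agent.S24.LevelOneGlue
import Fermat.Agent.S24.HNFMod
import Fermat.Agent.S24.ValPt
import Fermat.Agent.S24.Rep
import Fermat.Agent.S24.JPt
import Fermat.Agent.S24.PtVal
import Fermat.Agent.S24.QLaurent

/-!
# S24 `[DEG]`: instantiation of the abstract core `DegCore`

`R` is the ring of functions on `ℍ` all of whose translates have a `q_N`-expansion with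
coefficients in `ℚ̄`; the translates by coset representatives act on it.  Outputs:

* `transcendental_jBar`, `finiteDimensional_jBar`, `finrank_jBar`, `card_XN_le_finrank`;
* `exists_charpoly`: every `f : F` is a root of a monic polynomial over `K(j)` whose coefficients
  are regular wherever all conjugates of `f` are.
-/

set_option autoImplicit false

open UpperHalfPlane ModularForm CongruenceSubgroup Polynomial
open scoped MatrixGroups Manifold IntermediateField

noncomputable section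

namespace Fermat.Agent.S24.DegFin

open Fermat.Agent.S24 ModularCurve

variable (N : ℕ) [NeZero N]

/-! ### translates -/

theorem trans_one (G : ℍ → ℂ) : trans 1 G = G := by
  funext z
  simp [trans]

theorem trans_trans (g h : SL(2, ℤ)) (G : ℍ → ℂ) : trans g (trans h G) = trans (g * h) G := by
  funext z
  simp [trans, mul_smul]

theorem trans_injective (g : SL(2, ℤ)) : Function.Injective (trans g) := by
  intro G H h
  funext z
  have := congrFun h (g • z)
  simpa [trans] using this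

/-! ### the ring `R` -/

/-- Functions all of whose translates have a `ℚ̄`-rational `q_N`-expansion. -/
def RN : Subring (ℍ → ℂ) where
  carrier := {G | ∀ g : SL(2, ℤ), ∃ L : LaurentSeries KQ,
    QExp.HasQExp N (trans g G) (coeffMap iotaK L)}
  mul_mem' := by
    intro G H hG hH g
    obtain ⟨L, hL⟩ := hG g
    obtain ⟨M, hM⟩ := hH g
    refine ⟨L * M, ?_⟩
    rw [map_mul]
    exact hL.mul hM
  one_mem' := fun g => ⟨1, by rw [map_one]; exact QExp.HasQExp.one N⟩
  add_mem' := by
    intro G H hG hH g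
    obtain ⟨L, hL⟩ := hG g
    obtain ⟨M, hM⟩ := hH g
    refine ⟨L + M, ?_⟩
    rw [map_add]
    exact hL.add hM
  zero_mem' := fun g => ⟨0, by rw [map_zero]; exact QExp.HasQExp.zero N⟩
  neg_mem' := by
    intro G hG g
    obtain ⟨L, hL⟩ := hG g
    refine ⟨-L, ?_⟩
    rw [map_neg]
    exact hL.neg

theorem mem_RN_iff (G : ℍ → ℂ) : G ∈ RN N ↔ ∀ g : SL(2, ℤ), ∃ L : LaurentSeries KQ,
    QExp.HasQExp N (trans g G) (coeffMap iotaK L) := Iff.rfl

theorem mdiff_of_mem {G : ℍ → ℂ} (hG : G ∈ RN N) : MDiff G := by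
  obtain ⟨L, hL⟩ := hG 1
  rw [trans_one] at hL
  exact (QLaurent.mem_MerInf_of_hasSum (h := N) hL).1

theorem ev_mem (P : MvPolynomial (Dv N) KQ) : ev N P ∈ RN N :=
  fun g => ⟨_, QExp.hasQExp_trans_ev N g P⟩

theorem trans_mem (h : SL(2, ℤ)) {G : ℍ → ℂ} (hG : G ∈ RN N) : trans h G ∈ RN N := by
  intro g
  obtain ⟨L, hL⟩ := hG (g * h)
  exact ⟨L, by rw [trans_trans]; exact hL⟩

instance instIsDomainRN : IsDomain (RN N) := by
  haveI : NoZeroDivisors (RN N) := ⟨by
    intro a b hab
    have h1 : (a : ℍ → ℂ) * (b : ℍ → ℂ) = 0 := congrArg Subtype.val hab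
    rcases (UpperHalfPlane.mul_eq_zero_iff (mdiff_of_mem N a.2) (mdiff_of_mem N b.2)).1 h1
      with h | h
    · exact Or.inl (Subtype.ext h)
    · exact Or.inr (Subtype.ext h)⟩
  exact NoZeroDivisors.to_isDomain _

/-- `ev` with values in `R`. -/
def evR : MvPolynomial (Dv N) KQ →+* RN N := (ev N).codRestrict (RN N) (ev_mem N)

@[simp] theorem coe_evR (P : MvPolynomial (Dv N) KQ) : ((evR N P : RN N) : ℍ → ℂ) = ev N P := rfl

/-- The translate by `h` as a ring endomorphism of `R`. -/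
def transR (h : SL(2, ℤ)) : RN N →+* RN N :=
  (QExp.transHom h).restrict (RN N) (RN N) (fun _ hG => trans_mem N h hG)

@[simp] theorem coe_transR (h : SL(2, ℤ)) (G : RN N) :
    ((transR N h G : RN N) : ℍ → ℂ) = trans h (G : ℍ → ℂ) := rfl

instance instFintypeXN : Fintype (XN N) := Subgroup.fintypeQuotientOfFiniteIndex

/-- The translates by the coset representatives. -/
def TR (q : XN N) : RN N →+* RN N := transR N q.out

/-! ### the hypotheses of `DegCore` -/

theorem hbridge (P : MvPolynomial (Dv N) KQ) : fm N P = 0 ↔ evR N P = 0 := by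
  rw [ValPt.fm_eq_zero_iff]
  constructor
  · intro h; exact Subtype.ext h
  · intro h; exact congrArg Subtype.val h

theorem hTinj (q : XN N) : Function.Injective (TR N q) := by
  intro a b h
  apply Subtype.ext
  exact trans_injective q.out (congrArg Subtype.val h)

/-- The identity coset. -/
def q0 : XN N := QuotientGroup.mk 1

theorem hT0 (P : MvPolynomial (Dv N) KQ) : TR N (q0 N) (evR N P) = evR N P := by
  apply Subtype.ext
  show trans (q0 N).out (ev N P) = ev N P
  obtain ⟨h, hh⟩ := QuotientGroup.mk_out_eq_mul (Gamma0 N) (1 : SL(2, ℤ))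
  have h1 : (q0 N).out = 1 * (h : SL(2, ℤ)) := hh
  rw [h1, HNFMod.trans_ev_of_mem_Gamma0 N P 1 h h.2, trans_one]

theorem fm_X_d1 : fm N (MvPolynomial.X (JPt.d1 N)) = jBar N := by
  simp [fm, jBar, JPt.d1]

theorem ev_toMv (a : KQ[X]) :
    ev N (DegCore.toMv (JPt.d1 N) a) = fun z => (a.map iotaK).eval (Jfun z) := by
  induction a using Polynomial.induction_on' with
  | add p q hp hq =>
    rw [map_add, map_add, hp, hq]
    funext z
    simp
  | monomial n c =>
    have h1 : DegCore.toMv (JPt.d1 N) (Polynomial.monomial n c) =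
        MvPolynomial.C c * MvPolynomial.X (JPt.d1 N) ^ n := by
      simp [DegCore.toMv, Polynomial.aeval_monomial, MvPolynomial.algebraMap_eq]
    rw [h1, map_mul, map_pow, JPt.ev_X_d1, ValPt.ev_C]
    funext z
    simp

theorem hinv (a : KQ[X]) (q : XN N) :
    TR N q (evR N (DegCore.toMv (JPt.d1 N) a)) = evR N (DegCore.toMv (JPt.d1 N) a) := by
  apply Subtype.ext
  show trans q.out (ev N (DegCore.toMv (JPt.d1 N) a)) = ev N (DegCore.toMv (JPt.d1 N) a)
  rw [ev_toMv]
  funext z
  show (a.map iotaK).eval (Jfun (q.out⁻¹ • z)) = (a.map iotaK).eval (Jfun z)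
  rw [JPt.Jfun_smul]

theorem htr (a : KQ[X]) (h : evR N (DegCore.toMv (JPt.d1 N) a) = 0) : a = 0 := by
  have h1 : ev N (DegCore.toMv (JPt.d1 N) a) = 0 := congrArg Subtype.val h
  rw [ev_toMv] at h1
  apply LevelOneGlue.poly_map_eq_of_forall_eval_Jfun iotaK a 0
  intro z
  have := congrFun h1 z
  simpa using this

/-- The generator with pairwise distinct translates. -/
def P0 : MvPolynomial (Dv N) KQ := MvPolynomial.X (⟨N, dvd_rfl⟩ : Dv N)

theorem hdist : Function.Injective fun q : XN N => TR N q (evR N (P0 N)) := by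
  intro q q' h
  apply HNFMod.injective_trans_out_ev N
  exact congrArg Subtype.val h

theorem hrep (f : FN N) : ∃ P Q, fm N Q ≠ 0 ∧ f = fm N P / fm N Q := Rep.exists_isRep N f

theorem transR_TR (γ : SL(2, ℤ)) (q : XN N) (P : MvPolynomial (Dv N) KQ) :
    transR N γ (TR N q (evR N P)) = TR N (γ • q) (evR N P) := by
  apply Subtype.ext
  show trans γ (trans q.out (ev N P)) = trans (γ • q).out (ev N P)
  rw [trans_trans]
  apply HNFMod.trans_ev_eq_of_coset_eq
  rw [QuotientGroup.out_eq']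
  conv_rhs => rw [← QuotientGroup.out_eq' q]
  rfl

/-- The polynomial whose roots are the conjugates. -/
def conjPoly (P Q : MvPolynomial (Dv N) KQ) : (RN N)[X] :=
  ∏ q : XN N, (C (TR N q (evR N Q)) * X - C (TR N q (evR N P)))

theorem map_conjPoly (γ : SL(2, ℤ)) (P Q : MvPolynomial (Dv N) KQ) :
    (conjPoly N P Q).map (transR N γ) = conjPoly N P Q := by
  unfold conjPoly
  rw [Polynomial.map_prod]
  have h1 : ∀ q : XN N, (C (TR N q (evR N Q)) * X - C (TR N q (evR N P))).map (transR N γ) =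
      C (TR N (γ • q) (evR N Q)) * X - C (TR N (γ • q) (evR N P)) := by
    intro q
    rw [Polynomial.map_sub, Polynomial.map_mul, Polynomial.map_C, Polynomial.map_C,
      Polynomial.map_X, transR_TR, transR_TR]
  simp_rw [h1]
  exact Equiv.prod_comp (MulAction.toPerm γ)
    (fun q : XN N => C (TR N q (evR N Q)) * X - C (TR N q (evR N P)))

theorem hsym (P Q : MvPolynomial (Dv N) KQ) (k : ℕ) : ∃ a : KQ[X],
    (∏ q : XN N, (C (TR N q (evR N Q)) * X - C (TR N q (evR N P)))).coeff k =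
      evR N (DegCore.toMv (JPt.d1 N) a) := by
  set c : RN N := (conjPoly N P Q).coeff k with hc
  have hfix : ∀ γ : SL(2, ℤ), transR N γ c = c := by
    intro γ
    rw [hc, ← Polynomial.coeff_map, map_conjPoly]
  have hinv' : ∀ (γ : SL(2, ℤ)) (z : ℍ), (c : ℍ → ℂ) (γ • z) = (c : ℍ → ℂ) z := by
    intro γ z
    have h1 := congrArg Subtype.val (hfix γ⁻¹)
    have h2 := congrFun h1 z
    simp only [coe_transR, trans, inv_inv] at h2
    exact h2
  obtain ⟨L, hL⟩ := c.2 1
  rw [trans_one] at hL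
  obtain ⟨a, ha⟩ := LevelOneGlue.exists_poly_of_invariant_rational (c : ℍ → ℂ)
    (mdiff_of_mem N c.2) hinv' N L hL
  refine ⟨a, ?_⟩
  apply Subtype.ext
  show (c : ℍ → ℂ) = ev N (DegCore.toMv (JPt.d1 N) a)
  rw [ev_toMv]
  funext z
  exact ha z

/-! ### outputs: degree -/

theorem transcendental_jBar : Transcendental KQ (jBar N) := by
  have h := DegCore.transcendental_j (fm N) (evR N) (JPt.d1 N) (hbridge N) (htr N)
  rwa [fm_X_d1] at h

theorem finrank_aux :
    FiniteDimensional KQ⟮fm N (MvPolynomial.X (JPt.d1 N))⟯ (FN N) ∧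
      Module.finrank KQ⟮fm N (MvPolynomial.X (JPt.d1 N))⟯ (FN N) = Fintype.card (XN N) :=
  DegCore.finrank_eq_card (hbridge N) (hTinj N) (q0 N) (hT0 N) (hsym N) (hrep N) (hinv N)
    (P0 N) (hdist N)

theorem finiteDimensional_jBar : FiniteDimensional KQ⟮jBar N⟯ (FN N) := by
  have h := (finrank_aux N).1
  rwa [fm_X_d1] at h

theorem finrank_jBar : Module.finrank KQ⟮jBar N⟯ (FN N) = Nat.card (XN N) := by
  have h := (finrank_aux N).2
  rw [fm_X_d1] at h
  rw [h, Nat.card_eq_fintype_card]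

theorem card_XN_le_finrank : Nat.card (XN N) ≤ Module.finrank KQ⟮jBar N⟯ (FN N) :=
  (finrank_jBar N).ge

/-! ### raw valuations on `R` -/

/-- Order at a point, on `R`. -/
def valPtR (τ : ℍ) (G : RN N) : ℤ := ordAt (G : ℍ → ℂ) τ

theorem valPtR_mul (τ : ℍ) (a b : RN N) (ha : a ≠ 0) (hb : b ≠ 0) :
    valPtR N τ (a * b) = valPtR N τ a + valPtR N τ b :=
  ValPt.ordAt_mul (mdiff_of_mem N a.2) (mdiff_of_mem N b.2)
    (fun h => ha (Subtype.ext h)) (fun h => hb (Subtype.ext h)) τ

theorem valPtR_add (τ : ℍ) (a b : RN N) (ha : a ≠ 0) (hb : b ≠ 0) (hab : a + b ≠ 0) :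
    min (valPtR N τ a) (valPtR N τ b) ≤ valPtR N τ (a + b) :=
  ValPt.ordAt_add (mdiff_of_mem N a.2) (mdiff_of_mem N b.2)
    (fun h => ha (Subtype.ext h)) (fun h => hb (Subtype.ext h)) (fun h => hab (Subtype.ext h)) τ

/-- Order at the cusp `g⁻¹∞`, on `R`. -/
def valCuspR (g : SL(2, ℤ)) (G : RN N) : ℤ := ordInf N (trans g (G : ℍ → ℂ))

theorem exists_series (g : SL(2, ℤ)) (a : RN N) (ha : a ≠ 0) :
    ∃ L : LaurentSeries ℂ, L ≠ 0 ∧ QExp.HasQExp N (trans g (a : ℍ → ℂ)) L := by
  obtain ⟨L, hL⟩ := a.2 g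
  refine ⟨coeffMap iotaK L, ?_, hL⟩
  intro h0
  apply ha
  apply Subtype.ext
  apply trans_injective g
  funext z
  have := (hL.eq_zero_iff).2 h0 z
  simpa [trans] using this

theorem valCuspR_mul (g : SL(2, ℤ)) (a b : RN N) (ha : a ≠ 0) (hb : b ≠ 0) :
    valCuspR N g (a * b) = valCuspR N g a + valCuspR N g b := by
  obtain ⟨L, hL0, hL⟩ := exists_series N g a ha
  obtain ⟨M, hM0, hM⟩ := exists_series N g b hb
  have hLM : QExp.HasQExp N (trans g ((a * b : RN N) : ℍ → ℂ)) (L * M) := hL.mul hM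
  unfold valCuspR
  rw [hLM.ordInf_eq (mul_ne_zero hL0 hM0), hL.ordInf_eq hL0, hM.ordInf_eq hM0]
  exact HahnSeries.order_mul hL0 hM0

theorem valCuspR_add (g : SL(2, ℤ)) (a b : RN N) (ha : a ≠ 0) (hb : b ≠ 0) (hab : a + b ≠ 0) :
    min (valCuspR N g a) (valCuspR N g b) ≤ valCuspR N g (a + b) := by
  obtain ⟨L, hL0, hL⟩ := exists_series N g a ha
  obtain ⟨M, hM0, hM⟩ := exists_series N g b hb
  have hLM : QExp.HasQExp N (trans g ((a + b : RN N) : ℍ → ℂ)) (L + M) := hL.add hM
  have hLM0 : L + M ≠ 0 := by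
    intro h0
    apply hab
    apply Subtype.ext
    apply trans_injective g
    funext z
    have := (hLM.eq_zero_iff).2 h0 z
    simpa [trans] using this
  unfold valCuspR
  rw [hLM.ordInf_eq hLM0, hL.ordInf_eq hL0, hM.ordInf_eq hM0]
  exact HahnSeries.min_order_le_order_add hLM0

/-! ### output: the integrality polynomial -/

theorem fm_toMv_mem (a : KQ[X]) : fm N (DegCore.toMv (JPt.d1 N) a) ∈ KQ⟮jBar N⟯ := by
  have h := DegCore.fm_toMv_mem (fm N) (JPt.d1 N) a
  rwa [fm_X_d1] at h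

theorem exists_charpoly (f : FN N) :
    ∃ P : Polynomial (FN N), P.Monic ∧ P.eval f = 0 ∧ (∀ k, P.coeff k ∈ KQ⟮jBar N⟯) ∧
      (∀ τ0 : ℍ, (∀ g : SL(2, ℤ), 0 ≤ valPt N (g • τ0) f) →
        ∀ k, P.coeff k ≠ 0 → ∀ g : SL(2, ℤ), 0 ≤ valPt N (g • τ0) (P.coeff k)) ∧
      ((∀ g : SL(2, ℤ), 0 ≤ valCusp N g f) →
        ∀ k, P.coeff k ≠ 0 → ∀ g : SL(2, ℤ), 0 ≤ valCusp N g (P.coeff k)) := by
  by_cases hf : f = 0
  · subst hf
    refine ⟨X, monic_X, by simp, ?_, ?_, ?_⟩
    · intro k
      rw [coeff_X]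
      split_ifs
      · exact one_mem _
      · exact zero_mem _
    · intro τ0 _ k hk g
      rw [coeff_X] at hk ⊢
      split_ifs at hk ⊢ with h1
      · rw [(ValPt.isRawVal_valPt N (g • τ0)).map_one]
      · exact absurd rfl hk
    · intro _ k hk g
      rw [coeff_X] at hk ⊢
      split_ifs at hk ⊢ with h1
      · rw [(QExp.isRawVal_valCusp N g).map_one]
      · exact absurd rfl hk
  · obtain ⟨P, Q, hrepPQ⟩ := Rep.exists_isRep N f
    have hQ : fm N Q ≠ 0 := hrepPQ.1
    have hP : fm N P ≠ 0 := by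
      intro h0
      apply hf
      rw [hrepPQ.2, h0, zero_div]
    obtain ⟨p, hmonic, -, hroot, hcoef⟩ := DegCore.exists_monic_root_val (hbridge N) (hTinj N)
      (q0 N) (hT0 N) (hsym N) P Q hP hQ
    refine ⟨p, hmonic, by rw [hrepPQ.2]; exact hroot, ?_, ?_, ?_⟩
    · intro k
      obtain ⟨A, B, -, hk, -⟩ := hcoef k
      rw [hk]
      exact div_mem (fm_toMv_mem N A) (fm_toMv_mem N B)
    · intro τ0 hall k hk0 g
      obtain ⟨A, B, hB, hk, hval⟩ := hcoef k
      have hA : fm N (DegCore.toMv (JPt.d1 N) A) ≠ 0 := by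
        intro h0
        apply hk0
        rw [hk, h0, zero_div]
      have hrepk : IsRep N (p.coeff k) (DegCore.toMv (JPt.d1 N) A) (DegCore.toMv (JPt.d1 N) B) :=
        ⟨hB, hk⟩
      rw [ValPt.valPt_eq N (g • τ0) _ hk0 _ _ hrepk]
      have hge := hval (valPtR N (g • τ0)) (valPtR_mul N (g • τ0)) (valPtR_add N (g • τ0)) (by
        intro q
        show ordAt (trans q.out (ev N Q)) (g • τ0) ≤ ordAt (trans q.out (ev N P)) (g • τ0)
        rw [PtVal.ordAt_trans (PtInv.mdiff_ev N Q), PtVal.ordAt_trans (PtInv.mdiff_ev N P)]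
        have h1 := hall (q.out⁻¹ * g)
        rw [mul_smul, ValPt.valPt_eq N _ f hf P Q hrepPQ] at h1
        linarith)
      rcases hge with h0 | hle
      · exact absurd ((hbridge N _).2 h0) hA
      · have hle' : ordAt (ev N (DegCore.toMv (JPt.d1 N) B)) (g • τ0) ≤
            ordAt (ev N (DegCore.toMv (JPt.d1 N) A)) (g • τ0) := hle
        linarith
    · intro hall k hk0 g
      obtain ⟨A, B, hB, hk, hval⟩ := hcoef k
      have hA : fm N (DegCore.toMv (JPt.d1 N) A) ≠ 0 := by
        intro h0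
        apply hk0
        rw [hk, h0, zero_div]
      have hrepk : IsRep N (p.coeff k) (DegCore.toMv (JPt.d1 N) A) (DegCore.toMv (JPt.d1 N) B) :=
        ⟨hB, hk⟩
      rw [QExp.valCusp_eq_of_isRep N g hk0 hrepk]
      have hge := hval (valCuspR N g) (valCuspR_mul N g) (valCuspR_add N g) (by
        intro q
        show ordInf N (trans g (trans q.out (ev N Q))) ≤ ordInf N (trans g (trans q.out (ev N P)))
        rw [trans_trans, trans_trans]
        have h1 := hall (g * q.out)
        rw [QExp.valCusp_eq_of_isRep N (g * q.out) hf hrepPQ] at h1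
        linarith)
      rcases hge with h0 | hle
      · exact absurd ((hbridge N _).2 h0) hA
      · have hle' : ordInf N (trans g (ev N (DegCore.toMv (JPt.d1 N) B))) ≤
            ordInf N (trans g (ev N (DegCore.toMv (JPt.d1 N) A))) := hle
        linarith

end Fermat.Agent.S24.DegFin
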