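import Fermat.Agent.S24.DegCore
import Fermat.Agent.S24.ValTop
import Fermat.Agent.S24.HNFMod
import Fermat.Agent.S24.LevelOneGlue
import Fermat.Agent.S24.QExpCusp
import Fermat.Agent.S24.CuspHom

/-!
# S24 — `[DEG]`: instantiation of the abstract degree core

`R` is the ring of functions on `ℍ` all of whose translates have a `q_N`-expansion with
coefficients in `ℚ̄`; `T q = trans q.out` for `q : SL(2, ℤ) ⧸ Γ₀(N)`.  Output: the four `[DEG]`
statements of the assembly: `transcendental_jBar`, `finiteDimensional_jBar`,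
`card_XN_le_finrank`, `exists_charpoly`.
-/

set_option autoImplicit false
set_option linter.unusedSectionVars false

open UpperHalfPlane ModularForm Filter Function
open scoped MatrixGroups Manifold Topology IntermediateField

namespace Fermat.Agent.S24.DegInst

open Fermat.Agent.S24 ModularCurve
open Fermat.Agent.S24.QExp

noncomputable section

variable (N : ℕ) [NeZero N]

/-! ### The ring `RN` -/

theorem trans_one (G : ℍ → ℂ) : trans 1 G = G := by
  funext z
  simp [trans]

theorem trans_trans (g g' : SL(2, ℤ)) (G : ℍ → ℂ) : trans g' (trans g G) = trans (g' * g) G := by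
  funext z
  simp [trans, mul_smul]

/-- Functions on `ℍ` all of whose translates have a `ℚ̄`-rational `q_N`-expansion. -/
def RN : Subring (ℍ → ℂ) where
  carrier := {G | ∀ g : SL(2, ℤ), ∃ L : LaurentSeries KQ, HasQExp N (trans g G) (coeffMap iotaK L)}
  mul_mem' := by
    intro G H hG hH g
    obtain ⟨L, hL⟩ := hG g
    obtain ⟨M, hM⟩ := hH g
    refine ⟨L * M, ?_⟩
    rw [map_mul]
    exact hL.mul hM
  one_mem' := fun g => ⟨1, by rw [map_one]; exact HasQExp.one N⟩
  add_mem' := by
    intro G H hG hH g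
    obtain ⟨L, hL⟩ := hG g
    obtain ⟨M, hM⟩ := hH g
    refine ⟨L + M, ?_⟩
    rw [map_add]
    exact hL.add hM
  zero_mem' := fun g => ⟨0, by rw [map_zero]; exact HasQExp.zero N⟩
  neg_mem' := by
    intro G hG g
    obtain ⟨L, hL⟩ := hG g
    refine ⟨-L, ?_⟩
    rw [map_neg]
    exact hL.neg

theorem mem_RN {G : ℍ → ℂ} :
    G ∈ RN N ↔ ∀ g : SL(2, ℤ), ∃ L : LaurentSeries KQ,
      HasQExp N (trans g G) (coeffMap iotaK L) := Iff.rfl

theorem exists_hasQExp {G : ℍ → ℂ} (hG : G ∈ RN N) :
    ∃ L : LaurentSeries KQ, HasQExp N G (coeffMap iotaK L) := by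
  obtain ⟨L, hL⟩ := hG 1
  rw [trans_one] at hL
  exact ⟨L, hL⟩

theorem mdiff_of_mem {G : ℍ → ℂ} (hG : G ∈ RN N) : MDifferentiable 𝓘(ℂ) 𝓘(ℂ) G := by
  obtain ⟨L, hL⟩ := exists_hasQExp N hG
  exact (LevelOneGlue.exists_bdd_of_hasQExp hL).1

theorem eq_zero_or_eq_zero_of_mul {G H : ℍ → ℂ} (hG : G ∈ RN N) (hH : H ∈ RN N)
    (h : G * H = 0) : G = 0 ∨ H = 0 := by
  obtain ⟨L, hL⟩ := exists_hasQExp N hG
  obtain ⟨M, hM⟩ := exists_hasQExp N hH
  have h0 : coeffMap iotaK L * coeffMap iotaK M = 0 :=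
    (hL.mul hM).eq_zero_iff.mp (fun τ => by rw [h]; rfl)
  rcases mul_eq_zero.mp h0 with h1 | h1
  · left
    funext τ
    exact hL.eq_zero_iff.mpr h1 τ
  · right
    funext τ
    exact hM.eq_zero_iff.mpr h1 τ

instance : NoZeroDivisors (RN N) where
  eq_zero_or_eq_zero_of_mul_eq_zero := by
    intro a b hab
    have h : (a : ℍ → ℂ) * (b : ℍ → ℂ) = 0 := by
      have := congrArg Subtype.val hab
      exact this
    rcases eq_zero_or_eq_zero_of_mul N a.2 b.2 h with h1 | h1
    · exact Or.inl (Subtype.ext h1)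
    · exact Or.inr (Subtype.ext h1)

instance : IsDomain (RN N) := NoZeroDivisors.to_isDomain _

theorem trans_mem (g : SL(2, ℤ)) {G : ℍ → ℂ} (hG : G ∈ RN N) : trans g G ∈ RN N := by
  intro g'
  obtain ⟨L, hL⟩ := hG (g' * g)
  exact ⟨L, by rw [trans_trans]; exact hL⟩

/-- The translate as a ring endomorphism of `RN`. -/
def transR (g : SL(2, ℤ)) : RN N →+* RN N :=
  ((transHom g).comp (RN N).subtype).codRestrict (RN N) (fun G => trans_mem N g G.2)

theorem coe_transR (g : SL(2, ℤ)) (G : RN N) :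
    ((transR N g G : RN N) : ℍ → ℂ) = trans g (G : ℍ → ℂ) := rfl

theorem transR_injective (g : SL(2, ℤ)) : Function.Injective (transR N g) := by
  intro G H h
  apply Subtype.ext
  funext z
  have h1 := congrFun (congrArg Subtype.val h) (g • z)
  simpa [coe_transR, trans] using h1

/-- The analytic evaluation with values in `RN`. -/
def evR : MvPolynomial (Dv N) KQ →+* RN N :=
  (ev N).codRestrict (RN N) (fun P g => ⟨_, hasQExp_trans_ev N g P⟩)

theorem coe_evR (P : MvPolynomial (Dv N) KQ) : ((evR N P : RN N) : ℍ → ℂ) = ev N P := rfl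

/-- The distinguished generator `j`. -/
abbrev dOne : Dv N := ⟨1, one_dvd N⟩

theorem fm_X_dOne : fm N (MvPolynomial.X (dOne N)) = jBar N := by
  unfold fm jBar
  rw [MvPolynomial.aeval_X]

theorem ev_C_apply (c : KQ) (z : ℍ) : ev N (MvPolynomial.C c) z = iotaK c := by
  simp [ev]

/-- `ev` of a polynomial in `j` is the polynomial in `J`. -/
theorem ev_toMv_apply (a : Polynomial KQ) (z : ℍ) :
    ev N (DegCore.toMv (dOne N) a) z = (a.map iotaK).eval (Jfun z) := by
  induction a using Polynomial.induction_on' with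
  | add p q hp hq =>
    rw [map_add, map_add, Pi.add_apply, hp, hq, Polynomial.map_add, Polynomial.eval_add]
  | monomial n c =>
    rw [DegCore.toMv, Polynomial.aeval_monomial, map_mul, map_pow, JPt.ev_X_d1,
      Polynomial.map_monomial, Polynomial.eval_monomial, MvPolynomial.algebraMap_eq,
      Pi.mul_apply, Pi.pow_apply, ev_C_apply]

/-! ### The hypotheses of the abstract core -/

theorem hbridge (P : MvPolynomial (Dv N) KQ) : fm N P = 0 ↔ evR N P = 0 :=
  (fm_eq_zero_iff N P).trans
    ⟨fun h => Subtype.ext h, fun h => congrArg Subtype.val h⟩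

theorem htr (a : Polynomial KQ) (h : evR N (DegCore.toMv (dOne N) a) = 0) : a = 0 := by
  have h1 : a.map iotaK = 0 := by
    apply LevelOneInv.poly_eq_zero_of_forall_eval_J
    intro z
    have h2 := congrFun (congrArg Subtype.val h) z
    rw [coe_evR, ev_toMv_apply] at h2
    exact h2
  exact (Polynomial.map_eq_zero iotaK).mp h1

/-- The base coset. -/
def q0 : XN N := ((1 : SL(2, ℤ)) : XN N)

theorem hT0 (P : MvPolynomial (Dv N) KQ) : transR N (q0 N).out (evR N P) = evR N P := by
  apply Subtype.ext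
  rw [coe_transR, coe_evR]
  have h := HNFMod.trans_ev_eq_of_coset_eq N P (q0 N).out 1 (QuotientGroup.out_eq' (q0 N))
  rw [h, trans_one]

theorem transR_transR_out (γ : SL(2, ℤ)) (q : XN N) (P : MvPolynomial (Dv N) KQ) :
    transR N γ (transR N q.out (evR N P)) = transR N (γ • q).out (evR N P) := by
  apply Subtype.ext
  rw [coe_transR, coe_transR, coe_transR, coe_evR, trans_trans]
  apply HNFMod.trans_ev_eq_of_coset_eq N P
  rw [QuotientGroup.out_eq']
  conv_rhs => rw [← QuotientGroup.out_eq' q]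
  rfl

local instance fintypeXN : Fintype (XN N) := Subgroup.fintypeQuotientOfFiniteIndex

/-- The coefficients of `∏_q (T_q(ev Q) X - T_q(ev P))` are `SL(2, ℤ)`-invariant. -/
theorem coeff_invariant (P Q : MvPolynomial (Dv N) KQ) (k : ℕ) (γ : SL(2, ℤ)) :
    transR N γ ((∏ q : XN N, (Polynomial.C (transR N q.out (evR N Q)) * Polynomial.X -
        Polynomial.C (transR N q.out (evR N P)))).coeff k) =
      (∏ q : XN N, (Polynomial.C (transR N q.out (evR N Q)) * Polynomial.X -
        Polynomial.C (transR N q.out (evR N P)))).coeff k := by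
  rw [← Polynomial.coeff_map, Polynomial.map_prod]
  congr 1
  simp only [Polynomial.map_sub, Polynomial.map_mul, Polynomial.map_C, Polynomial.map_X,
    transR_transR_out]
  exact Fintype.prod_equiv (MulAction.toPerm γ) _ _ (fun q => rfl)

theorem hsym (P Q : MvPolynomial (Dv N) KQ) (k : ℕ) :
    ∃ a : Polynomial KQ,
      (∏ q : XN N, (Polynomial.C (transR N q.out (evR N Q)) * Polynomial.X -
        Polynomial.C (transR N q.out (evR N P)))).coeff k = evR N (DegCore.toMv (dOne N) a) := by
  set c : RN N := (∏ q : XN N, (Polynomial.C (transR N q.out (evR N Q)) * Polynomial.X -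
        Polynomial.C (transR N q.out (evR N P)))).coeff k with hc
  have hinv : ∀ (γ : SL(2, ℤ)) (z : ℍ), (c : ℍ → ℂ) (γ • z) = (c : ℍ → ℂ) z := by
    intro γ z
    have h := congrFun (congrArg Subtype.val (coeff_invariant N P Q k γ⁻¹)) z
    rw [← hc, coe_transR] at h
    simpa [trans] using h
  obtain ⟨L, hL⟩ := exists_hasQExp N c.2
  obtain ⟨a, ha⟩ := LevelOneGlue.exists_poly_of_invariant_rational (c : ℍ → ℂ)
    (mdiff_of_mem N c.2) hinv N L hL
  refine ⟨a, Subtype.ext ?_⟩
  funext z
  rw [coe_evR, ev_toMv_apply]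
  exact ha z

theorem hrep (f : FN N) : ∃ P Q, fm N Q ≠ 0 ∧ f = fm N P / fm N Q := by
  obtain ⟨P, Q, h⟩ := QExp.exists_isRep N f
  exact ⟨P, Q, h.1, h.2⟩

theorem hinvJ (a : Polynomial KQ) (q : XN N) :
    transR N q.out (evR N (DegCore.toMv (dOne N) a)) = evR N (DegCore.toMv (dOne N) a) := by
  apply Subtype.ext
  funext z
  rw [coe_transR, coe_evR]
  show ev N (DegCore.toMv (dOne N) a) (q.out⁻¹ • z) = ev N (DegCore.toMv (dOne N) a) z
  rw [ev_toMv_apply, ev_toMv_apply, HNFMod.Jfun_smul]

theorem hdist : Function.Injective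
    (fun q : XN N => transR N q.out (evR N (MvPolynomial.X (⟨N, dvd_rfl⟩ : Dv N)))) := by
  intro q q' h
  apply HNFMod.injective_trans_out_ev N
  exact congrArg Subtype.val h

/-! ### Degree -/

theorem finrank_aux (x : FN N) (hx : fm N (MvPolynomial.X (dOne N)) = x) :
    FiniteDimensional KQ⟮x⟯ (FN N) ∧ Module.finrank KQ⟮x⟯ (FN N) = Fintype.card (XN N) := by
  subst hx
  exact DegCore.finrank_eq_card (fm := fm N) (ev := evR N)
    (T := fun q : XN N => transR N q.out) (d1 := dOne N) (hbridge N)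
    (fun q => transR_injective N q.out) (q0 N) (hT0 N) (hsym N) (hrep N) (hinvJ N)
    (MvPolynomial.X (⟨N, dvd_rfl⟩ : Dv N)) (hdist N)

/-- **[DEG] 1**: `j` is transcendental over `ℚ̄`. -/
theorem transcendental_jBar : Transcendental KQ (jBar N) := by
  rw [← fm_X_dOne]
  exact DegCore.transcendental_j (fm N) (evR N) (dOne N) (hbridge N) (htr N)

/-- **[DEG] 2**: `F` is finite over `ℚ̄(j)`. -/
theorem finiteDimensional_jBar : FiniteDimensional KQ⟮jBar N⟯ (FN N) :=
  (finrank_aux N (jBar N) (fm_X_dOne N)).1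

/-- The degree is the index. -/
theorem finrank_jBar : Module.finrank KQ⟮jBar N⟯ (FN N) = Nat.card (XN N) := by
  rw [(finrank_aux N (jBar N) (fm_X_dOne N)).2, Nat.card_eq_fintype_card]

/-- **[DEG] 3**. -/
theorem card_XN_le_finrank : Nat.card (XN N) ≤ Module.finrank KQ⟮jBar N⟯ (FN N) :=
  (finrank_jBar N).ge

end

end Fermat.Agent.S24.DegInst
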