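import Mathlib
import Fermat.Agent.S24.ARest
import Fermat.Agent.S24.RiemannHurwitz

/-!
# S24, part A, final wrapper: the genus from fibre counts (Riemann–Hurwitz for `x : F → ℙ¹`)

`K` algebraically closed of characteristic zero, `x : F` transcendental, `F` finite over `K(x)`,
`n = [F : K(x)]`.  If all fibres of `x` outside a finite set `C ⊆ K` have `n` places, then
`2g - 2 = ∑_{c ∈ C} (n - #fibre(c)) - n - #poles(x)` determines the genus `g`.

All hypotheses of `RH.genus_eq_of_counts_core` are discharged here.
-/

set_option autoImplicit false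
set_option linter.style.haveILetI false

namespace Fermat.Agent.S24.GenusCounts

open AlgebraicCurve IntermediateField KaehlerDifferential

variable {K F : Type*} [Field K] [Field F] [Algebra K F]

/-- `ord_v (f • dx) = ord_v f + ord_v (dx)` at every place. -/
theorem ordDifferential_smul_D [CharZero K] (x : F) (hx : Transcendental K x)
    [Algebra.IsAlgebraic K⟮x⟯ F] (v : Place K F) {f : F} (hf : f ≠ 0) :
    v.ordDifferential (f • D K F x) = v.ord f + v.ordDifferential (D K F x) := by
  have hdx := DNeZero.D_ne_zero x hx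
  haveI := DNeZero.nontrivial_kaehler x hx
  haveI := DNeZero.dCoordGenerates (K := K) x v
  apply v.ordDifferential_smul hf
  intro h0
  apply hdx
  rw [← v.differentialCoeff_smul_dCoord (D K F x), h0, zero_smul]

/-- **Genus from fibre counts** (set-builder shapes, as in `RH.genus_eq_of_counts_core`). -/
theorem genus_eq_of_counts' [IsAlgClosed K] [CharZero K] [HasCanonicalDivisor (K := K) (F := F)]
    (x : F) (hx : Transcendental K x) [FiniteDimensional K⟮x⟯ F]
    (C : Finset K)
    (hC : ∀ c ∉ C, Nat.card {v : Place K F | 0 < v.ord (x - algebraMap K F c)}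
      = Module.finrank K⟮x⟯ F)
    (g : ℕ)
    (hg : (2 * g : ℤ) - 2 =
      ∑ c ∈ C, ((Module.finrank K⟮x⟯ F : ℤ)
          - Nat.card {v : Place K F | 0 < v.ord (x - algebraMap K F c)})
        - Module.finrank K⟮x⟯ F - Nat.card {v : Place K F | v.ord x < 0}) :
    genus K F = g := by
  have hdx := DNeZero.D_ne_zero x hx
  refine RH.genus_eq_of_counts_core x (Module.finrank K⟮x⟯ F)
    (ARest.exists_value x hx) (ARest.deg_eq_one x)
    (Transfer.placesOver_finite_sum x hx) (Transfer.polesOf_finite_sum x hx)
    (fun f _ S hS => ARest.sum_ord_eq_zero x f S hS)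
    (KaehlerOrd.span_D_eq_top x) hdx
    (fun v y hy => Diff.ordDifferential_D_eq x v
      (by rintro rfl; rw [v.ord_zero] at hy; exact lt_irrefl _ hy) (by omega))
    (fun v y hy => Diff.ordDifferential_D_eq x v
      (by rintro rfl; rw [v.ord_zero] at hy; exact lt_irrefl _ hy) (by omega))
    (fun v f hf => ordDifferential_smul_D x hx v hf) C hC g hg

/-- **Genus from fibre counts**, in the `placesOver / polesOf` vocabulary. -/
theorem genus_eq_of_counts [IsAlgClosed K] [CharZero K] [HasCanonicalDivisor (K := K) (F := F)]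
    (x : F) (hx : Transcendental K x) [FiniteDimensional K⟮x⟯ F]
    (C : Finset K)
    (hC : ∀ c ∉ C, Nat.card (placesOver (K := K) x c) = Module.finrank K⟮x⟯ F)
    (g : ℕ)
    (hg : (2 * g : ℤ) - 2 =
      ∑ c ∈ C, ((Module.finrank K⟮x⟯ F : ℤ) - Nat.card (placesOver (K := K) x c))
        - Module.finrank K⟮x⟯ F - Nat.card (polesOf K x)) :
    genus K F = g :=
  genus_eq_of_counts' x hx C hC g hg

end Fermat.Agent.S24.GenusCounts
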