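import Mathlib
import Fermat.Agent.S24.KumPt
import Fermat.Agent.S24.KumCusp
import Fermat.Agent.ESJ.Jac.Kummer

/-!
# JAC-KUM: Kummer elements of `F_N` and parabolic-elliptic characters (assembly)

S24 vocabulary only (`KQ`, `iotaK`, `FN`, `IsRep`, `ev`, `valPt`, `valCusp`, `Place`).

* `exists_kumRel` : if `n` divides the order of `f ≠ 0` at every place, then `f` has a Kummer
  character of exponent `n`, and it is parabolic-elliptic.
* `KumRel.dvd_ord` : if the Kummer character of `f` is parabolic-elliptic, then `n` divides the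
  order of `f` at every place.
* `KumRel.isPEChar` : the Kummer character of such an `f` is parabolic-elliptic.
* `Asm.unique` : the Kummer character is unique.
-/

set_option autoImplicit false

open UpperHalfPlane CongruenceSubgroup AlgebraicCurve
open scoped MatrixGroups Manifold

noncomputable section

namespace Fermat.Agent.S24.Kum

open Fermat.Agent.S24 Fermat.Agent.Lib.UHP Fermat.Agent.S24.Ramif Fermat.Agent.S24.OrdH
open Fermat.Agent.ESJ.Jac

variable {N : ℕ} [NeZero N]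

namespace Asm

/-- Two representatives of the same element: cross-multiplication on the analytic side. -/
theorem ev_cross {f : FN N} {P Q P' Q' : MvPolynomial (Dv N) KQ}
    (h : IsRep N f P Q) (h' : IsRep N f P' Q') (τ : ℍ) :
    ev N P τ * ev N Q' τ = ev N P' τ * ev N Q τ := by
  have e : fm N P / fm N Q = fm N P' / fm N Q' := by rw [← h.2, ← h'.2]
  rw [div_eq_div_iff h.1 h'.1] at e
  have h0 : fm N (P * Q' - P' * Q) = 0 := by rw [map_sub, map_mul, map_mul, e, sub_self]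
  have h1 := (QExp.ev_eq_zero_iff N _).2 h0
  rw [map_sub, map_mul, map_mul, sub_eq_zero] at h1
  exact congrFun h1 τ

/-- **Uniqueness of the Kummer character.** -/
theorem unique {n : ℕ} (hn : 0 < n) {f : FN N} {χ χ' : Gamma0 N →* ℂˣ}
    (h : KumRel N n f χ) (h' : KumRel N n f χ') : χ = χ' := by
  obtain ⟨P, Q, a, hrep, hf, ha, ha0, hroot, hmult⟩ := h
  obtain ⟨P', Q', a', hrep', -, ha', ha0', hroot', hmult'⟩ := h'
  have hQ : fm N Q ≠ 0 := hrep.1
  have hQ' : fm N Q' ≠ 0 := hrep'.1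
  have hPd := PtInv.mdiff_ev N P
  have hQd := PtInv.mdiff_ev N Q
  have hQd' := PtInv.mdiff_ev N Q'
  have hQ0 : ev N Q ≠ 0 := PtInv.ev_ne_zero N hQ
  have hQ0' : ev N Q' ≠ 0 := PtInv.ev_ne_zero N hQ'
  have hcross := ev_cross hrep hrep'
  -- `(a', ev Q')` is also a root of `(ev P, ev Q)`
  have hroot2 : ∀ z, ev N P z * ev N Q' z ^ n = ev N Q z * a' z ^ n := by
    set G : ℍ → ℂ := ev N P * ev N Q' ^ n - ev N Q * a' ^ n with hGdef
    have hGd : MDiff G := (hPd.mul (hQd'.pow n)).sub (hQd.mul (ha'.pow n))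
    have hprod : ev N Q' * G = 0 := by
      funext z
      simp only [hGdef, Pi.mul_apply, Pi.sub_apply, Pi.pow_apply, Pi.zero_apply]
      have e1 := hcross z
      have e2 := hroot' z
      linear_combination (ev N Q' z ^ n) * e1 + (ev N Q z) * e2
    have hG0 : G = 0 := by
      by_contra hG
      exact mul_ne_zero' hQd' hGd hQ0' hG hprod
    intro z
    have := congrFun hG0 z
    simp only [hGdef, Pi.mul_apply, Pi.sub_apply, Pi.pow_apply, Pi.zero_apply] at this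
    exact sub_eq_zero.mp this
  ext γ
  have h1 : HasMult a' (ev N Q') (γ : SL(2, ℤ)) ((χ γ : ℂˣ) : ℂ) :=
    HasMult.of_same_pow hQd ha hQd ha' hQd' hQ0 hQ0 hn hroot hroot2 (hmult γ)
  exact h1.unique ha' hQd' ha0' hQ0' (hmult' γ)

/-- The Kummer character is trivial on `-1`. -/
theorem apply_neg_one {n : ℕ} {f : FN N} {χ : Gamma0 N →* ℂˣ} (h : KumRel N n f χ)
    (hmem : (-1 : SL(2, ℤ)) ∈ Gamma0 N) : χ ⟨-1, hmem⟩ = 1 := by
  obtain ⟨P, Q, a, hrep, hf, ha, ha0, hroot, hmult⟩ := h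
  have hQd := PtInv.mdiff_ev N Q
  have hQ0 : ev N Q ≠ 0 := PtInv.ev_ne_zero N hrep.1
  apply Units.ext
  exact (hmult ⟨-1, hmem⟩).unique ha hQd ha0 hQ0 (hasMult_neg_one a (ev N Q))

omit [NeZero N] in
theorem neg_one_mem_Gamma0 : (-1 : SL(2, ℤ)) ∈ Gamma0 N := by
  have h := Pt.neg_mem_Gamma0 (N := N) (one_mem (Gamma0 N))
  exact h

/-- A character which is trivial on the generators `g⁻¹ T^w g` of the cusp stabilisers is
trivial on every element of trace `2`. -/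
theorem apply_of_trace_two {χ : Gamma0 N →* ℂˣ}
    (hcusp : ∀ (g : SL(2, ℤ)) (w : ℕ), 0 < w → w ∣ N →
      ∀ hmem : g⁻¹ * ModularGroup.T ^ w * g ∈ Gamma0 N, χ ⟨_, hmem⟩ = 1)
    (γ : Gamma0 N) (htr : ((γ : SL(2, ℤ)) : Matrix (Fin 2) (Fin 2) ℤ).trace = 2) :
    χ γ = 1 := by
  have hN : 0 < N := Nat.pos_of_ne_zero (NeZero.ne N)
  obtain ⟨g, k, hk⟩ := Kummer.exists_eq_conj_T_zpow (γ : SL(2, ℤ)) htr
  have hmemk : g⁻¹ * ModularGroup.T ^ k * g ∈ Gamma0 N := hk ▸ γ.2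
  rw [Kummer.conj_T_zpow_mem_Gamma0_iff] at hmemk
  set w : ℕ := Int.gcd k (N : ℤ) with hw
  have hwpos : 0 < w := Int.gcd_pos_of_ne_zero_right _ (by exact_mod_cast hN.ne')
  have hwN : w ∣ N := by
    have := Int.gcd_dvd_right k (N : ℤ)
    exact_mod_cast this
  have hwk : (w : ℤ) ∣ k := Int.gcd_dvd_left k (N : ℤ)
  have hmemw : g⁻¹ * ModularGroup.T ^ w * g ∈ Gamma0 N := by
    rw [← zpow_natCast, Kummer.conj_T_zpow_mem_Gamma0_iff]
    have hbez : (w : ℤ) = k * Int.gcdA k N + N * Int.gcdB k N := Int.gcd_eq_gcd_ab k N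
    obtain ⟨t, ht⟩ := hmemk
    refine ⟨t * Int.gcdA k N + (g 1 0) ^ 2 * Int.gcdB k N, ?_⟩
    rw [hbez]
    linear_combination (Int.gcdA k N) * ht
  obtain ⟨m, hm⟩ := hwk
  have h1 := hcusp g w hwpos hwN hmemw
  have hγ : γ = (⟨g⁻¹ * ModularGroup.T ^ w * g, hmemw⟩ : Gamma0 N) ^ m := by
    apply Subtype.ext
    rw [Subgroup.coe_zpow]
    show (γ : SL(2, ℤ)) = (g⁻¹ * ModularGroup.T ^ w * g) ^ m
    have hconj := conj_zpow (a := g⁻¹) (b := ModularGroup.T ^ w) (i := m)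
    rw [inv_inv] at hconj
    rw [hconj, hk, ← zpow_natCast, ← zpow_mul, ← hm]
  rw [hγ, map_zpow, h1, one_zpow]

/-- A character which is trivial on `-1`, on the elements with a fixed point and on the
generators `g⁻¹ T^w g` of the cusp stabilisers is trivial on every `γ` with `tr(γ)² ≤ 4`. -/
theorem apply_of_trace_sq_le {χ : Gamma0 N →* ℂˣ}
    (hfix : ∀ γ : Gamma0 N, (∃ τ : ℍ, (γ : SL(2, ℤ)) • τ = τ) → χ γ = 1)
    (hcusp : ∀ (g : SL(2, ℤ)) (w : ℕ), 0 < w → w ∣ N →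
      ∀ hmem : g⁻¹ * ModularGroup.T ^ w * g ∈ Gamma0 N, χ ⟨_, hmem⟩ = 1)
    (γ : Gamma0 N) (htr : ((γ : SL(2, ℤ)) : Matrix (Fin 2) (Fin 2) ℤ).trace ^ 2 ≤ 4) :
    χ γ = 1 := by
  rcases lt_or_eq_of_le htr with hlt | heq
  · exact hfix γ (Kummer.exists_fixed_of_trace_sq_lt _ hlt)
  · have h2 : ((γ : SL(2, ℤ)) : Matrix (Fin 2) (Fin 2) ℤ).trace = 2 ∨
        ((γ : SL(2, ℤ)) : Matrix (Fin 2) (Fin 2) ℤ).trace = -2 := by
      have h3 : (((γ : SL(2, ℤ)) : Matrix (Fin 2) (Fin 2) ℤ).trace - 2) *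
          (((γ : SL(2, ℤ)) : Matrix (Fin 2) (Fin 2) ℤ).trace + 2) = 0 := by
        linear_combination heq
      rcases mul_eq_zero.mp h3 with h4 | h4
      · left; linarith
      · right; linarith
    rcases h2 with h2 | h2
    · exact apply_of_trace_two hcusp γ h2
    · -- `γ = (-1) * (-γ)`
      have hneg : (-1 : SL(2, ℤ)) ∈ Gamma0 N := neg_one_mem_Gamma0
      have hγ' : -(γ : SL(2, ℤ)) ∈ Gamma0 N := Pt.neg_mem_Gamma0 γ.2
      have htr' : (((⟨-(γ : SL(2, ℤ)), hγ'⟩ : Gamma0 N) : SL(2, ℤ)) :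
          Matrix (Fin 2) (Fin 2) ℤ).trace = 2 := by
        show ((-(γ : SL(2, ℤ)) : SL(2, ℤ)) : Matrix (Fin 2) (Fin 2) ℤ).trace = 2
        rw [Kummer.trace_neg, h2]
        norm_num
      have e : γ = (⟨-1, hneg⟩ : Gamma0 N) * ⟨-(γ : SL(2, ℤ)), hγ'⟩ := by
        apply Subtype.ext
        show (γ : SL(2, ℤ)) = (-1 : SL(2, ℤ)) * -(γ : SL(2, ℤ))
        simp
      have hm1 : χ ⟨-1, hneg⟩ = 1 := by
        apply hfix
        refine ⟨UpperHalfPlane.I, ?_⟩
        show (-1 : SL(2, ℤ)) • UpperHalfPlane.I = UpperHalfPlane.I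
        rw [ModularGroup.SL_neg_smul, one_smul]
      rw [e, map_mul, hm1, apply_of_trace_two hcusp _ htr', one_mul]

end Asm

/-- **Existence of the Kummer character.**  If `n` divides the order of `f ≠ 0` at every place
of `F_N`, then `f` has a Kummer character of exponent `n`, and it is parabolic-elliptic. -/
theorem exists_kumRel {n : ℕ} (hn : 0 < n) {f : FN N} (hf : f ≠ 0)
    (hdiv : ∀ v : Place KQ (FN N), (n : ℤ) ∣ v.ord f) :
    ∃ χ : Gamma0 N →* ℂˣ, KumRel N n f χ ∧ IsPEChar (Gamma0 N) n χ := by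
  obtain ⟨hpt, hcusp⟩ := (Ramif.forall_dvd_ord_iff N n f hf).mp hdiv
  obtain ⟨χ, hχ, hpow, hfix⟩ := exists_kumRel_of_dvd_valPt hn hf hpt
  refine ⟨χ, hχ, hpow, ?_⟩
  intro γ htr
  exact Asm.apply_of_trace_sq_le hfix
    (fun g w hw hwN hmem => hχ.eq_one_of_dvd_valCusp hn g w hw hwN hmem (hcusp g w hw hwN hmem))
    γ htr

/-- If the Kummer character of `f` is parabolic-elliptic, then `n` divides the order of `f` at
every place of `F_N`. -/
theorem KumRel.dvd_ord {n : ℕ} (hn : 0 < n) {f : FN N} {χ : Gamma0 N →* ℂˣ}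
    (h : KumRel N n f χ) (hχ : IsPEChar (Gamma0 N) n χ) (v : Place KQ (FN N)) :
    (n : ℤ) ∣ v.ord f := by
  have hf : f ≠ 0 := by
    obtain ⟨P, Q, a, hrep, hf, -⟩ := h
    exact hf
  refine (Ramif.forall_dvd_ord_iff N n f hf).mpr ⟨?_, ?_⟩ v
  · intro τ e he
    refine h.dvd_valPt hn ?_ τ e he
    rintro γ ⟨τ', hτ'⟩
    exact hχ.2 γ (Kummer.trace_sq_le_four_of_fixed _ τ' hτ')
  · intro g w hw hwN hmem
    refine h.dvd_valCusp hn g w hw hwN hmem (hχ.2 ⟨_, hmem⟩ ?_)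
    show ((g⁻¹ * ModularGroup.T ^ w * g : SL(2, ℤ)) : Matrix (Fin 2) (Fin 2) ℤ).trace ^ 2 ≤ 4
    rw [← zpow_natCast, Kummer.trace_conj_T_zpow]
    norm_num

/-- The Kummer character of an element all of whose orders are divisible by `n` is
parabolic-elliptic. -/
theorem KumRel.isPEChar {n : ℕ} (hn : 0 < n) {f : FN N} {χ : Gamma0 N →* ℂˣ}
    (h : KumRel N n f χ) (hdiv : ∀ v : Place KQ (FN N), (n : ℤ) ∣ v.ord f) :
    IsPEChar (Gamma0 N) n χ := by
  have hf : f ≠ 0 := by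
    obtain ⟨P, Q, a, hrep, hf, -⟩ := h
    exact hf
  obtain ⟨χ', h', hPE⟩ := exists_kumRel hn hf hdiv
  rw [Asm.unique hn h h']
  exact hPE

end Fermat.Agent.S24.Kum

end
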