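import Fermat.Agent.S24.PtTop
import Fermat.Agent.S24.Rep
import Fermat.Agent.S24.Counting

/-!
# S24 / [VAL], point half — `valPt N τ` is a raw valuation of `FN N`

Built on `PtTop.valPt_eq_of_isRep` (independence of the representative for `f ≠ 0`),
`Rep.exists_isRep` and the order calculus of `OrdAtMod.lean`.
-/

set_option autoImplicit false

open UpperHalfPlane ModularForm CongruenceSubgroup
open scoped MatrixGroups Manifold

noncomputable section

namespace Fermat.Agent.S24.PtTop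

variable (N : ℕ) [NeZero N]

theorem isRep_mul {f g : FN N} {P Q P' Q' : MvPolynomial (Dv N) KQ}
    (h : IsRep N f P Q) (h' : IsRep N g P' Q') : IsRep N (f * g) (P * P') (Q * Q') := by
  obtain ⟨hQ, hf⟩ := h
  obtain ⟨hQ', hg⟩ := h'
  refine ⟨?_, ?_⟩
  · rw [map_mul]
    exact mul_ne_zero hQ hQ'
  · rw [map_mul, map_mul, hf, hg, div_mul_div_comm]

theorem isRep_add {f g : FN N} {P Q P' Q' : MvPolynomial (Dv N) KQ}
    (h : IsRep N f P Q) (h' : IsRep N g P' Q') :
    IsRep N (f + g) (P * Q' + P' * Q) (Q * Q') := by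
  obtain ⟨hQ, hf⟩ := h
  obtain ⟨hQ', hg⟩ := h'
  refine ⟨?_, ?_⟩
  · rw [map_mul]
    exact mul_ne_zero hQ hQ'
  · have e : fm N (P * Q' + P' * Q) = fm N P * fm N Q' + fm N P' * fm N Q := by
      have h1 : fm N (P * Q' + P' * Q) = fm N (P * Q') + fm N (P' * Q) := map_add (fm N) _ _
      rw [h1, map_mul, map_mul]
    rw [e, map_mul, hf, hg, div_add_div _ _ hQ hQ', mul_comm (fm N Q) (fm N P')]

theorem isRep_algebraMap (a : KQ) : IsRep N (algebraMap KQ (FN N) a) (MvPolynomial.C a) 1 := by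
  refine ⟨?_, ?_⟩
  · rw [map_one]
    exact one_ne_zero
  · rw [map_one, div_one]
    simp [fm]

theorem fm_ne_zero_of_isRep {f : FN N} {P Q : MvPolynomial (Dv N) KQ} (h : IsRep N f P Q)
    (hf : f ≠ 0) : fm N P ≠ 0 := by
  intro h0
  apply hf
  rw [h.2, h0, zero_div]

/-- **`valPt N τ` is a raw valuation of `FN N` over `KQ`.** -/
theorem isRawVal_valPt (τ : ℍ) : Counting.IsRawVal KQ (valPt N τ) where
  map_mul := by
    intro f g hf hg
    obtain ⟨P, Q, h⟩ := Rep.exists_isRep N f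
    obtain ⟨P', Q', h'⟩ := Rep.exists_isRep N g
    rw [valPt_eq_of_isRep N τ (isRep_mul N h h') (mul_ne_zero hf hg),
      valPt_eq_of_isRep N τ h hf, valPt_eq_of_isRep N τ h' hg, map_mul, map_mul]
    exact OrdAt.ordAt_sub_ordAt_mul (PtInv.mdiff_ev N P) (PtInv.mdiff_ev N Q)
      (PtInv.mdiff_ev N P') (PtInv.mdiff_ev N Q')
      (PtInv.ev_ne_zero N (fm_ne_zero_of_isRep N h hf)) (PtInv.ev_ne_zero N h.1)
      (PtInv.ev_ne_zero N (fm_ne_zero_of_isRep N h' hg)) (PtInv.ev_ne_zero N h'.1) τ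
  map_add := by
    intro f g hf hg hfg
    obtain ⟨P, Q, h⟩ := Rep.exists_isRep N f
    obtain ⟨P', Q', h'⟩ := Rep.exists_isRep N g
    have hs := isRep_add N h h'
    rw [valPt_eq_of_isRep N τ hs hfg, valPt_eq_of_isRep N τ h hf, valPt_eq_of_isRep N τ h' hg,
      map_add (ev N), map_mul (ev N), map_mul (ev N), map_mul (ev N)]
    refine OrdAt.min_le_ordAt_sub_ordAt_add (PtInv.mdiff_ev N P) (PtInv.mdiff_ev N Q)
      (PtInv.mdiff_ev N P') (PtInv.mdiff_ev N Q')
      (PtInv.ev_ne_zero N (fm_ne_zero_of_isRep N h hf)) (PtInv.ev_ne_zero N h.1)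
      (PtInv.ev_ne_zero N (fm_ne_zero_of_isRep N h' hg)) (PtInv.ev_ne_zero N h'.1) ?_ τ
    have h1 := PtInv.ev_ne_zero N (fm_ne_zero_of_isRep N hs hfg)
    rwa [map_add (ev N), map_mul (ev N), map_mul (ev N)] at h1
  map_algebraMap := by
    intro a ha
    have hne : algebraMap KQ (FN N) a ≠ 0 := by
      rw [Ne, map_eq_zero_iff _ (algebraMap KQ (FN N)).injective]
      exact ha
    rw [valPt_eq_of_isRep N τ (isRep_algebraMap N a) hne, map_one, JPt.ordAt_one, sub_zero]
    have hc : ev N (MvPolynomial.C a) = fun _ : ℍ => iotaK a := by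
      funext z
      simp [ev]
    rw [hc]
    refine OrdAt.ordAt_const ?_ τ
    rw [Ne, map_eq_zero_iff _ iotaK.injective]
    exact ha

end Fermat.Agent.S24.PtTop

/-! ### The three `[VAL-pt]` statements in the exact shape of the assembly skeleton -/

namespace Fermat.Agent.S24.PtRaw

variable (N : ℕ) [NeZero N]

/-- **B-BRIDGE**: a polynomial in the generators vanishes in the function field iff it vanishes as
a function on `ℍ`. -/
theorem fm_eq_zero_iff (P : MvPolynomial (Dv N) KQ) : fm N P = 0 ↔ ev N P = 0 :=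
  (QExp.ev_eq_zero_iff N P).symm

/-- For `f ≠ 0` the point valuation can be computed on any representative. -/
theorem valPt_eq (τ : ℍ) (f : FN N) (hf : f ≠ 0) (P Q : MvPolynomial (Dv N) KQ)
    (h : IsRep N f P Q) : valPt N τ f = ordAt (ev N P) τ - ordAt (ev N Q) τ :=
  PtTop.valPt_eq_of_isRep N τ h hf

/-- `valPt N τ` is a raw valuation of `FN N` over `KQ`. -/
theorem isRawVal_valPt (τ : ℍ) : Counting.IsRawVal KQ (valPt N τ) :=
  PtTop.isRawVal_valPt N τ

end Fermat.Agent.S24.PtRaw
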