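import Mathlib

/-!
# Rationality by interpolation

`K` algebraically closed, `i : K →+* L` a field embedding.  If a polynomial `p ∈ L[X]` is
"algebraic over `K(X)`", i.e. `Q(X, p(X)) = 0` for some nonzero `Q ∈ K[X][Y]`, then `p` has
coefficients in `i(K)`.
-/

set_option autoImplicit false

namespace Fermat.Agent.S24.RatInterp

open Polynomial

variable {K L : Type*} [Field K] [Field L]

/-- A root in `L` of the image of a nonzero polynomial over an algebraically closed field `K`
comes from `K`. -/
theorem exists_eq_of_root [IsAlgClosed K] (i : K →+* L) (q : K[X]) (hq : q ≠ 0) (y : L)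
    (hy : (q.map i).eval y = 0) : ∃ b : K, i b = y := by
  have hsplit : q.Splits := IsAlgClosed.splits q
  have hq' : q.map i ≠ 0 := (Polynomial.map_ne_zero_iff i.injective).mpr hq
  have hroot : y ∈ (q.map i).roots := (mem_roots hq').mpr hy
  rw [hsplit.roots_map i] at hroot
  obtain ⟨b, -, hb⟩ := Multiset.mem_map.mp hroot
  exact ⟨b, hb⟩

/-- Specialising `X ↦ i a` in `Q(X, p(X))`. -/
theorem eval_eval₂_mapRingHom (i : K →+* L) (p : L[X]) (Q : K[X][X]) (a : K) :
    (Polynomial.eval₂ (Polynomial.mapRingHom i) p Q).eval (i a)
      = ((Q.map (Polynomial.evalRingHom a)).map i).eval (p.eval (i a)) := by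
  induction Q using Polynomial.induction_on' with
  | add P R hP hR =>
    simp only [Polynomial.eval₂_add, Polynomial.eval_add, Polynomial.map_add, hP, hR]
  | monomial n c =>
    simp only [Polynomial.eval₂_monomial, Polynomial.eval_mul, Polynomial.eval_pow,
      Polynomial.map_monomial, Polynomial.eval_monomial, Polynomial.coe_mapRingHom,
      Polynomial.coe_evalRingHom, Polynomial.eval_map, Polynomial.eval₂_at_apply]

/-- Core: a polynomial over `L` sending all but finitely many points of the infinite field `K`
into `K` has coefficients in `K`. -/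
theorem exists_map_eq_of_forall_eval_mem [Infinite K] (i : K →+* L) (p : L[X]) (bad : Finset K)
    (hgood : ∀ a : K, a ∉ bad → ∃ b : K, i b = p.eval (i a)) :
    ∃ p0 : K[X], p0.map i = p := by
  classical
  have hinf : (Set.univ \ (bad : Set K)).Infinite :=
    Set.Infinite.sdiff Set.infinite_univ (Finset.finite_toSet _)
  obtain ⟨s, hs, hcard⟩ := hinf.exists_subset_card_eq (p.natDegree + 1)
  choose! b hb using fun a (ha : a ∈ s) => hgood a (by
    have := hs ha
    simpa using this.2)
  refine ⟨Lagrange.interpolate s id b, ?_⟩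
  have hdeg0 : (Lagrange.interpolate s id b).degree < s.card :=
    Lagrange.degree_interpolate_lt _ (Function.injective_id.injOn)
  refine Polynomial.eq_of_degrees_lt_of_eval_finset_eq (s.map ⟨i, i.injective⟩) ?_ ?_ ?_
  · rw [Finset.card_map]
    exact lt_of_le_of_lt (Polynomial.degree_map_le) hdeg0
  · rw [Finset.card_map, hcard]
    exact lt_of_le_of_lt Polynomial.degree_le_natDegree (by exact_mod_cast Nat.lt_succ_self _)
  · intro x hx
    obtain ⟨a, ha, rfl⟩ := Finset.mem_map.mp hx
    simp only [Function.Embedding.coeFn_mk]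
    have hnode : (Lagrange.interpolate s id b).eval a = b a := by
      simpa using Lagrange.eval_interpolate_at_node b (Function.injective_id.injOn) ha
    rw [Polynomial.eval_map, Polynomial.eval₂_at_apply, hnode, hb a ha]

/-- **Rationality by interpolation.**  `K` algebraically closed, `p ∈ L[X]` with
`Q(X, p(X)) = 0` for a nonzero `Q ∈ K[X][Y]`; then `p ∈ K[X]`. -/
theorem exists_map_eq_of_algebraic [IsAlgClosed K] (i : K →+* L)
    (p : L[X]) (Q : K[X][X]) (hQ : Q ≠ 0)
    (h : Polynomial.eval₂ (Polynomial.mapRingHom i) p Q = 0) :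
    ∃ p0 : K[X], p0.map i = p := by
  classical
  -- a nonzero coefficient of `Q`
  obtain ⟨k, hk⟩ : ∃ k, Q.coeff k ≠ 0 := by
    by_contra hcon
    exact hQ (Polynomial.ext fun n => by
      simpa using not_not.mp (fun hn => hcon ⟨n, hn⟩))
  have : Infinite K := IsAlgClosed.instInfinite
  refine exists_map_eq_of_forall_eval_mem i p (Q.coeff k).roots.toFinset ?_
  intro a ha
  have hne : Q.map (Polynomial.evalRingHom a) ≠ 0 := by
    intro h0
    have := congrArg (fun r => r.coeff k) h0
    simp only [Polynomial.coeff_map, Polynomial.coe_evalRingHom, Polynomial.coeff_zero] at this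
    exact ha (by simpa [Multiset.mem_toFinset, mem_roots hk] using this)
  refine exists_eq_of_root i _ hne _ ?_
  rw [← eval_eval₂_mapRingHom, h, Polynomial.eval_zero]

/-- Pointwise form: it suffices that `Q(a, p(a)) = 0` for every `a ∈ K`
(e.g. obtained by evaluating a relation between functions at points with `J = a`). -/
theorem exists_map_eq_of_forall_root [IsAlgClosed K] (i : K →+* L)
    (p : L[X]) (Q : K[X][X]) (hQ : Q ≠ 0)
    (h : ∀ a : K, ((Q.map (Polynomial.evalRingHom a)).map i).eval (p.eval (i a)) = 0) :
    ∃ p0 : K[X], p0.map i = p := by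
  classical
  obtain ⟨k, hk⟩ : ∃ k, Q.coeff k ≠ 0 := by
    by_contra hcon
    exact hQ (Polynomial.ext fun n => by
      simpa using not_not.mp (fun hn => hcon ⟨n, hn⟩))
  have : Infinite K := IsAlgClosed.instInfinite
  refine exists_map_eq_of_forall_eval_mem i p (Q.coeff k).roots.toFinset ?_
  intro a ha
  have hne : Q.map (Polynomial.evalRingHom a) ≠ 0 := by
    intro h0
    have := congrArg (fun r => r.coeff k) h0
    simp only [Polynomial.coeff_map, Polynomial.coe_evalRingHom, Polynomial.coeff_zero] at this
    exact ha (by simpa [Multiset.mem_toFinset, mem_roots hk] using this)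
  exact exists_eq_of_root i _ hne _ (h a)

end Fermat.Agent.S24.RatInterp
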